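import Mathlib.Analysis.Fourier.AddCircleMulti
import Mathlib.Analysis.SpecialFunctions.Gaussian.FourierTransform
import Mathlib.MeasureTheory.Measure.Lebesgue.EqHaar

/-!
# Poisson summation in several variables

For a continuous function whose translates by integral vectors are dominated on the unit cube by
a summable family, and whose Fourier integrals at integral vectors are summable.
-/

set_option autoImplicit false

noncomputable section

namespace FLTAgent.LT.Theta31

open Complex MeasureTheory UnitAddTorus
open scoped Real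

variable {d : Type*} [Fintype d]

/-- The integral points as real vectors. -/
def rvec (v : d → ℤ) : d → ℝ := fun i => (v i : ℝ)

/-- The unit cube. -/
def cube (d : Type*) : Set (d → ℝ) := {x | ∀ i, x i ∈ Set.Ioc (0 : ℝ) (0 + 1)}

/-- The projection to the torus. -/
def toTorus (x : d → ℝ) : UnitAddTorus d := fun i => (x i : UnitAddCircle)

theorem isOpenQuotientMap_toTorus : IsOpenQuotientMap (toTorus (d := d)) :=
  IsOpenQuotientMap.piMap fun _ => QuotientAddGroup.isOpenQuotientMap_mk

omit [Fintype d] in
theorem rvec_add (v w : d → ℤ) : rvec (v + w) = rvec v + rvec w := by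
  funext i
  simp [rvec]

omit [Fintype d] in
theorem exists_mem_cube (x : d → ℝ) : ∃ v : d → ℤ, x - rvec v ∈ cube d := by
  refine ⟨fun i => ⌈x i⌉ - 1, fun i => ?_⟩
  simp only [Pi.sub_apply, rvec, Int.cast_sub, Int.cast_one, Set.mem_Ioc, zero_add]
  constructor <;> linarith [Int.le_ceil (x i), Int.ceil_lt_add_one (x i)]

omit [Fintype d] in
theorem toTorus_eq_iff {x y : d → ℝ} : toTorus x = toTorus y ↔ ∃ v : d → ℤ, y = x + rvec v := by
  constructor
  · intro h
    have h' : ∀ i, ∃ n : ℤ, y i = x i + n := fun i => by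
      have := congrFun h i
      rw [toTorus, toTorus, QuotientAddGroup.eq_iff_sub_mem, AddSubgroup.mem_zmultiples_iff] at this
      obtain ⟨n, hn⟩ := this
      exact ⟨-n, by simp only [zsmul_eq_mul, mul_one] at hn; push_cast; linarith⟩
    choose v hv using h'
    exact ⟨v, funext fun i => hv i⟩
  · rintro ⟨v, rfl⟩
    funext i
    simp [toTorus, rvec]

variable (f : (d → ℝ) → ℂ)

/-- The periodisation. -/
def periodize (x : d → ℝ) : ℂ := ∑' v : d → ℤ, f (x + rvec v)

omit [Fintype d] in
theorem periodize_add (x : d → ℝ) (w : d → ℤ) : periodize f (x + rvec w) = periodize f x := by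
  rw [periodize, periodize, ← (Equiv.addLeft w).tsum_eq (fun v => f (x + rvec v))]
  exact tsum_congr fun v => by rw [Equiv.coe_addLeft, rvec_add, add_assoc]

variable {f}

omit [Fintype d] in
/-- The domination on the cube passes to the periodisation. -/
theorem summable_of_dominated {u : (d → ℤ) → ℝ} (hu : Summable u)
    (hle : ∀ x ∈ cube d, ∀ v, ‖f (x + rvec v)‖ ≤ u v) (x : d → ℝ) :
    Summable fun v => f (x + rvec v) := by
  obtain ⟨w, hw⟩ := exists_mem_cube x
  refine ((Equiv.addLeft w).summable_iff (f := fun v => f (x - rvec w + rvec v))).2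
    (Summable.of_norm_bounded hu (hle _ hw)) |>.congr fun v => ?_
  simp only [Function.comp_apply, Equiv.coe_addLeft, rvec_add]
  rw [← add_assoc, sub_add_cancel]

theorem continuous_periodize (hf : Continuous f)
    (hdom : ∀ r : ℝ, ∃ u : (d → ℤ) → ℝ, Summable u ∧
      ∀ x : d → ℝ, (∀ i, |x i| ≤ r) → ∀ v, ‖f (x + rvec v)‖ ≤ u v) :
    Continuous (periodize f) := by
  refine continuous_iff_continuousAt.2 fun x => ?_
  obtain ⟨u, hu, hle⟩ := hdom (‖x‖ + 1)
  have hnhds : {y : d → ℝ | ‖y‖ < ‖x‖ + 1} ∈ nhds x :=
    (isOpen_lt continuous_norm continuous_const).mem_nhds (lt_add_one ‖x‖)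
  refine ContinuousOn.continuousAt ?_ hnhds
  refine continuousOn_tsum (fun v => (hf.comp (continuous_add_const _)).continuousOn) hu
    fun v y hy => hle y (fun i => ?_) v
  exact (norm_le_pi_norm y i).trans hy.le

theorem measurableSet_cube : MeasurableSet (cube d) := by
  have : cube d = Set.univ.pi fun _ : d => Set.Ioc (0 : ℝ) (0 + 1) := by
    ext x; simp [cube]
  rw [this]
  exact MeasurableSet.univ_pi fun _ => measurableSet_Ioc

omit [Fintype d] in
theorem pairwise_disjoint_translates :
    Pairwise (Function.onFun Disjoint fun v : d → ℤ => {x : d → ℝ | x - rvec v ∈ cube d}) := by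
  intro v w hvw
  refine Set.disjoint_left.2 fun x hv hw => hvw (funext fun i => ?_)
  have h1 := hv i
  have h2 := hw i
  simp only [Pi.sub_apply, rvec, Set.mem_Ioc, zero_add] at h1 h2
  have h3 : ((v i - w i : ℤ) : ℝ) < (1 : ℤ) := by push_cast; linarith [h1.1, h2.2]
  have h4 : (((-1 : ℤ) : ℤ) : ℝ) < ((v i - w i : ℤ) : ℝ) := by push_cast; linarith [h1.2, h2.1]
  have h3' := Int.cast_lt.1 h3
  have h4' := Int.cast_lt.1 h4
  omega

/-- An integral over space is the integral over the cube of the periodisation. -/
theorem integral_eq_integral_periodize {g : (d → ℝ) → ℂ} (hg : Integrable g)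
    {u : (d → ℤ) → ℝ} (hu : Summable u) (hle : ∀ x ∈ cube d, ∀ v, ‖g (x + rvec v)‖ ≤ u v) :
    ∫ x in cube d, periodize g x = ∫ x, g x := by
  have hmeas : ∀ v : d → ℤ, MeasurableSet {x : d → ℝ | x - rvec v ∈ cube d} := fun v =>
    measurableSet_cube.preimage (measurable_id.sub_const _)
  have huniv : ⋃ v : d → ℤ, {x : d → ℝ | x - rvec v ∈ cube d} = Set.univ :=
    Set.eq_univ_of_forall fun x => Set.mem_iUnion.2 (exists_mem_cube x)
  have hpiece : ∀ v : d → ℤ,
      ∫ x in {x : d → ℝ | x - rvec v ∈ cube d}, g x = ∫ x in cube d, g (x + rvec v) := fun v => by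
    have h := (measurePreserving_add_right (volume : Measure (d → ℝ)) (rvec v)).setIntegral_preimage_emb
      (measurableEmbedding_addRight (rvec v)) g {x : d → ℝ | x - rvec v ∈ cube d}
    rw [← h]
    congr 1
    congr 1
    ext x
    simp
  have hfin : (volume : Measure (d → ℝ)) (cube d) < ⊤ := by
    have : cube d = Set.univ.pi fun _ : d => Set.Ioc (0 : ℝ) (0 + 1) := by ext x; simp [cube]
    rw [this, volume_pi_pi]
    simp
  conv_rhs => rw [← setIntegral_univ, ← huniv,
    integral_iUnion hmeas pairwise_disjoint_translates hg.integrableOn]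
  simp only [hpiece]
  have hint : ∀ v : d → ℤ, IntegrableOn (fun x => g (x + rvec v)) (cube d) := fun v =>
    (hg.comp_add_right (rvec v)).integrableOn
  refine (integral_tsum_of_summable_integral_norm hint ?_).symm
  refine Summable.of_nonneg_of_le (fun v => integral_nonneg fun x => norm_nonneg _) (fun v => ?_)
    (hu.mul_right (volume.real (cube d)))
  calc ∫ x in cube d, ‖g (x + rvec v)‖ ≤ ∫ _x in cube d, u v :=
        setIntegral_mono_on (hint v).norm (integrableOn_const hfin.ne) measurableSet_cube
          fun x hx => hle x hx v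
    _ = u v * volume.real (cube d) := by rw [setIntegral_const, smul_eq_mul, mul_comm]

/-- The character of frequency `k`. -/
def echar (k : d → ℤ) (x : d → ℝ) : ℂ := cexp (2 * π * I * ∑ i, (k i : ℂ) * (x i : ℂ))

theorem mFourier_toTorus (k : d → ℤ) (x : d → ℝ) : mFourier k (toTorus x) = echar k x := by
  rw [mFourier, echar, Finset.mul_sum, Complex.exp_sum, ContinuousMap.coe_mk]
  refine Finset.prod_congr rfl fun i _ => ?_
  rw [toTorus, fourier_coe_apply]
  congr 1
  push_cast
  ring

theorem echar_add_rvec (k v : d → ℤ) (x : d → ℝ) : echar k (x + rvec v) = echar k x := by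
  rw [← mFourier_toTorus, ← mFourier_toTorus]
  congr 1
  exact (toTorus_eq_iff.2 ⟨v, rfl⟩).symm

theorem norm_echar (k : d → ℤ) (x : d → ℝ) : ‖echar k x‖ = 1 := by
  rw [echar, Complex.norm_exp]
  simp [Complex.re_sum, Complex.im_sum]

/-- The Fourier integral. -/
def fourierInt (f : (d → ℝ) → ℂ) (k : d → ℤ) : ℂ := ∫ x, echar (-k) x * f x

/-- Poisson summation. -/
theorem hasSum_poisson (hf : Continuous f) (hint : Integrable f)
    (hdom : ∀ r : ℝ, ∃ u : (d → ℤ) → ℝ, Summable u ∧
      ∀ x : d → ℝ, (∀ i, |x i| ≤ r) → ∀ v, ‖f (x + rvec v)‖ ≤ u v)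
    (hsum : Summable (fourierInt f)) (x : d → ℝ) :
    HasSum (fun k => fourierInt f k * echar k x) (periodize f x) := by
  obtain ⟨F, hF⟩ : ∃ F : C(UnitAddTorus d, ℂ), ∀ y, F (toTorus y) = periodize f y := by
    have hq := isOpenQuotientMap_toTorus (d := d)
    choose s hs using hq.surjective
    have key : ∀ y, periodize f (s (toTorus y)) = periodize f y := fun y => by
      obtain ⟨v, hv⟩ := toTorus_eq_iff.1 (hs (toTorus y)).symm
      rw [hv, periodize_add]
    refine ⟨⟨fun z => periodize f (s z), ?_⟩, key⟩
    rw [hq.isQuotientMap.continuous_iff]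
    exact (continuous_periodize hf hdom).congr fun y => (key y).symm
  have hcoef : ∀ k, mFourierCoeff F k = fourierInt f k := by
    intro k
    rw [mFourierCoeff_eq_integral F k (fun _ => (0 : ℝ)), fourierInt]
    have hc : Continuous (echar (-k) : (d → ℝ) → ℂ) := by unfold echar; fun_prop
    have hg : Integrable fun x => echar (-k) x * f x :=
      hint.bdd_mul hc.aestronglyMeasurable (Filter.Eventually.of_forall fun x =>
        (norm_echar (-k) x).le)
    obtain ⟨u, hu, hle⟩ := hdom 1
    rw [← integral_eq_integral_periodize hg hu fun y hy v => ?_]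
    · refine setIntegral_congr_fun measurableSet_cube fun y _ => ?_
      show mFourier (-k) (toTorus y) • F (toTorus y) = _
      rw [hF, mFourier_toTorus, smul_eq_mul, periodize, periodize, ← tsum_mul_left]
      exact tsum_congr fun v => by rw [echar_add_rvec]
    · rw [norm_mul, norm_echar, one_mul]
      refine hle y (fun i => ?_) v
      obtain ⟨h1, h2⟩ := hy i
      rw [abs_le]
      constructor <;> linarith
  have hsum' : Summable (mFourierCoeff F) := hsum.congr fun k => (hcoef k).symm
  have := hasSum_mFourier_series_apply_of_summable hsum' (toTorus x)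
  simp only [hcoef, mFourier_toTorus, smul_eq_mul, hF] at this
  exact this

end FLTAgent.LT.Theta31
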