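import Fermat.Agent.LT.TF.Aleph.Local
import Fermat.Agent.LT.Red.Iwasawa
import Fermat.Agent.LT.Red.Integral

/-!
# The double coset of `T_v T_v'` met by an integral matrix of determinant `p`
-/

set_option autoImplicit false
set_option linter.unusedSectionVars false

noncomputable section

namespace FLTAgent.LT.Theta31

open NumberField IsDedekindDomain WithZero Matrix
open FLTAgent.LT.Red (loc EntLe loc_mul loc_one inLevel_iff)
open FLTAgent.LT.Aleph

variable {F : Type*} [Field F] [NumberField F]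

local notation "HS" => HeightOneSpectrum (𝓞 F)

section local_algebra

variable {v : HeightOneSpectrum (𝓞 F)} {A B : Matrix (Fin 2) (Fin 2) (v.adicCompletion F)}

theorem det_valued_eq_one (hA : EntLe v 1 A) (hB : EntLe v 1 B) (h : A * B = 1) :
    Valued.v A.det = 1 := by
  refine le_antisymm (det_entLe v hA) (le_of_not_gt fun hlt => ?_)
  have := congrArg (fun M => Valued.v (Matrix.det M)) h
  simp only [Matrix.det_mul, map_mul, Matrix.det_one, map_one] at this
  exact (ne_of_lt (mul_lt_one_of_nonneg_of_lt_one_left zero_le hlt (det_entLe v hB))) this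

theorem entLe_of_det_eq_one (hA : EntLe v 1 A) (h : Valued.v A.det = 1) (hAB : A * B = 1) :
    EntLe v 1 B := by
  have e : B = (A.det)⁻¹ • A.adjugate := by
    rw [← Matrix.inv_eq_right_inv hAB, Matrix.inv_def, Ring.inverse_eq_inv]
  intro i j
  rw [e, Matrix.smul_apply, smul_eq_mul, map_mul, map_inv₀, h, inv_one, one_mul,
    Matrix.adjugate_fin_two]
  fin_cases i <;> fin_cases j <;> simp <;> exact hA _ _

theorem entLe_inv_sub_one {γ : WithZero (Multiplicative ℤ)} (hA : EntLe v γ (A - 1))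
    (hB : EntLe v 1 B) (hBA : B * A = 1) : EntLe v γ (B - 1) := by
  have e : B - 1 = -(B * (A - 1)) := by rw [mul_sub, hBA, mul_one, neg_sub]
  rw [e]
  simpa using (hB.mul hA).neg

theorem valued_det_lRep (r : RIdx v) : Valued.v (lRep v r).det = exp (-1 : ℤ) := by
  cases r <;> simp [lRep, Matrix.det_fin_two, valued_piV]

theorem lInv_mul_lRep (r : RIdx v) : lInv v r * lRep v r = 1 :=
  mul_eq_one_comm.1 (lRep_mul_lInv v r)

theorem valued_det_lInv (r : RIdx v) : Valued.v (lInv v r).det = exp (1 : ℤ) := by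
  have := congrArg (fun M => Valued.v (Matrix.det M)) (lRep_mul_lInv v r)
  simp only [Matrix.det_mul, map_mul, Matrix.det_one, map_one, valued_det_lRep] at this
  calc Valued.v (lInv v r).det = exp (1 : ℤ) * (exp (-1 : ℤ) * Valued.v (lInv v r).det) := by
        rw [← mul_assoc, ← exp_add, show (1 : ℤ) + -1 = 0 by norm_num, exp_zero, one_mul]
    _ = _ := by rw [this, mul_one]

/-- An integral matrix of non-unit determinant lies in one of the cosets of `T_v`. -/
theorem exists_idx (hA : EntLe v 1 A) (hdet : Valued.v A.det < 1) :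
    ∃ i : RIdx v, EntLe v 1 (lInv v i * A) := by
  by_cases h1 : ∀ j, Valued.v (A 1 j) < 1
  · refine ⟨none, fun i j => ?_⟩
    fin_cases i <;> simp [lInv, Matrix.mul_apply, Fin.sum_univ_two]
    · exact hA 0 j
    · simpa [map_mul] using valued_div_piV_le v (h1 j)
  · push Not at h1
    obtain ⟨j₀, hj₀⟩ := h1
    have hB1 : Valued.v (A 1 j₀) = 1 := le_antisymm (hA 1 j₀) hj₀
    have hB0 : A 1 j₀ ≠ 0 := fun h => by simp [h] at hB1
    obtain ⟨u, hu⟩ := exists_res v (x := A 0 j₀ / A 1 j₀)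
      (by rw [map_div₀, hB1, div_one]; exact hA 0 j₀)
    set c := (((Quotient.out u : 𝓞 F) : F) : v.adicCompletion F)
    refine ⟨some u, fun i j => ?_⟩
    have key : Valued.v (A 0 j - c * A 1 j) < 1 := by
      rw [show A 0 j - c * A 1 j = (A 0 j * A 1 j₀ - A 0 j₀ * A 1 j) / A 1 j₀ +
        (A 0 j₀ / A 1 j₀ - c) * A 1 j by field_simp; ring]
      refine Valued.v.map_add_lt ?_ ?_
      · rw [map_div₀, hB1, div_one]
        rw [Matrix.det_fin_two] at hdet
        fin_cases j <;> fin_cases j₀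
        · simp
        · exact hdet
        · have e : A 0 1 * A 1 0 - A 0 0 * A 1 1 = -(A 0 0 * A 1 1 - A 0 1 * A 1 0) := by ring
          show Valued.v (A 0 1 * A 1 0 - A 0 0 * A 1 1) < 1
          rw [e, Valuation.map_neg]
          exact hdet
        · simp
      · rw [map_mul]
        exact mul_lt_one_of_nonneg_of_lt_one_left zero_le hu (hA 1 j)
    fin_cases i <;> simp [lInv, Matrix.mul_apply, Fin.sum_univ_two]
    · refine le_of_eq_of_le ?_ (valued_div_piV_le v key)
      congr 1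
      simp only [c]
      simp
      ring
    · exact hA 1 j

/-- The coset is unique when the determinant is a uniformizer. -/
theorem idx_unique {i i' : RIdx v} (hd : Valued.v A.det = exp (-1 : ℤ))
    (hi : EntLe v 1 (lInv v i * A)) (hi' : EntLe v 1 (lInv v i' * A)) : i = i' := by
  have hA0 : IsUnit A.det := isUnit_iff_ne_zero.2 fun h => by
    rw [h, map_zero] at hd
    exact exp_ne_zero hd.symm
  have hd1 : ∀ r, Valued.v (lInv v r * A).det = 1 := fun r => by
    rw [Matrix.det_mul, map_mul, valued_det_lInv, hd, ← exp_add,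
      show (1 : ℤ) + -1 = 0 by norm_num, exp_zero]
  have e : lInv v i * A * (A⁻¹ * lRep v i) = 1 := by
    rw [mul_assoc, ← mul_assoc A, Matrix.mul_nonsing_inv _ hA0, one_mul, lInv_mul_lRep]
  have h := hi'.mul (entLe_of_det_eq_one hi (hd1 i) e)
  rw [mul_one, mul_assoc, ← mul_assoc A, Matrix.mul_nonsing_inv _ hA0, one_mul] at h
  exact eq_of_entLe v h

end local_algebra

/-- The component of an adelic matrix. -/
abbrev lv (v : HS) (g : GF F) : Matrix (Fin 2) (Fin 2) (v.adicCompletion F) :=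
  loc v (g : Matrix (Fin 2) (Fin 2) (Af F))

theorem lv_mul (v : HS) (g h : GF F) : lv v (g * h) = lv v g * lv v h := by
  rw [lv, Units.val_mul, loc_mul]

theorem lv_inv_mul (v : HS) (g : GF F) : lv v g⁻¹ * lv v g = 1 := by
  rw [← lv_mul, inv_mul_cancel, lv, Units.val_one, loc_one]

theorem lv_mul_inv (v : HS) (g : GF F) : lv v g * lv v g⁻¹ = 1 := by
  rw [← lv_mul, mul_inv_cancel, lv, Units.val_one, loc_one]

theorem lv_scalarGF (v : HS) (c : (Af F)ˣ) : lv v (scalarGF c) = (c : Af F) v • 1 := by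
  ext i j
  fin_cases i <;> fin_cases j <;> simp [lv, loc, scalarGF] <;> rfl

theorem lv_upperGF_zero (v : HS) (a : (Af F)ˣ) :
    lv v (upperGF a 0) = !![(a : Af F) v, 0; 0, 1] := by
  ext i j
  fin_cases i <;> fin_cases j <;> rfl

theorem entLe_lv_of_den {n : ℕ} {g : GF F} (hg : Red.Den n g) {v : HS} (hv : (n : 𝓞 F) ∉ v.asIdeal) :
    EntLe v 1 (lv v g) ∧ EntLe v 1 (lv v g⁻¹) := by
  have h1 : Valued.v ((n : Af F) v) = 1 := Red.valued_natCast_eq_one hv
  refine ⟨fun i j => ?_, fun i j => ?_⟩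
  · have h := (hg i j).1 v
    change Valued.v ((n : Af F) v * _) ≤ 1 at h
    rw [map_mul, h1, one_mul] at h
    exact h
  · have h := (hg i j).2 v
    change Valued.v ((n : Af F) v * _) ≤ 1 at h
    rw [map_mul, h1, one_mul] at h
    exact h

theorem entLe_conj {N n : ℕ} (hn : 0 < n) {g : GF F} (hg : Red.Den n g) (v : HS)
    {B : Matrix (Fin 2) (Fin 2) (v.adicCompletion F)}
    (hB : EntLe v (Valued.v (((N * n ^ 2 : ℕ) : Af F) v)) (B - 1)) :
    EntLe v (Valued.v ((N : Af F) v)) (lv v g⁻¹ * B * lv v g - 1) := by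
  set c := Valued.v ((n : Af F) v)
  have hc : c ≠ 0 := Red.valued_natCast_ne_zero hn v
  have hent : EntLe v c⁻¹ (lv v g⁻¹) ∧ EntLe v c⁻¹ (lv v g) := by
    refine ⟨fun i j => ?_, fun i j => ?_⟩
    · have e := (hg i j).2 v
      change Valued.v ((n : Af F) v * _) ≤ 1 at e
      rw [map_mul] at e
      exact (le_inv_mul_iff₀ (zero_lt_iff.2 hc)).2 e |>.trans_eq (mul_one _)
    · have e := (hg i j).1 v
      change Valued.v ((n : Af F) v * _) ≤ 1 at e
      rw [map_mul] at e
      exact (le_inv_mul_iff₀ (zero_lt_iff.2 hc)).2 e |>.trans_eq (mul_one _)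
  have hN : c⁻¹ * Valued.v (((N * n ^ 2 : ℕ) : Af F) v) * c⁻¹ = Valued.v ((N : Af F) v) := by
    rw [Red.valued_natCast, Nat.cast_mul, Nat.cast_pow, map_mul, map_pow, ← Red.valued_natCast,
      ← Red.valued_natCast]
    rw [show c⁻¹ * (Valued.v ((N : Af F) v) * c ^ 2) * c⁻¹ =
      (c⁻¹ * c) * (c⁻¹ * c) * Valued.v ((N : Af F) v) by rw [sq]; ac_rfl, inv_mul_cancel₀ hc,
      one_mul, one_mul]
  have h := (hent.1.mul hB).mul hent.2
  rwa [hN, mul_sub, mul_one, sub_mul, lv_inv_mul] at h

/-! ### The ideles `â` -/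

theorem natCast_notMem {L a : ℕ} (h : a.Coprime L) {w : HS} (hw : (L : 𝓞 F) ∈ w.asIdeal) :
    (a : 𝓞 F) ∉ w.asIdeal := fun ha => by
  obtain ⟨x, y, hxy⟩ := Nat.isCoprime_iff_coprime.2 h
  refine w.isPrime.ne_top ((Ideal.eq_top_iff_one _).mpr ?_)
  have h1 := w.asIdeal.add_mem (w.asIdeal.mul_mem_left (x : 𝓞 F) ha)
    (w.asIdeal.mul_mem_left (y : 𝓞 F) hw)
  have h2 := congrArg (fun z : ℤ => (z : 𝓞 F)) hxy
  push_cast at h2
  rwa [h2] at h1

open scoped Classical in
/-- The natural number read at `w`. -/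
def aNat {L : ℕ} (a : (ZMod L)ˣ) (w : HS) : ℕ :=
  if (L : 𝓞 F) ∈ w.asIdeal then (a : ZMod L).val else 1

theorem aNat_notMem {L : ℕ} [NeZero L] (a : (ZMod L)ˣ) (w : HS) :
    ((aNat a w : ℕ) : 𝓞 F) ∉ w.asIdeal := by
  unfold aNat
  split_ifs with h
  · exact natCast_notMem (ZMod.val_coe_unit_coprime a) h
  · rw [Nat.cast_one]
    exact fun h1 => w.isPrime.ne_top ((Ideal.eq_top_iff_one _).2 h1)

theorem valued_intCast_notMem {x : 𝓞 F} {w : HS} (h : x ∉ w.asIdeal) :
    Valued.v ((x : F) : w.adicCompletion F) = 1 := by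
  rw [HeightOneSpectrum.adicCompletion.valued_coe, HeightOneSpectrum.valuation_of_algebraMap,
    w.intValuation_eq_one_iff]
  exact h

/-- An idele with unit components. -/
def unitIdele (f : ∀ w : HS, w.adicCompletion F) (h : ∀ w, Valued.v (f w) = 1) : (Af F)ˣ where
  val := Red.mkInt f fun w => (h w).le
  inv := Red.mkInt (fun w => (f w)⁻¹) fun w => le_of_eq (by rw [map_inv₀, h, inv_one])
  val_inv := Red.af_ext fun w => by
    show Red.mkInt f (fun w => (h w).le) w * Red.mkInt (fun w => (f w)⁻¹) _ w = 1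
    rw [Red.mkInt_apply, Red.mkInt_apply, mul_inv_cancel₀]
    intro e
    have h1 := h w
    rw [e, map_zero] at h1
    exact zero_ne_one h1
  inv_val := Red.af_ext fun w => by
    show Red.mkInt (fun w => (f w)⁻¹) _ w * Red.mkInt f (fun w => (h w).le) w = 1
    rw [Red.mkInt_apply, Red.mkInt_apply, inv_mul_cancel₀]
    intro e
    have h1 := h w
    rw [e, map_zero] at h1
    exact zero_ne_one h1

theorem unitIdele_apply (f : ∀ w : HS, w.adicCompletion F) (h : ∀ w, Valued.v (f w) = 1) (w : HS) :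
    ((unitIdele f h : (Af F)ˣ) : Af F) w = f w := Red.mkInt_apply f (fun w => (h w).le) w

/-- The idele which is `a` over `L` and `1` elsewhere. -/
def aHat {L : ℕ} [NeZero L] (a : (ZMod L)ˣ) : (Af F)ˣ :=
  unitIdele (fun w => (((aNat a w : 𝓞 F) : F) : w.adicCompletion F))
    fun w => valued_intCast_notMem (aNat_notMem a w)

theorem aHat_apply {L : ℕ} [NeZero L] (a : (ZMod L)ˣ) (w : HS) :
    ((aHat a : (Af F)ˣ) : Af F) w = (((aNat a w : 𝓞 F) : F) : w.adicCompletion F) :=
  unitIdele_apply _ _ _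

theorem valued_aHat {L : ℕ} [NeZero L] (a : (ZMod L)ˣ) (w : HS) :
    Valued.v (((aHat a : (Af F)ˣ) : Af F) w) = 1 := by
  rw [aHat_apply]; exact valued_intCast_notMem (aNat_notMem a w)

/-- `diag (â, 1)`. -/
def aD {L : ℕ} [NeZero L] (a : (ZMod L)ˣ) : GF F := upperGF (aHat a) 0

theorem inLevel_aD {L : ℕ} [NeZero L] (a : (ZMod L)ˣ) : InLevel 1 (aD (F := F) a) := by
  refine Red.inLevel_one_of_entLe (fun v i j => ?_) fun v i j => ?_
  · show Valued.v (lv v (aD a) i j) ≤ 1
    rw [aD, lv_upperGF_zero]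
    fin_cases i <;> fin_cases j <;> simp [valued_aHat]
  · have e : lv v (aD a : GF F)⁻¹ = !![((aHat a : (Af F)ˣ) : Af F) v, 0; 0, 1]⁻¹ := by
      rw [← lv_upperGF_zero, ← aD]
      exact (Matrix.inv_eq_left_inv (lv_inv_mul v _)).symm
    show Valued.v (lv v (aD a)⁻¹ i j) ≤ 1
    rw [e, Matrix.inv_def, Matrix.det_fin_two_of, mul_one, mul_zero, sub_zero, Matrix.smul_apply,
      smul_eq_mul, map_mul, Ring.inverse_eq_inv, map_inv₀, valued_aHat, inv_one, one_mul,
      Matrix.adjugate_fin_two_of]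
    fin_cases i <;> fin_cases j <;> simp [valued_aHat]

theorem aD_one {L : ℕ} [NeZero L] (h : 1 < L) : (aD (1 : (ZMod L)ˣ) : GF F) = 1 := by
  have : Fact (1 < L) := ⟨h⟩
  refine Units.ext (Red.loc_ext fun w => ?_)
  rw [Units.val_one, loc_one]
  show lv w (aD (1 : (ZMod L)ˣ)) = 1
  rw [aD, lv_upperGF_zero, aHat_apply]
  have e : aNat (F := F) (1 : (ZMod L)ˣ) w = 1 := by
    unfold aNat
    split_ifs <;> simp [ZMod.val_one]
  rw [e]
  ext i j
  fin_cases i <;> fin_cases j <;> simp

/-- **The comparison at one integral matrix.** -/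
theorem apply_eq_of_idx {φ : Form F} {N n L p : ℕ} [NeZero L] (hφ : Automorphic N φ) (hn : 0 < n)
    {g : GF F} (hg : Red.Den n g) (hL : L = N * n ^ 2) {v v' : HS} (hne : v ≠ v')
    (hv : Valued.v (((p : F)) : v.adicCompletion F) = exp (-1 : ℤ))
    (hv' : Valued.v (((p : F)) : v'.adicCompletion F) = exp (-1 : ℤ))
    (hw : ∀ w : HS, w ≠ v → w ≠ v' → Valued.v (((p : F)) : w.adicCompletion F) = 1)
    (hLv : (L : 𝓞 F) ∉ v.asIdeal) (hLv' : (L : 𝓞 F) ∉ v'.asIdeal)
    (a b : (ZMod L)ˣ) (hab : (b : ZMod L) = (p : ZMod L) * (a : ZMod L))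
    (M : Matrix (Fin 2) (Fin 2) (𝓞 F)) (MF : GL (Fin 2) F)
    (hMF : ∀ i j, MF i j = (M i j : F)) (hdet : M.det = (p : 𝓞 F))
    (h00 : (L : 𝓞 F) ∣ M 0 0 - 1) (h01 : (L : 𝓞 F) ∣ M 0 1) (h10 : (L : 𝓞 F) ∣ M 1 0)
    (h11 : (L : 𝓞 F) ∣ M 1 1 - p)
    {i : RIdx v} (hi : EntLe v 1 (lInv v i * (lv v (aD a * g)⁻¹ * lv v (toFin MF))))
    {j : RIdx v'} (hj : EntLe v' 1 (lInv v' j * (lv v' (aD a * g)⁻¹ * lv v' (toFin MF))))
    (x : Xinf F) :
    φ x (toFin MF * (aD b * g)) = φ x (aD a * g * hRep v i * hRep v' j) := by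
  classical
  -- the central idele
  have hc1 : ∀ w : HS, Valued.v (if w = v ∨ w = v' then (1 : w.adicCompletion F)
      else (((p : F)) : w.adicCompletion F))⁻¹ = 1 := fun w => by
    rw [map_inv₀, inv_eq_one]
    split_ifs with h
    · exact map_one _
    · push Not at h; exact hw w h.1 h.2
  let c : (Af F)ˣ := unitIdele (fun w => (if w = v ∨ w = v' then (1 : w.adicCompletion F)
      else (((p : F)) : w.adicCompletion F))⁻¹) hc1
  have hcapp : ∀ w : HS, (c : Af F) w = (if w = v ∨ w = v' then (1 : w.adicCompletion F)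
      else (((p : F)) : w.adicCompletion F))⁻¹ := fun w => unitIdele_apply _ _ _
  set G := aD a * g
  set Z := (G * hRep v i * hRep v' j)⁻¹ * (toFin MF * (aD b * g) * scalarGF c) with hZ
  suffices hZN : InLevel N Z by
    rw [← hφ.central c x (toFin MF * (aD b * g)), ← hφ.right_inv Z hZN x (G * hRep v i * hRep v' j),
      hZ, mul_inv_cancel_left]
  -- the local data
  have hMint : ∀ w : HS, EntLe w 1 (lv w (toFin MF)) := fun w r s => by
    show Valued.v (algebraMap F (Af F) (MF r s) w) ≤ 1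
    rw [Red.valued_algebraMap, hMF]
    exact w.valuation_le_one _
  have hMdet : ∀ w : HS, (lv w (toFin MF)).det = ((p : F) : w.adicCompletion F) := fun w => by
    have e : lv w (toFin MF) = (M.map fun y : 𝓞 F => ((y : F) : w.adicCompletion F)) := by
      refine Matrix.ext fun r s => ?_
      show algebraMap F (Af F) (MF r s) w = _
      rw [FiniteAdeleRing.algebraMap_apply, hMF]
      rfl
    rw [e]
    let ι : 𝓞 F →+* w.adicCompletion F :=
      (algebraMap F (w.adicCompletion F)).comp (algebraMap (𝓞 F) F)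
    show (M.map ι).det = _
    rw [show M.map ι = ι.mapMatrix M from rfl, ← RingHom.map_det, hdet, map_natCast, ← map_natCast (algebraMap F (w.adicCompletion F))]
    rfl
  have hloc : ∀ w : HS, lv w Z = lv w (hRep v' j)⁻¹ * (lv w (hRep v i)⁻¹ * (lv w G⁻¹ *
      lv w (toFin MF)) * (lv w (aD b * g)) * lv w (scalarGF c)) := fun w => by
    simp only [hZ, _root_.mul_inv_rev, lv_mul, mul_assoc]
  have hgoal : ∀ w : HS, EntLe w (Valued.v ((N : Af F) w)) (lv w Z - 1) ∧
      Valued.v (lv w Z).det = 1 := by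
    intro w
    have hNle := Red.valued_natCast_le_one (F := F) N w
    have special : ∀ (u : HS) (k : RIdx u), (L : 𝓞 F) ∉ u.asIdeal →
        Valued.v (((p : F)) : u.adicCompletion F) = exp (-1 : ℤ) →
        EntLe u 1 (lInv u k * (lv u G⁻¹ * lv u (toFin MF))) →
        lv u Z = lInv u k * (lv u G⁻¹ * lv u (toFin MF)) * lv u (aD b * g) →
        EntLe u (Valued.v ((N : Af F) u)) (lv u Z - 1) ∧ Valued.v (lv u Z).det = 1 := by
      intro u k hLu hpu hk e
      have hNu : (N : 𝓞 F) ∉ u.asIdeal := fun h => hLu (by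
        rw [hL, Nat.cast_mul]; exact u.asIdeal.mul_mem_right _ h)
      have hnu : (n : 𝓞 F) ∉ u.asIdeal := fun h => hLu (by
        rw [hL, Nat.cast_mul, Nat.cast_pow, sq]
        exact u.asIdeal.mul_mem_left _ (u.asIdeal.mul_mem_left _ h))
      obtain ⟨hgi, hgi'⟩ := entLe_lv_of_den hg hnu
      have hG : ∀ e : (ZMod L)ˣ, EntLe u 1 (lv u (aD e * g)) ∧ EntLe u 1 (lv u (aD e * g)⁻¹) := by
        intro e
        refine ⟨?_, ?_⟩
        · rw [lv_mul]
          exact ((Red.entLe_of_inLevel_one (inLevel_aD e) u).mul hgi).mono (one_mul _).le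
        · rw [_root_.mul_inv_rev, lv_mul]
          exact (hgi'.mul (Red.entLe_of_inLevel_one (Red.InLevel.inv (inLevel_aD e)) u)).mono (one_mul _).le
      have hGd : Valued.v (lv u G⁻¹).det = 1 :=
        det_valued_eq_one (hG a).2 (hG a).1 (lv_inv_mul u _)
      have hHd : Valued.v (lv u (aD b * g)).det = 1 :=
        det_valued_eq_one (hG b).1 (hG b).2 (lv_mul_inv u _)
      rw [e, Red.valued_natCast_eq_one hNu]
      refine ⟨?_, ?_⟩
      · rw [sub_eq_add_neg]
        exact (by simpa using hk.mul (hG b).1 : EntLe u 1 _).add (Red.entLe_one u).neg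
      · rw [Matrix.det_mul, Matrix.det_mul, Matrix.det_mul, map_mul, map_mul, map_mul,
          valued_det_lInv, hGd, hMdet, hpu, hHd, one_mul, mul_one, ← exp_add,
          show (1 : ℤ) + -1 = 0 by norm_num, exp_zero]
    by_cases hwv : w = v
    · subst hwv
      refine special w i hLv hv hi ?_
      rw [hloc, lv, (loc_hRep_ne v' hne j).2, one_mul, lv, (loc_hRep_self w i).2, lv_scalarGF,
        hcapp, if_pos (Or.inl rfl), inv_one, one_smul, mul_one]
    by_cases hwv' : w = v'
    · subst hwv'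
      refine special w j hLv' hv' hj ?_
      rw [hloc, lv, (loc_hRep_self w j).2, lv, (loc_hRep_ne v hwv i).2, one_mul, lv_scalarGF,
        hcapp, if_pos (Or.inr rfl), inv_one, one_smul, mul_one, mul_assoc (lInv w j)]
    -- away from `p`
    set P : w.adicCompletion F := ((p : F) : w.adicCompletion F) with hPdef
    set E : Matrix (Fin 2) (Fin 2) (w.adicCompletion F) :=
      !![((aHat a : (Af F)ˣ) : Af F) w, 0; 0, 1]⁻¹ * lv w (toFin MF) *
        !![((aHat b : (Af F)ˣ) : Af F) w, 0; 0, 1] * (P⁻¹ • 1) with hE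
    have hZE : lv w Z = lv w g⁻¹ * E * lv w g := by
      rw [hloc, lv, (loc_hRep_ne v' hwv' j).2, one_mul, lv, (loc_hRep_ne v hwv i).2, one_mul,
        lv_scalarGF, hcapp, if_neg (by push Not; exact ⟨hwv, hwv'⟩), hE]
      show lv w G⁻¹ * lv w (toFin MF) * lv w (aD b * g) * _ = _
      rw [show lv w G⁻¹ = lv w g⁻¹ * lv w (aD a)⁻¹ by rw [← lv_mul, ← _root_.mul_inv_rev],
        show lv w (aD a)⁻¹ = !![((aHat a : (Af F)ˣ) : Af F) w, 0; 0, 1]⁻¹ by
          rw [← lv_upperGF_zero, ← aD]; exact (Matrix.inv_eq_left_inv (lv_inv_mul w _)).symm,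
        lv_mul, show lv w (aD b) = _ from lv_upperGF_zero w (aHat b)]
      simp only [mul_assoc, smul_mul_assoc, one_mul, mul_smul_comm, mul_one]
      rfl
    have hP1 : Valued.v P = 1 := hw w hwv hwv'
    have hP0 : P ≠ 0 := fun h => by simp [h] at hP1
    have hA1 := valued_aHat (F := F) a w
    have hA0 : ((aHat a : (Af F)ˣ) : Af F) w ≠ 0 := fun h => by simp [h] at hA1
    have hdetE : Valued.v E.det = 1 := by
      rw [hE, Matrix.det_mul, Matrix.det_mul, Matrix.det_mul, Matrix.det_nonsing_inv, hMdet,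
        Matrix.det_smul, Matrix.det_one, Fintype.card_fin, Ring.inverse_eq_inv]
      simp only [← hPdef, Matrix.det_fin_two_of, mul_zero, sub_zero, mul_one, map_mul, map_inv₀,
        map_pow, valued_aHat, hP1, inv_one, one_pow]
    refine ⟨hZE ▸ entLe_conj hn hg w ?_, ?_⟩
    · rw [← hL]
      -- entries of `E - 1` are integral combinations over units
      have num : ∀ z : 𝓞 F, ((L : 𝓞 F) ∈ w.asIdeal → (L : 𝓞 F) ∣ z) →
          Valued.v ((z : F) : w.adicCompletion F) ≤ Valued.v ((L : Af F) w) := fun z hz => by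
        by_cases hLw : (L : 𝓞 F) ∈ w.asIdeal
        · obtain ⟨y, rfl⟩ := hz hLw
          rw [Red.valued_natCast, HeightOneSpectrum.adicCompletion.valued_coe,
            HeightOneSpectrum.valuation_of_algebraMap, map_mul]
          exact mul_le_of_le_one_right' (w.intValuation_le_one y)
        · rw [Red.valued_natCast_eq_one hLw]
          exact valued_int_le_one w z
      have hMat : lv w (toFin MF) = Matrix.of fun r s => (((M r s : 𝓞 F) : F) : w.adicCompletion F) := by
        refine Matrix.ext fun r s => ?_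
        show algebraMap F (Af F) (MF r s) w = _
        rw [FiniteAdeleRing.algebraMap_apply, hMF]
        rfl
      set A := ((aHat a : (Af F)ˣ) : Af F) w with hAdef
      set B := ((aHat b : (Af F)ˣ) : Af F) w with hBdef
      set m := fun r s => (((M r s : 𝓞 F) : F) : w.adicCompletion F) with hm
      have hEe : E - 1 = !![(B * m 0 0 - P * A) / (A * P), m 0 1 / (A * P);
          B * m 1 0 / P, (m 1 1 - P) / P] := by
        have hAinv : (!![A, 0; 0, 1] : Matrix (Fin 2) (Fin 2) (w.adicCompletion F))⁻¹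
            = !![A⁻¹, 0; 0, 1] := Matrix.inv_eq_left_inv (Matrix.ext fun r s => by
          fin_cases r <;> fin_cases s <;> simp [Matrix.mul_apply, Fin.sum_univ_two, hA0])
        have hM2 : lv w (toFin MF) = !![m 0 0, m 0 1; m 1 0, m 1 1] := by
          rw [hMat]; exact Matrix.eta_fin_two _
        rw [hE, hM2, hAinv]
        clear_value m P A B
        refine Matrix.ext fun r s => ?_
        fin_cases r <;> fin_cases s <;>
          simp [Matrix.mul_apply, Fin.sum_univ_two] <;> field_simp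
      let ι : 𝓞 F →+* w.adicCompletion F :=
        (algebraMap F (w.adicCompletion F)).comp (algebraMap (𝓞 F) F)
      have hP : P = ι (p : 𝓞 F) := by
        rw [map_natCast, hPdef, ← map_natCast (algebraMap F (w.adicCompletion F))]
        rfl
      have hAB : A = ι (aNat a w : 𝓞 F) ∧ B = ι (aNat b w : 𝓞 F) :=
        ⟨aHat_apply a w, aHat_apply b w⟩
      have hMι : ∀ r s, m r s = ι (M r s) := fun r s => rfl
      rw [hEe]
      intro r s
      fin_cases r <;> fin_cases s <;>
        simp only [Matrix.of_apply, Matrix.cons_val', Matrix.cons_val_zero, Matrix.cons_val_one,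
          Matrix.cons_val_fin_one, Fin.zero_eta, Fin.mk_one, map_div₀, map_mul, hP1, hA1, mul_one,
          one_mul, div_one]
      · have e : B * m 0 0 - P * A
            = ι ((aNat b w : 𝓞 F) * M 0 0 - (p : 𝓞 F) * (aNat a w : 𝓞 F)) := by
          rw [hAB.1, hAB.2, hMι, hP, map_sub, map_mul, map_mul]
        rw [e]
        refine num _ fun hLw => ?_
        have hz : ((L : ℤ)) ∣ (b : ZMod L).val - (p : ℤ) * (a : ZMod L).val := by
          rw [← ZMod.intCast_zmod_eq_zero_iff_dvd]
          push_cast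
          rw [ZMod.natCast_zmod_val, ZMod.natCast_zmod_val, hab, sub_self]
        have hz' : (L : 𝓞 F) ∣ ((b : ZMod L).val : 𝓞 F) - (p : 𝓞 F) * ((a : ZMod L).val : 𝓞 F) := by
          have := map_dvd (Int.castRingHom (𝓞 F)) hz
          simpa using this
        rw [aNat, aNat, if_pos hLw, if_pos hLw,
          show ((b : ZMod L).val : 𝓞 F) * M 0 0 - (p : 𝓞 F) * ((a : ZMod L).val : 𝓞 F) =
            ((b : ZMod L).val : 𝓞 F) * (M 0 0 - 1) +
              (((b : ZMod L).val : 𝓞 F) - (p : 𝓞 F) * ((a : ZMod L).val : 𝓞 F)) by ring]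
        exact dvd_add (h00.mul_left _) hz'
      · rw [hMι]
        exact num _ fun _ => h01
      · rw [valued_aHat b w, one_mul, hMι]
        exact num _ fun _ => h10
      · rw [hMι, hP, ← map_sub]
        exact num _ fun _ => h11
    · rw [hZE, Matrix.det_mul, Matrix.det_mul, map_mul, map_mul, hdetE, mul_one, ← map_mul,
        ← Matrix.det_mul, lv_inv_mul, Matrix.det_one, map_one]
  refine inLevel_iff.2 fun w => ⟨(hgoal w).1, ?_⟩
  have hle : EntLe w 1 (lv w Z) := by
    simpa using ((hgoal w).1.mono (Red.valued_natCast_le_one N w)).add (Red.entLe_one w)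
  exact entLe_inv_sub_one (hgoal w).1 (entLe_of_det_eq_one hle (hgoal w).2 (lv_mul_inv w Z))
    (lv_inv_mul w Z)

end FLTAgent.LT.Theta31
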