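import Fermat.Agent.LT.Theta31.Kernel
import Fermat.Agent.LT.Interface

/-!
# The pieces of the theta lift from `ℚ(√-3)` to weight one (piece D)

The statements exchanged between the parts of piece D, as propositions; the owner of a part
proves its proposition, nobody assumes one.
-/

set_option autoImplicit false

noncomputable section

namespace FLTAgent.LT.Theta31

open Complex Matrix MeasureTheory Hyp
open scoped MatrixGroups UpperHalfPlane ModularForm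
open CongruenceSubgroup

/-- The lift of `u` against the theta series with coefficients `Φ`. -/
def liftTh (L : ℕ) (u : H3 → ℂ) (Φ : (Fin 4 → ZMod L) → ℂ) (τ : ℂ) : ℂ :=
  (Real.sqrt τ.im : ℂ) * ∫ p, u p * exSum Φ τ p ∂muL L

/-- The matrices of determinant `p` congruent to `diag (p, 1)` modulo `L`. -/
def deltaSet (L p : ℕ) : Set (GL (Fin 2) ℂ) :=
  {δ | IntMat δ.val ∧ δ.val.det = (p : ℂ) ∧
    ∀ i j, DvdOw L (δ.val i j - (!![(p : ℂ), 0; 0, 1] : Matrix (Fin 2) (Fin 2) ℂ) i j)}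

/-- Representatives of `Γ(L) \ Δ`. -/
def IsLeftReps (L p : ℕ) (R : Finset (GL (Fin 2) ℂ)) : Prop :=
  ↑R ⊆ deltaSet L p ∧
    ∀ δ ∈ deltaSet L p, ∃! r, r ∈ R ∧ ∃ γ ∈ slOL L, δ = (γ : GL (Fin 2) ℂ) * r

/-- Representatives of `Δ / Γ(L)`. -/
def IsRightReps (L p : ℕ) (R : Finset (GL (Fin 2) ℂ)) : Prop :=
  ↑R ⊆ deltaSet L p ∧
    ∀ δ ∈ deltaSet L p, ∃! r, r ∈ R ∧ ∃ γ ∈ slOL L, δ = r * (γ : GL (Fin 2) ℂ)

/-- Congruence by `diag (p, 1)` on vectors modulo `L`. -/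
def diagV {L : ℕ} (p : ℕ) (R : Fin 4 → ZMod L) : Fin 4 → ZMod L :=
  ![(p : ZMod L) ^ 2 * R 0, R 1, (p : ZMod L) * R 2, (p : ZMod L) * R 3]

/-- The classical functions coming from an adelic form (piece D-bridge). -/
structure ClassicalData (d : Octa) where
  /-- The level. -/
  L : ℕ
  good : d.Good L
  /-- The components. -/
  u : (ZMod L)ˣ → H3 → ℂ
  isU : ∀ a, IsU L (u a)
  eigen : ∀ p : ℕ, p.Prime → ∀ A : ValuationSubring Qb, A.LiesOverPrime p →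
    ∀ σ : Gam, A.IsFrobeniusAt σ p → σ ∈ d.GM →
    ∀ L' : ℕ, L ∣ L' → 0 < L' → ¬ p ∣ L' → ∀ R, IsLeftReps L' p R →
    ∀ a b : (ZMod L)ˣ, (b : ZMod L) = (p : ZMod L) * (a : ZMod L) → ∀ x : H3,
      (p : ℂ) * d.tr0 σ ^ 2 * u a x = ∑ δ ∈ R, u b (act δ x)
  period_ne : ∃ (a : (ZMod L)ˣ) (m : ℕ), 0 < m ∧
    (∀ γ ∈ CongruenceSubgroup.Gamma m, ∀ τ : ℍ, u a (planeEmb (γ • τ)) = u a (planeEmb τ)) ∧
    period m (fun τ => u a (planeEmb τ)) ≠ 0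

/-- D-bridge: from adelic forms over `ℚ(√-3)` to functions on upper half space. -/
def Bridge (d : Octa) : Prop :=
  ∀ (N : ℕ) (ψ : Form d.Kf), d.Good N → CuspZero N ψ → FullEigen N ψ → EigenRho d d.Kf N ψ →
    ∀ (g : GF d.Kf) (m : ℕ), 0 < m →
      (∀ γ ∈ CongruenceSubgroup.Gamma m, ∀ τ : ℍ, planeRes ψ g (γ • τ) = planeRes ψ g τ) →
      period m (planeRes ψ g) ≠ 0 → Nonempty (ClassicalData d)

/-- D-count: lattices of index `p²` and the theta series. -/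
def CountIdentity : Prop :=
  ∀ (L p : ℕ) [NeZero L], p.Prime → p % 3 = 1 → ¬ p ∣ L →
    (∃ R, IsLeftReps L p R) ∧ (∃ R, IsRightReps L p R) ∧
    ∀ R, IsRightReps L p R → ∀ (φ : (Fin 4 → ZMod L) → ℂ) (τ : ℂ), 0 < τ.im → ∀ x : H3,
      ∑ ε ∈ R, th (frameOf (act ε⁻¹ x)) L (fun v => φ (diagV p v)) τ =
        (1 / (p : ℂ)) * ∑ j ∈ Finset.range (p ^ 2), th (frameOf x) L φ ((τ + j) / (p : ℂ) ^ 2) +
          ∑ k ∈ Finset.range p,
            th (frameOf x) L (fun v => φ ((p : ZMod L) • v)) (τ + k / (p : ℂ)) +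
          (p : ℂ) * th (frameOf x) L (fun v => φ ((p : ZMod L) • v)) τ +
          (p : ℂ) * th (frameOf x) L (fun v => φ ((p : ZMod L) ^ 2 • v)) ((p : ℂ) ^ 2 * τ)

/-- D-nonvanishing: a nonzero period gives a nonzero lift. -/
def LiftNonzero : Prop :=
  ∀ (L m : ℕ) [NeZero L] (u : H3 → ℂ), IsU L u → 0 < m →
    (∀ γ ∈ CongruenceSubgroup.Gamma m, ∀ τ : ℍ, u (planeEmb (γ • τ)) = u (planeEmb τ)) →
    period m (fun τ => u (planeEmb τ)) ≠ 0 →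
    ∃ (L' : ℕ) (_ : NeZero L') (Φ : (Fin 4 → ZMod L') → ℂ) (τ : ℂ),
      L ∣ L' ∧ 0 < τ.im ∧ liftTh L' u Φ τ ≠ 0

/-- The square of `T p` on weight one forms with character, applied to a function. -/
def sqHecke (p : ℕ) (e : ℂ) (G : ℂ → ℂ) (τ : ℂ) : ℂ :=
  (1 / (p : ℂ)) * ∑ j ∈ Finset.range (p ^ 2), G ((τ + j) / (p : ℂ) ^ 2) +
    e * ∑ k ∈ Finset.range p, G (τ + k / (p : ℂ)) + (p : ℂ) * e * G τ +
    (p : ℂ) * e ^ 2 * G ((p : ℂ) ^ 2 * τ)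

/-- D-final: from one form with the right squares to an eigenform. -/
def FinalStep (d : Octa) : Prop :=
  ∀ (M : ℕ) [NeZero M] (ε χ : DirichletCharacter ℂ M) (g : CuspForm (Gamma1 M) 1),
    d.Good M → g ≠ 0 →
    (∀ γ : SL(2, ℤ), γ ∈ Gamma0 M → ⇑g ∣[(1 : ℤ)] γ = ε ((γ 1 1 : ℤ) : ZMod M) • ⇑g) →
    (∀ p : ℕ, p.Prime → ¬ p ∣ M → ∀ A : ValuationSubring Qb, A.LiesOverPrime p →
      ∀ σ : Gam, A.IsFrobeniusAt σ p → σ ∈ d.GM → ∀ τ : ℂ, 0 < τ.im →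
        sqHecke p (ε (p : ZMod M)) (⇑g ∘ UpperHalfPlane.ofComplex) τ =
          (p : ℂ) * χ (p : ZMod M) * d.tr0 σ ^ 2 * g (UpperHalfPlane.ofComplex τ)) →
    ∃ (L : ℕ) (_ : NeZero L) (ε ω : DirichletCharacter ℂ L)
      (f : CuspForm (Gamma1 L) 1),
      d.Good L ∧ ModularFormClass.qCoeff f 1 = 1 ∧
      (∀ p : ℕ, p.Prime → ¬ p ∣ L → ∀ n : ℕ,
        ModularFormClass.qCoeff f (p * n) +
            ε (p : ZMod L) * (if p ∣ n then ModularFormClass.qCoeff f (n / p) else 0) =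
          ModularFormClass.qCoeff f p * ModularFormClass.qCoeff f n) ∧
      ∀ p : ℕ, p.Prime → ¬ p ∣ L → ∀ A : ValuationSubring Qb, A.LiesOverPrime p →
        ∀ σ : Gam, A.IsFrobeniusAt σ p → σ ∈ d.GM →
          ModularFormClass.qCoeff f p ^ 2 = ω (p : ZMod L) * d.tr0 σ ^ 2

end FLTAgent.LT.Theta31
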