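import Fermat.Agent.LT.Theta31.BridgeField
import Fermat.Agent.LT.Theta31.BridgeLocal
import Fermat.Agent.LT.Theta31.Pieces

/-!
# D-bridge: from adelic forms over `K` to functions on upper half space
-/

set_option autoImplicit false
set_option linter.unusedSectionVars false

noncomputable section

namespace FLTAgent.LT.Theta31

open NumberField IsDedekindDomain Matrix Hyp MeasureTheory
open FLTAgent.LT.Asai
open FLTAgent.LT.Aleph
open scoped MatrixGroups

variable {d : Octa}

local notation "K" => Octa.Kf d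
local notation "O" => NumberField.RingOfIntegers (Octa.Kf d)
local notation "HS" => HeightOneSpectrum (NumberField.RingOfIntegers (Octa.Kf d))

attribute [local instance] isCyclotomicExtension_Kf

/-- The invertible matrix over `K` of an integral matrix. -/
def glF (M : Matrix (Fin 2) (Fin 2) O) (h : M.det ≠ 0) : GL (Fin 2) K :=
  Matrix.GeneralLinearGroup.mkOfDetNeZero ((algebraMap O K).mapMatrix M) (by
    rw [← RingHom.map_det]
    exact fun e => h ((injective_iff_map_eq_zero _).1 (IsFractionRing.injective O K) _ e))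

theorem glF_apply (M : Matrix (Fin 2) (Fin 2) O) (h : M.det ≠ 0) (i j : Fin 2) :
    glF M h i j = (M i j : K) := rfl

theorem glF_val (M : Matrix (Fin 2) (Fin 2) O) (h : M.det ≠ 0) :
    (glF M h).val = (algebraMap O K).mapMatrix M := rfl

theorem map_iotaK (M : Matrix (Fin 2) (Fin 2) O) :
    ((algebraMap O K).mapMatrix M).map (wInf d).embedding = M.map (iotaK d) := by
  rw [RingHom.mapMatrix_apply, Matrix.map_map]
  rfl

/-- The integral matrix over a matrix over `ℤ[ω]`. -/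
def preM (d : Octa) (G : Matrix (Fin 2) (Fin 2) ℂ) : Matrix (Fin 2) (Fin 2) (𝓞 d.Kf) :=
  G.map (preO d)

theorem map_preM {G : Matrix (Fin 2) (Fin 2) ℂ} (hG : IntMat G) :
    (preM d G).map (iotaK d) = G := by
  refine Matrix.ext fun i j => ?_
  exact iotaK_preO d (hG i j)

theorem mapM_injective : Function.Injective fun M : Matrix (Fin 2) (Fin 2) O => M.map (iotaK d) :=
  fun _ _ h => Matrix.ext fun i j => iotaK_injective d (congrFun (congrFun h i) j)

theorem det_preM {G : Matrix (Fin 2) (Fin 2) ℂ} (hG : IntMat G) {c : ℕ} (h : G.det = (c : ℂ)) :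
    (preM d G).det = (c : O) := by
  refine iotaK_injective d ?_
  rw [RingHom.map_det, map_natCast, RingHom.mapMatrix_apply, map_preM hG, h]

theorem dvd_preM {G : Matrix (Fin 2) (Fin 2) ℂ} (hG : IntMat G) {L : ℕ} {i j : Fin 2} {c : O}
    (h : DvdOw L (G i j - iotaK d c)) : (L : O) ∣ preM d G i j - c := by
  refine dvd_of_dvdOw d ?_
  rw [map_sub]
  rwa [show iotaK d (preM d G i j) = G i j from iotaK_preO d (hG i j)]

theorem actInf_const (γ : GL (Fin 2) K) (g : GL (Fin 2) ℂ)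
    (h : γ.val.map (wInf d).embedding = g.val) (x : H3) :
    actInf γ (fun _ => x) = fun _ => act g x := by
  have := subsingleton_places d
  funext w
  show act (Matrix.GeneralLinearGroup.map w.embedding γ) x = act g x
  congr 1
  refine Units.ext ?_
  rw [Subsingleton.elim w (wInf d)]
  exact h

theorem quotient_mk_adjugate {R S : Type*} [CommRing R] [CommRing S] (f : R →+* S)
    (M : Matrix (Fin 2) (Fin 2) R) : (M.map f).adjugate = M.adjugate.map f :=
  (f.map_adjugate M).symm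

/-- `u`. -/
def uFun (ψ : Form d.Kf) (g : GF d.Kf) {L : ℕ} [NeZero L] (a : (ZMod L)ˣ) (x : H3) : ℂ :=
  ψ (fun _ => x) (aD a * g)

section

variable {ψ : Form d.Kf} {N n L : ℕ} [NeZero L] {g : GF d.Kf}

theorem uFun_inv (hψ : CuspZero N ψ) (hn : 0 < n) (hg : Red.Den n g) (hL : L = N * n ^ 2)
    (a : (ZMod L)ˣ) (γ : slOL L) (x : H3) : uFun ψ g a (γ • x) = uFun ψ g a x := by
  set G : GL (Fin 2) ℂ := ((γ : slO) : GL (Fin 2) ℂ)
  have hGint : IntMat G.val := (γ : slO).2.1
  have hGdet : G.val.det = ((1 : ℕ) : ℂ) := by rw [Nat.cast_one]; exact (γ : slO).2.2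
  have hd : (preM d G.val).det ≠ 0 := by rw [det_preM hGint hGdet]; simp
  set γF := glF (preM d G.val) hd
  have hmapv : γF.val.map (wInf d).embedding = G.val := by
    rw [glF_val, map_iotaK, map_preM hGint]
  have hlev : InLevel L (toFin γF) := by
    refine Red.inLevel_iff.2 fun v => ?_
    have hB : ∀ (P : Matrix (Fin 2) (Fin 2) O), (∀ i j, (L : O) ∣ P i j - (1 : Matrix (Fin 2) (Fin 2) O) i j) →
        ∀ i j : Fin 2, Valued.v ((((P i j : K)) : v.adicCompletion K) -
          (1 : Matrix (Fin 2) (Fin 2) (v.adicCompletion K)) i j) ≤ Valued.v ((L : Af K) v) := by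
      intro P hP i j
      let ι : O →+* v.adicCompletion K := (algebraMap K (v.adicCompletion K)).comp (algebraMap O K)
      have e : (1 : Matrix (Fin 2) (Fin 2) (v.adicCompletion K)) i j =
          ι ((1 : Matrix (Fin 2) (Fin 2) O) i j) := by
        fin_cases i <;> fin_cases j <;> simp
      rw [e, show (((P i j : K)) : v.adicCompletion K) = ι (P i j) from rfl, ← map_sub]
      obtain ⟨y, hy⟩ := hP i j
      rw [hy, Red.valued_natCast]
      show Valued.v (((algebraMap O K ((L : O) * y)) : K) : v.adicCompletion K) ≤ _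
      rw [HeightOneSpectrum.adicCompletion.valued_coe, HeightOneSpectrum.valuation_of_algebraMap,
        map_mul]
      exact mul_le_of_le_one_right' (v.intValuation_le_one y)
    have hdiv : ∀ i j, (L : O) ∣ preM d G.val i j - (1 : Matrix (Fin 2) (Fin 2) O) i j := fun i j => by
      refine dvd_preM hGint ?_
      have h := γ.2 i j
      fin_cases i <;> fin_cases j <;> simpa using h
    have h1 : Red.EntLe v (Valued.v ((L : Af K) v))
        (Red.loc v (toFin γF : Matrix (Fin 2) (Fin 2) (Af K)) - 1) := fun i j => by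
      show Valued.v (algebraMap K (Af K) (γF i j) v - _) ≤ _
      rw [FiniteAdeleRing.algebraMap_apply]
      exact hB _ hdiv i j
    refine ⟨h1, ?_⟩
    have hle : Red.EntLe v 1 (lv v (toFin γF)) := by
      simpa using (h1.mono (Red.valued_natCast_le_one L v)).add (Red.entLe_one v)
    refine entLe_inv_sub_one h1 (entLe_of_det_eq_one hle ?_ (lv_mul_inv v _)) (lv_inv_mul v _)
    have e : lv v (toFin γF) = ((algebraMap K (v.adicCompletion K)).comp (algebraMap O K)).mapMatrix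
        (preM d G.val) := Matrix.ext fun i j => by
      show algebraMap K (Af K) (γF i j) v = _
      rw [FiniteAdeleRing.algebraMap_apply]
      rfl
    rw [e, ← RingHom.map_det, det_preM hGint hGdet, Nat.cast_one, map_one, map_one]
  set h := aD a * g
  have hk : InLevel N (h⁻¹ * (toFin γF)⁻¹ * h) := by
    have hlev' : InLevel (N * n ^ 2) (toFin γF) := by rw [← hL]; exact hlev
    have h1 := Red.InLevel.conj (Red.InLevel.inv (inLevel_aD (F := K) a)) (Red.InLevel.inv hlev')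
    have h2 := Red.inLevel_conj_den hn hg h1
    rwa [show h⁻¹ * (toFin γF)⁻¹ * h =
      g⁻¹ * ((aD a)⁻¹ * (toFin γF)⁻¹ * ((aD a)⁻¹)⁻¹) * g by simp only [h]; group]
  show ψ (fun _ => act G x) h = ψ (fun _ => x) h
  rw [← actInf_const γF G hmapv x, ← mul_inv_cancel_left (toFin γF) h, hψ.aut.left_inv,
    mul_inv_cancel_left, ← hψ.aut.right_inv _ hk (fun _ => x) h]
  congr 1
  group

theorem isU_uFun (hψ : CuspZero N ψ) (hn : 0 < n) (hg : Red.Den n g) (hL : L = N * n ^ 2)
    (a : (ZMod L)ˣ) : IsU L (uFun ψ g a) where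
  cont := (hψ.cont _).comp (continuous_pi fun _ => continuous_id)
  bdd := hψ.bdd.imp fun C hC p => hC _ _
  inv := uFun_inv hψ hn hg hL a
  mean H hH hc p := by
    classical
    have := subsingleton_places d
    have h := hψ.eigen (wInf d) (fun _ => p) (aD a * g) H hH hc
    refine Eq.trans (integral_congr_ae (.of_forall fun q => ?_)) h
    show _ * ψ _ _ = _ * ψ _ _
    congr 2
    funext w
    rw [Subsingleton.elim w (wInf d)]
    simp

theorem hecke_eq_sum (φ : Form d.Kf) (v : HS) [Fintype (RIdx v)] (x : Xinf d.Kf) (h : GF d.Kf) :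
    hecke v φ x h = ∑ r : RIdx v, φ x (h * hRep v r) := by
  classical
  have : Fintype (O ⧸ v.asIdeal) := Fintype.ofFinite _
  rw [hecke, finsum_eq_sum_of_fintype]
  convert (Fintype.sum_option (f := fun r : RIdx v => φ x (h * hRep v r))).symm.trans ?_ using 1
  · rw [add_comm]
    rfl
  · congr
    exact Subsingleton.elim _ _

/-- The integral matrix attached to a member of `Δ`. -/
def matOf (d : Octa) (δ : GL (Fin 2) ℂ) : Matrix (Fin 2) (Fin 2) (𝓞 d.Kf) :=
  (preM d δ.val).adjugate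

theorem matOf_spec {L' p : ℕ} {δ : GL (Fin 2) ℂ} (hδ : δ ∈ deltaSet L' p) :
    (matOf d δ).det = (p : O) ∧ (L' : O) ∣ matOf d δ 0 0 - 1 ∧ (L' : O) ∣ matOf d δ 0 1 ∧
      (L' : O) ∣ matOf d δ 1 0 ∧ (L' : O) ∣ matOf d δ 1 1 - p := by
  obtain ⟨hint, hdet, hcong⟩ := hδ
  refine ⟨?_, ?_, ?_, ?_, ?_⟩
  · rw [matOf, Matrix.det_adjugate, det_preM hint hdet]
    simp
  all_goals rw [matOf, Matrix.adjugate_fin_two]
  · simp only [Matrix.of_apply, Matrix.cons_val', Matrix.cons_val_zero, Matrix.cons_val_fin_one]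
    exact dvd_preM hint (by simpa using hcong 1 1)
  · simp only [Matrix.of_apply, Matrix.cons_val', Matrix.cons_val_zero, Matrix.cons_val_one,
      Matrix.cons_val_fin_one, dvd_neg]
    simpa using dvd_preM (c := 0) hint (by simpa using hcong 0 1)
  · simp only [Matrix.of_apply, Matrix.cons_val', Matrix.cons_val_zero, Matrix.cons_val_one,
      Matrix.cons_val_fin_one, dvd_neg]
    simpa using dvd_preM (c := 0) hint (by simpa using hcong 1 0)
  · simp only [Matrix.of_apply, Matrix.cons_val', Matrix.cons_val_one, Matrix.cons_val_fin_one]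
    exact dvd_preM hint (by simpa using hcong 0 0)

/-- Coercion of an integral matrix to a completion. -/
def locO (v : HS) : O →+* v.adicCompletion K :=
  (algebraMap K (v.adicCompletion K)).comp (algebraMap O K)

theorem lv_toFin_glF (v : HS) (M : Matrix (Fin 2) (Fin 2) O) (h : M.det ≠ 0) :
    lv v (toFin (glF M h)) = M.map (locO v) := Matrix.ext fun i j => by
  show algebraMap K (Af K) (glF M h i j) v = _
  rw [FiniteAdeleRing.algebraMap_apply]
  rfl

theorem entLe_map_locO (v : HS) (M : Matrix (Fin 2) (Fin 2) O) : Red.EntLe v 1 (M.map (locO v)) :=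
  fun i j => valued_int_le_one v (M i j)

theorem valued_locO_lt_one (v : HS) (x : O) : Valued.v (locO v x) < 1 ↔ x ∈ v.asIdeal := by
  show Valued.v (((algebraMap O K x : K)) : v.adicCompletion K) < 1 ↔ _
  rw [HeightOneSpectrum.adicCompletion.valued_coe, HeightOneSpectrum.valuation_of_algebraMap,
    v.intValuation_lt_one_iff_mem]

/-- The coset of `T_v` met by `M`, seen from `h`. -/
def InCoset (v : HS) (h : GF d.Kf) (M : Matrix (Fin 2) (Fin 2) O) (i : RIdx v) : Prop :=
  Red.EntLe v 1 (lInv v i * (lv v h⁻¹ * M.map (locO v)))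

variable {v : HeightOneSpectrum (𝓞 d.Kf)} {h : GF d.Kf} {p : ℕ} {M : Matrix (Fin 2) (Fin 2) (𝓞 d.Kf)}

theorem valued_det_twist (hh : Red.EntLe v 1 (lv v h)) (hh' : Red.EntLe v 1 (lv v h⁻¹))
    (hv : Valued.v (((p : d.Kf)) : v.adicCompletion d.Kf) = WithZero.exp (-1 : ℤ))
    (hdet : M.det = (p : O)) :
    Valued.v (lv v h⁻¹ * M.map (locO v)).det = WithZero.exp (-1 : ℤ) := by
  rw [Matrix.det_mul, map_mul, det_valued_eq_one hh' hh (lv_inv_mul v h), one_mul,
    ← RingHom.mapMatrix_apply, ← RingHom.map_det, hdet, map_natCast,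
    ← map_natCast (algebraMap K (v.adicCompletion K))]
  exact hv

theorem exists_inCoset (hh : Red.EntLe v 1 (lv v h)) (hh' : Red.EntLe v 1 (lv v h⁻¹))
    (hv : Valued.v (((p : d.Kf)) : v.adicCompletion d.Kf) = WithZero.exp (-1 : ℤ))
    (hdet : M.det = (p : O)) : ∃ i, InCoset v h M i :=
  exists_idx ((hh'.mul (entLe_map_locO v M)).mono (one_mul _).le) (by
    rw [valued_det_twist hh hh' hv hdet, ← WithZero.exp_zero, WithZero.exp_lt_exp]
    norm_num)

theorem inCoset_unique (hh : Red.EntLe v 1 (lv v h)) (hh' : Red.EntLe v 1 (lv v h⁻¹))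
    (hv : Valued.v (((p : d.Kf)) : v.adicCompletion d.Kf) = WithZero.exp (-1 : ℤ))
    (hdet : M.det = (p : O)) {i i' : RIdx v} (hi : InCoset v h M i) (hi' : InCoset v h M i') :
    i = i' :=
  idx_unique (valued_det_twist hh hh' hv hdet) hi hi'

/-- Two matrices in the same coset differ by a matrix divisible by the place. -/
theorem mem_of_inCoset (hh : Red.EntLe v 1 (lv v h)) {M' : Matrix (Fin 2) (Fin 2) O} {i : RIdx v}
    (hi : InCoset v h M i) (hi' : InCoset v h M' i) (r s : Fin 2) :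
    (M'.adjugate * M) r s ∈ v.asIdeal := by
  rw [← valued_locO_lt_one]
  set G := lv v h
  set X := lInv v i * (lv v h⁻¹ * M.map (locO v)) with hX
  set X' := lInv v i * (lv v h⁻¹ * M'.map (locO v)) with hX'
  have e : ∀ P : Matrix (Fin 2) (Fin 2) O,
      P.map (locO v) = G * (lRep v i * (lInv v i * (lv v h⁻¹ * P.map (locO v)))) := fun P => by
    rw [← mul_assoc (lRep v i), lRep_mul_lInv, one_mul, ← mul_assoc, lv_mul_inv, one_mul]
  have key : (M'.adjugate * M).map (locO v) = (G.det * (lRep v i).det) • (X'.adjugate * X) := by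
    rw [Matrix.map_mul, ← quotient_mk_adjugate, e M, e M', ← hX, ← hX', Matrix.adjugate_mul_distrib,
      Matrix.adjugate_mul_distrib]
    simp only [mul_assoc]
    rw [← mul_assoc G.adjugate, Matrix.adjugate_mul, smul_mul_assoc, one_mul,
      mul_smul_comm, mul_smul_comm, ← mul_assoc (lRep v i).adjugate, Matrix.adjugate_mul,
      smul_mul_assoc, one_mul, mul_smul_comm, smul_smul]
  have h1 : Red.EntLe v 1 (X'.adjugate * X) := by
    refine (Red.EntLe.mul ?_ hi).mono (one_mul _).le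
    intro a b
    rw [Matrix.adjugate_fin_two]
    fin_cases a <;> fin_cases b <;> simp <;> exact hi' _ _
  have := congrFun (congrFun key r) s
  rw [Matrix.map_apply] at this
  rw [this, Matrix.smul_apply, smul_eq_mul, map_mul, map_mul, valued_det_lRep]
  refine (mul_le_of_le_one_right' (h1 r s)).trans_lt ?_
  refine mul_lt_one_of_nonneg_of_lt_one_right (det_entLe v hh) zero_le ?_
  rw [← WithZero.exp_zero, WithZero.exp_lt_exp]
  norm_num

end

theorem exists_crt {v v' : HeightOneSpectrum (𝓞 d.Kf)} (hne : v ≠ v') {L' : ℕ}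
    (hv : (L' : 𝓞 d.Kf) ∉ v.asIdeal) (hv' : (L' : 𝓞 d.Kf) ∉ v'.asIdeal) (a a' : 𝓞 d.Kf) :
    ∃ y, (L' : 𝓞 d.Kf) ∣ y ∧ y - a ∈ v.asIdeal ∧ y - a' ∈ v'.asIdeal := by
  have hco : v.asIdeal ⊔ v'.asIdeal = ⊤ :=
    v.isMaximal.coprime_of_ne v'.isMaximal fun e => hne (HeightOneSpectrum.ext e)
  obtain ⟨e, he, e', he', hee⟩ := Submodule.mem_sup.1 ((Ideal.eq_top_iff_one _).1 hco)
  obtain ⟨i, c, hc, hi⟩ := v.isMaximal.exists_inv hv
  obtain ⟨i', c', hc', hi'⟩ := v'.isMaximal.exists_inv hv'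
  refine ⟨(L' : 𝓞 d.Kf) * (a * i * e' + a' * i' * e), dvd_mul_right _ _, ?_, ?_⟩
  · rw [show (L' : 𝓞 d.Kf) * (a * i * e' + a' * i' * e) - a
      = -(c * a * e') + ((L' : 𝓞 d.Kf) * a' * i' - a) * e by
        linear_combination (a * e') * hi + a * hee]
    exact add_mem (neg_mem (v.asIdeal.mul_mem_right _ (v.asIdeal.mul_mem_right _ hc)))
      (v.asIdeal.mul_mem_left _ he)
  · rw [show (L' : 𝓞 d.Kf) * (a * i * e' + a' * i' * e) - a'
      = -(c' * a' * e) + ((L' : 𝓞 d.Kf) * a * i - a') * e' by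
        linear_combination (a' * e) * hi' + a' * hee]
    exact add_mem (neg_mem (v'.asIdeal.mul_mem_right _ (v'.asIdeal.mul_mem_right _ hc')))
      (v'.asIdeal.mul_mem_left _ he')

/-- The values of `s`, `t` that move the base coset to `r`. -/
def tgtST {v : HeightOneSpectrum (𝓞 d.Kf)} : RIdx v → 𝓞 d.Kf × 𝓞 d.Kf
  | some u => (Quotient.out u - 1, 1)
  | none => (0, 0)

/-- Some matrix congruent to `diag (1, p)` lies in the given coset. -/
theorem inCoset_basic {v : HeightOneSpectrum (𝓞 d.Kf)} {p : ℕ} (hp : (p : 𝓞 d.Kf) ∈ v.asIdeal)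
    (r : RIdx v) {s t : 𝓞 d.Kf} (hs : s - (tgtST r).1 ∈ v.asIdeal) (ht : t - (tgtST r).2 ∈ v.asIdeal) :
    Red.EntLe v 1 (lInv v r *
      (!![1 + s * t, s * p; t, (p : 𝓞 d.Kf)] : Matrix (Fin 2) (Fin 2) (𝓞 d.Kf)).map (locO v)) := by
  have hdiv : ∀ x : 𝓞 d.Kf, x ∈ v.asIdeal → Valued.v ((piV v)⁻¹ * locO v x) ≤ 1 := fun x hx =>
    valued_div_piV_le v ((valued_locO_lt_one v x).2 hx)
  intro i j
  cases r with
  | none =>
    simp only [tgtST, sub_zero] at hs ht
    fin_cases i <;> fin_cases j <;>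
      simp only [lInv, Matrix.mul_apply, Fin.sum_univ_two, Matrix.of_apply, Matrix.cons_val',
        Matrix.cons_val_zero, Matrix.cons_val_one, Matrix.cons_val_fin_one, Matrix.map_apply,
        Fin.zero_eta, Fin.mk_one, one_mul, zero_mul, add_zero, zero_add]
    · exact valued_int_le_one v _
    · exact valued_int_le_one v _
    · exact hdiv _ ht
    · exact hdiv _ hp
  | some u =>
    simp only [tgtST] at hs ht
    set a : 𝓞 d.Kf := Quotient.out u
    fin_cases i <;> fin_cases j <;>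
      simp only [lInv, Matrix.mul_apply, Fin.sum_univ_two, Matrix.of_apply, Matrix.cons_val',
        Matrix.cons_val_zero, Matrix.cons_val_one, Matrix.cons_val_fin_one, Matrix.map_apply,
        Fin.zero_eta, Fin.mk_one, one_mul, zero_mul, add_zero, zero_add]
    · refine le_of_eq_of_le ?_ (hdiv (1 + s * t - a * t)
        (by
          rw [show 1 + s * t - a * t = (s - (a - 1)) * t - (t - 1) by ring]
          exact sub_mem (v.asIdeal.mul_mem_right _ hs) ht))
      congr 1
      rw [show (((Quotient.out u : 𝓞 d.Kf) : d.Kf) : v.adicCompletion d.Kf) = locO v a from rfl,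
        map_sub, map_mul (locO v) a]
      ring
    · refine le_of_eq_of_le ?_ (hdiv (s * p - a * p)
        (sub_mem (v.asIdeal.mul_mem_left _ hp) (v.asIdeal.mul_mem_left _ hp)))
      congr 1
      rw [show (((Quotient.out u : 𝓞 d.Kf) : d.Kf) : v.adicCompletion d.Kf) = locO v a from rfl,
        map_sub, map_mul (locO v) a]
      ring
    · exact valued_int_le_one v _
    · exact valued_int_le_one v _

/-- **D-bridge.** -/
theorem bridge (d : Octa) : Bridge d := by
  intro N ψ hN hcz hfe her g m hm hinv hper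
  classical
  have hne : ψ ≠ 0 := by
    rintro rfl
    exact hper (by simp [period, planeRes])
  obtain ⟨n, hn, hden⟩ := Red.exists_den (Set.finite_singleton g)
  have hg := hden g rfl
  obtain ⟨hN0, hN3, hNr⟩ := hN
  set L := N * n ^ 2 with hL
  have hL0 : 0 < L := Nat.mul_pos hN0 (pow_pos hn 2)
  have : NeZero L := ⟨hL0.ne'⟩
  have hL1 : 1 < L := lt_of_lt_of_le (by norm_num : 1 < 3)
    (Nat.le_of_dvd hL0 (dvd_mul_of_dvd_left hN3 _))
  have hgood : d.Good L := ⟨hL0, dvd_mul_of_dvd_left hN3 _,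
    fun p hp hpL => hNr p hp fun h => hpL (dvd_mul_of_dvd_left h _)⟩
  have hper1 : (fun τ => uFun ψ g (1 : (ZMod L)ˣ) (planeEmb τ)) = planeRes ψ g := funext fun τ => by
    rw [uFun, aD_one hL1, one_mul]
    rfl
  refine ⟨{
    L := L
    good := hgood
    u := uFun ψ g
    isU := isU_uFun hcz hn hg hL
    eigen := ?_
    period_ne := ⟨1, m, hm, fun γ hγ τ => ?_, ?_⟩ }⟩
  rotate_left
  · exact (congrFun hper1 (γ • τ)).trans ((hinv γ hγ τ).trans (congrFun hper1 τ).symm)
  · rw [hper1]; exact hper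
  intro p hp A hA σ hσ hGM L' hLL' hL'0 hpL' R hR a b hab x
  have hpL : ¬ p ∣ L := fun h => hpL' (h.trans hLL')
  have hpN : ¬ p ∣ N := fun h => hpL (dvd_mul_of_dvd_left h _)
  have hp3 : ¬ 3 ∣ p := fun h =>
    hpN ((Nat.prime_dvd_prime_iff_eq Nat.prime_three hp).1 h ▸ hN3)
  obtain ⟨v, v', hvne, hv, hv', hw, hdvd, heig⟩ := split_places d hp hp3 hA hσ hGM
  obtain ⟨he, he'⟩ := heig N ψ her hpN
  have hmem : ∀ u : HeightOneSpectrum (𝓞 d.Kf),
      Valued.v (((p : d.Kf)) : u.adicCompletion d.Kf) = WithZero.exp (-1 : ℤ) →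
      (p : 𝓞 d.Kf) ∈ u.asIdeal := fun u h => by
    rw [← valued_locO_lt_one, map_natCast, ← map_natCast (algebraMap d.Kf (u.adicCompletion d.Kf))]
    show Valued.v (((p : d.Kf)) : u.adicCompletion d.Kf) < 1
    rw [h, ← WithZero.exp_zero, WithZero.exp_lt_exp]
    norm_num
  have hcop : ∀ (M : ℕ) (u : HeightOneSpectrum (𝓞 d.Kf)), ¬ p ∣ M → (p : 𝓞 d.Kf) ∈ u.asIdeal →
      (M : 𝓞 d.Kf) ∉ u.asIdeal := fun M u hM hu =>
    natCast_notMem_of_coprime (hp.coprime_iff_not_dvd.2 hM) hu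
  set G := aD a * g
  have hGloc : ∀ u : HeightOneSpectrum (𝓞 d.Kf), (p : 𝓞 d.Kf) ∈ u.asIdeal →
      Red.EntLe u 1 (lv u G) ∧ Red.EntLe u 1 (lv u G⁻¹) := fun u hu => by
    have hnu : (n : 𝓞 d.Kf) ∉ u.asIdeal :=
      hcop n u (fun h => hpL (h.trans (dvd_mul_of_dvd_right (dvd_pow_self n two_ne_zero) _))) hu
    obtain ⟨hgi, hgi'⟩ := entLe_lv_of_den hg hnu
    refine ⟨?_, ?_⟩
    · rw [lv_mul]
      exact ((Red.entLe_of_inLevel_one (inLevel_aD a) u).mul hgi).mono (one_mul _).le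
    · rw [_root_.mul_inv_rev, lv_mul]
      exact (hgi'.mul (Red.entLe_of_inLevel_one (Red.InLevel.inv (inLevel_aD a)) u)).mono (one_mul _).le
  have hGv := hGloc v (hmem v hv)
  have hGv' := hGloc v' (hmem v' hv')
  have : Fintype (RIdx v) := Fintype.ofFinite _
  have : Fintype (RIdx v') := Fintype.ofFinite _
  -- the eigenvalue as a double sum
  have hsum : (p : ℂ) * d.tr0 σ ^ 2 * uFun ψ g a x =
      ∑ q : RIdx v × RIdx v', ψ (fun _ => x) (G * hRep v q.1 * hRep v' q.2) := by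
    rw [Fintype.sum_prod_type]
    simp only [← hecke_eq_sum, he']
    rw [← Finset.mul_sum, ← hecke_eq_sum, he, uFun]
    have hsq : (Real.sqrt (p : ℝ) : ℂ) ^ 2 = (p : ℂ) := by
      rw [← Complex.ofReal_pow, Real.sq_sqrt (Nat.cast_nonneg p)]
      simp
    linear_combination (-(d.tr0 σ ^ 2 * ψ (fun _ => x) (aD a * g))) * hsq
  rw [hsum]
  -- the pair of a representative
  have hspec : ∀ δ ∈ R, (matOf d δ).det = (p : 𝓞 d.Kf) := fun δ hδ => (matOf_spec (hR.1 hδ)).1
  choose i1 hi1 using fun δ hδ => exists_inCoset (h := G) hGv.1 hGv.2 hv (hspec δ hδ)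
  choose j1 hj1 using fun δ hδ => exists_inCoset (h := G) hGv'.1 hGv'.2 hv' (hspec δ hδ)
  symm
  refine Finset.sum_bij (fun δ hδ => (i1 δ hδ, j1 δ hδ)) (fun _ _ => Finset.mem_univ _)
    (fun δ hδ δ' hδ' heq => ?_) (fun q _ => ?_) fun δ hδ => ?_
  · -- injective
    obtain ⟨ei, ej⟩ := Prod.ext_iff.1 heq
    simp only at ei ej
    obtain ⟨hint, hdet, hcong⟩ := hR.1 hδ
    obtain ⟨hint', hdet', hcong'⟩ := hR.1 hδ'
    set Mδ := preM d δ.val
    set Mδ' := preM d δ'.val
    have hW : ∀ r s, (p : 𝓞 d.Kf) ∣ (Mδ' * matOf d δ) r s := fun r s => by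
      have e : (matOf d δ').adjugate = Mδ' := by
        rw [matOf, Matrix.adjugate_adjugate' , Fintype.card_fin]
        simp [Mδ']
      refine hdvd _ ?_ ?_
      · rw [← e]; exact mem_of_inCoset hGv.1 (hi1 δ hδ) (ei ▸ hi1 δ' hδ') r s
      · rw [← e]; exact mem_of_inCoset hGv'.1 (hj1 δ hδ) (ej ▸ hj1 δ' hδ') r s
    choose q hq using hW
    set Q : Matrix (Fin 2) (Fin 2) (𝓞 d.Kf) := Matrix.of q
    have hpQ : Mδ' * matOf d δ = (p : 𝓞 d.Kf) • Q := Matrix.ext fun r s => hq r s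
    have hp0 : (p : 𝓞 d.Kf) ≠ 0 := Nat.cast_ne_zero.2 hp.ne_zero
    have hQM : Q * Mδ = Mδ' := by
      have h1 : (p : 𝓞 d.Kf) • (Q * Mδ) = (p : 𝓞 d.Kf) • Mδ' := by
        rw [← smul_mul_assoc, ← hpQ, mul_assoc, matOf, Matrix.adjugate_mul,
          det_preM hint hdet, mul_smul_comm, mul_one]
      exact smul_right_injective _ hp0 h1
    have hγval : (δ' * δ⁻¹).val = Q.map (iotaK d) := by
      have e : (δ' * δ⁻¹).val * δ.val = Q.map (iotaK d) * δ.val := by
        rw [← Units.val_mul, inv_mul_cancel_right, ← map_preM (d := d) hint, ← Matrix.map_mul, hQM,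
          map_preM hint']
      exact (Units.isUnit δ).mul_left_injective e
    have hmemO : δ' * δ⁻¹ ∈ slO := by
      refine ⟨fun r s => ?_, ?_⟩
      · rw [hγval]; exact iotaK_mem d _
      · have e := congrArg Matrix.det (show (δ' * δ⁻¹).val * δ.val = δ'.val by
          rw [← Units.val_mul, inv_mul_cancel_right])
        rw [Matrix.det_mul, hdet, hdet'] at e
        exact mul_right_cancel₀ (Nat.cast_ne_zero.2 hp.ne_zero) (e.trans (one_mul _).symm)
    have hmemL : (⟨δ' * δ⁻¹, hmemO⟩ : slO) ∈ slOL L' := fun r s => by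
      show DvdOw L' ((δ' * δ⁻¹).val r s - _)
      rw [hγval, Matrix.map_apply,
        show (1 : Matrix (Fin 2) (Fin 2) ℂ) r s = iotaK d ((1 : Matrix (Fin 2) (Fin 2) (𝓞 d.Kf)) r s) by
          fin_cases r <;> fin_cases s <;> simp, ← map_sub]
      refine dvdOw_of_dvd d ?_
      let f := Ideal.Quotient.mk (Ideal.span {(L' : 𝓞 d.Kf)})
      have hc : ∀ y c : 𝓞 d.Kf, (L' : 𝓞 d.Kf) ∣ y - c → f y = f c := fun y c h =>
        Ideal.Quotient.eq.2 (Ideal.mem_span_singleton.2 h)
      obtain ⟨-, m00, m01, m10, m11⟩ := matOf_spec (d := d) (hR.1 hδ)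
      have n00 : (L' : 𝓞 d.Kf) ∣ Mδ' 0 0 - p := dvd_preM hint' (by simpa using hcong' 0 0)
      have n01 : (L' : 𝓞 d.Kf) ∣ Mδ' 0 1 := by
        simpa using dvd_preM (c := 0) hint' (by simpa using hcong' 0 1)
      have n10 : (L' : 𝓞 d.Kf) ∣ Mδ' 1 0 := by
        simpa using dvd_preM (c := 0) hint' (by simpa using hcong' 1 0)
      have n11 : (L' : 𝓞 d.Kf) ∣ Mδ' 1 1 - 1 := dvd_preM hint' (by simpa using hcong' 1 1)
      have hW : (L' : 𝓞 d.Kf) ∣ (p : 𝓞 d.Kf) * (Q r s - (1 : Matrix (Fin 2) (Fin 2) (𝓞 d.Kf)) r s) := by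
        rw [← Ideal.mem_span_singleton, ← Ideal.Quotient.eq_zero_iff_mem]
        show f _ = 0
        rw [mul_sub, map_sub, sub_eq_zero, show (p : 𝓞 d.Kf) * Q r s = (Mδ' * matOf d δ) r s from
          (hq r s).symm, Matrix.mul_apply, Fin.sum_univ_two, map_add, map_mul, map_mul]
        fin_cases r <;> fin_cases s <;>
          simp [hc _ _ n00, hc _ _ n11, hc _ _ m00, hc _ _ m11, hc _ 0 (by simpa using n01),
            hc _ 0 (by simpa using n10), hc _ 0 (by simpa using m01), hc _ 0 (by simpa using m10)]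
      obtain ⟨i, j, hij⟩ := Nat.isCoprime_iff_coprime.2 (hp.coprime_iff_not_dvd.2 hpL')
      have e := congrArg (fun z : ℤ => (z : 𝓞 d.Kf)) hij
      push_cast at e
      rw [show Q r s - (1 : Matrix (Fin 2) (Fin 2) (𝓞 d.Kf)) r s =
        (i : 𝓞 d.Kf) * ((p : 𝓞 d.Kf) * (Q r s - (1 : Matrix (Fin 2) (Fin 2) (𝓞 d.Kf)) r s)) +
          (L' : 𝓞 d.Kf) * ((j : 𝓞 d.Kf) * (Q r s - (1 : Matrix (Fin 2) (Fin 2) (𝓞 d.Kf)) r s)) by
        linear_combination (-(Q r s - (1 : Matrix (Fin 2) (Fin 2) (𝓞 d.Kf)) r s)) * e]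
      exact dvd_add (dvd_mul_of_dvd_right hW _) (dvd_mul_right _ _)
    obtain ⟨r0, -, huniq⟩ := hR.2 δ' (hR.1 hδ')
    rw [huniq δ ⟨hδ, ⟨δ' * δ⁻¹, hmemO⟩, hmemL, (inv_mul_cancel_right δ' δ).symm⟩,
      huniq δ' ⟨hδ', 1, one_mem _, (one_mul δ').symm⟩]
  · -- surjective
    obtain ⟨qi, qj⟩ := q
    have key : ∀ (u : HeightOneSpectrum (𝓞 d.Kf)) (hu : (p : 𝓞 d.Kf) ∈ u.asIdeal) (k : RIdx u),
        ∃ k1 : RIdx u, ∀ P : Matrix (Fin 2) (Fin 2) (𝓞 d.Kf),
          Red.EntLe u 1 (lInv u k1 * P.map (locO u)) → InCoset u G P k := fun u hu k => by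
      obtain ⟨hG1, hG2⟩ := hGloc u hu
      have hd : Valued.v (lv u G).det = 1 := det_valued_eq_one hG1 hG2 (lv_mul_inv u _)
      obtain ⟨k1, hk1⟩ := exists_target u hG1 hd k
      refine ⟨k1, fun P hP => ?_⟩
      have hd1 : Valued.v (lInv u k1 * lv u G * lRep u k).det = 1 := by
        rw [Matrix.det_mul, Matrix.det_mul, map_mul, map_mul, valued_det_lInv, hd, valued_det_lRep,
          mul_one, ← WithZero.exp_add, show (1 : ℤ) + -1 = 0 by norm_num, WithZero.exp_zero]
      have e : lInv u k1 * lv u G * lRep u k * (lInv u k * lv u G⁻¹ * lRep u k1) = 1 := by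
        rw [show lInv u k1 * lv u G * lRep u k * (lInv u k * lv u G⁻¹ * lRep u k1) =
          lInv u k1 * (lv u G * (lRep u k * lInv u k) * lv u G⁻¹) * lRep u k1 by simp only [mul_assoc],
          lRep_mul_lInv, mul_one, lv_mul_inv, mul_one, lInv_mul_lRep]
      have h := (entLe_of_det_eq_one hk1 hd1 e).mul hP
      rw [one_mul, show lInv u k * lv u G⁻¹ * lRep u k1 * (lInv u k1 * P.map (locO u)) =
        lInv u k * (lv u G⁻¹ * (lRep u k1 * lInv u k1) * P.map (locO u)) by simp only [mul_assoc],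
        lRep_mul_lInv, mul_one] at h
      exact h
    obtain ⟨ki, hki⟩ := key v (hmem v hv) qi
    obtain ⟨kj, hkj⟩ := key v' (hmem v' hv') qj
    have hLv := hcop L' v hpL' (hmem v hv)
    have hLv' := hcop L' v' hpL' (hmem v' hv')
    obtain ⟨s, hs, hsv, hsv'⟩ := exists_crt hvne hLv hLv' (tgtST ki).1 (tgtST kj).1
    obtain ⟨t, ht, htv, htv'⟩ := exists_crt hvne hLv hLv' (tgtST ki).2 (tgtST kj).2
    set M : Matrix (Fin 2) (Fin 2) (𝓞 d.Kf) := !![1 + s * t, s * p; t, (p : 𝓞 d.Kf)]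
    have hMdet : M.det = (p : 𝓞 d.Kf) := by simp [M, Matrix.det_fin_two_of]; ring
    have hMi : InCoset v G M qi := hki M (inCoset_basic (hmem v hv) ki hsv htv)
    have hMj : InCoset v' G M qj := hkj M (inCoset_basic (hmem v' hv') kj hsv' htv')
    have hadj : (M.adjugate.map (iotaK d)).det = (p : ℂ) := by
      rw [← RingHom.mapMatrix_apply, ← RingHom.map_det, Matrix.det_adjugate, hMdet]
      simp
    set δ0 : GL (Fin 2) ℂ := Matrix.GeneralLinearGroup.mkOfDetNeZero (M.adjugate.map (iotaK d))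
      (by rw [hadj]; exact Nat.cast_ne_zero.2 hp.ne_zero)
    have hδ0v : δ0.val = M.adjugate.map (iotaK d) := rfl
    have hδ0 : δ0 ∈ deltaSet L' p := by
      refine ⟨fun r c => ?_, by rw [hδ0v]; exact hadj, fun r c => ?_⟩
      · rw [hδ0v]; exact iotaK_mem d _
      · rw [hδ0v, Matrix.map_apply, show (!![(p : ℂ), 0; 0, 1] : Matrix (Fin 2) (Fin 2) ℂ) r c =
          iotaK d ((!![(p : 𝓞 d.Kf), 0; 0, 1] : Matrix (Fin 2) (Fin 2) (𝓞 d.Kf)) r c) by
            fin_cases r <;> fin_cases c <;> simp, ← map_sub]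
        refine dvdOw_of_dvd d ?_
        rw [Matrix.adjugate_fin_two_of]
        fin_cases r <;> fin_cases c <;> simp
        · exact hs.mul_right _
        · exact ht
        · exact ht.mul_left _
    obtain ⟨r, ⟨hrR, γ, hγ, hreq⟩, -⟩ := hR.2 δ0 hδ0
    have hγi : IntMat ((γ⁻¹ : slO) : GL (Fin 2) ℂ).val := (γ⁻¹).2.1
    have hr : r = ((γ⁻¹ : slO) : GL (Fin 2) ℂ) * δ0 := by rw [hreq]; simp
    have hMr : matOf d r = M * (preM d ((γ⁻¹ : slO) : GL (Fin 2) ℂ).val).adjugate := by
      have e : preM d r.val = preM d ((γ⁻¹ : slO) : GL (Fin 2) ℂ).val * M.adjugate := mapM_injective (by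
        show (preM d r.val).map (iotaK d) = (_ * M.adjugate).map (iotaK d)
        rw [map_preM (hR.1 hrR).1, Matrix.map_mul, map_preM hγi, ← hδ0v, hr]
        rfl)
      rw [matOf, e, Matrix.adjugate_mul_distrib, Matrix.adjugate_adjugate', Fintype.card_fin]
      simp
    have htr : ∀ (u : HeightOneSpectrum (𝓞 d.Kf)) (k : RIdx u), InCoset u G M k →
        InCoset u G (matOf d r) k := fun u k hk => by
      rw [InCoset, hMr, Matrix.map_mul, ← mul_assoc (lv u G⁻¹), ← mul_assoc (lInv u k)]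
      exact (Red.EntLe.mul hk (entLe_map_locO u _)).mono (one_mul _).le
    exact ⟨r, hrR, Prod.ext (inCoset_unique hGv.1 hGv.2 hv (hspec r hrR) (hi1 r hrR) (htr v qi hMi))
      (inCoset_unique hGv'.1 hGv'.2 hv' (hspec r hrR) (hj1 r hrR) (htr v' qj hMj))⟩
  · -- the values
    obtain ⟨hint, hdet, -⟩ := hR.1 hδ
    obtain ⟨hMdet, m00, m01, m10, m11⟩ := matOf_spec (d := d) (hR.1 hδ)
    have hLO : (L : 𝓞 d.Kf) ∣ (L' : 𝓞 d.Kf) := Nat.cast_dvd_cast hLL'
    have hp0 : (p : 𝓞 d.Kf) ≠ 0 := Nat.cast_ne_zero.2 hp.ne_zero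
    have hd1 : (preM d δ.val).det ≠ 0 := by rw [det_preM hint hdet]; exact hp0
    have hd2 : (matOf d δ).det ≠ 0 := by rw [hMdet]; exact hp0
    set δF := glF (preM d δ.val) hd1
    set MF := glF (matOf d δ) hd2 with hMF
    set pK : d.Kfˣ := Units.mk0 (p : d.Kf) (Nat.cast_ne_zero.2 hp.ne_zero)
    set pA : (Af d.Kf)ˣ := Units.map (algebraMap d.Kf (Af d.Kf)).toMonoidHom pK
    have hmul : toFin δF * toFin MF = scalarGF pA := by
      refine Units.ext ?_
      rw [Units.val_mul]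
      show (algebraMap d.Kf (Af d.Kf)).mapMatrix δF.val * (algebraMap d.Kf (Af d.Kf)).mapMatrix MF.val = _
      rw [← map_mul, glF_val, hMF, glF_val, ← map_mul, matOf, Matrix.mul_adjugate,
        det_preM hint hdet]
      refine Matrix.ext fun r c => ?_
      fin_cases r <;> fin_cases c <;> simp [pA, pK, scalarGF, Matrix.natCast_apply]
    have hinvF : (toFin δF)⁻¹ = toFin MF * scalarGF pA⁻¹ := inv_eq_of_mul_eq_one_right (by
      rw [← mul_assoc, hmul, ← Red.scalarGF_mul, mul_inv_cancel, Red.scalarGF_one])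
    have hval : uFun ψ g b (act δ x) = ψ (fun _ => x) (toFin MF * (aD b * g)) := by
      rw [uFun, ← actInf_const δF δ (by rw [glF_val, map_iotaK, map_preM hint]) x,
        ← mul_inv_cancel_left (toFin δF) (aD b * g), hcz.aut.left_inv, mul_inv_cancel_left, hinvF,
        mul_assoc (toFin MF), Red.scalarGF_comm, ← mul_assoc, hcz.aut.central]
    rw [hval]
    refine apply_eq_of_idx hcz.aut hn hg hL hvne hv hv' hw (hcop L v hpL (hmem v hv))
      (hcop L v' hpL (hmem v' hv')) a b hab (matOf d δ) MF (fun _ _ => rfl) hMdet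
      (hLO.trans m00) (hLO.trans m01) (hLO.trans m10) (hLO.trans m11) ?_ ?_ _
    · rw [hMF, lv_toFin_glF]; exact hi1 δ hδ
    · rw [hMF, lv_toFin_glF]; exact hj1 δ hδ

end FLTAgent.LT.Theta31
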