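import Fermat.Agent.LT.Theta31.Geom
import Fermat.Agent.LT.TF.Action
import Fermat.Agent.LT.RS.Weight

/-!
# `SL₂(ℤ[ω])` on upper half space: a covering box and weights
-/

set_option autoImplicit false

noncomputable section

namespace FLTAgent.LT.Theta31

open Complex Matrix MeasureTheory Set Hyp
open scoped Real ComplexConjugate ENNReal

theorem normSq_mem_Ow (m n : ℤ) :
    normSq ((m : ℂ) + n * omC) = ((m : ℝ) + n / 2) ^ 2 + 3 / 4 * (n : ℝ) ^ 2 := by
  have h3 : Real.sqrt 3 ^ 2 = 3 := Real.sq_sqrt (by norm_num)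
  simp [Complex.normSq_apply, omC]
  linear_combination ((n : ℝ) ^ 2 / 4) * h3

/-- Bounded subsets of `ℤ[ω]` are finite. -/
theorem finite_Ow_le (r : ℝ) : {z : ℂ | z ∈ Ow ∧ ‖z‖ ≤ r}.Finite := by
  set B : ℤ := ⌈2 * r⌉ + 1
  refine (((finite_Icc (-B) B).prod (finite_Icc (-B) B)).image
    fun x : ℤ × ℤ => (x.1 : ℂ) + x.2 * omC).subset ?_
  rintro z ⟨⟨m, n, rfl⟩, hz⟩
  have hr : 0 ≤ r := (norm_nonneg _).trans hz
  have hn := normSq_mem_Ow m n
  rw [Complex.normSq_eq_norm_sq] at hn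
  have h2 : ‖(m : ℂ) + n * omC‖ ^ 2 ≤ r ^ 2 := pow_le_pow_left₀ (norm_nonneg _) hz 2
  have hB : (2 * r : ℝ) ≤ B := by
    have := Int.le_ceil (2 * r)
    simp only [B]; push_cast; linarith
  have a1 : |(n : ℝ)| ≤ 2 * r := abs_le_of_sq_le_sq (by nlinarith) (by linarith)
  have a2 : |(m : ℝ) + n / 2| ≤ r := abs_le_of_sq_le_sq (by nlinarith) hr
  have b1 := abs_le.1 a1
  have b2 := abs_le.1 a2
  refine ⟨(m, n), ⟨⟨?_, ?_⟩, ⟨?_, ?_⟩⟩, rfl⟩ <;>
    · rw [← Int.cast_le (R := ℝ)]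
      push_cast
      linarith

theorem one_le_norm_Ow {z : ℂ} (hz : z ∈ Ow) (h0 : z ≠ 0) : 1 ≤ ‖z‖ := by
  obtain ⟨m, n, rfl⟩ := hz
  have hn := normSq_mem_Ow m n
  rw [Complex.normSq_eq_norm_sq] at hn
  have h1 : (1 : ℝ) ≤ ((m : ℝ) + n / 2) ^ 2 + 3 / 4 * (n : ℝ) ^ 2 := by
    have e : ((m : ℝ) + n / 2) ^ 2 + 3 / 4 * (n : ℝ) ^ 2 = ((m * m + m * n + n * n : ℤ) : ℝ) := by
      push_cast; ring
    rw [e]
    have : 1 ≤ m * m + m * n + n * n := by
      by_contra hc
      have h2 : m * m + m * n + n * n ≤ 0 := by omega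
      have hn0 : n = 0 := by nlinarith [sq_nonneg (2 * m + n), sq_nonneg n]
      have hm0 : m = 0 := by subst hn0; nlinarith
      subst hn0 hm0
      simp at h0
    exact_mod_cast this
  nlinarith [norm_nonneg ((m : ℂ) + n * omC)]

instance countable_Ow : Countable Ow :=
  (show Function.Surjective (fun x : ℤ × ℤ => (⟨x.1 + x.2 * omC, x.1, x.2, rfl⟩ : Ow)) from
    fun ⟨z, m, n, h⟩ => ⟨(m, n), Subtype.ext h.symm⟩).countable

/-- `SL₂(ℤ[ω])`. -/
def slO : Subgroup (GL (Fin 2) ℂ) where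
  carrier := {g | IntMat g.val ∧ g.val.det = 1}
  mul_mem' {a b} ha hb := ⟨by rw [Units.val_mul]; exact intMat_mul ha.1 hb.1,
    by rw [Units.val_mul, det_mul, ha.2, hb.2, one_mul]⟩
  one_mem' := ⟨fun i j => by fin_cases i <;> fin_cases j <;> simp [one_mem, zero_mem], by simp⟩
  inv_mem' {a} ha := by
    refine ⟨fun i j => ?_, ?_⟩
    · rw [Matrix.coe_units_inv, Matrix.inv_def, ha.2, Ring.inverse_one, one_smul,
        Matrix.adjugate_fin_two]
      fin_cases i <;> fin_cases j <;> simp [ha.1 0 0, ha.1 0 1, ha.1 1 0, ha.1 1 1]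
    · rw [Matrix.coe_units_inv, Matrix.det_nonsing_inv, ha.2, Ring.inverse_one]

theorem det_slO (g : slO) : (Matrix.GeneralLinearGroup.det g.1 : ℂ) = 1 := g.2.2

theorem norm_det_slO (g : slO) : ‖(Matrix.GeneralLinearGroup.det g.1 : ℂ)‖ = 1 := by
  rw [det_slO, norm_one]

instance countable_slO : Countable slO :=
  (show Function.Injective (fun g : slO => fun (i j : Fin 2) => (⟨g.1.val i j, g.2.1 i j⟩ : Ow))
    from fun g h e => Subtype.ext (Units.ext (Matrix.ext fun i j =>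
      congrArg Subtype.val (congrFun (congrFun e i) j)))).countable

instance instMulActionSlO : MulAction slO H3 where
  smul g p := act g.1 p
  one_smul := act_one
  mul_smul g h := act_mul g.1 h.1

theorem slO_smul_def (g : slO) (p : H3) : g • p = act g.1 p := rfl

instance instMeasurableConstSMulSlO : MeasurableConstSMul slO H3 :=
  ⟨fun g => measurable_act g.1⟩

instance instSMulInvariantMeasureSlO : SMulInvariantMeasure slO H3 hypMeasure :=
  ⟨fun g _ hs => (measurePreserving_act g.1).measure_preimage hs.nullMeasurableSet⟩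

/-- `|a z + b|² + |a|² t²`, the row form of a point. -/
def rowDen (a b : ℂ) (p : H3) : ℝ := normSq (a * p.1 + b) + normSq a * (p.2 : ℝ) ^ 2

theorem den_eq_rowDen (g : GL (Fin 2) ℂ) (p : H3) : den g p = rowDen (g 1 0) (g 1 1) p := rfl

theorem rowDen_nonneg (a b : ℂ) (p : H3) : 0 ≤ rowDen a b p :=
  add_nonneg (normSq_nonneg _) (mul_nonneg (normSq_nonneg _) (sq_nonneg _))

/-- The top entry of the congruent matrix. -/
theorem rowDen_top (g : slO) (p : H3) :
    rowDen (g.1 0 0) (g.1 0 1) p * ((g • p).2 : ℝ) =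
      (p.2 : ℝ) * (normSq (g • p).1 + ((g • p).2 : ℝ) ^ 2) := by
  have h := congrFun (congrFun (mul_herm_mul g.1 p) 0) 0
  rw [norm_det_slO, ofReal_one, one_smul] at h
  simp only [herm, Matrix.mul_apply, Fin.sum_univ_two, Matrix.conjTranspose_apply,
    Matrix.smul_apply, Matrix.of_apply, Matrix.cons_val', Matrix.cons_val_zero, Matrix.cons_val_one,
    Matrix.empty_val', Matrix.cons_val_fin_one, smul_eq_mul, RCLike.star_def] at h
  have hp := snd_ne_zero p
  have hq := snd_ne_zero (act g.1 p)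
  field_simp at h
  apply ofReal_injective
  simp only [rowDen, slO_smul_def]
  push_cast [← Complex.mul_conj]
  simp only [map_add, map_mul]
  linear_combination h

/-- The finitely many rows of bounded form. -/
theorem finite_rowDen_le (p : H3) (K : ℝ) :
    {x : ℂ × ℂ | x.1 ∈ Ow ∧ x.2 ∈ Ow ∧ rowDen x.1 x.2 p ≤ K}.Finite := by
  have ht : (0 : ℝ) < p.2 := p.2.2
  refine ((finite_Ow_le (Real.sqrt K / (p.2 : ℝ))).prod
    (finite_Ow_le (Real.sqrt K + Real.sqrt K / (p.2 : ℝ) * ‖p.1‖))).subset ?_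
  rintro ⟨a, b⟩ ⟨ha, hb, h⟩
  simp only [rowDen, Complex.normSq_eq_norm_sq] at h
  have h1 : ‖a * p.1 + b‖ ≤ Real.sqrt K := Real.le_sqrt_of_sq_le (by nlinarith)
  have h2 : ‖a‖ ≤ Real.sqrt K / (p.2 : ℝ) := by
    rw [le_div_iff₀ ht]
    exact Real.le_sqrt_of_sq_le (by nlinarith [sq_nonneg ‖a * p.1 + b‖])
  refine ⟨⟨ha, h2⟩, hb, ?_⟩
  have h3 : ‖b‖ ≤ ‖a * p.1 + b‖ + ‖a * p.1‖ := by
    have := norm_sub_le (a * p.1 + b) (a * p.1)
    rwa [add_sub_cancel_left] at this
  rw [norm_mul] at h3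
  nlinarith [mul_le_mul_of_nonneg_right h2 (norm_nonneg p.1)]

/-- The covering box. -/
def boxC : Set H3 := {p | normSq p.1 ≤ 1 ∧ 1 / 2 ≤ (p.2 : ℝ) ^ 2}

theorem measurableSet_boxC : MeasurableSet boxC :=
  (measurableSet_le (by fun_prop : Measurable fun p : H3 => normSq p.1) measurable_const).inter
    (measurableSet_le measurable_const (by fun_prop : Measurable fun p : H3 => (p.2 : ℝ) ^ 2))

theorem finite_setOf_smul_mem_boxC (p : H3) : {g : slO | g • p ∈ boxC}.Finite := by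
  have ht : (0 : ℝ) < p.2 := p.2.2
  set m := min 1 ((p.2 : ℝ) ^ 2)
  have hm : 0 < m := lt_min one_pos (by positivity)
  set T := (p.2 : ℝ) / m
  set K := max (2 * (p.2 : ℝ)) ((p.2 : ℝ) * (1 / (1 / 2) + T))
  set R := {x : ℂ × ℂ | x.1 ∈ Ow ∧ x.2 ∈ Ow ∧ rowDen x.1 x.2 p ≤ K}
  refine Finite.of_finite_image (f := fun g : slO => ((g.1 0 0, g.1 0 1), (g.1 1 0, g.1 1 1)))
    (((finite_rowDen_le p K).prod (finite_rowDen_le p K)).subset ?_) fun g _ h _ e => ?_
  · rintro _ ⟨g, ⟨hz, htg⟩, rfl⟩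
    set s : ℝ := ((g • p).2 : ℝ) with hs
    have hs0 : 0 < s := (g • p).2.2
    have hd : den g.1 p * s = p.2 := by
      rw [hs, slO_smul_def, coe_act_snd, norm_det_slO, one_mul, mul_div_cancel₀ _ (den_pos _ p).ne']
    have hrow : m ≤ den g.1 p := by
      have hdet := g.2.2
      rw [Matrix.det_fin_two] at hdet
      rw [den_eq_rowDen, rowDen]
      rcases eq_or_ne (g.1 1 0) 0 with hc | hc
      · refine (min_le_left _ _).trans ?_
        have h0 : g.1 1 1 ≠ 0 := fun h0 => by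
          rw [show (g.1.val 1 0) = 0 from hc, show g.1.val 1 1 = 0 from h0] at hdet
          simp at hdet
        have := one_le_norm_Ow (g.2.1 1 1) h0
        simp only [hc, zero_mul, zero_add, map_zero, add_zero, Complex.normSq_eq_norm_sq]
        nlinarith
      · refine (min_le_right _ _).trans ?_
        have := one_le_norm_Ow (g.2.1 1 0) hc
        have h1 : 1 ≤ normSq (g.1 1 0) := by rw [Complex.normSq_eq_norm_sq]; nlinarith
        nlinarith [normSq_nonneg (g.1 1 0 * p.1 + g.1 1 1),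
          mul_le_mul_of_nonneg_right h1 (sq_nonneg (p.2 : ℝ))]
    have hsT : s ≤ T := by
      rw [le_div_iff₀ hm]
      calc s * m ≤ s * den g.1 p := mul_le_mul_of_nonneg_left hrow hs0.le
        _ = _ := by rw [mul_comm, hd]
    have hs2 : 1 / 2 ≤ s := by nlinarith
    refine ⟨⟨g.2.1 0 0, g.2.1 0 1, ?_⟩, g.2.1 1 0, g.2.1 1 1, ?_⟩
    · refine le_trans ?_ (le_max_right _ _)
      have h := rowDen_top g p
      rw [← eq_div_iff hs0.ne'] at h
      rw [h, mul_div_assoc]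
      refine mul_le_mul_of_nonneg_left ?_ ht.le
      rw [div_le_iff₀ hs0]
      have : (1 : ℝ) ≤ 1 / (1 / 2) * s := by linarith
      nlinarith [mul_le_mul_of_nonneg_left hsT hs0.le]
    · refine le_trans ?_ (le_max_left _ _)
      rw [← den_eq_rowDen]
      nlinarith [den_pos g.1 p]
  · refine Subtype.ext (Units.ext ?_)
    simp only [Prod.mk.injEq] at e
    ext i j
    fin_cases i <;> fin_cases j <;> simp [e]

/-- Translations and inversion. -/
def trO {n : ℂ} (hn : n ∈ Ow) : slO :=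
  ⟨upperC 1 n 1 one_ne_zero one_ne_zero, by
    refine ⟨fun i j => ?_, ?_⟩
    · fin_cases i <;> fin_cases j <;> simp [upperC, hn, one_mem, zero_mem]
    · simp [upperC, Matrix.det_fin_two]⟩

/-- The inversion. -/
def invO : slO :=
  ⟨Matrix.GeneralLinearGroup.mkOfDetNeZero !![0, -1; 1, 0] (by simp [Matrix.det_fin_two]), by
    refine ⟨fun i j => ?_, ?_⟩
    · fin_cases i <;> fin_cases j <;> simp [one_mem, zero_mem]
    · simp [Matrix.det_fin_two]⟩

theorem smul_trO {n : ℂ} (hn : n ∈ Ow) (p : H3) : emb (trO hn • p) = (p.1 + n, (p.2 : ℝ)) := by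
  simp [slO_smul_def, trO, act_upperC]

theorem exists_near_Ow (z : ℂ) : ∃ n ∈ Ow, normSq (z + n) ≤ 7 / 16 := by
  set s := Real.sqrt 3
  have h3 : s ^ 2 = 3 := Real.sq_sqrt (by norm_num)
  set k := round (2 * z.im / s)
  set j := round (z.re - k / 2)
  refine ⟨-((j : ℂ) + k * omC), neg_mem ⟨j, k, rfl⟩, ?_⟩
  have a := abs_le.1 (abs_sub_round (2 * z.im / s))
  have b := abs_le.1 (abs_sub_round (z.re - k / 2))
  have hs : 0 < s := by positivity
  simp [Complex.normSq_apply, omC]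
  have e : z.im + -((k : ℝ) * (s / 2)) = s / 2 * (2 * z.im / s - k) := by field_simp; ring
  rw [e, show z.re + (-((k : ℝ) * 2⁻¹) + -(j : ℝ)) = z.re - k / 2 - j by ring]
  have c1 : (z.re - k / 2 - j) * (z.re - k / 2 - j) ≤ 1 / 4 := by nlinarith [b.1, b.2]
  have c2 : (2 * z.im / s - k) * (2 * z.im / s - k) ≤ 1 / 4 := by nlinarith [a.1, a.2]
  nlinarith

/-- Every point moves into the box. -/
theorem exists_smul_mem_boxC (p : H3) : ∃ g : slO, g • p ∈ boxC := by
  classical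
  set S := (fun g : slO => (g.1 1 0, g.1 1 1)) '' {g : slO | den g.1 p ≤ 1}
  have hSf : S.Finite := by
    refine (finite_rowDen_le p 1).subset ?_
    rintro _ ⟨g, hg, rfl⟩
    exact ⟨g.2.1 1 0, g.2.1 1 1, hg⟩
  have hSne : S.Nonempty := ⟨_, 1, by simp [den], rfl⟩
  obtain ⟨_, ⟨g, hg, rfl⟩, hmin⟩ :=
    Set.exists_min_image S (fun x => rowDen x.1 x.2 p) hSf hSne
  obtain ⟨n, hn, hz⟩ := exists_near_Ow (g • p).1
  set q := trO hn • g • p with hqdef
  have hq1 : q.1 = (g • p).1 + n := congrArg Prod.fst (smul_trO hn (g • p))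
  have hq2 : (q.2 : ℝ) = ((g • p).2 : ℝ) := congrArg Prod.snd (smul_trO hn (g • p))
  have hgp : ((g • p).2 : ℝ) = p.2 / den g.1 p := by
    rw [slO_smul_def, coe_act_snd, norm_det_slO, one_mul]
  refine ⟨trO hn * g, ?_⟩
  rw [mul_smul, ← hqdef]
  have hkey : 1 ≤ normSq q.1 + (q.2 : ℝ) ^ 2 := by
    by_contra hc
    push Not at hc
    have hd : den invO.1 q = normSq q.1 + (q.2 : ℝ) ^ 2 := by simp [den, invO]
    have h2 : p.2 / den (invO * (trO hn * g)).1 p = (q.2 : ℝ) / den invO.1 q := by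
      have e : (invO * (trO hn * g)) • p = invO • q := by rw [mul_smul, mul_smul, hqdef]
      have e2 := congrArg (fun x : H3 => (x.2 : ℝ)) e
      simp only [slO_smul_def, coe_act_snd, norm_det_slO, one_mul] at e2
      exact e2
    rw [hq2, hgp, hd] at h2
    have hd0 := den_pos g.1 p
    have hd1 := den_pos (invO * (trO hn * g)).1 p
    have hq0 : 0 < normSq q.1 + (q.2 : ℝ) ^ 2 := hd ▸ den_pos invO.1 q
    have ht : (0 : ℝ) < p.2 := p.2.2
    rw [div_div, div_eq_div_iff hd1.ne' (mul_pos hd0 hq0).ne'] at h2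
    have h3 : den (invO * (trO hn * g)).1 p = den g.1 p * (normSq q.1 + (q.2 : ℝ) ^ 2) :=
      (mul_left_cancel₀ ht.ne' h2).symm
    have hlt : den (invO * (trO hn * g)).1 p < den g.1 p := by nlinarith
    have := hmin _ ⟨invO * (trO hn * g), le_trans hlt.le hg, rfl⟩
    exact absurd this (not_le.2 hlt)
  rw [hq1] at hkey
  exact ⟨by rw [hq1]; exact hz.trans (by norm_num), by linarith⟩

/-- The weight. -/
def wO : H3 → ℝ≥0∞ := RS.mkWeight slO (boxC.indicator 1)

theorem isWeight_wO : RS.IsWeight slO wO := by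
  classical
  refine RS.isWeight_mkWeight (measurable_one.indicator measurableSet_boxC) (fun p => ?_) fun p => ?_
  · obtain ⟨g, hg⟩ := exists_smul_mem_boxC p
    exact fun h => by simpa [hg] using (ENNReal.tsum_eq_zero.1 h) g
  · rw [tsum_eq_sum (s := (finite_setOf_smul_mem_boxC p).toFinset) fun g hg =>
      Set.indicator_of_notMem (by simpa using hg) _]
    exact (ENNReal.sum_lt_top.2 fun g _ => by
      by_cases h : g • p ∈ boxC <;> simp [h]).ne

/-- The principal congruence subgroup. -/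
def slOL (L : ℕ) : Subgroup slO where
  carrier := {g | ∀ i j, DvdOw L (g.1.val i j - (1 : Matrix (Fin 2) (Fin 2) ℂ) i j)}
  mul_mem' {a b} ha hb i j := by
    show DvdOw L ((a.1 * b.1).val i j - _)
    rw [Units.val_mul, show a.1.val * b.1.val = (a.1.val - 1) * b.1.val + b.1.val by
      rw [sub_mul, one_mul, sub_add_cancel], Matrix.add_apply, add_sub_assoc, Matrix.mul_apply,
      Fin.sum_univ_two]
    exact dvdOw_add (dvdOw_add (dvdOw_mul_right (b.2.1 0 j) (ha i 0))
      (dvdOw_mul_right (b.2.1 1 j) (ha i 1))) (hb i j)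
  one_mem' i j := ⟨0, zero_mem _, by simp⟩
  inv_mem' {a} ha i j := by
    have e : ((a⁻¹ : slO).1).val - 1 = -(((a⁻¹ : slO).1).val * (a.1.val - 1)) := by
      rw [mul_sub, mul_one, ← Units.val_mul, show (a⁻¹ : slO).1 * a.1 = 1 from inv_mul_cancel a.1,
        Units.val_one, neg_sub]
    rw [← Matrix.sub_apply, e, Matrix.neg_apply, Matrix.mul_apply, Fin.sum_univ_two]
    obtain ⟨y, hy, hy'⟩ := dvdOw_add (dvdOw_mul_left ((a⁻¹ : slO).2.1 i 0) (ha 0 j))
      (dvdOw_mul_left ((a⁻¹ : slO).2.1 i 1) (ha 1 j))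
    exact ⟨-y, neg_mem hy, by
      simp only [Matrix.sub_apply]
      rw [hy']; ring⟩

instance finite_quotient_slOL (L : ℕ) [NeZero L] : Finite (slO ⧸ slOL L) := by
  classical
  choose m n hmn using fun (g : slO) (i j : Fin 2) => g.2.1 i j
  refine Finite.of_injective
    (fun q : slO ⧸ slOL L => fun i j => ((m q.out i j : ZMod L), (n q.out i j : ZMod L)))
    fun q r h => ?_
  rw [← QuotientGroup.out_eq' q, ← QuotientGroup.out_eq' r, QuotientGroup.eq]
  intro i j
  have hd : ∀ i j, DvdOw L (r.out.1.val i j - q.out.1.val i j) := fun i j => by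
    have h' := congrFun (congrFun h i) j
    simp only [Prod.mk.injEq] at h'
    obtain ⟨c, hc⟩ := (ZMod.intCast_eq_intCast_iff_dvd_sub _ _ L).1 h'.1
    obtain ⟨e, he⟩ := (ZMod.intCast_eq_intCast_iff_dvd_sub _ _ L).1 h'.2
    refine ⟨c + e * omC, ⟨c, e, rfl⟩, ?_⟩
    rw [hmn, hmn]
    have hc' : ((m r.out i j : ℤ) : ℂ) - (m q.out i j : ℤ) = (L : ℂ) * c := by exact_mod_cast hc
    have he' : ((n r.out i j : ℤ) : ℂ) - (n q.out i j : ℤ) = (L : ℂ) * e := by exact_mod_cast he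
    linear_combination hc' + omC * he'
  rw [show (q.out⁻¹ * r.out).1.val i j - (1 : Matrix (Fin 2) (Fin 2) ℂ) i j =
      ((q.out⁻¹).1.val * (r.out.1.val - q.out.1.val)) i j by
    rw [mul_sub, ← Units.val_mul, ← Units.val_mul, Matrix.sub_apply,
      show (q.out⁻¹).1 * q.out.1 = 1 from inv_mul_cancel q.out.1, Units.val_one]
    rfl,
    Matrix.mul_apply, Fin.sum_univ_two]
  exact dvdOw_add (dvdOw_mul_left ((q.out⁻¹).2.1 i 0) (hd 0 j))
    (dvdOw_mul_left ((q.out⁻¹).2.1 i 1) (hd 1 j))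

/-- The weight of level `L`. -/
def wL (L : ℕ) : H3 → ℝ≥0∞ := RS.cosetWeight (slOL L) wO

theorem isWeight_wL (L : ℕ) : RS.IsWeight (slOL L) (wL L) := isWeight_wO.cosetWeight _

end FLTAgent.LT.Theta31
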