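import Fermat.Agent.LT.Asai.Places
import Fermat.Agent.LT.Theta31.Domain

/-!
# The field `K` inside `ℂ`, and its split primes
-/

set_option autoImplicit false
set_option linter.unusedSectionVars false

noncomputable section

namespace FLTAgent.LT.Theta31

open NumberField IsDedekindDomain Complex
open FLTAgent.LT.Asai
open scoped Pointwise

variable (d : Octa)

local notation "HS" => HeightOneSpectrum (𝓞 d.Kf)

attribute [local instance] isCyclotomicExtension_Kf

/-- The integers of `K` inside `ℂ`. -/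
def iotaK : 𝓞 d.Kf →+* ℂ := (wInf d).embedding.comp (algebraMap (𝓞 d.Kf) d.Kf)

theorem iotaK_apply (x : 𝓞 d.Kf) : iotaK d x = (wInf d).embedding (x : d.Kf) := rfl

theorem iotaK_injective : Function.Injective (iotaK d) :=
  (wInf d).embedding.injective.comp (IsFractionRing.injective (𝓞 d.Kf) d.Kf)

theorem iotaK_zO : iotaK d (zO d) = omC - 1 ∨ iotaK d (zO d) = -omC := by
  have h := congrArg (iotaK d) (zO_eq d)
  simp only [map_add, map_pow, map_one, map_zero] at h
  have e : (iotaK d (zO d) - (omC - 1)) * (iotaK d (zO d) + omC) = 0 := by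
    linear_combination h - omC_sq
  rcases mul_eq_zero.1 e with e | e
  · exact Or.inl (sub_eq_zero.1 e)
  · exact Or.inr (eq_neg_of_add_eq_zero_left e)

theorem iotaK_mem (x : 𝓞 d.Kf) : iotaK d x ∈ Ow := by
  obtain ⟨a, b, rfl⟩ := exists_coords d x
  rw [map_add, map_mul, map_intCast, map_intCast]
  refine add_mem (intCast_mem _ _) (mul_mem (intCast_mem _ _) ?_)
  rcases iotaK_zO d with h | h <;> rw [h]
  · exact sub_mem ⟨0, 1, by simp⟩ (one_mem _)
  · exact neg_mem ⟨0, 1, by simp⟩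

theorem exists_iotaK {z : ℂ} (hz : z ∈ Ow) : ∃ x, iotaK d x = z := by
  obtain ⟨m, n, rfl⟩ := hz
  rcases iotaK_zO d with h | h
  · exact ⟨(m : 𝓞 d.Kf) + n * (zO d + 1), by simp [h]⟩
  · exact ⟨(m : 𝓞 d.Kf) - n * zO d, by simp [h]⟩

/-- The integer of `K` over an element of `ℤ[ω]`. -/
def preO (z : ℂ) : 𝓞 d.Kf := Function.invFun (iotaK d) z

theorem iotaK_preO {z : ℂ} (hz : z ∈ Ow) : iotaK d (preO d z) = z :=
  Function.invFun_eq (exists_iotaK d hz)

theorem preO_iotaK (x : 𝓞 d.Kf) : preO d (iotaK d x) = x :=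
  Function.leftInverse_invFun (iotaK_injective d) x

theorem dvd_of_dvdOw {L : ℕ} {x : 𝓞 d.Kf} (h : DvdOw L (iotaK d x)) : (L : 𝓞 d.Kf) ∣ x := by
  obtain ⟨y, hy, e⟩ := h
  refine ⟨preO d y, iotaK_injective d ?_⟩
  rw [map_mul, map_natCast, iotaK_preO d hy, e]

theorem dvdOw_of_dvd {L : ℕ} {x : 𝓞 d.Kf} (h : (L : 𝓞 d.Kf) ∣ x) : DvdOw L (iotaK d x) := by
  obtain ⟨y, rfl⟩ := h
  exact ⟨iotaK d y, iotaK_mem d y, by rw [map_mul, map_natCast]⟩

theorem det_eq_one_of_GM {σ : Gam} (hσ : σ ∈ d.GM) :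
    (d.rbar σ : Matrix (Fin 2) (Fin 2) (ZMod 3)).det = 1 := by
  have h : Octa.quat ≤ (Matrix.GeneralLinearGroup.det (n := Fin 2) (R := ZMod 3)).ker :=
    (Subgroup.closure_le _).2 fun g hg => hg.1
  have := h hσ
  rw [MonoidHom.mem_ker, Units.ext_iff] at this
  simpa using this

/-- The two places above the rational prime of a Frobenius element in `G_M`, and its eigenvalues. -/
theorem split_places {p : ℕ} (hp : p.Prime) (hp3 : ¬ 3 ∣ p) {A : ValuationSubring Qb}
    (hA : A.LiesOverPrime p) {σ : Gam} (hσ : A.IsFrobeniusAt σ p) (hGM : σ ∈ d.GM) :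
    ∃ v v' : HS, v ≠ v' ∧
      Valued.v (((p : d.Kf)) : v.adicCompletion d.Kf) = WithZero.exp (-1 : ℤ) ∧
      Valued.v (((p : d.Kf)) : v'.adicCompletion d.Kf) = WithZero.exp (-1 : ℤ) ∧
      (∀ w : HS, w ≠ v → w ≠ v' → Valued.v (((p : d.Kf)) : w.adicCompletion d.Kf) = 1) ∧
      (∀ x : 𝓞 d.Kf, x ∈ v.asIdeal → x ∈ v'.asIdeal → (p : 𝓞 d.Kf) ∣ x) ∧
      ∀ (N : ℕ) (ψ : Form d.Kf), EigenRho d d.Kf N ψ → ¬ p ∣ N →
        (∀ x g, hecke v ψ x g = (Real.sqrt (p : ℝ) : ℂ) * d.tr0 σ * ψ x g) ∧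
        ∀ x g, hecke v' ψ x g = (Real.sqrt (p : ℝ) : ℂ) * d.tr0 σ * ψ x g := by
  have hp1 : p % 3 = 1 := by
    have h := det_frobenius (d := d) hp3 hA hσ
    rw [det_eq_one_of_GM d hGM, ← ZMod.natCast_mod] at h
    have h3 : p % 3 = 1 ∨ p % 3 = 2 := by omega
    rcases h3 with h3 | h3
    · exact h3
    · rw [h3] at h; exact absurd h (by decide)
  obtain ⟨τ, hτ⟩ := exists_notMem_GK (d := d)
  set hA' := Frobenius.liesOverPrime_smul hA τ
  set v := placeOf d hp hA with hv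
  set v' := placeOf d hp hA' with hv'
  obtain ⟨hne, hab⟩ := above_split hp hp1 hA hτ
  have hval : ∀ u : HS, (p : 𝓞 d.Kf) ∈ u.asIdeal →
      Valued.v (((p : d.Kf)) : u.adicCompletion d.Kf) = WithZero.exp (-1 : ℤ) := by
    intro u hu
    obtain ⟨-, π, hπ, hmul, hnot⟩ := split_data d hp hp1 u hu
    have hπ0 : π ≠ 0 := fun h => u.ne_bot (by rw [hπ, h]; simp)
    rw [HeightOneSpectrum.adicCompletion.valued_coe,
      show (p : d.Kf) = algebraMap (𝓞 d.Kf) d.Kf (p : 𝓞 d.Kf) from (map_natCast _ p).symm,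
      HeightOneSpectrum.valuation_of_algebraMap, ← hmul, map_mul,
      u.intValuation_singleton hπ0 hπ, u.intValuation_eq_one_iff.2 hnot, mul_one]
  refine ⟨v, v', hne, hval v (natCast_mem_idealOf d hA), hval v' (natCast_mem_idealOf d hA'),
    fun w h1 h2 => ?_, fun x hx hx' => ?_, fun N ψ her hpN => ?_⟩
  · have hmem : (p : 𝓞 d.Kf) ∉ w.asIdeal := fun hm => by
      have := (mem_above hp.pos).2 hm
      rw [hab] at this
      simp [← hv, ← hv', h1, h2] at this
    rw [HeightOneSpectrum.adicCompletion.valued_coe,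
      show (p : d.Kf) = algebraMap (𝓞 d.Kf) d.Kf (p : 𝓞 d.Kf) from (map_natCast _ p).symm,
      HeightOneSpectrum.valuation_of_algebraMap]
    exact w.intValuation_eq_one_iff.2 hmem
  · obtain ⟨-, π, hπ, hmul, hnot⟩ := split_data d hp hp1 v (natCast_mem_idealOf d hA)
    rw [hπ, Ideal.mem_span_singleton] at hx
    obtain ⟨y, rfl⟩ := hx
    have hπ' : π ∉ v'.asIdeal := fun h => hnot ((mem_placeOf_smul hp hA hτ π).1 h)
    have hy := (v'.isPrime.mem_or_mem hx').resolve_left hπ'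
    rw [mem_placeOf_smul hp hA hτ, ← hv, hπ, Ideal.mem_span_singleton] at hy
    obtain ⟨z, hz⟩ := hy
    have hmulc : ∀ a b : 𝓞 d.Kf, conjO d (a * b) = conjO d a * conjO d b := fun a b => by
      refine RingOfIntegers.ext (Subtype.ext ?_)
      push_cast
      rw [← smul_eq_conjO d hτ, ← smul_eq_conjO d hτ, ← smul_eq_conjO d hτ]
      push_cast
      rw [map_mul]
    rw [show y = conjO d π * conjO d z by rw [← hmulc, ← hz, conjO_conjO], ← mul_assoc, hmul]
    exact dvd_mul_right _ _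
  · have hq : ∀ (B : ValuationSubring Qb) (hB : B.LiesOverPrime p),
        qv (placeOf d hp hB) = p ^ 1 := fun B hB => by
      rw [pow_one]
      exact (split_data d hp hp1 _ (natCast_mem_idealOf d hB)).1
    refine ⟨fun x g => ?_, fun x g => ?_⟩
    · have h := her p hp hpN A hA v (mem_placeOf hp hA) σ hσ 1 (hq A hA) (by rwa [pow_one]) x g
      simpa [pow_one] using h
    · have hconj : τ * σ * τ⁻¹ ∈ d.GM := by
        show d.rbar (τ * σ * τ⁻¹) ∈ Octa.quat
        rw [map_mul, map_mul, map_inv]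
        exact quat_conj hGM _
      have htr : d.tr0 (τ * σ * τ⁻¹) = d.tr0 σ := by
        rw [tr0_eq, tr0_eq]
        congr 1
        simp only [liftMat, map_mul, map_inv, Units.val_mul]
        rw [Matrix.trace_mul_comm, ← mul_assoc, ← Units.val_mul, inv_mul_cancel, Units.val_one,
          one_mul]
      have h := her p hp hpN _ hA' v' (mem_placeOf hp hA') _ (Frobenius.isFrobeniusAt_conj hp.pos hσ τ)
        1 (hq _ hA') (by rwa [pow_one]) x g
      simpa [pow_one, htr] using h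

end FLTAgent.LT.Theta31
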