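import Fermat.Agent.LT.Theta31.CountReps

/-!
# Lattices of index `p²` and the theta series

`countIdentity`: the sum over the cosets of the theta series at the moved points is the square of
the Hecke operator applied to the theta series.
-/

set_option autoImplicit false
set_option linter.unusedSectionVars false

noncomputable section

namespace FLTAgent.LT.Theta31

namespace Count

open Complex Matrix Finset Hyp
open scoped Real ComplexConjugate MatrixGroups

variable {L p : ℕ} [hp : Fact p.Prime] {z : ZMod (p ^ 2)}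

/-- Transpose of an invertible matrix. -/
def trGL (g : GL (Fin 2) ℂ) : GL (Fin 2) ℂ :=
  GeneralLinearGroup.mkOfDetNeZero g.valᵀ
    (by rw [det_transpose]; exact (Matrix.GeneralLinearGroup.det g).ne_zero)

theorem trGL_val (g : GL (Fin 2) ℂ) : (trGL g).val = g.valᵀ := rfl

theorem trGL_trGL (g : GL (Fin 2) ℂ) : trGL (trGL g) = g := Units.ext (transpose_transpose _)

theorem trGL_mul (g h : GL (Fin 2) ℂ) : trGL (g * h) = trGL h * trGL g :=
  Units.ext (by rw [trGL_val, Units.val_mul, transpose_mul, Units.val_mul]; rfl)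

theorem trGL_mem_deltaSet {g : GL (Fin 2) ℂ} (h : g ∈ deltaSet L p) : trGL g ∈ deltaSet L p := by
  refine ⟨fun i j => h.1 j i, by rw [trGL_val, det_transpose]; exact h.2.1, fun i j => ?_⟩
  have := h.2.2 j i
  fin_cases i <;> fin_cases j <;> simpa [trGL_val] using this

theorem exists_trGL_slOL {γ : slO} (h : γ ∈ slOL L) :
    ∃ γ' ∈ slOL L, (γ' : GL (Fin 2) ℂ) = trGL γ := by
  refine ⟨⟨trGL γ, fun i j => γ.2.1 j i, by rw [trGL_val, det_transpose]; exact γ.2.2⟩,
    fun i j => ?_, rfl⟩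
  have := h j i
  show DvdOw L (γ.1.val j i - (1 : Matrix (Fin 2) (Fin 2) ℂ) i j)
  rwa [Matrix.one_apply, if_congr (Eq.comm (a := i) (b := j)) rfl rfl, ← Matrix.one_apply]

theorem hasPar_congr {g : GL (Fin 2) ℂ} {x : Line p × Line p} (hz : z ^ 2 = z - 1)
    (hg : IntMat g.val) (h : HasPar z g.val x) (γ : slO) :
    HasPar z (g * (γ : GL (Fin 2) ℂ)).val x := by
  rw [Units.val_mul]
  exact h.mul hz hg γ.2.1

theorem exists_isRightReps (hL : ¬ p ∣ L) (hz : z ^ 2 = z - 1) (hu : IsUnit (2 * z - 1)) :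
    ∃ R, IsRightReps L p R := by
  classical
  choose eps heps using exists_isEps (L := L) hL hz hu
  refine ⟨Finset.univ.image eps, ?_, fun δ hδ => ?_⟩
  · intro g hg
    rw [Finset.coe_image] at hg
    obtain ⟨x, -, rfl⟩ := hg
    exact (heps x).1
  · obtain ⟨x, hx, hx'⟩ := existsUnique_hasPar hz hδ.1 hδ.2.1
    obtain ⟨γ, hγ, e⟩ := exists_eq_mul hL hz hu (heps x) hδ hx
    refine ⟨eps x, ⟨Finset.mem_image_of_mem eps (Finset.mem_univ x), γ, hγ, e⟩, ?_⟩
    rintro r ⟨hr, γ', -, e'⟩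
    obtain ⟨y, -, rfl⟩ := Finset.mem_image.1 hr
    rw [hx' y (e' ▸ hasPar_congr hz (heps y).1.1 (hasPar_of_isEps (heps y)) γ')]

theorem exists_isLeftReps {R : Finset (GL (Fin 2) ℂ)} (h : IsRightReps L p R) :
    ∃ R', IsLeftReps L p R' := by
  classical
  refine ⟨R.image trGL, ?_, fun δ hδ => ?_⟩
  · intro g hg
    rw [Finset.coe_image] at hg
    obtain ⟨r, hr, rfl⟩ := hg
    exact trGL_mem_deltaSet (h.1 hr)
  · obtain ⟨r, ⟨hr, γ, hγ, e⟩, huniq⟩ := h.2 _ (trGL_mem_deltaSet hδ)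
    obtain ⟨γ', hγ', e'⟩ := exists_trGL_slOL hγ
    refine ⟨trGL r, ⟨Finset.mem_image_of_mem _ hr, γ', hγ',
      by rw [e', ← trGL_mul, ← e, trGL_trGL]⟩, ?_⟩
    rintro s ⟨hs, γ'', hγ'', e''⟩
    obtain ⟨r', hr', rfl⟩ := Finset.mem_image.1 hs
    obtain ⟨γ₃, hγ₃, e₃⟩ := exists_trGL_slOL hγ''
    rw [huniq r' ⟨hr', γ₃, hγ₃, by rw [e'', trGL_mul, trGL_trGL, e₃]⟩]

/-- The summand at level `τ / p²`. -/
def fw (L p : ℕ) (φ : (Fin 4 → ZMod L) → ℂ) (τ : ℂ) (x : H3) (w : Fin 4 → ℤ) : ℂ :=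
  φ (castv L w) * ex (frameOf x) (τ / (p : ℂ) ^ 2) (rvec w)

theorem rvec_natCast_smul (c : ℕ) (v : Fin 4 → ℤ) : rvec ((c : ℤ) • v) = (c : ℝ) • rvec v := by
  funext i
  simp [rvec]

theorem castv_natCast_smul (c : ℕ) (v : Fin 4 → ℤ) :
    castv L ((c : ℤ) • v) = (c : ZMod L) • castv L v := by
  funext i
  simp [castv]

theorem hermX_smul (c : ℝ) (v : Fin 4 → ℝ) : hermX (c • v) = (c : ℂ) • hermX v := by
  ext i j
  fin_cases i <;> fin_cases j <;> simp [hermX] <;> ring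

theorem congV_injective {G : Matrix (Fin 2) (Fin 2) ℂ} (hG : IntMat G) (hd : G.det ≠ 0) :
    Function.Injective (congV G) := by
  intro v w h
  have e := congrArg (fun v => hermX (rvec v)) h
  simp only [hermX_congV hG] at e
  have hU : IsUnit G := (isUnit_iff_isUnit_det G).2 (isUnit_iff_ne_zero.2 hd)
  exact rvec_injective (hermX_injective (hU.mul_left_cancel
    ((isUnit_iff_isUnit_det _).2 (by
      rw [det_conjTranspose]; exact (isUnit_iff_ne_zero.2 hd).star) |>.mul_right_cancel e)))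

theorem castv_congV_deltaSet {g : GL (Fin 2) ℂ} (hg : g ∈ deltaSet L p) (v : Fin 4 → ℤ) :
    castv L (congV g.val v) = diagV p (castv L v) := by
  set X := hermX (rvec v)
  set v' : Fin 4 → ℤ := ![(p : ℤ) ^ 2 * v 0, v 1, (p : ℤ) * v 2, (p : ℤ) * v 3]
  have hv' : dgP p * X * (dgP p)ᴴ = hermX (rvec v') := by
    ext i j
    fin_cases i <;> fin_cases j <;>
      simp [X, v', dgP, hermX, rvec, Matrix.mul_apply, Fin.sum_univ_two] <;> ring
  have hd : DvdM L (g.val - dgP p) := fun i j => hg.2.2 i j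
  have key : DvdM L (hermX (rvec (congV g.val v)) - hermX (rvec v')) := by
    rw [hermX_congV hg.1, ← hv', show g.val * X * g.valᴴ - dgP p * X * (dgP p)ᴴ =
      (g.val - dgP p) * X * g.valᴴ + dgP p * X * (g.val - dgP p)ᴴ by
      rw [conjTranspose_sub, Matrix.sub_mul, Matrix.sub_mul, Matrix.mul_sub]; abel]
    exact ((hd.mul_right (intMat_hermX v)).mul_right (intMat_conjTranspose hg.1)).add
      (DvdM.mul_left (intMat_mul (intMat_dgP p) (intMat_hermX v)) hd.conjTranspose)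
  set w := congV g.val v
  have k00 : DvdOw L (((w 0 - v' 0 : ℤ) : ℂ) + ((0 : ℤ) : ℂ) * omC) := by
    simpa [hermX, rvec] using key 0 0
  have k11 : DvdOw L (((w 1 - v' 1 : ℤ) : ℂ) + ((0 : ℤ) : ℂ) * omC) := by
    simpa [hermX, rvec] using key 1 1
  have k01 : DvdOw L (((w 2 - v' 2 : ℤ) : ℂ) + ((w 3 - v' 3 : ℤ) : ℂ) * omC) := by
    convert key 0 1 using 1
    simp [hermX, rvec]
    ring
  obtain ⟨h2, h3⟩ := dvd_coords k01 rfl
  have e : castv L w = castv L v' := by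
    funext i
    simp only [castv]
    rw [ZMod.intCast_eq_intCast_iff_dvd_sub, dvd_sub_comm]
    have := (dvd_coords k00 rfl).1
    have := (dvd_coords k11 rfl).1
    fin_cases i <;> assumption
  rw [e]
  funext i
  fin_cases i <;> simp [v', castv, diagV]

theorem ex_act_inv {g : GL (Fin 2) ℂ} (hg : g ∈ deltaSet L p) (τ : ℂ) (x : H3) (v : Fin 4 → ℤ) :
    ex (frameOf (act g⁻¹ x)) τ (rvec v) =
      ex (frameOf x) (τ / (p : ℂ) ^ 2) (rvec (congV g.val v)) := by
  have hp0 : (p : ℂ) ≠ 0 := Nat.cast_ne_zero.2 hp.out.ne_zero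
  have hpR : (p : ℝ) ≠ 0 := Nat.cast_ne_zero.2 hp.out.ne_zero
  have hn : ‖(Matrix.GeneralLinearGroup.det g : ℂ)‖ = (p : ℝ) := by
    show ‖g.val.det‖ = _
    rw [hg.2.1, Complex.norm_natCast]
  set u : Fin 4 → ℝ := (p : ℝ)⁻¹ • rvec (congV g.val v)
  have hu : hermX u = (p : ℂ)⁻¹ • (g.val * hermX (rvec v) * g.valᴴ) := by
    rw [hermX_smul, hermX_congV hg.1]
    simp
  have hneg : (frameOf x).neg u = (frameOf (act g⁻¹ x)).neg (rvec v) := by
    have h := neg_frameOf_act g (act g⁻¹ x) (v := rvec v) (w := u)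
      (by rw [hn, hu, smul_smul, ofReal_natCast, mul_inv_cancel₀ hp0, one_smul])
    rwa [← act_mul, mul_inv_cancel, act_one] at h
  have hq : qf u = qf (rvec v) := by
    apply ofReal_injective
    rw [coe_qf, coe_qf, hu, det_smul, det_mul, det_mul, det_conjTranspose, hg.2.1,
      Fintype.card_fin, Complex.star_def, map_natCast]
    field_simp
  rw [show τ / (p : ℂ) ^ 2 = (((p : ℝ)⁻¹ : ℝ) : ℂ) ^ 2 * τ by push_cast; ring, ← ex_smul, ex, ex,
    hq, hneg]

theorem th_act_inv {g : GL (Fin 2) ℂ} (hg : g ∈ deltaSet L p) (φ : (Fin 4 → ZMod L) → ℂ) (τ : ℂ)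
    (x : H3) :
    th (frameOf (act g⁻¹ x)) L (fun v => φ (diagV p v)) τ =
      (Real.sqrt τ.im : ℂ) * ∑' v, fw L p φ τ x (congV g.val v) := by
  rw [th]
  congr 1
  exact tsum_congr fun v => by rw [fw, ex_act_inv hg, castv_congV_deltaSet hg]

theorem mem_range_congV_iff {g : GL (Fin 2) ℂ} {y : Line p × Line p} (hg : IsEps L z g y)
    (hz : z ^ 2 = z - 1) (hu : IsUnit (2 * z - 1)) (w : Fin 4 → ℤ) :
    w ∈ Set.range (congV g.val) ↔ Good (kM z (hermX (rvec w))) y := by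
  have hA := intMat_adjugate hg.1.1
  have hX := intMat_hermX w
  set H := adjugate g.val * hermX (rvec w) * (adjugate g.val)ᴴ
  have hH : IntMat H := intMat_mul (intMat_mul hA hX) (intMat_conjTranspose hA)
  have hkH : kM z H =
      adjugate (matL y.1) * kM z (hermX (rvec w)) * (adjugate (matL y.2))ᵀ := by
    rw [kM_mul z hz (intMat_mul hA hX) (intMat_conjTranspose hA), kM_mul z hz hA hX,
      kM_adjugate z hg.1.1, hg.2.1, kM_conjTranspose z hA, kM_adjugate _ hg.1.1, hg.2.2]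
  have hHH : Hᴴ = H := by
    simp only [H, conjTranspose_mul, conjTranspose_conjTranspose, conjTranspose_hermX,
      Matrix.mul_assoc]
  have hp0 : (p : ℂ) ≠ 0 := Nat.cast_ne_zero.2 hp.out.ne_zero
  have hadj : (adjugate g.val) * g.val = (p : ℂ) • 1 := by rw [adjugate_mul, hg.1.2.1]
  have hadj' : g.val * (adjugate g.val) = (p : ℂ) • 1 := by rw [mul_adjugate, hg.1.2.1]
  rw [Good, ← hkH]
  constructor
  · rintro ⟨v, rfl⟩
    have e : H = ((p ^ 2 : ℕ) : ℂ) • hermX (rvec v) := by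
      simp only [H]
      rw [hermX_congV hg.1.1,
        show adjugate g.val * (g.val * hermX (rvec v) * g.valᴴ) * (adjugate g.val)ᴴ =
          (adjugate g.val * g.val) * hermX (rvec v) * (adjugate g.val * g.val)ᴴ by
          rw [conjTranspose_mul]; simp only [Matrix.mul_assoc], hadj, conjTranspose_smul,
        conjTranspose_one, Matrix.smul_mul, Matrix.one_mul, Matrix.mul_smul, Matrix.mul_one,
        smul_smul, Complex.star_def, map_natCast, ← sq, Nat.cast_pow]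
    rw [e, kM_smul z hz _ (intMat_hermX v), ZMod.natCast_self, zero_smul]
  · intro h
    have hd : DvdM (p ^ 2) H := fun i j => (dvdOw_iff z hu hz (hH i j)).2
      ⟨congrFun (congrFun h i) j, by
        rw [← kf_conj z (hH i j), show conj (H i j) = H j i from congrFun (congrFun hHH j) i]
        exact congrFun (congrFun h j) i⟩
    choose y' hy' e' using hd
    have hH' : H = ((p ^ 2 : ℕ) : ℂ) • Matrix.of y' := Matrix.ext fun i j => e' i j
    have hne : ((p ^ 2 : ℕ) : ℂ) ≠ 0 := by simp [hp0]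
    have hherm : (Matrix.of y')ᴴ = Matrix.of y' := by
      refine smul_right_injective _ hne ?_
      show ((p ^ 2 : ℕ) : ℂ) • (Matrix.of y')ᴴ = ((p ^ 2 : ℕ) : ℂ) • Matrix.of y'
      rw [← hH']
      conv_rhs => rw [← hHH, hH', conjTranspose_smul]
      simp
    refine ⟨vecOf (Matrix.of y'), rvec_injective (hermX_injective ?_)⟩
    rw [hermX_congV hg.1.1, hermX_vecOf (show IntMat (Matrix.of y') from hy') hherm]
    refine smul_right_injective _ hne ?_
    show ((p ^ 2 : ℕ) : ℂ) • (g.val * Matrix.of y' * g.valᴴ) = _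
    rw [← Matrix.smul_mul, ← Matrix.mul_smul, ← hH',
      show g.val * H * g.valᴴ = (g.val * adjugate g.val) * hermX (rvec w) *
        (g.val * adjugate g.val)ᴴ by rw [conjTranspose_mul]; simp only [H, Matrix.mul_assoc],
      hadj', conjTranspose_smul, conjTranspose_one, Matrix.smul_mul, Matrix.one_mul,
      Matrix.mul_smul, Matrix.mul_one, smul_smul, Complex.star_def, map_natCast, ← sq,
      Nat.cast_pow]

theorem range_congV_mul {g : GL (Fin 2) ℂ} (hg : IntMat g.val) (γ : slO) :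
    Set.range (congV (g * (γ : GL (Fin 2) ℂ)).val) = Set.range (congV g.val) := by
  refine Set.Subset.antisymm ?_ ?_
  · rintro _ ⟨v, rfl⟩
    exact ⟨congV γ.1.val v, by rw [Units.val_mul, congV_congV hg γ.2.1]⟩
  · rintro _ ⟨v, rfl⟩
    refine ⟨congV (γ⁻¹ : slO).1.val v, ?_⟩
    rw [Units.val_mul, congV_congV (intMat_mul hg γ.2.1) (γ⁻¹ : slO).2.1, Matrix.mul_assoc,
      ← Units.val_mul, show (γ : GL (Fin 2) ℂ) * (γ⁻¹ : slO).1 = 1 from mul_inv_cancel _,
      Units.val_one, Matrix.mul_one]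

/-- The multiplicity of a vector among the images of the congruences. -/
theorem card_filter_range (hL : ¬ p ∣ L) (hz : z ^ 2 = z - 1) (hu : IsUnit (2 * z - 1))
    {R : Finset (GL (Fin 2) ℂ)} (hR : IsRightReps L p R) (w : Fin 4 → ℤ)
    [DecidablePred fun g : GL (Fin 2) ℂ => w ∈ Set.range (congV g.val)] :
    #{g ∈ R | w ∈ Set.range (congV g.val)} = cnt (kM z (hermX (rvec w))) := by
  classical
  choose eps heps using exists_isEps (L := L) hL hz hu
  choose r hr huniq using fun y => hR.2 (eps y) (heps y).1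
  have hrange : ∀ y, (w ∈ Set.range (congV (r y).val) ↔ Good (kM z (hermX (rvec w))) y) :=
    fun y => by
      obtain ⟨γ, -, e⟩ := (hr y).2
      rw [← range_congV_mul (hR.1 (hr y).1).1 γ, ← e]
      exact mem_range_congV_iff (heps y) hz hu w
  have hinj : Function.Injective r := fun y y' e => by
    obtain ⟨γ, -, e1⟩ := (hr y).2
    obtain ⟨γ', -, e2⟩ := (hr y').2
    rw [e] at e1
    have h : eps y' = eps y * ((γ⁻¹ * γ' : slO) : GL (Fin 2) ℂ) := by
      rw [e1, e2, Subgroup.coe_mul, Subgroup.coe_inv]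
      group
    obtain ⟨x, -, hx⟩ := existsUnique_hasPar hz (heps y').1.1 (heps y').1.2.1
    rw [hx y' (hasPar_of_isEps (heps y')),
      hx y (h ▸ hasPar_congr hz (heps y).1.1 (hasPar_of_isEps (heps y)) _)]
  have himg : R = Finset.univ.image r := by
    refine Finset.ext fun g => ⟨fun hg => ?_, ?_⟩
    · have hgd := hR.1 hg
      obtain ⟨y, hy, -⟩ := existsUnique_hasPar hz hgd.1 hgd.2.1
      obtain ⟨γ, hγ, e⟩ := exists_eq_mul hL hz hu (heps y) hgd hy
      refine Finset.mem_image.2 ⟨y, Finset.mem_univ _,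
        (huniq y g ⟨hg, γ⁻¹, inv_mem hγ, ?_⟩).symm⟩
      rw [e, Subgroup.coe_inv, mul_inv_cancel_right]
    · intro hg
      obtain ⟨y, -, rfl⟩ := Finset.mem_image.1 hg
      exact (hr y).1
  rw [Finset.card_filter, himg, Finset.sum_image hinj.injOn, cnt, Finset.card_filter]
  exact Finset.sum_congr rfl fun y _ => by simp only [hrange y]

/-- The multiplicity in coordinates. -/
theorem cnt_hermX (hz : z ^ 2 = z - 1) (hu : IsUnit (2 * z - 1)) (w : Fin 4 → ℤ) :
    cnt (kM z (hermX (rvec w))) = (if ((p : ℤ) ^ 2) ∣ qf w then 1 else 0) +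
      (if (∀ i, (p : ℤ) ∣ w i) ∧ (p : ℤ) ^ 3 ∣ qf w then p else 0) +
      (if ∀ i, (p : ℤ) ∣ w i then p else 0) +
      (if ∀ i, (p : ℤ) ^ 2 ∣ w i then p ^ 2 else 0) := by
  classical
  have hu' : IsUnit (2 * red p z - 1) := by
    simpa [map_sub, map_mul, map_ofNat] using hu.map (red p)
  have hpow : ((p ^ 2 : ℕ) : ℤ) = (p : ℤ) ^ 2 := by push_cast; ring
  have hp0 : (p : ℤ) ≠ 0 := Nat.cast_ne_zero.2 hp.out.ne_zero
  have hmap : ∀ v : Fin 4 → ℤ, (kM z (hermX (rvec v))).map (red p) = 0 ↔ ∀ i, (p : ℤ) ∣ v i :=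
    fun v => by
      rw [← kM_hermX_eq_zero (red p z) hu' v]
      have e : (kM z (hermX (rvec v))).map (red p) = kM (red p z) (hermX (rvec v)) :=
        Matrix.ext fun i j => castHom_kf z _ _
      rw [e]
  by_cases hw : ∀ i, (p : ℤ) ∣ w i
  · choose v hv using hw
    obtain rfl : w = (p : ℤ) • v := funext hv
    have e : kM z (hermX (rvec ((p : ℤ) • v))) = (p : ZMod (p ^ 2)) • kM z (hermX (rvec v)) := by
      rw [rvec_natCast_smul, hermX_smul, ofReal_natCast, kM_smul z hz _ (intMat_hermX v)]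
    have hq : qf ((p : ℤ) • v) = (p : ℤ) ^ 2 * qf v := qf_smul _ _
    have h1 : ∀ i, (p : ℤ) ∣ ((p : ℤ) • v) i := fun i => Dvd.intro (v i) rfl
    have h2 : (∀ i, (p : ℤ) ^ 2 ∣ ((p : ℤ) • v) i) ↔ ∀ i, (p : ℤ) ∣ v i := by
      simp only [Pi.smul_apply, smul_eq_mul, sq, mul_dvd_mul_iff_left hp0]
    have h3 : (p : ℤ) ^ 3 ∣ qf ((p : ℤ) • v) ↔ (p : ℤ) ∣ qf v := by
      rw [hq, pow_succ, mul_dvd_mul_iff_left (pow_ne_zero _ hp0)]
    have h4 : red p (kM z (hermX (rvec v))).det = 0 ↔ (p : ℤ) ∣ qf v := by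
      rw [det_kM_hermX z hz, map_neg, map_intCast, neg_eq_zero, ZMod.intCast_zmod_eq_zero_iff_dvd]
    rw [e, cnt_natCast_smul, if_pos (show (p : ℤ) ^ 2 ∣ qf ((p : ℤ) • v) from ⟨qf v, hq⟩), if_pos h1]
    simp only [hmap, h2, h3, h4, h1, implies_true, true_and]
    by_cases hv0 : ∀ i, (p : ℤ) ∣ v i
    · have : (p : ℤ) ∣ qf v := by
        choose u hu using hv0
        obtain rfl : v = (p : ℤ) • u := funext hu
        rw [qf_smul]
        exact dvd_mul_of_dvd_left (dvd_pow_self _ two_ne_zero) _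
      simp [hv0, this]; ring
    · rw [if_neg hv0, if_neg hv0]
      split_ifs <;> ring
  · have hw2 : ¬ ∀ i, (p : ℤ) ^ 2 ∣ w i := fun h =>
      hw fun i => (dvd_pow_self _ two_ne_zero).trans (h i)
    rw [cnt_of_ne (fun h => hw ((hmap w).1 h)), if_neg hw, if_neg hw2,
      if_neg (fun h : (∀ i, (p : ℤ) ∣ w i) ∧ _ => hw h.1)]
    simp only [det_kM_hermX z hz, neg_eq_zero, ZMod.intCast_zmod_eq_zero_iff_dvd, hpow, add_zero]

theorem sum_exp_eq {n : ℕ} [NeZero n] (q : ℤ) :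
    ∑ j ∈ Finset.range n, cexp (2 * π * I * (((j : ℝ) / n * (q : ℝ) : ℝ) : ℂ)) =
      if (n : ℤ) ∣ q then (n : ℂ) else 0 := by
  have e : ∀ j : ℕ, cexp (2 * π * I * (((j : ℝ) / n * (q : ℝ) : ℝ) : ℂ)) =
      ZMod.stdAddChar ((q : ℤ) : ZMod n) ^ j := fun j => by
    rw [ZMod.stdAddChar_coe, ← Complex.exp_nat_mul]
    congr 1
    push_cast
    ring
  simp only [e]
  by_cases h : (n : ℤ) ∣ q
  · rw [if_pos h, (ZMod.intCast_zmod_eq_zero_iff_dvd q n).2 h, AddChar.map_zero_eq_one]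
    simp
  · rw [if_neg h, geom_sum_eq, ← AddChar.map_nsmul_eq_pow, nsmul_eq_mul, ZMod.natCast_self,
      zero_mul, AddChar.map_zero_eq_one, sub_self, zero_div]
    rw [← AddChar.map_zero_eq_one (ZMod.stdAddChar (N := n)), Ne,
      ZMod.injective_stdAddChar.eq_iff, ZMod.intCast_zmod_eq_zero_iff_dvd]
    exact h

/-- Vectors divisible by `c`. -/
theorem hasSum_of_multiples {c : ℕ} (hc : c ≠ 0) {g : (Fin 4 → ℤ) → ℂ}
    (hg : ∀ w, (¬ ∀ i, (c : ℤ) ∣ w i) → g w = 0) {a : ℂ}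
    (h : HasSum (fun v => g ((c : ℤ) • v)) a) : HasSum g a := by
  refine ((smul_right_injective (Fin 4 → ℤ) (Int.natCast_ne_zero.2 hc)).hasSum_iff ?_).1 h
  intro w hw
  refine hg w fun hd => hw ?_
  choose v hv using hd
  exact ⟨v, (funext hv).symm⟩

theorem countIdentity_aux (hL : ¬ p ∣ L) (hz : z ^ 2 = z - 1) (hu : IsUnit (2 * z - 1)) [NeZero L]
    {R : Finset (GL (Fin 2) ℂ)} (hR : IsRightReps L p R) (φ : (Fin 4 → ZMod L) → ℂ) {τ : ℂ}
    (hτ : 0 < τ.im) (x : H3) :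
    ∑ ε ∈ R, th (frameOf (act ε⁻¹ x)) L (fun v => φ (diagV p v)) τ =
      (1 / (p : ℂ)) * ∑ j ∈ Finset.range (p ^ 2), th (frameOf x) L φ ((τ + j) / (p : ℂ) ^ 2) +
        ∑ k ∈ Finset.range p,
          th (frameOf x) L (fun v => φ ((p : ZMod L) • v)) (τ + k / (p : ℂ)) +
        (p : ℂ) * th (frameOf x) L (fun v => φ ((p : ZMod L) • v)) τ +
        (p : ℂ) * th (frameOf x) L (fun v => φ ((p : ZMod L) ^ 2 • v)) ((p : ℂ) ^ 2 * τ) := by
  classical
  have : NeZero p := ⟨hp.out.ne_zero⟩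
  have : NeZero (p ^ 2) := ⟨pow_ne_zero _ hp.out.ne_zero⟩
  have hp0 : (p : ℂ) ≠ 0 := Nat.cast_ne_zero.2 hp.out.ne_zero
  have hpR : (0 : ℝ) < p := Nat.cast_pos.2 hp.out.pos
  set F := frameOf x
  set s : ℂ := (Real.sqrt τ.im : ℂ)
  set f := fw L p φ τ x
  have hτ' : 0 < (τ / (p : ℂ) ^ 2).im := by
    rw [← Nat.cast_pow, Complex.div_natCast_im]
    exact div_pos hτ (by exact_mod_cast pow_pos hp.out.pos 2)
  have hf : Summable f := summable_term F hτ' φ
  -- the left side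
  have hleft : HasSum (fun w => s * ((cnt (kM z (hermX (rvec w))) : ℂ) * f w))
      (∑ ε ∈ R, th (frameOf (act ε⁻¹ x)) L (fun v => φ (diagV p v)) τ) := by
    have hε : ∀ ε ∈ R, HasSum (fun w => s * (if w ∈ Set.range (congV ε.val) then f w else 0))
        (th (frameOf (act ε⁻¹ x)) L (fun v => φ (diagV p v)) τ) := fun ε hε => by
      rw [th_act_inv (hR.1 hε)]
      have hinj := congV_injective (hR.1 hε).1 (Matrix.GeneralLinearGroup.det ε).ne_zero
      refine HasSum.mul_left s ((hinj.hasSum_iff fun w hw => if_neg hw).1 ?_)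
      refine (hf.comp_injective hinj).hasSum.congr_fun fun v => ?_
      exact if_pos ⟨v, rfl⟩
    refine (hasSum_sum hε).congr_fun fun w => ?_
    rw [← Finset.mul_sum, ← Finset.sum_filter, Finset.sum_const, nsmul_eq_mul,
      card_filter_range hL hz hu hR w]
  -- the first sum
  have h1 : HasSum (fun w => s * ((if (p : ℤ) ^ 2 ∣ qf w then 1 else 0) * f w))
      ((1 / (p : ℂ)) * ∑ j ∈ Finset.range (p ^ 2), th F L φ ((τ + j) / (p : ℂ) ^ 2)) := by
    have hj : ∀ j ∈ Finset.range (p ^ 2), HasSum (fun w => s / (p : ℂ) *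
        (cexp (2 * π * I * (((j : ℝ) / ((p ^ 2 : ℕ) : ℝ) * (qf w : ℤ) : ℝ) : ℂ)) * f w))
        (th F L φ ((τ + j) / (p : ℂ) ^ 2)) := fun j _ => by
      have e : (τ + j) / (p : ℂ) ^ 2 = τ / (p : ℂ) ^ 2 + (((j : ℝ) / ((p ^ 2 : ℕ) : ℝ) : ℝ) : ℂ) := by
        push_cast; ring
      rw [th, e, show (τ / (p : ℂ) ^ 2 + (((j : ℝ) / ((p ^ 2 : ℕ) : ℝ) : ℝ) : ℂ)).im =
        τ.im / (p : ℝ) ^ 2 by
          rw [Complex.add_im, Complex.ofReal_im, add_zero, ← Nat.cast_pow, Complex.div_natCast_im,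
            Nat.cast_pow],
        Real.sqrt_div' _ (sq_nonneg _), Real.sqrt_sq hpR.le, ofReal_div, ofReal_natCast]
      refine HasSum.mul_left _ ?_
      refine (summable_term F (τ := τ / (p : ℂ) ^ 2 + (((j : ℝ) / ((p ^ 2 : ℕ) : ℝ) : ℝ) : ℂ))
        (by rw [Complex.add_im, Complex.ofReal_im, add_zero]; exact hτ') φ).hasSum.congr_fun fun w => ?_
      rw [ex_add_real, qf_rvec]
      simp only [f, fw]
      ring
    refine ((hasSum_sum hj).mul_left (1 / (p : ℂ))).congr_fun fun w => ?_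
    rw [← Finset.mul_sum, ← Finset.sum_mul, sum_exp_eq]
    push_cast
    split_ifs
    · field_simp
    · simp
  -- multiples of `p`
  have hfp : ∀ v, f ((p : ℤ) • v) = φ ((p : ZMod L) • castv L v) * ex F τ (rvec v) := fun v => by
    simp only [f, fw]
    rw [castv_natCast_smul, rvec_natCast_smul, ex_smul, ofReal_natCast,
      mul_div_cancel₀ _ (pow_ne_zero 2 hp0)]
  have h2 : HasSum (fun w => s * ((if (∀ i, (p : ℤ) ∣ w i) ∧ (p : ℤ) ^ 3 ∣ qf w
      then (p : ℂ) else 0) * f w))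
      (∑ k ∈ Finset.range p, th F L (fun v => φ ((p : ZMod L) • v)) (τ + k / (p : ℂ))) := by
    refine hasSum_of_multiples hp.out.ne_zero (fun w hw => by simp [hw]) ?_
    have hk : ∀ k ∈ Finset.range p, HasSum (fun v => s *
        (cexp (2 * π * I * (((k : ℝ) / p * (qf v : ℤ) : ℝ) : ℂ)) * f ((p : ℤ) • v)))
        (th F L (fun v => φ ((p : ZMod L) • v)) (τ + k / (p : ℂ))) := fun k _ => by
      have e : τ + k / (p : ℂ) = τ + (((k : ℝ) / p : ℝ) : ℂ) := by push_cast; rfl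
      rw [th, e, show (τ + (((k : ℝ) / p : ℝ) : ℂ)).im = τ.im by simp]
      refine HasSum.mul_left _ ?_
      refine (summable_term F (τ := τ + (((k : ℝ) / p : ℝ) : ℂ)) (by simpa using hτ)
        (fun v => φ ((p : ZMod L) • v))).hasSum.congr_fun fun v => ?_
      rw [hfp, ex_add_real, qf_rvec]
      ring
    refine (hasSum_sum hk).congr_fun fun v => ?_
    rw [← Finset.mul_sum, ← Finset.sum_mul, sum_exp_eq]
    congr 2
    refine if_congr ?_ rfl rfl
    rw [qf_smul, pow_succ, mul_dvd_mul_iff_left (pow_ne_zero 2 (Int.natCast_ne_zero.2 hp.out.ne_zero))]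
    exact and_iff_right fun i => Dvd.intro (v i) rfl
  have h3 : HasSum (fun w => s * ((if ∀ i, (p : ℤ) ∣ w i then (p : ℂ) else 0) * f w))
      ((p : ℂ) * th F L (fun v => φ ((p : ZMod L) • v)) τ) := by
    refine hasSum_of_multiples hp.out.ne_zero (fun w hw => by simp [hw]) ?_
    refine (((summable_term F hτ (fun v => φ ((p : ZMod L) • v))).hasSum.mul_left s).mul_left
      (p : ℂ)).congr_fun fun v => ?_
    rw [if_pos (show ∀ i, (p : ℤ) ∣ ((p : ℤ) • v) i from fun i => Dvd.intro (v i) rfl), hfp]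
    ring
  have h4 : HasSum (fun w => s * ((if ∀ i, (p : ℤ) ^ 2 ∣ w i then (p : ℂ) ^ 2 else 0) * f w))
      ((p : ℂ) * th F L (fun v => φ ((p : ZMod L) ^ 2 • v)) ((p : ℂ) ^ 2 * τ)) := by
    refine hasSum_of_multiples (c := p ^ 2) (pow_ne_zero _ hp.out.ne_zero)
      (fun w hw => by push_cast at hw; simp [hw]) ?_
    have him : ((p : ℂ) ^ 2 * τ).im = (p : ℝ) ^ 2 * τ.im := by
      simp [← Complex.ofReal_natCast, ← ofReal_pow]
    have hτ2 : 0 < ((p : ℂ) ^ 2 * τ).im := by rw [him]; positivity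
    rw [th, him, Real.sqrt_mul (sq_nonneg _), Real.sqrt_sq hpR.le, ofReal_mul, ofReal_natCast]
    refine ((summable_term F hτ2 (fun v => φ ((p : ZMod L) ^ 2 • v))).hasSum.mul_left
      ((p : ℂ) * s)).mul_left (p : ℂ) |>.congr_fun fun v => ?_
    rw [if_pos (show ∀ i, (p : ℤ) ^ 2 ∣ (((p ^ 2 : ℕ) : ℤ) • v) i from
      fun i => Dvd.intro (v i) (by simp))]
    simp only [f, fw]
    rw [castv_natCast_smul, rvec_natCast_smul, ex_smul, ofReal_natCast, Nat.cast_pow, Nat.cast_pow]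
    rw [show (((p : ℂ) ^ 2) ^ 2 * (τ / (p : ℂ) ^ 2)) = (p : ℂ) ^ 2 * τ by field_simp]
    ring
  refine hleft.unique (((h1.add h2).add (h3)).add h4 |>.congr_fun fun w => ?_)
  rw [cnt_hermX hz hu w]
  push_cast
  ring

end Count

open FLTAgent.LT.Theta31.Count in
/-- The counting identity of piece D. -/
theorem countIdentity : CountIdentity := by
  intro L p _ hp h3 hL
  have : Fact p.Prime := ⟨hp⟩
  obtain ⟨z, hz, hu⟩ := exists_root (p := p) h3
  obtain ⟨R, hR⟩ := exists_isRightReps (L := L) hL hz hu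
  exact ⟨exists_isLeftReps hR, ⟨R, hR⟩, fun R hR φ τ hτ x => countIdentity_aux hL hz hu hR φ hτ x⟩

end FLTAgent.LT.Theta31
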