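import Mathlib.Data.ZMod.Basic
import Mathlib.Algebra.Field.ZMod
import Mathlib.LinearAlgebra.Matrix.Adjugate
import Mathlib.GroupTheory.OrderOfElement
import Mathlib.FieldTheory.Finite.Basic
import Mathlib.GroupTheory.Perm.Cycle.Type

/-!
# Pairs of lines modulo `p` and matrices modulo `p²`

The number of pairs of lines for which the congruence of a `2 × 2` matrix modulo `p²` by the two
matrices of determinant `p` vanishes.
-/

set_option autoImplicit false
set_option linter.unusedSectionVars false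

noncomputable section

namespace FLTAgent.LT.Theta31.Count

open Matrix Finset

variable {p : ℕ} [hp : Fact p.Prime]

variable (p) in
/-- Reduction from `p²` to `p`. -/
def red : ZMod (p ^ 2) →+* ZMod p := ZMod.castHom (dvd_pow_self p two_ne_zero) (ZMod p)

theorem sq_natCast_eq_zero : ((p : ZMod (p ^ 2)) * p) = 0 := by
  rw [← sq, ← Nat.cast_pow, ZMod.natCast_self]

theorem exists_eq_natCast_mul {x : ZMod (p ^ 2)} (h : red p x = 0) : ∃ t, x = (p : ZMod (p ^ 2)) * t := by
  obtain ⟨m, rfl⟩ := ZMod.natCast_zmod_surjective x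
  rw [map_natCast, ZMod.natCast_eq_zero_iff] at h
  obtain ⟨t, rfl⟩ := h
  exact ⟨t, Nat.cast_mul _ _⟩

theorem natCast_mul_eq_zero_iff {x : ZMod (p ^ 2)} :
    (p : ZMod (p ^ 2)) * x = 0 ↔ red p x = 0 := by
  obtain ⟨m, rfl⟩ := ZMod.natCast_zmod_surjective x
  rw [map_natCast, ← Nat.cast_mul, ZMod.natCast_eq_zero_iff, ZMod.natCast_eq_zero_iff, sq,
    Nat.mul_dvd_mul_iff_left hp.out.pos]

theorem mul_eq_zero_of_red {x y : ZMod (p ^ 2)} (hx : red p x = 0) (hy : red p y = 0) :
    x * y = 0 := by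
  obtain ⟨s, rfl⟩ := exists_eq_natCast_mul hx
  obtain ⟨t, rfl⟩ := exists_eq_natCast_mul hy
  linear_combination s * t * (sq_natCast_eq_zero (p := p))

theorem natCast_ne_zero_sq : (p : ZMod (p ^ 2)) ≠ 0 := fun h => by
  have := (natCast_mul_eq_zero_iff (p := p) (x := 1)).1 ((mul_one _).trans h)
  simp at this

theorem isUnit_of_red {x : ZMod (p ^ 2)} (h : red p x ≠ 0) : IsUnit x := by
  obtain ⟨y, hy⟩ := ZMod.castHom_surjective (dvd_pow_self p two_ne_zero) (red p x)⁻¹
  have hy' : red p y = (red p x)⁻¹ := hy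
  have h1 : red p (x * y - 1) = 0 := by
    rw [map_sub, map_mul, map_one, hy', mul_inv_cancel₀ h, sub_self]
  exact IsUnit.of_mul_eq_one (y * (2 - x * y)) (by
    linear_combination -(mul_eq_zero_of_red h1 h1))

/-- A root of `z² - z + 1` modulo `p²`. -/
theorem exists_root (h3 : p % 3 = 1) :
    ∃ z : ZMod (p ^ 2), z ^ 2 = z - 1 ∧ IsUnit (2 * z - 1) := by
  have hne : NeZero (p ^ 2) := ⟨pow_ne_zero _ hp.out.ne_zero⟩
  have h3' : (3 : ZMod p) ≠ 0 := by
    rw [show (3 : ZMod p) = ((3 : ℕ) : ZMod p) by norm_num, Ne, ZMod.natCast_eq_zero_iff]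
    intro h
    have := Nat.le_of_dvd (by norm_num) h
    have := hp.out.two_le
    interval_cases p <;> simp_all
  obtain ⟨u, hu⟩ := exists_prime_orderOf_dvd_card (G := (ZMod (p ^ 2))ˣ) 3 (by
    rw [ZMod.card_units_eq_totient, Nat.totient_prime_pow hp.out (by norm_num)]
    exact Dvd.dvd.mul_left (Nat.dvd_of_mod_eq_zero (by omega)) _)
  have hu3 : (u : ZMod (p ^ 2)) ^ 3 = 1 := by
    rw [← Units.val_pow_eq_pow_val, ← hu, pow_orderOf_eq_one, Units.val_one]
  have hprod : ((u : ZMod (p ^ 2)) - 1) * ((u : ZMod (p ^ 2)) ^ 2 + u + 1) = 0 := by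
    linear_combination hu3
  have hu1 : red p ((u : ZMod (p ^ 2)) - 1) ≠ 0 := by
    intro h
    have h2 : IsUnit ((u : ZMod (p ^ 2)) ^ 2 + u + 1) := isUnit_of_red (by
      rw [map_sub, map_one, sub_eq_zero] at h
      simp only [map_add, map_pow, map_one, h]
      norm_num
      exact h3')
    have h4 : u = 1 := Units.val_eq_one.1 (sub_eq_zero.1 (h2.mul_left_eq_zero.1 hprod))
    simp [h4] at hu
  have hroot : (u : ZMod (p ^ 2)) ^ 2 + u + 1 = 0 := (isUnit_of_red hu1).mul_right_eq_zero.1 hprod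
  refine ⟨-u, by linear_combination hroot, isUnit_of_red fun h => h3' ?_⟩
  have h5 := congrArg (red p) hroot
  simp only [map_sub, map_mul, map_neg, map_one, map_ofNat, map_add, map_pow, map_zero] at h h5
  linear_combination 4 * h5 + (2 * red p (u : ZMod (p ^ 2)) + 1) * h

/-- The lines modulo `p`: the lines through `(s, 1)` and through `(1, 0)`. -/
abbrev Line (p : ℕ) := Option (ZMod p)

/-- First parameter of a line. -/
def la (P : Line p) : ZMod (p ^ 2) := P.elim 1 fun s => (s.val : ZMod (p ^ 2))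

/-- Second parameter of a line. -/
def lc (P : Line p) : ZMod (p ^ 2) := P.elim (-1) fun _ => 0

/-- The covector killing a line. -/
def cv (P : Line p) : Fin 2 → ZMod (p ^ 2) := ![1 + lc P * la P, -la P]

/-- The covector completing `cv` to a basis. -/
def cs (P : Line p) : Fin 2 → ZMod (p ^ 2) := ![-lc P, 1]

/-- The covector modulo `p`. -/
def cb (P : Line p) : Fin 2 → ZMod p := fun i => red p (cv P i)

/-- The matrix of determinant `p` of a line. -/
def matL (P : Line p) : Matrix (Fin 2) (Fin 2) (ZMod (p ^ 2)) :=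
  !![(p : ZMod (p ^ 2)), la P; lc P * p, lc P * la P + 1]

theorem cb_some (s : ZMod p) : cb (some s) = ![1, -s] := by
  funext i
  fin_cases i <;> simp [cb, cv, la, lc]

theorem cb_none : cb (none : Line p) = ![0, -1] := by
  funext i
  fin_cases i <;> simp [cb, cv, la, lc]

theorem card_line : Fintype.card (Line p) = p + 1 := by
  rw [Fintype.card_option, ZMod.card]

/-- The covectors killing a vector. -/
theorem card_ann (t : Fin 2 → ZMod p) :
    #{P : Line p | cb P ⬝ᵥ t = 0} = if t = 0 then p + 1 else 1 := by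
  classical
  by_cases ht : t = 0
  · simp [ht, Finset.card_univ]
  rw [if_neg ht, Finset.card_eq_one]
  by_cases h1 : t 1 = 0
  · have h0 : t 0 ≠ 0 := fun h0 => ht (funext fun i => by fin_cases i <;> simp [h0, h1])
    refine ⟨none, Finset.ext fun P => ?_⟩
    rcases P with _ | s <;> simp [cb_some, cb_none, dotProduct, Fin.sum_univ_two, h0, h1]
  · refine ⟨some (t 0 / t 1), Finset.ext fun P => ?_⟩
    rcases P with _ | s
    · simp [cb_none, dotProduct, Fin.sum_univ_two, h1]
    · simp [cb_some, dotProduct, Fin.sum_univ_two, eq_div_iff h1]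
      exact ⟨fun h => by linear_combination -h, fun h => by linear_combination -h⟩

/-- The covectors killing a matrix. -/
theorem card_ker (M : Matrix (Fin 2) (Fin 2) (ZMod p)) :
    #{P : Line p | cb P ᵥ* M = 0} = if M = 0 then p + 1 else if M.det = 0 then 1 else 0 := by
  classical
  by_cases hM : M = 0
  · simp [hM, Finset.card_univ]
  rw [if_neg hM]
  by_cases hd : M.det = 0
  · rw [if_pos hd]
    obtain ⟨j, hj⟩ : ∃ j, Mᵀ j ≠ 0 := by
      by_contra! h
      exact hM (Matrix.ext fun i j => congrFun (h j) i)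
    have := card_ann (Mᵀ j)
    rw [if_neg hj] at this
    rw [← this]
    congr 1
    refine Finset.filter_congr fun P _ => ⟨fun h => congrFun h j, fun h => funext fun k => ?_⟩
    show cb P ⬝ᵥ Mᵀ k = 0
    simp only [dotProduct, Fin.sum_univ_two, transpose_apply] at h ⊢
    rw [det_fin_two] at hd
    rcases (show k = j ∨ k ≠ j from em _) with rfl | hk
    · exact h
    have hjk : M 0 j * M 1 k - M 1 j * M 0 k = 0 := by
      fin_cases j <;> fin_cases k <;> simp at hk ⊢ <;>
        first | linear_combination hd | linear_combination -hd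
    have h0 : M 0 j ≠ 0 ∨ M 1 j ≠ 0 := by
      by_contra! h'
      exact hj (funext fun i => by fin_cases i <;> simp [h'.1, h'.2])
    rcases h0 with h0 | h0 <;> refine (mul_eq_zero.1 (show _ * _ = (0 : ZMod p) from ?_)).resolve_left h0
    · linear_combination M 0 k * h + cb P 1 * hjk
    · linear_combination M 1 k * h - cb P 0 * hjk
  · rw [if_neg hd, Finset.card_eq_zero, Finset.filter_eq_empty_iff]
    intro P _ h
    have h' : cb P = 0 := Matrix.eq_zero_of_vecMul_eq_zero hd h
    rcases P with _ | s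
    · simpa [cb_none] using congrFun h' 1
    · simpa [cb_some] using congrFun h' 0

theorem adjugate_matL (P : Line p) :
    adjugate (matL P) = !![cv P 0, cv P 1; (p : ZMod (p ^ 2)) * cs P 0, (p : ZMod (p ^ 2)) * cs P 1] := by
  rw [matL, adjugate_fin_two_of]
  ext i j
  fin_cases i <;> fin_cases j <;> simp [cv, cs] <;> ring

theorem det_matL (P : Line p) : (matL P).det = p := by
  rw [matL, det_fin_two_of]
  ring

/-- A pair of lines is good for a matrix. -/
def Good (M : Matrix (Fin 2) (Fin 2) (ZMod (p ^ 2))) (x : Line p × Line p) : Prop :=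
  adjugate (matL x.1) * M * (adjugate (matL x.2))ᵀ = 0

theorem eq_zero_of_basis (Q : Line p) (t : Fin 2 → ZMod p)
    (h1 : t ⬝ᵥ cb Q = 0) (h2 : t ⬝ᵥ (fun i => red p (cs Q i)) = 0) : t = 0 := by
  simp [dotProduct, Fin.sum_univ_two, cb, cv, cs] at h1 h2
  have e0 : t 0 = 0 := by linear_combination h1 + red p (la Q) * h2
  funext i
  fin_cases i
  · exact e0
  · show t 1 = 0
    linear_combination h2 + red p (lc Q) * e0

theorem good_iff (M : Matrix (Fin 2) (Fin 2) (ZMod (p ^ 2))) (x : Line p × Line p) :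
    Good M x ↔ cb x.1 ᵥ* M.map (red p) = 0 ∧ M.map (red p) *ᵥ cb x.2 = 0 ∧
      cv x.1 ⬝ᵥ (M *ᵥ cv x.2) = 0 := by
  obtain ⟨P, Q⟩ := x
  have hG : Good M (P, Q) ↔ cv P ⬝ᵥ (M *ᵥ cv Q) = 0 ∧ red p (cv P ⬝ᵥ (M *ᵥ cs Q)) = 0 ∧
      red p (cs P ⬝ᵥ (M *ᵥ cv Q)) = 0 := by
    rw [← natCast_mul_eq_zero_iff, ← natCast_mul_eq_zero_iff, Good, adjugate_matL, adjugate_matL,
      ← Matrix.ext_iff, Fin.forall_fin_two, Fin.forall_fin_two, Fin.forall_fin_two]
    simp [Matrix.mul_apply, Fin.sum_univ_two, dotProduct, mulVec, vecMul]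
    refine ⟨fun ⟨⟨h1, h2⟩, h3, _⟩ => ⟨?_, ?_, ?_⟩, fun ⟨h1, h2, h3⟩ => ⟨⟨?_, ?_⟩, ?_, ?_⟩⟩
    · linear_combination h1
    · linear_combination h2
    · linear_combination h3
    · linear_combination h1
    · linear_combination h2
    · linear_combination h3
    · linear_combination (cs P 0 * (M 0 0 * cs Q 0 + M 0 1 * cs Q 1) +
        cs P 1 * (M 1 0 * cs Q 0 + M 1 1 * cs Q 1)) * sq_natCast_eq_zero (p := p)
  have hl : ∀ v : Fin 2 → ZMod (p ^ 2), red p (cv P ⬝ᵥ (M *ᵥ v)) =
      (cb P ᵥ* M.map (red p)) ⬝ᵥ fun i => red p (v i) := fun v => by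
    simp [dotProduct, mulVec, vecMul, Fin.sum_univ_two, cb]
    ring
  have hr : ∀ v : Fin 2 → ZMod (p ^ 2), red p (v ⬝ᵥ (M *ᵥ cv Q)) =
      (M.map (red p) *ᵥ cb Q) ⬝ᵥ fun i => red p (v i) := fun v => by
    simp [dotProduct, mulVec, Fin.sum_univ_two, cb]
    ring
  rw [hG]
  refine ⟨fun ⟨h1, h2, h3⟩ => ⟨?_, ?_, h1⟩, fun ⟨h1, h2, h3⟩ => ⟨h3, ?_, ?_⟩⟩
  · exact eq_zero_of_basis Q _ ((hl _).symm.trans (by rw [h1, map_zero])) ((hl _).symm.trans h2)
  · exact eq_zero_of_basis P _ ((hr _).symm.trans (by rw [h1, map_zero])) ((hr _).symm.trans h3)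
  · rw [hl, h1, zero_dotProduct]
  · rw [hr, h2, zero_dotProduct]

open Classical in
/-- The number of good pairs. -/
def cnt (M : Matrix (Fin 2) (Fin 2) (ZMod (p ^ 2))) : ℕ := #{x : Line p × Line p | Good M x}

theorem cnt_of_ne {M : Matrix (Fin 2) (Fin 2) (ZMod (p ^ 2))} (h : M.map (red p) ≠ 0) :
    cnt M = if M.det = 0 then 1 else 0 := by
  classical
  have hdet : (M.map (red p)).det = red p M.det := by
    rw [← RingHom.mapMatrix_apply, RingHom.map_det]
  by_cases hd : (M.map (red p)).det = 0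
  · have hP := card_ker (M.map (red p))
    have hQ := card_ker (M.map (red p))ᵀ
    rw [if_neg h, if_pos hd, Finset.card_eq_one] at hP
    rw [if_neg (fun e => h (by rw [← transpose_transpose (M.map (red p)), e, transpose_zero])),
      if_pos (by rw [det_transpose]; exact hd), Finset.card_eq_one] at hQ
    obtain ⟨P₀, hP⟩ := hP
    obtain ⟨Q₀, hQ⟩ := hQ
    have hP' : ∀ P, cb P ᵥ* M.map (red p) = 0 ↔ P = P₀ := fun P => by
      simpa using Finset.ext_iff.1 hP P
    have hQ' : ∀ Q, M.map (red p) *ᵥ cb Q = 0 ↔ Q = Q₀ := fun Q => by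
      rw [← vecMul_transpose]
      simpa using Finset.ext_iff.1 hQ Q
    have key : cv P₀ ⬝ᵥ (M *ᵥ cv Q₀) = 0 ↔ M.det = 0 := by
      have hl : red p (cv P₀ ⬝ᵥ (M *ᵥ cs Q₀)) = 0 := by
        have e := congrArg (fun t => t ⬝ᵥ fun i => red p (cs Q₀ i)) ((hP' P₀).2 rfl)
        simp [dotProduct, mulVec, vecMul, Fin.sum_univ_two, cb] at e ⊢
        linear_combination e
      have hr : red p (cs P₀ ⬝ᵥ (M *ᵥ cv Q₀)) = 0 := by
        have e := congrArg (fun t => t ⬝ᵥ fun i => red p (cs P₀ i)) ((hQ' Q₀).2 rfl)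
        simp [dotProduct, mulVec, Fin.sum_univ_two, cb] at e ⊢
        linear_combination e
      have hu : IsUnit (cs P₀ ⬝ᵥ (M *ᵥ cs Q₀)) := isUnit_of_red fun h0 => h (by
        have a0 := congrFun ((hP' P₀).2 rfl) 0
        have a1 := congrFun ((hP' P₀).2 rfl) 1
        have b0 := congrFun ((hQ' Q₀).2 rfl) 0
        have b1 := congrFun ((hQ' Q₀).2 rfl) 1
        simp [dotProduct, mulVec, vecMul, Fin.sum_univ_two, cb, cv, cs] at a0 a1 b0 b1 h0
        refine Matrix.ext fun i k => ?_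
        have e0 : -red p (lc P₀) * red p (M 0 0) + red p (M 1 0) = 0 := by
          linear_combination red p (la Q₀) * h0 +
            (-red p (lc P₀)) * b0 + b1
        have e1 : -red p (lc P₀) * red p (M 0 1) + red p (M 1 1) = 0 := by
          linear_combination h0 + red p (lc Q₀) * e0
        have f0 : red p (M 0 0) = 0 := by linear_combination a0 + red p (la P₀) * e0
        have f1 : red p (M 0 1) = 0 := by linear_combination a1 + red p (la P₀) * e1
        fin_cases i <;> fin_cases k <;> simp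
        · exact f0
        · exact f1
        · linear_combination e0 + red p (lc P₀) * f0
        · linear_combination e1 + red p (lc P₀) * f1)
      have e : M.det = (cv P₀ ⬝ᵥ (M *ᵥ cv Q₀)) * (cs P₀ ⬝ᵥ (M *ᵥ cs Q₀)) -
          (cv P₀ ⬝ᵥ (M *ᵥ cs Q₀)) * (cs P₀ ⬝ᵥ (M *ᵥ cv Q₀)) := by
        simp [det_fin_two, dotProduct, mulVec, Fin.sum_univ_two, cv, cs]
        ring
      rw [e, mul_eq_zero_of_red hl hr, sub_zero, hu.mul_left_eq_zero]
    rw [cnt]
    by_cases hm : M.det = 0
    · rw [if_pos hm, Finset.card_eq_one]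
      refine ⟨(P₀, Q₀), Finset.ext fun ⟨P, Q⟩ => ?_⟩
      simp only [mem_filter, mem_univ, true_and, good_iff, hP', hQ', mem_singleton, Prod.mk.injEq]
      exact ⟨fun h => ⟨h.1, h.2.1⟩, fun ⟨h1, h2⟩ => ⟨h1, h2, by subst h1 h2; exact key.2 hm⟩⟩
    · rw [if_neg hm, Finset.card_eq_zero, Finset.filter_eq_empty_iff]
      rintro ⟨P, Q⟩ - hG
      rw [good_iff, hP', hQ'] at hG
      obtain ⟨rfl, rfl, h3⟩ := hG
      exact hm (key.1 h3)
  · have hk := card_ker (M.map (red p))
    rw [if_neg h, if_neg hd, Finset.card_eq_zero, Finset.filter_eq_empty_iff] at hk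
    rw [cnt, if_neg fun e => hd (by rw [hdet, e, map_zero]), Finset.card_eq_zero,
      Finset.filter_eq_empty_iff]
    exact fun x _ hG => hk (Finset.mem_univ x.1) ((good_iff M x).1 hG).1

theorem cnt_natCast_smul (M : Matrix (Fin 2) (Fin 2) (ZMod (p ^ 2))) :
    cnt ((p : ZMod (p ^ 2)) • M) =
      if M.map (red p) = 0 then (p + 1) ^ 2
      else if red p M.det = 0 then 2 * p + 1 else p + 1 := by
  classical
  have h0 : ((p : ZMod (p ^ 2)) • M).map (red p) = 0 := Matrix.ext fun i j => by simp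
  have hgood : ∀ x : Line p × Line p, Good ((p : ZMod (p ^ 2)) • M) x ↔
      cb x.2 ⬝ᵥ (cb x.1 ᵥ* M.map (red p)) = 0 := fun x => by
    rw [good_iff, h0, vecMul_zero, zero_mulVec]
    simp only [true_and]
    rw [smul_mulVec, dotProduct_smul, smul_eq_mul, natCast_mul_eq_zero_iff]
    simp [dotProduct, mulVec, vecMul, Fin.sum_univ_two, cb]
    ring_nf
  have hdet : (M.map (red p)).det = red p M.det := by
    rw [← RingHom.mapMatrix_apply, RingHom.map_det]
  rw [cnt, Finset.filter_congr (fun x _ => hgood x), Finset.card_filter, Fintype.sum_prod_type]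
  simp only [← Finset.card_filter, card_ann]
  have : ∀ P : Line p, (if cb P ᵥ* M.map (red p) = 0 then p + 1 else 1) =
      1 + p * if cb P ᵥ* M.map (red p) = 0 then 1 else 0 := fun P => by
    split_ifs <;> ring
  simp only [this, Finset.sum_add_distrib, ← Finset.mul_sum, ← Finset.card_filter, card_ker, hdet,
    Finset.sum_const, Finset.card_univ, card_line, smul_eq_mul, mul_one]
  split_ifs <;> ring

end FLTAgent.LT.Theta31.Count
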