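import Fermat.Agent.LT.Theta31.CountLocal
import Fermat.Agent.LT.Theta31.Pieces

/-!
# Cosets of the matrices of determinant `p` over `ℤ[ω]`

For a prime `p ≡ 1 (mod 3)` the right cosets correspond to the pairs of lines modulo the two
primes above `p`.
-/

set_option autoImplicit false
set_option linter.unusedSectionVars false

noncomputable section

namespace FLTAgent.LT.Theta31.Count

open Complex Matrix
open scoped ComplexConjugate MatrixGroups

/-- First coordinate on `ℤ[ω]`. -/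
def coM (x : ℂ) : ℤ := round (x.re - x.im / Real.sqrt 3)

/-- Second coordinate on `ℤ[ω]`. -/
def coN (x : ℂ) : ℤ := round (2 * x.im / Real.sqrt 3)

theorem coM_coords (m k : ℤ) : coM ((m : ℂ) + k * omC) = m := (coords_of_mem m k).1

theorem coN_coords (m k : ℤ) : coN ((m : ℂ) + k * omC) = k := (coords_of_mem m k).2

section Coord

variable {n : ℕ} (z : ZMod n)

/-- Evaluation at a root. -/
def kf (x : ℂ) : ZMod n := coM x + coN x * z

theorem kf_coords (m k : ℤ) : kf z ((m : ℂ) + k * omC) = m + k * z := by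
  rw [kf, coM_coords, coN_coords]

theorem kf_intCast (m : ℤ) : kf z (m : ℂ) = m := by
  simpa using kf_coords z m 0

theorem kf_natCast (m : ℕ) : kf z (m : ℂ) = m := by
  simpa using kf_intCast z m

theorem kf_zero : kf z 0 = 0 := by simpa using kf_intCast z 0

theorem kf_one : kf z 1 = 1 := by simpa using kf_intCast z 1

theorem kf_add {x y : ℂ} (hx : x ∈ Ow) (hy : y ∈ Ow) : kf z (x + y) = kf z x + kf z y := by
  obtain ⟨m, k, rfl⟩ := hx
  obtain ⟨m', k', rfl⟩ := hy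
  rw [show (m : ℂ) + k * omC + (m' + k' * omC) = ((m + m' : ℤ) : ℂ) + ((k + k' : ℤ) : ℂ) * omC by
    push_cast; ring, kf_coords, kf_coords, kf_coords]
  push_cast
  ring

theorem kf_neg {x : ℂ} (hx : x ∈ Ow) : kf z (-x) = -kf z x := by
  obtain ⟨m, k, rfl⟩ := hx
  rw [show -((m : ℂ) + k * omC) = ((-m : ℤ) : ℂ) + ((-k : ℤ) : ℂ) * omC by push_cast; ring,
    kf_coords, kf_coords]
  push_cast
  ring

theorem kf_mul (hz : z ^ 2 = z - 1) {x y : ℂ} (hx : x ∈ Ow) (hy : y ∈ Ow) :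
    kf z (x * y) = kf z x * kf z y := by
  obtain ⟨m, k, rfl⟩ := hx
  obtain ⟨m', k', rfl⟩ := hy
  rw [show ((m : ℂ) + k * omC) * (m' + k' * omC) =
    ((m * m' - k * k' : ℤ) : ℂ) + ((m * k' + k * m' + k * k' : ℤ) : ℂ) * omC by
    push_cast; linear_combination ((k : ℂ) * k') * omC_sq, kf_coords, kf_coords, kf_coords]
  push_cast
  linear_combination -((k : ZMod n) * k') * hz

theorem kf_conj {x : ℂ} (hx : x ∈ Ow) : kf z (conj x) = kf (1 - z) x := by
  obtain ⟨m, k, rfl⟩ := hx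
  rw [show conj ((m : ℂ) + k * omC) = ((m + k : ℤ) : ℂ) + ((-k : ℤ) : ℂ) * omC by
    simp [conj_omC]; ring, kf_coords, kf_coords]
  push_cast
  ring

theorem sq_one_sub {z : ZMod n} (hz : z ^ 2 = z - 1) : (1 - z) ^ 2 = 1 - z - 1 := by
  linear_combination hz

theorem castHom_kf {d : ℕ} (h : d ∣ n) (x : ℂ) :
    ZMod.castHom h (ZMod d) (kf z x) = kf (ZMod.castHom h (ZMod d) z) x := by
  rw [kf, kf, map_add, map_mul, map_intCast, map_intCast]

/-- Divisibility by `n` through the two roots. -/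
theorem dvdOw_iff (hu : IsUnit (2 * z - 1)) (hz : z ^ 2 = z - 1) {x : ℂ} (hx : x ∈ Ow) :
    DvdOw n x ↔ kf z x = 0 ∧ kf (1 - z) x = 0 := by
  constructor
  · rintro ⟨y, hy, rfl⟩
    rw [kf_mul z hz (natCast_mem Ow n) hy, kf_mul _ (sq_one_sub hz) (natCast_mem Ow n) hy,
      kf_natCast, kf_natCast, ZMod.natCast_self, zero_mul, zero_mul]
    exact ⟨rfl, rfl⟩
  · obtain ⟨m, k, rfl⟩ := hx
    rw [kf_coords, kf_coords]
    rintro ⟨h1, h2⟩
    have hk : (k : ZMod n) = 0 := hu.mul_right_eq_zero.1 (by linear_combination h1 - h2)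
    rw [hk, zero_mul, add_zero] at h1
    obtain ⟨m', rfl⟩ := (ZMod.intCast_zmod_eq_zero_iff_dvd m n).1 h1
    obtain ⟨k', rfl⟩ := (ZMod.intCast_zmod_eq_zero_iff_dvd k n).1 hk
    exact ⟨(m' : ℂ) + k' * omC, ⟨m', k', rfl⟩, by push_cast; ring⟩

/-- Both values can be prescribed. -/
theorem exists_kf (hu : IsUnit (2 * z - 1)) (a b : ZMod n) :
    ∃ x ∈ Ow, kf z x = a ∧ kf (1 - z) x = b := by
  obtain ⟨w, hw⟩ := hu.exists_right_inv
  obtain ⟨k, hk⟩ := ZMod.intCast_surjective ((a - b) * w)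
  obtain ⟨m, hm⟩ := ZMod.intCast_surjective (a - (a - b) * w * z)
  refine ⟨(m : ℂ) + k * omC, ⟨m, k, rfl⟩, ?_, ?_⟩ <;> rw [kf_coords, hk, hm]
  · ring
  · linear_combination -(a - b) * hw

/-- Evaluation of a matrix. -/
def kM (G : Matrix (Fin 2) (Fin 2) ℂ) : Matrix (Fin 2) (Fin 2) (ZMod n) := G.map (kf z)

theorem kM_mul (hz : z ^ 2 = z - 1) {G H : Matrix (Fin 2) (Fin 2) ℂ} (hG : IntMat G)
    (hH : IntMat H) : kM z (G * H) = kM z G * kM z H := by
  ext i j
  simp only [kM, Matrix.map_apply, Matrix.mul_apply, Fin.sum_univ_two]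
  rw [kf_add z (mul_mem (hG i 0) (hH 0 j)) (mul_mem (hG i 1) (hH 1 j)),
    kf_mul z hz (hG i 0) (hH 0 j), kf_mul z hz (hG i 1) (hH 1 j)]

theorem kM_adjugate {G : Matrix (Fin 2) (Fin 2) ℂ} (hG : IntMat G) :
    kM z (adjugate G) = adjugate (kM z G) := by
  ext i j
  fin_cases i <;> fin_cases j <;>
    simp [kM, adjugate_fin_two, kf_neg z (hG 0 1), kf_neg z (hG 1 0)]

theorem kM_conjTranspose {G : Matrix (Fin 2) (Fin 2) ℂ} (hG : IntMat G) :
    kM z Gᴴ = (kM (1 - z) G)ᵀ := by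
  ext i j
  exact kf_conj z (hG j i)

theorem kM_smul (hz : z ^ 2 = z - 1) (c : ℕ) {G : Matrix (Fin 2) (Fin 2) ℂ} (hG : IntMat G) :
    kM z ((c : ℂ) • G) = (c : ZMod n) • kM z G := by
  ext i j
  simp [kM, kf_mul z hz (natCast_mem Ow c) (hG i j), kf_natCast]

theorem det_kM (hz : z ^ 2 = z - 1) {G : Matrix (Fin 2) (Fin 2) ℂ} (hG : IntMat G) :
    (kM z G).det = kf z G.det := by
  rw [det_fin_two, det_fin_two, sub_eq_add_neg, sub_eq_add_neg,
    kf_add z (mul_mem (hG 0 0) (hG 1 1)) (neg_mem (mul_mem (hG 0 1) (hG 1 0))),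
    kf_neg z (mul_mem (hG 0 1) (hG 1 0)), kf_mul z hz (hG 0 0) (hG 1 1),
    kf_mul z hz (hG 0 1) (hG 1 0)]
  rfl

/-- The matrix of a vector. -/
theorem kM_hermX (w : Fin 4 → ℤ) :
    kM z (hermX (rvec w)) = !![(w 0 : ZMod n), (w 2 : ZMod n) + w 3 * z;
      (w 2 : ZMod n) + w 3 * (1 - z), (w 1 : ZMod n)] := by
  have h1 : kf z ((w 2 : ℂ) + (w 3 : ℂ) * omC) = (w 2 : ZMod n) + w 3 * z := kf_coords z _ _
  have h2 : kf z (conj ((w 2 : ℂ) + (w 3 : ℂ) * omC)) = (w 2 : ZMod n) + w 3 * (1 - z) := by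
    rw [kf_conj z ⟨_, _, rfl⟩, kf_coords]
  ext i j
  fin_cases i <;> fin_cases j
  · simpa [kM, hermX, rvec] using kf_intCast z (w 0)
  · simpa [kM, hermX, rvec] using h1
  · simpa [kM, hermX, rvec] using h2
  · simpa [kM, hermX, rvec] using kf_intCast z (w 1)

theorem det_kM_hermX (hz : z ^ 2 = z - 1) (w : Fin 4 → ℤ) :
    (kM z (hermX (rvec w))).det = -((qf w : ℤ) : ZMod n) := by
  rw [kM_hermX, det_fin_two_of, qf]
  push_cast
  linear_combination (w 3 : ZMod n) ^ 2 * hz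

theorem kM_hermX_eq_zero (hu : IsUnit (2 * z - 1)) (w : Fin 4 → ℤ) :
    kM z (hermX (rvec w)) = 0 ↔ ∀ i, (n : ℤ) ∣ w i := by
  simp_rw [← ZMod.intCast_zmod_eq_zero_iff_dvd]
  rw [kM_hermX, ← Matrix.ext_iff, Fin.forall_fin_two, Fin.forall_fin_two, Fin.forall_fin_two]
  constructor
  · simp
    intro h0 h2 h2' h1
    have h3 : (w 3 : ZMod n) = 0 := hu.mul_right_eq_zero.1 (by linear_combination h2 - h2')
    intro i
    fin_cases i
    exacts [h0, h1, show (w 2 : ZMod n) = 0 by linear_combination h2 - z * h3, h3]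
  · intro h
    simp [h]

end Coord

theorem intMat_adjugate {G : Matrix (Fin 2) (Fin 2) ℂ} (hG : IntMat G) : IntMat (adjugate G) := by
  intro i j
  rw [adjugate_fin_two]
  fin_cases i <;> fin_cases j <;> simp [hG 0 0, hG 0 1, hG 1 0, hG 1 1]

/-- All entries are multiples of `L`. -/
def DvdM (L : ℕ) (A : Matrix (Fin 2) (Fin 2) ℂ) : Prop := ∀ i j, DvdOw L (A i j)

theorem DvdM.mul_left {L : ℕ} {A B : Matrix (Fin 2) (Fin 2) ℂ} (hB : IntMat B) (h : DvdM L A) :
    DvdM L (B * A) := fun i j => by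
  rw [Matrix.mul_apply, Fin.sum_univ_two]
  exact dvdOw_add (dvdOw_mul_left (hB i 0) (h 0 j)) (dvdOw_mul_left (hB i 1) (h 1 j))

theorem DvdM.mul_right {L : ℕ} {A B : Matrix (Fin 2) (Fin 2) ℂ} (hB : IntMat B) (h : DvdM L A) :
    DvdM L (A * B) := fun i j => by
  rw [Matrix.mul_apply, Fin.sum_univ_two]
  exact dvdOw_add (dvdOw_mul_right (hB 0 j) (h i 0)) (dvdOw_mul_right (hB 1 j) (h i 1))

theorem DvdM.add {L : ℕ} {A B : Matrix (Fin 2) (Fin 2) ℂ} (hA : DvdM L A) (hB : DvdM L B) :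
    DvdM L (A + B) := fun i j => dvdOw_add (hA i j) (hB i j)

theorem dvdOw_neg {L : ℕ} {x : ℂ} (h : DvdOw L x) : DvdOw L (-x) := by
  obtain ⟨y, hy, rfl⟩ := h
  exact ⟨-y, neg_mem hy, by ring⟩

theorem DvdM.conjTranspose {L : ℕ} {A : Matrix (Fin 2) (Fin 2) ℂ} (h : DvdM L A) : DvdM L Aᴴ :=
  fun i j => by
    obtain ⟨y, hy, e⟩ := h j i
    exact ⟨conj y, conj_mem_Ow hy, by simp [Matrix.conjTranspose_apply, e]⟩

/-- The matrix `diag (p, 1)`. -/
abbrev dgP (p : ℕ) : Matrix (Fin 2) (Fin 2) ℂ := !![(p : ℂ), 0; 0, 1]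

theorem intMat_dgP (p : ℕ) : IntMat (dgP p) := fun i j => by
  fin_cases i <;> fin_cases j <;> simp [zero_mem, one_mem, natCast_mem]

variable {L p : ℕ} [hp : Fact p.Prime] {z : ZMod (p ^ 2)}

/-- A matrix of `Δ` has the given pair of lines. -/
def HasPar (z : ZMod (p ^ 2)) (δ : Matrix (Fin 2) (Fin 2) ℂ) (x : Line p × Line p) : Prop :=
  cb x.1 ᵥ* (kM z δ).map (red p) = 0 ∧ cb x.2 ᵥ* (kM (1 - z) δ).map (red p) = 0

theorem existsUnique_line (hz : z ^ 2 = z - 1) {δ : Matrix (Fin 2) (Fin 2) ℂ} (hi : IntMat δ)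
    (hd : δ.det = (p : ℂ)) : ∃! P : Line p, cb P ᵥ* (kM z δ).map (red p) = 0 := by
  classical
  have hd' : (kM z δ).det = (p : ZMod (p ^ 2)) := by rw [det_kM z hz hi, hd, kf_natCast]
  have hne : (kM z δ).map (red p) ≠ 0 := fun h => by
    have e : ∀ i j, red p (kM z δ i j) = 0 := fun i j => congrFun (congrFun h i) j
    rw [det_fin_two, mul_eq_zero_of_red (e 0 0) (e 1 1), mul_eq_zero_of_red (e 0 1) (e 1 0),
      sub_zero] at hd'
    exact natCast_ne_zero_sq hd'.symm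
  have h := card_ker ((kM z δ).map (red p))
  rw [if_neg hne, if_pos (by
    rw [← RingHom.mapMatrix_apply, ← RingHom.map_det, hd', map_natCast, ZMod.natCast_self]),
    Finset.card_eq_one] at h
  obtain ⟨P, hP⟩ := h
  exact ⟨P, by simpa using (Finset.ext_iff.1 hP P).2 (Finset.mem_singleton_self P),
    fun Q hQ => Finset.mem_singleton.1 ((Finset.ext_iff.1 hP Q).1 (by simpa using hQ))⟩

theorem existsUnique_hasPar (hz : z ^ 2 = z - 1) {δ : Matrix (Fin 2) (Fin 2) ℂ} (hi : IntMat δ)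
    (hd : δ.det = (p : ℂ)) : ∃! x, HasPar z δ x := by
  obtain ⟨P, hP, hP'⟩ := existsUnique_line hz hi hd
  obtain ⟨Q, hQ, hQ'⟩ := existsUnique_line (sq_one_sub hz) hi hd
  exact ⟨(P, Q), ⟨hP, hQ⟩, fun x h => Prod.ext (hP' _ h.1) (hQ' _ h.2)⟩

theorem HasPar.mul {δ G : Matrix (Fin 2) (Fin 2) ℂ} {x : Line p × Line p} (hz : z ^ 2 = z - 1)
    (hδ : IntMat δ) (hG : IntMat G) (h : HasPar z δ x) : HasPar z (δ * G) x := by
  refine ⟨?_, ?_⟩
  · rw [kM_mul z hz hδ hG, Matrix.map_mul, ← vecMul_vecMul, h.1, zero_vecMul]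
  · rw [kM_mul _ (sq_one_sub hz) hδ hG, Matrix.map_mul, ← vecMul_vecMul, h.2, zero_vecMul]

/-- A representative with the given pair of lines. -/
def IsEps (L : ℕ) (z : ZMod (p ^ 2)) (g : GL (Fin 2) ℂ) (x : Line p × Line p) : Prop :=
  g ∈ deltaSet L p ∧ kM z g.val = matL x.1 ∧ kM (1 - z) g.val = matL x.2

theorem exists_isEps (hL : ¬ p ∣ L) (hz : z ^ 2 = z - 1) (hu : IsUnit (2 * z - 1))
    (x : Line p × Line p) : ∃ g, IsEps L z g x := by
  obtain ⟨u, hu'⟩ := (isUnit_of_red (x := (L : ZMod (p ^ 2))) (by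
    rwa [map_natCast, Ne, ZMod.natCast_eq_zero_iff])).exists_right_inv
  obtain ⟨a, ha, a1, a2⟩ := exists_kf z hu (la x.1 * u) (la x.2 * u)
  obtain ⟨c, hc, c1, c2⟩ := exists_kf z hu (lc x.1 * u) (lc x.2 * u)
  set A : ℂ := (L : ℂ) * a
  set C : ℂ := (L : ℂ) * c
  have hA : A ∈ Ow := mul_mem (natCast_mem Ow L) ha
  have hC : C ∈ Ow := mul_mem (natCast_mem Ow L) hc
  have hev : ∀ z' : ZMod (p ^ 2), z' ^ 2 = z' - 1 → ∀ y : Line p,
      kf z' a = la y * u → kf z' c = lc y * u →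
      kM z' !![(p : ℂ), A; C * p, C * A + 1] = matL y := by
    intro z' hz' y e1 e2
    have eA : kf z' A = la y := by
      rw [kf_mul z' hz' (natCast_mem Ow L) ha, kf_natCast, e1]
      linear_combination la y * hu'
    have eC : kf z' C = lc y := by
      rw [kf_mul z' hz' (natCast_mem Ow L) hc, kf_natCast, e2]
      linear_combination lc y * hu'
    ext i j
    fin_cases i <;> fin_cases j <;>
      simp [kM, matL, kf_add z' (mul_mem hC hA) (one_mem Ow), kf_mul z' hz' hC hA, kf_one,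
        kf_mul z' hz' hC (natCast_mem Ow p), kf_natCast, eA, eC]
  have hdet : Matrix.det !![(p : ℂ), A; C * p, C * A + 1] = p := by
    rw [det_fin_two_of]; ring
  refine ⟨GeneralLinearGroup.mkOfDetNeZero _ (hdet.trans_ne (Nat.cast_ne_zero.2 hp.out.ne_zero)),
    ⟨?_, hdet, ?_⟩, hev z hz x.1 a1 c1, hev _ (sq_one_sub hz) x.2 a2 c2⟩
  · intro i j
    show (!![(p : ℂ), A; C * p, C * A + 1] : Matrix (Fin 2) (Fin 2) ℂ) i j ∈ Ow
    fin_cases i <;> fin_cases j <;>
      simp [natCast_mem, hA, mul_mem hC (natCast_mem Ow p), add_mem (mul_mem hC hA) (one_mem Ow)]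
  · intro i j
    show DvdOw L ((!![(p : ℂ), A; C * p, C * A + 1] : Matrix (Fin 2) (Fin 2) ℂ) i j - _)
    fin_cases i <;> fin_cases j
    · exact ⟨0, zero_mem _, by simp⟩
    · exact ⟨a, ha, by simp [A]⟩
    · exact ⟨c * p, mul_mem hc (natCast_mem Ow p), by simp [C]; ring⟩
    · exact ⟨c * A, mul_mem hc hA, by simp [C]; ring⟩

theorem hasPar_of_isEps {g : GL (Fin 2) ℂ} {x : Line p × Line p} (h : IsEps L z g x) :
    HasPar z g.val x := by
  have e : ∀ P : Line p, cb P ᵥ* (matL P).map (red p) = 0 := fun P => by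
    funext j
    fin_cases j <;> simp [matL, cb, cv, vecMul, dotProduct, Fin.sum_univ_two]
    ring
  exact ⟨by rw [h.2.1]; exact e _, by rw [h.2.2]; exact e _⟩

/-- Matrices with the same lines differ by an element of the group. -/
theorem exists_eq_mul (hL : ¬ p ∣ L) (hz : z ^ 2 = z - 1) (hu : IsUnit (2 * z - 1))
    {g δ : GL (Fin 2) ℂ} {x : Line p × Line p} (hg : IsEps L z g x) (hδ : δ ∈ deltaSet L p)
    (h : HasPar z δ.val x) : ∃ γ ∈ slOL L, δ = g * (γ : GL (Fin 2) ℂ) := by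
  set H := adjugate g.val * δ.val
  have hi : IntMat H := intMat_mul (intMat_adjugate hg.1.1) hδ.1
  have hk : ∀ (z' : ZMod (p ^ 2)) (P : Line p), z' ^ 2 = z' - 1 → kM z' g.val = matL P →
      cb P ᵥ* (kM z' δ.val).map (red p) = 0 → (kM z' H).map (red p) = 0 := by
    intro z' P hz' e h'
    rw [kM_mul z' hz' (intMat_adjugate hg.1.1) hδ.1, kM_adjugate z' hg.1.1, e, adjugate_matL,
      Matrix.map_mul]
    ext i j
    have hj := congrFun h' j
    simp [vecMul, dotProduct, Fin.sum_univ_two, cb] at hj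
    fin_cases i <;> simp [Matrix.mul_apply, Fin.sum_univ_two]
    exact hj
  have hred : IsUnit (2 * red p z - 1) := by simpa [map_sub, map_mul, map_ofNat] using hu.map (red p)
  have hred2 : red p z ^ 2 = red p z - 1 := by
    rw [← map_pow, hz, map_sub, map_one]
  have hp' : DvdM p H := fun i j => by
    refine (dvdOw_iff _ hred hred2 (hi i j)).2 ⟨?_, ?_⟩
    · exact (castHom_kf z _ _).symm.trans (congrFun (congrFun (hk z x.1 hz hg.2.1 h.1) i) j)
    · rw [show (1 : ZMod p) - red p z = red p (1 - z) by rw [map_sub, map_one]]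
      exact (castHom_kf (1 - z) _ _).symm.trans
        (congrFun (congrFun (hk _ x.2 (sq_one_sub hz) hg.2.2 h.2) i) j)
  choose y hy hyH using hp'
  set Y : Matrix (Fin 2) (Fin 2) ℂ := Matrix.of y
  have hH : H = (p : ℂ) • Y := Matrix.ext fun i j => hyH i j
  have hp0 : (p : ℂ) ≠ 0 := Nat.cast_ne_zero.2 hp.out.ne_zero
  have hdY : Y.det = 1 := by
    have e := congrArg Matrix.det hH
    rw [det_mul, det_adjugate, hg.1.2.1, hδ.2.1, det_smul, Fintype.card_fin] at e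
    exact mul_left_cancel₀ (mul_ne_zero hp0 hp0) (by linear_combination -e)
  have hgY : g.val * Y = δ.val := by
    have e : g.val * H = (p : ℂ) • δ.val := by
      rw [← Matrix.mul_assoc, mul_adjugate, hg.1.2.1, Matrix.smul_mul, Matrix.one_mul]
    rw [hH, Matrix.mul_smul] at e
    exact smul_right_injective _ hp0 e
  have hY1 : DvdM L (Y - 1) := fun i j => by
    have hdd : ∀ G : Matrix (Fin 2) (Fin 2) ℂ,
        (∀ i j, DvdOw L (G i j - dgP p i j)) → DvdM L (adjugate G - adjugate (dgP p)) := by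
      intro G hG i j
      rw [Matrix.sub_apply, adjugate_fin_two, adjugate_fin_two]
      fin_cases i <;> fin_cases j <;> simp
      · simpa using hG 1 1
      · simpa using dvdOw_neg (hG 0 1)
      · simpa using dvdOw_neg (hG 1 0)
      · simpa using hG 0 0
    have e : (p : ℂ) • (Y - 1) = (adjugate g.val - adjugate (dgP p)) * δ.val +
        adjugate (dgP p) * (δ.val - dgP p) := by
      rw [smul_sub, ← hH, sub_mul, mul_sub, adjugate_mul]
      simp [H, det_fin_two]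
    obtain ⟨q, hq, hq'⟩ : DvdOw L ((p : ℂ) * (Y - 1) i j) := by
      rw [← smul_eq_mul, ← Matrix.smul_apply, e]
      exact (((hdd _ hg.1.2.2).mul_right hδ.1).add
        (DvdM.mul_left (intMat_adjugate (intMat_dgP p)) fun i j => hδ.2.2 i j)) i j
    obtain ⟨u, v, huv⟩ :=
      Nat.isCoprime_iff_coprime.2 ((Nat.Prime.coprime_iff_not_dvd hp.out).2 hL)
    have huv' : (u : ℂ) * p + v * L = 1 := by exact_mod_cast huv
    refine ⟨(u : ℂ) * q + v * (Y - 1) i j, add_mem (mul_mem (intCast_mem Ow u) hq)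
      (mul_mem (intCast_mem Ow v) ?_), ?_⟩
    · rw [Matrix.sub_apply]
      refine sub_mem (hy i j) ?_
      rcases eq_or_ne i j with rfl | h' <;> simp [one_mem, zero_mem, *]
    · linear_combination -(Y - 1) i j * huv' + (u : ℂ) * hq'
  refine ⟨⟨GeneralLinearGroup.mkOfDetNeZero Y (by rw [hdY]; exact one_ne_zero), hy, hdY⟩, hY1, ?_⟩
  exact Units.ext hgY.symm

end FLTAgent.LT.Theta31.Count
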