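import Fermat.Agent.LT.Theta31.Family

/-!
# Unfolding the Hecke relation against the theta series
-/

set_option autoImplicit false
set_option linter.unusedSectionVars false

noncomputable section

namespace FLTAgent.LT.Theta31

open Complex Matrix MeasureTheory Hyp
open scoped Real ComplexConjugate ENNReal

variable {L p : ℕ} [NeZero L]

theorem deltaSet_mul {γ : slO} (hγ : γ ∈ slOL L) {δ : GL (Fin 2) ℂ} (hδ : δ ∈ deltaSet L p) :
    (γ : GL (Fin 2) ℂ) * δ ∈ deltaSet L p ∧ δ * (γ : GL (Fin 2) ℂ) ∈ deltaSet L p := by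
  obtain ⟨hint, hdet, hcong⟩ := hδ
  constructor
  · refine ⟨by rw [Units.val_mul]; exact intMat_mul γ.2.1 hint,
      by rw [Units.val_mul, det_mul, γ.2.2, one_mul, hdet], fun i j => ?_⟩
    rw [Units.val_mul, show γ.1.val * δ.val = (γ.1.val - 1) * δ.val + δ.val by
      rw [sub_mul, one_mul, sub_add_cancel], Matrix.add_apply, add_sub_assoc, Matrix.mul_apply,
      Fin.sum_univ_two]
    exact dvdOw_add (dvdOw_add (dvdOw_mul_right (hint 0 j) (hγ i 0))
      (dvdOw_mul_right (hint 1 j) (hγ i 1))) (hcong i j)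
  · refine ⟨by rw [Units.val_mul]; exact intMat_mul hint γ.2.1,
      by rw [Units.val_mul, det_mul, γ.2.2, mul_one, hdet], fun i j => ?_⟩
    rw [Units.val_mul, show δ.val * γ.1.val = δ.val * (γ.1.val - 1) + δ.val by
      rw [mul_sub, mul_one, sub_add_cancel], Matrix.add_apply, add_sub_assoc, Matrix.mul_apply,
      Fin.sum_univ_two]
    exact dvdOw_add (dvdOw_add (dvdOw_mul_left (hint i 0) (hγ 0 j))
      (dvdOw_mul_left (hint i 1) (hγ 1 j))) (hcong i j)

theorem countable_deltaSet (L p : ℕ) : Countable (deltaSet L p) :=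
  (show Function.Injective
      (fun g : deltaSet L p => fun (i j : Fin 2) => (⟨g.1.val i j, g.2.1 i j⟩ : Ow))
    from fun g h e => Subtype.ext (Units.ext (Matrix.ext fun i j =>
      congrArg Subtype.val (congrFun (congrFun e i) j)))).countable

/-- Left representatives parametrise `Δ`. -/
def leftEquiv {R : Finset (GL (Fin 2) ℂ)} (hR : IsLeftReps L p R) :
    (slOL L × R) ≃ deltaSet L p := by
  refine Equiv.ofBijective
    (fun x => ⟨((x.1 : slO) : GL (Fin 2) ℂ) * x.2.1, (deltaSet_mul x.1.2 (hR.1 x.2.2)).1⟩) ⟨?_, ?_⟩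
  · rintro ⟨g, r⟩ ⟨g', r'⟩ e
    have e' : ((g : slO) : GL (Fin 2) ℂ) * r.1 = ((g' : slO) : GL (Fin 2) ℂ) * r'.1 :=
      congrArg Subtype.val e
    have hr : r = r' := Subtype.ext ((hR.2 _ (deltaSet_mul g.2 (hR.1 r.2)).1).unique
      ⟨r.2, g.1, g.2, rfl⟩ ⟨r'.2, g'.1, g'.2, e'⟩)
    subst hr
    exact Prod.ext (Subtype.ext (Subtype.ext (mul_right_cancel e'))) rfl
  · rintro ⟨δ, hδ⟩
    obtain ⟨r, hr, γ, hγ, e⟩ := (hR.2 δ hδ).exists
    exact ⟨(⟨γ, hγ⟩, ⟨r, hr⟩), Subtype.ext e.symm⟩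

/-- Right representatives parametrise `Δ`. -/
def rightEquiv {R : Finset (GL (Fin 2) ℂ)} (hR : IsRightReps L p R) :
    (R × slOL L) ≃ deltaSet L p := by
  refine Equiv.ofBijective
    (fun x => ⟨x.1.1 * ((x.2 : slO) : GL (Fin 2) ℂ), (deltaSet_mul x.2.2 (hR.1 x.1.2)).2⟩) ⟨?_, ?_⟩
  · rintro ⟨r, g⟩ ⟨r', g'⟩ e
    have e' : r.1 * ((g : slO) : GL (Fin 2) ℂ) = r'.1 * ((g' : slO) : GL (Fin 2) ℂ) :=
      congrArg Subtype.val e
    have hr : r = r' := Subtype.ext ((hR.2 _ (deltaSet_mul g.2 (hR.1 r.2)).2).unique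
      ⟨r.2, g.1, g.2, rfl⟩ ⟨r'.2, g'.1, g'.2, e'⟩)
    subst hr
    exact Prod.ext rfl (Subtype.ext (Subtype.ext (mul_left_cancel e')))
  · rintro ⟨δ, hδ⟩
    obtain ⟨r, hr, γ, hγ, e⟩ := (hR.2 δ hδ).exists
    exact ⟨(⟨r, hr⟩, ⟨γ, hγ⟩), Subtype.ext e.symm⟩

/-- The real weight. -/
def wR (L : ℕ) (x : H3) : ℝ := (wL L x).toReal

theorem wR_nonneg (x : H3) : 0 ≤ wR L x := ENNReal.toReal_nonneg

theorem ofReal_wR (x : H3) : ENNReal.ofReal (wR L x) = wL L x :=
  ENNReal.ofReal_toReal (ne_top_of_le_ne_top ENNReal.one_ne_top ((isWeight_wL L).le_one x))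

theorem measurable_wR : Measurable (wR L) := (isWeight_wL L).measurable.ennreal_toReal

theorem hasSum_wR (x : H3) : HasSum (fun g : slOL L => ((wR L (g • x) : ℝ) : ℂ)) 1 := by
  have h : HasSum (fun g : slOL L => wR L (g • x)) 1 := by
    have h1 := (isWeight_wL L).sum_one x
    have h2 := ENNReal.hasSum_toReal (f := fun g : slOL L => wL L (g • x))
      (by rw [h1]; exact ENNReal.one_ne_top)
    rwa [← ENNReal.tsum_toReal_eq fun g => ne_top_of_le_ne_top ENNReal.one_ne_top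
      ((isWeight_wL L).le_one _), h1, ENNReal.toReal_one] at h2
  simpa using Complex.hasSum_ofReal.2 h

theorem hasSum_wR_inv (x : H3) : HasSum (fun g : slOL L => ((wR L (g⁻¹ • x) : ℝ) : ℂ)) 1 :=
  (Equiv.inv (slOL L)).hasSum_iff.2 (hasSum_wR x)

theorem integral_muL_wR (f : H3 → ℂ) :
    ∫ x, f x ∂muL L = ∫ x, (wR L x : ℂ) * f x ∂hypMeasure := by
  rw [muL, RS.wMeasure, integral_withDensity_eq_integral_toReal_smul (isWeight_wL L).measurable
    (ae_of_all _ fun x => lt_of_le_of_lt ((isWeight_wL L).le_one x) ENNReal.one_lt_top)]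
  simp only [wR, Complex.real_smul]

theorem smul_eq_act (g : slOL L) (x : H3) : g • x = act ((g : slO) : GL (Fin 2) ℂ) x := rfl

theorem act_mul_slOL (g : slOL L) (δ : GL (Fin 2) ℂ) (x : H3) :
    act (((g : slO) : GL (Fin 2) ℂ) * δ) x = g • act δ x := act_mul _ _ x

theorem act_inv_mul_slOL (g : slOL L) (δ : GL (Fin 2) ℂ) (x : H3) :
    act (δ * ((g : slO) : GL (Fin 2) ℂ))⁻¹ x = g⁻¹ • act δ⁻¹ x := by
  rw [_root_.mul_inv_rev, act_mul]
  rfl

/-- **Unfolding.** -/
theorem integral_unfold {v g : H3 → ℂ} (hv : Measurable v) {C : ℝ} (hC : ∀ x, ‖v x‖ ≤ C)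
    (hvinv : ∀ (γ : slOL L) x, v (γ • x) = v x) (hg : Measurable g)
    (hginv : ∀ (γ : slOL L) x, g (γ • x) = g x) (hgi : Integrable g (muL L))
    {Rl Rr : Finset (GL (Fin 2) ℂ)} (hl : IsLeftReps L p Rl) (hr : IsRightReps L p Rr) :
    ∫ x, (∑ δ ∈ Rl, v (act δ x)) * g x ∂muL L =
      ∫ y, v y * ∑ ε ∈ Rr, g (act ε⁻¹ y) ∂muL L := by
  classical
  haveI := countable_deltaSet L p
  set w := wR L with hwdef
  set K : deltaSet L p → H3 → ℂ := fun δ x =>
    (w x : ℂ) * (w (act δ.1 x) : ℂ) * (v (act δ.1 x) * g x) with hK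
  set K' : deltaSet L p → H3 → ℂ := fun δ y =>
    (w (act δ.1⁻¹ y) : ℂ) * (w y : ℂ) * (v y * g (act δ.1⁻¹ y)) with hK'
  have hKK : ∀ δ y, K δ (act δ.1⁻¹ y) = K' δ y := fun δ y => by simp [hK, hK', act_act_inv]
  have hKm : ∀ δ, Measurable (K δ) := fun δ =>
    ((Complex.measurable_ofReal.comp measurable_wR).mul
      (Complex.measurable_ofReal.comp (measurable_wR.comp (measurable_act _)))).mul
        ((hv.comp (measurable_act _)).mul hg)
  have hK'm : ∀ δ, Measurable (K' δ) := fun δ => by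
    have : K' δ = fun y => K δ (act δ.1⁻¹ y) := funext fun y => (hKK δ y).symm
    rw [this]
    exact (hKm δ).comp (measurable_act _)
  have hfin : ∑' δ, ∫⁻ x, ‖K δ x‖ₑ ∂hypMeasure ≠ ⊤ := by
    rw [← lintegral_tsum fun δ => (hKm δ).enorm.aemeasurable]
    refine ne_top_of_le_ne_top (b := (∫⁻ x, wL L x * ‖g x‖ₑ ∂hypMeasure) *
      ((Rl.card : ℝ≥0∞) * ENNReal.ofReal |C|)) ?_ ?_
    · refine ENNReal.mul_ne_top ?_ (ENNReal.mul_ne_top (ENNReal.natCast_ne_top _) ENNReal.ofReal_ne_top)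
      rw [← lintegral_muL hg.enorm]
      exact hgi.2.ne
    · have hm : Measurable fun x => wL L x * ‖g x‖ₑ := (isWeight_wL L).measurable.mul hg.enorm
      rw [← lintegral_mul_const _ hm]
      refine lintegral_mono fun x => ?_
      rw [← (leftEquiv hl).tsum_eq, ENNReal.tsum_prod', ENNReal.tsum_comm]
      have hb : ∀ (r : Rl) (γ : slOL L), ‖K (leftEquiv hl (γ, r)) x‖ₑ ≤
          wL L (γ • act r.1 x) * (wL L x * ‖g x‖ₑ * ENNReal.ofReal |C|) := fun r γ => by
        have e : act (leftEquiv hl (γ, r)).1 x = γ • act r.1 x := act_mul_slOL γ r.1 x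
        simp only [hK, e, hvinv, enorm_mul, hwdef]
        simp only [← ofReal_norm, Complex.norm_real, Real.norm_eq_abs, abs_of_nonneg (wR_nonneg _),
          ofReal_wR]
        calc wL L x * wL L (γ • act r.1 x) * (ENNReal.ofReal ‖v (act r.1 x)‖ * ENNReal.ofReal ‖g x‖)
            = wL L (γ • act r.1 x) *
                (wL L x * ENNReal.ofReal ‖g x‖ * ENNReal.ofReal ‖v (act r.1 x)‖) := by ring
          _ ≤ _ := mul_le_mul' le_rfl (mul_le_mul' le_rfl
              (ENNReal.ofReal_le_ofReal ((hC _).trans (le_abs_self C))))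
      calc ∑' (r : Rl) (γ : slOL L), ‖K (leftEquiv hl (γ, r)) x‖ₑ
          ≤ ∑' (r : Rl) (γ : slOL L),
              wL L (γ • act r.1 x) * (wL L x * ‖g x‖ₑ * ENNReal.ofReal |C|) :=
            ENNReal.tsum_le_tsum fun r => ENNReal.tsum_le_tsum fun γ => hb r γ
        _ = _ := by
            simp only [ENNReal.tsum_mul_right, (isWeight_wL L).sum_one, one_mul]
            simp [tsum_fintype, Finset.card_univ, mul_assoc, mul_left_comm]
  have hfin' : ∑' δ, ∫⁻ y, ‖K' δ y‖ₑ ∂hypMeasure ≠ ⊤ := by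
    refine ne_top_of_le_ne_top hfin (le_of_eq (tsum_congr fun δ => ?_))
    rw [← (measurePreserving_act (δ.1⁻¹)).lintegral_comp (hKm δ).enorm]
    simp only [hKK]
  have hsum : ∀ {f : deltaSet L p → ℂ},
      ∑' δ, ‖f δ‖ₑ ≠ ⊤ → Summable f := fun {f} hf => by
    refine Summable.of_norm ?_
    refine (ENNReal.summable_toReal hf).congr fun δ => ?_
    simp
  -- the left hand side
  have hL : ∫ x, (∑ δ ∈ Rl, v (act δ x)) * g x ∂muL L = ∫ x, ∑' δ, K δ x ∂hypMeasure := by
    rw [integral_muL_wR]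
    refine integral_congr_ae ?_
    have hae := ae_lt_top (Measurable.ennreal_tsum fun δ => (hKm δ).enorm)
      (by rwa [lintegral_tsum fun δ => (hKm δ).enorm.aemeasurable])
    filter_upwards [hae] with x hx
    have hs := hsum hx.ne
    have hs2 : Summable fun c : slOL L × Rl => K (leftEquiv hl c) x :=
      (leftEquiv hl).summable_iff.2 hs
    rw [← (leftEquiv hl).tsum_eq, hs2.tsum_prod' fun γ => (Summable.of_finite),
      tsum_congr fun γ => tsum_fintype _]
    rw [Summable.tsum_finsetSum]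
    · rw [← Finset.sum_coe_sort Rl fun δ => v (act δ x), Finset.sum_mul, Finset.mul_sum]
      refine Finset.sum_congr rfl fun r _ => ?_
      refine (HasSum.tsum_eq ?_).symm
      have := (hasSum_wR (L := L) (act r.1 x)).mul_left ((w x : ℂ) * (v (act r.1 x) * g x))
      rw [mul_one] at this
      refine this.congr_fun fun γ => ?_
      simp only [hK]
      rw [show act (leftEquiv hl (γ, r)).1 x = γ • act r.1 x from act_mul_slOL γ r.1 x, hvinv]
      ring
    · intro r _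
      exact hs2.comp_injective (Prod.mk_left_injective r)
  -- the right hand side
  have hR : ∫ y, v y * ∑ ε ∈ Rr, g (act ε⁻¹ y) ∂muL L = ∫ y, ∑' δ, K' δ y ∂hypMeasure := by
    rw [integral_muL_wR]
    refine integral_congr_ae ?_
    have hae := ae_lt_top (Measurable.ennreal_tsum fun δ => (hK'm δ).enorm)
      (by rwa [lintegral_tsum fun δ => (hK'm δ).enorm.aemeasurable])
    filter_upwards [hae] with y hy
    have hs := hsum hy.ne
    have hs2 : Summable fun c : Rr × slOL L => K' (rightEquiv hr c) y :=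
      (rightEquiv hr).summable_iff.2 hs
    rw [← (rightEquiv hr).tsum_eq,
      hs2.tsum_prod' fun r => hs2.comp_injective (Prod.mk_right_injective r), tsum_fintype,
      ← Finset.sum_coe_sort Rr fun ε => g (act ε⁻¹ y), Finset.mul_sum, Finset.mul_sum]
    refine Finset.sum_congr rfl fun r _ => ?_
    refine (HasSum.tsum_eq ?_).symm
    have := (hasSum_wR_inv (L := L) (act r.1⁻¹ y)).mul_left ((w y : ℂ) * (v y * g (act r.1⁻¹ y)))
    rw [mul_one] at this
    refine this.congr_fun fun γ => ?_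
    simp only [hK']
    rw [show act (rightEquiv hr (r, γ)).1⁻¹ y = γ⁻¹ • act r.1⁻¹ y from act_inv_mul_slOL γ r.1 y,
      hginv]
    ring
  rw [hL, hR, integral_tsum (fun δ => (hKm δ).aestronglyMeasurable) hfin,
    integral_tsum (fun δ => (hK'm δ).aestronglyMeasurable) hfin']
  refine tsum_congr fun δ => ?_
  rw [← integral_act δ.1⁻¹ (K δ)]
  simp only [hKK]

/-- The theta kernel is integrable against bounded functions. -/
theorem integrable_mul_th {u : H3 → ℂ} (hu : Measurable u) {C : ℝ} (hC : ∀ x, ‖u x‖ ≤ C)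
    (Φ : (Fin 4 → ZMod L) → ℂ) {τ : ℂ} (h : 0 < τ.im) :
    Integrable (fun x => u x * th (frameOf x) L Φ τ) (muL L) := by
  refine ((integrable_mul_of_majSum hu hC (measurable_exSum (Φ := Φ) h) (by positivity)
    fun x => enorm_exSum_le τ x).const_mul (Real.sqrt τ.im : ℂ)).congr (ae_of_all _ fun x => ?_)
  simp only [th, exSum]
  ring

theorem th_smul_slOL (Φ : (Fin 4 → ZMod L) → ℂ) (τ : ℂ) (γ : slOL L) (x : H3) :
    th (frameOf (γ • x)) L Φ τ = th (frameOf x) L Φ τ := by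
  rw [th, th]
  exact congrArg _ (exSum_smul τ γ x)

/-- **The Hecke relation for the lifts.** -/
theorem sqHecke_lift (hCount : CountIdentity) (hp : p.Prime) (hp3 : p % 3 = 1) (hpL : ¬ p ∣ L)
    {u v : H3 → ℂ} (hv : IsU L v) {c : ℂ}
    (hrel : ∀ R, IsLeftReps L p R → ∀ x, c * u x = ∑ δ ∈ R, v (act δ x))
    (φ : (Fin 4 → ZMod L) → ℂ) {τ : ℂ} (hτ : 0 < τ.im) :
    c * liftTh L u (fun R => φ (diagV p R)) τ =
      (1 / (p : ℂ)) * ∑ j ∈ Finset.range (p ^ 2), liftTh L v φ ((τ + j) / (p : ℂ) ^ 2) +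
        ∑ k ∈ Finset.range p, liftTh L v (fun R => φ ((p : ZMod L) • R)) (τ + k / (p : ℂ)) +
        (p : ℂ) * liftTh L v (fun R => φ ((p : ZMod L) • R)) τ +
        (p : ℂ) * liftTh L v (fun R => φ ((p : ZMod L) ^ 2 • R)) ((p : ℂ) ^ 2 * τ) := by
  obtain ⟨⟨Rl, hl⟩, ⟨Rr, hr⟩, hid⟩ := hCount L p hp hp3 hpL
  obtain ⟨C, hC⟩ := hv.bdd
  set g : H3 → ℂ := fun x => th (frameOf x) L (fun R => φ (diagV p R)) τ
  have hgm : Measurable g := by
    show Measurable fun x => (Real.sqrt τ.im : ℂ) * exSum (fun R => φ (diagV p R)) τ x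
    exact (measurable_exSum (Φ := fun R => φ (diagV p R)) hτ).const_mul _
  have hgi : Integrable g (muL L) :=
    (integrable_mul_th (u := fun _ => 1) measurable_const (C := 1) (fun _ => by simp)
      (fun R => φ (diagV p R)) hτ).congr (ae_of_all _ fun x => one_mul _)
  have h1 : c * liftTh L u (fun R => φ (diagV p R)) τ =
      ∫ x, (∑ δ ∈ Rl, v (act δ x)) * g x ∂muL L := by
    rw [liftTh_eq_integral_th, ← integral_const_mul]
    exact integral_congr_ae (ae_of_all _ fun x => by simp only [g, ← hrel Rl hl x]; ring)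
  have hp0 : (0 : ℝ) < p := Nat.cast_pos.2 hp.pos
  have a1 : ∀ j : ℕ, 0 < ((τ + j) / (p : ℂ) ^ 2).im := fun j => by
    rw [show (τ + j) / (p : ℂ) ^ 2 = ((((p : ℝ) ^ 2)⁻¹ : ℝ) : ℂ) * (τ + j) by
      push_cast; rw [div_eq_inv_mul]]
    simp only [Complex.im_ofReal_mul, Complex.add_im, Complex.natCast_im, add_zero]
    positivity
  have a2 : ∀ k : ℕ, 0 < (τ + k / (p : ℂ)).im := fun k => by
    rw [show τ + k / (p : ℂ) = τ + (((k : ℝ) / p : ℝ) : ℂ) by simp]
    simpa using hτ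
  have a3 : 0 < ((p : ℂ) ^ 2 * τ).im := by
    rw [show (p : ℂ) ^ 2 * τ = (((p : ℝ) ^ 2 : ℝ) : ℂ) * τ by simp, Complex.im_ofReal_mul]
    positivity
  have hint : ∀ (Φ : (Fin 4 → ZMod L) → ℂ) (σ : ℂ), 0 < σ.im →
      Integrable (fun x => v x * th (frameOf x) L Φ σ) (muL L) := fun Φ σ hσ =>
    integrable_mul_th hv.cont.measurable hC Φ hσ
  have I1 : Integrable (fun y => (1 / (p : ℂ)) * ∑ j ∈ Finset.range (p ^ 2),
      v y * th (frameOf y) L φ ((τ + j) / (p : ℂ) ^ 2)) (muL L) :=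
    (integrable_finsetSum _ fun j _ => hint φ _ (a1 j)).const_mul _
  have I2 : Integrable (fun y => ∑ k ∈ Finset.range p,
      v y * th (frameOf y) L (fun R => φ ((p : ZMod L) • R)) (τ + k / (p : ℂ))) (muL L) :=
    integrable_finsetSum _ fun k _ => hint _ _ (a2 k)
  have I3 : Integrable (fun y => (p : ℂ) *
      (v y * th (frameOf y) L (fun R => φ ((p : ZMod L) • R)) τ)) (muL L) :=
    (hint _ _ hτ).const_mul _
  have I4 : Integrable (fun y => (p : ℂ) *
      (v y * th (frameOf y) L (fun R => φ ((p : ZMod L) ^ 2 • R)) ((p : ℂ) ^ 2 * τ))) (muL L) :=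
    (hint _ _ a3).const_mul _
  have h2 : ∫ y, v y * ∑ ε ∈ Rr, g (act ε⁻¹ y) ∂muL L =
      ∫ y, (1 / (p : ℂ)) * ∑ j ∈ Finset.range (p ^ 2),
          v y * th (frameOf y) L φ ((τ + j) / (p : ℂ) ^ 2) +
        ∑ k ∈ Finset.range p,
          v y * th (frameOf y) L (fun R => φ ((p : ZMod L) • R)) (τ + k / (p : ℂ)) +
        (p : ℂ) * (v y * th (frameOf y) L (fun R => φ ((p : ZMod L) • R)) τ) +
        (p : ℂ) * (v y * th (frameOf y) L (fun R => φ ((p : ZMod L) ^ 2 • R)) ((p : ℂ) ^ 2 * τ))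
        ∂muL L := by
    refine integral_congr_ae (ae_of_all _ fun y => ?_)
    show v y * ∑ ε ∈ Rr, g (act ε⁻¹ y) = _
    rw [show ∑ ε ∈ Rr, g (act ε⁻¹ y) = _ from hid Rr hr φ τ hτ y]
    simp only [← Finset.mul_sum]
    ring
  rw [h1, integral_unfold hv.cont.measurable hC hv.inv hgm (fun γ x => th_smul_slOL _ τ γ x) hgi hl hr,
    h2]
  have I12 := I1.add I2
  have I123 := I12.add I3
  simp only [Pi.add_def] at I12 I123
  rw [integral_add I123 I4, integral_add I12 I3, integral_add I1 I2,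
    integral_const_mul, integral_const_mul, integral_const_mul,
    integral_finsetSum _ fun j _ => hint φ _ (a1 j), integral_finsetSum _ fun k _ => hint _ _ (a2 k)]
  simp only [← liftTh_eq_integral_th]

end FLTAgent.LT.Theta31
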