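import Fermat.Agent.LT.Theta31.Modular
import Fermat.Agent.LT.Theta31.Unfold
import Mathlib.NumberTheory.ModularForms.LevelOne.Basic

/-!
# The lifts at the cusps

The families of lifts are stable under the modular group, up to rescaling and a change of level.
A Hecke relation with eigenvalue `0` forces their limits at `i ∞` to vanish.
-/

set_option autoImplicit false
set_option linter.unusedSectionVars false

noncomputable section

namespace FLTAgent.LT.Theta31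

open Complex Matrix MeasureTheory Filter
open scoped Real ComplexConjugate Topology MatrixGroups ModularForm UpperHalfPlane

/-! ### The dual lattice -/

section Algebra

variable {R : Type*} [CommRing R]

/-- The inverse of `dual`, times three. -/
def codual (w : Fin 4 → R) : Fin 4 → R := ![-w 1, -w 0, 2 * w 2 + w 3, w 2 + 2 * w 3]

theorem codual_dual (k : Fin 4 → R) : codual (dual k) = (3 : R) • k := by
  funext i
  fin_cases i <;> simp [codual, dual] <;> ring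

theorem dual_codual (w : Fin 4 → R) : dual (codual w) = (3 : R) • w := by
  funext i
  fin_cases i <;> simp [codual, dual] <;> ring

theorem dual_add (k l : Fin 4 → R) : dual (k + l) = dual k + dual l := by
  funext i
  fin_cases i <;> simp [dual] <;> ring

theorem dual_smul (c : R) (k : Fin 4 → R) : dual (c • k) = c • dual k := by
  funext i
  fin_cases i <;> simp [dual] <;> ring

end Algebra

theorem castv_dual (m : ℕ) (k : Fin 4 → ℤ) : castv m (dual k) = dual (castv m k) :=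
  funext fun i => map_dual (Int.castRingHom (ZMod m)) k i

theorem rvec_dual (k : Fin 4 → ℤ) : rvec (dual k) = dual (rvec k) :=
  funext fun i => map_dual (Int.castRingHom ℝ) k i

theorem dual_int_injective : Function.Injective (dual : (Fin 4 → ℤ) → Fin 4 → ℤ) := fun a b e => by
  have h := congrArg codual e
  rw [codual_dual, codual_dual] at h
  exact smul_right_injective _ (by norm_num : (3 : ℤ) ≠ 0) h

/-! ### Inversion and translation, pointwise -/

variable {n : ℕ} [NeZero n]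

instance neZero_three_mul : NeZero (3 * n) := ⟨Nat.mul_ne_zero three_ne_zero (NeZero.ne n)⟩

/-- The finite Fourier transform. -/
def fourV (Φ : (Fin 4 → ZMod n) → ℂ) (K : Fin 4 → ZMod n) : ℂ := ∑ R, Φ R * pair K R

/-- The coefficients after inversion. -/
def invPhi (Φ : (Fin 4 → ZMod n) → ℂ) : (Fin 4 → ZMod (3 * n)) → ℂ :=
  Function.extend (fun K : Fin 4 → ZMod (3 * n) => dual K)
    (fun K => fourV Φ (redv (Dvd.intro_left 3 rfl) K)) 0

theorem factorsThrough_invPhi (Φ : (Fin 4 → ZMod n) → ℂ) :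
    Function.FactorsThrough (fun K : Fin 4 → ZMod (3 * n) => fourV Φ (redv (Dvd.intro_left 3 rfl) K))
      (fun K : Fin 4 → ZMod (3 * n) => dual K) := by
  intro K K' e
  show fourV Φ _ = fourV Φ _
  congr 1
  rw [← castv_liftv K, ← castv_liftv K'] at e ⊢
  simp only [redv_castv, ← castv_dual] at e ⊢
  funext i
  have h : castv (3 * n) (codual (dual (liftv K))) = castv (3 * n) (codual (dual (liftv K'))) := by
    have hc : ∀ w : Fin 4 → ℤ, castv (3 * n) (codual w) = codual (castv (3 * n) w) := fun w => by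
      funext j
      fin_cases j <;> simp [castv, codual]
    rw [hc, hc, e]
  have hi := congrFun h i
  simp only [castv, codual_dual, Pi.smul_apply, smul_eq_mul] at hi ⊢
  rw [ZMod.intCast_eq_intCast_iff_dvd_sub, ← mul_sub] at hi
  rw [ZMod.intCast_eq_intCast_iff_dvd_sub]
  push_cast at hi
  exact Int.dvd_of_mul_dvd_mul_left (by norm_num) hi

theorem invPhi_dual (Φ : (Fin 4 → ZMod n) → ℂ) (k : Fin 4 → ℤ) :
    invPhi Φ (castv (3 * n) (dual k)) = fourV Φ (castv n k) := by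
  rw [invPhi, castv_dual, (factorsThrough_invPhi Φ).extend_apply, redv_castv]

theorem invPhi_of_not_mem (Φ : (Fin 4 → ZMod n) → ℂ) {w : Fin 4 → ℤ}
    (hw : w ∉ Set.range (dual : (Fin 4 → ℤ) → Fin 4 → ℤ)) : invPhi Φ (castv (3 * n) w) = 0 := by
  rw [invPhi, Function.extend_apply' _ _ _ ?_, Pi.zero_apply]
  rintro ⟨K, hK⟩
  rw [← castv_liftv K, ← castv_dual] at hK
  have hd : ∀ i, ∃ e : ℤ, w i - dual (liftv K) i = ((3 * n : ℕ) : ℤ) * e := fun i =>
    (ZMod.intCast_eq_intCast_iff_dvd_sub _ _ _).1 (congrFun hK i)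
  choose e he using hd
  refine hw ⟨liftv K + (n : ℤ) • codual e, ?_⟩
  rw [dual_add, dual_smul, dual_codual]
  funext i
  have := he i
  push_cast at this
  simp only [Pi.add_apply, Pi.smul_apply, smul_eq_mul]
  linear_combination -this

/-- The point after inversion. -/
def invPt (n : ℕ) (τ : ℂ) : ℂ := ((((3 * n : ℝ))⁻¹ : ℝ) : ℂ) ^ 2 * -τ⁻¹

/-- The constant of the inversion. -/
def invC (n : ℕ) : ℂ := 3 * I / ((Real.sqrt 3 : ℂ) * (n : ℂ) ^ 3)

theorem im_invPt {τ : ℂ} (h : 0 < τ.im) : 0 < (invPt n τ).im := by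
  rw [invPt, ← Complex.ofReal_pow, Complex.im_ofReal_mul]
  have := im_neg_inv h
  have hn : (0 : ℝ) < n := Nat.cast_pos.2 (Nat.pos_of_neZero n)
  positivity

/-- Inversion. -/
theorem th_inv (F : Frame) (Φ : (Fin 4 → ZMod n) → ℂ) {τ : ℂ} (h : 0 < τ.im) :
    th F n Φ τ = invC n * τ⁻¹ * th F (3 * n) (invPhi Φ) (invPt n τ) := by
  rw [← (hasSum_th_inv F h Φ).tsum_eq, th]
  set σ := invPt n τ with hσ
  have hτ : τ ≠ 0 := fun e => by simp [e] at h
  have hn : (0 : ℝ) < n := Nat.cast_pos.2 (Nat.pos_of_neZero n)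
  have hsq : Real.sqrt σ.im = (3 * n : ℝ)⁻¹ * (Real.sqrt τ.im / ‖τ‖) := by
    have e : σ.im = ((3 * n : ℝ)⁻¹ * (1 / ‖τ‖)) ^ 2 * τ.im := by
      rw [hσ, invPt, ← Complex.ofReal_pow, Complex.im_ofReal_mul, Complex.neg_im, Complex.inv_im,
        Complex.normSq_eq_norm_sq]
      ring
    rw [e, Real.sqrt_mul (sq_nonneg _), Real.sqrt_sq (by positivity)]
    ring
  have hterm : ∀ k : Fin 4 → ℤ,
      (Real.sqrt τ.im : ℂ) * (I / ((Real.sqrt 3 : ℂ) * (n : ℂ) ^ 4 * τ * (‖τ‖ : ℂ))) *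
          ((∑ R, Φ R * pair (castv n k) R) * ex F (-τ⁻¹) ((3 * n : ℝ)⁻¹ • dual (rvec k))) =
        invC n * τ⁻¹ * (Real.sqrt σ.im : ℂ) *
          (invPhi Φ (castv (3 * n) (dual k)) * ex F σ (rvec (dual k))) := fun k => by
    rw [invPhi_dual, ex_smul, rvec_dual, hsq, hσ, invPt, invC, fourV]
    have h3 : (Real.sqrt 3 : ℂ) ≠ 0 := by simp
    have hn' : (n : ℂ) ≠ 0 := Nat.cast_ne_zero.2 (NeZero.ne n)
    have ht : (‖τ‖ : ℂ) ≠ 0 := by simpa using hτ
    push_cast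
    field_simp
  rw [tsum_congr hterm, tsum_mul_left, dual_int_injective.tsum_eq
    (f := fun w => invPhi Φ (castv (3 * n) w) * ex F σ (rvec w)) ?_]
  · ring
  · intro w hw
    by_contra hc
    refine hw ?_
    show invPhi Φ (castv (3 * n) w) * _ = 0
    rw [invPhi_of_not_mem Φ hc, zero_mul]

/-- Translation by a rational number. -/
theorem th_add_div (F : Frame) {b : ℕ} [NeZero b] (Φ : (Fin 4 → ZMod n) → ℂ) (a : ℤ) (τ : ℂ) :
    th F n Φ (τ + (((a : ℝ) / b : ℝ) : ℂ)) =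
      th F (n * b) (fun R => Φ (redv (Dvd.intro b rfl) R) *
        ZMod.stdAddChar ((a : ZMod b) * qf (redv (Dvd.intro_left n rfl) R))) τ := by
  rw [th, th, show (τ + (((a : ℝ) / b : ℝ) : ℂ)).im = τ.im by simp]
  congr 1
  refine tsum_congr fun w => ?_
  rw [redv_castv, redv_castv, mul_assoc, ex_add_real]
  congr 2
  rw [qf_castv, ← Int.cast_mul, ZMod.stdAddChar_coe, qf_rvec]
  congr 1
  push_cast
  ring

/-! ### Families -/

variable {ι : Type*} [Fintype ι] {L : ℕ}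

/-- Transport of a pointwise identity to the families. -/
theorem exists_famTh_transfer {m : ℕ} [NeZero m] (hnm : n ∣ m) {u : ι → H3 → ℂ}
    (hu : ∀ i, IsU n (u i)) :
    ∃ k : ℕ, 0 < k ∧ ∀ (Φ : ι → (Fin 4 → ZMod n) → ℂ) (Ψ : ι → (Fin 4 → ZMod m) → ℂ) (C τ σ : ℂ),
      0 < τ.im → (∀ F i, th F n (Φ i) τ = C * th F m (Ψ i) σ) →
        (k : ℂ) * famTh n u Φ τ = C * famTh m u Ψ σ := by
  obtain ⟨k, hk, hk'⟩ := exists_index hnm
  refine ⟨k, hk, fun Φ Ψ C τ σ hτ h => ?_⟩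
  simp only [famTh, Finset.mul_sum, liftTh_eq_integral_th]
  refine Finset.sum_congr rfl fun i _ => ?_
  obtain ⟨B, hB⟩ := (hu i).bdd
  have hm : Measurable fun p => u i p * th (frameOf p) n (Φ i) τ :=
    (hu i).cont.measurable.mul (by
      show Measurable fun p => (Real.sqrt τ.im : ℂ) * exSum (Φ i) τ p
      exact (measurable_exSum (Φ := Φ i) hτ).const_mul _)
  rw [← hk' (fun p => u i p * th (frameOf p) n (Φ i) τ) hm
    (fun g p => by rw [(hu i).inv, th_smul_slOL]) (integrable_mul_th (hu i).cont.measurable hB _ hτ),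
    ← integral_const_mul]
  refine integral_congr_ae (ae_of_all _ fun p => ?_)
  simp only [h]
  ring

variable (L) in
/-- Rescaled families of a level divisible by `L`. -/
def InFam (u : ι → H3 → ℂ) (f : ℍ → ℂ) : Prop :=
  ∃ (n : ℕ) (_ : NeZero n) (Φ : ι → (Fin 4 → ZMod n) → ℂ) (c : ℂ) (q : ℚ),
    L ∣ n ∧ 0 < q ∧ ∀ z : ℍ, f z = c * famTh n u Φ ((q : ℂ) * z)

variable {u : ι → H3 → ℂ}

theorem im_ratCast_mul {q : ℚ} (hq : 0 < q) {z : ℂ} (hz : 0 < z.im) : 0 < ((q : ℂ) * z).im := by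
  rw [show (q : ℂ) = ((q : ℝ) : ℂ) by norm_cast, Complex.im_ofReal_mul]
  exact mul_pos (by exact_mod_cast hq) hz

theorem InFam.slashS (hu : ∀ i, IsU L (u i)) {f : ℍ → ℂ} (hf : InFam L u f) :
    InFam L u (f ∣[(1 : ℤ)] ModularGroup.S) := by
  obtain ⟨n, hn, Φ, c, q, hL, hq, hf⟩ := hf
  obtain ⟨k, hk, hk'⟩ := exists_famTh_transfer (m := 3 * n) (Dvd.intro_left 3 rfl)
    fun i => (hu i).mono hL
  have hn0 : (0 : ℚ) < n := Nat.cast_pos.2 (Nat.pos_of_neZero n)
  refine ⟨3 * n, inferInstance, fun i => invPhi (Φ i), -c * invC n / ((k : ℂ) * q),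
    (9 * (n : ℚ) ^ 2 * q)⁻¹, hL.mul_left 3, by positivity, fun z => ?_⟩
  rw [slash_one_apply, hf, coe_smul_SL]
  have hz : (z : ℂ) ≠ 0 := z.ne_zero
  have hk0 : (k : ℂ) ≠ 0 := Nat.cast_ne_zero.2 hk.ne'
  have hq0 : (q : ℂ) ≠ 0 := by exact_mod_cast hq.ne'
  simp only [ModularGroup.coe_S, Matrix.of_apply, Matrix.cons_val', Matrix.cons_val_zero,
    Matrix.cons_val_one, Matrix.cons_val_fin_one, Matrix.empty_val']
  push_cast
  set τ : ℂ := (q : ℂ) * ((0 * (z : ℂ) + -1) / (1 * (z : ℂ) + 0)) with hτdef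
  have hτ : 0 < τ.im := by
    refine im_ratCast_mul hq ?_
    rw [show (0 * (z : ℂ) + -1) / (1 * (z : ℂ) + 0) = -(z : ℂ)⁻¹ by simp [neg_div]]
    exact im_neg_inv z.im_pos
  have key := hk' Φ (fun i => invPhi (Φ i)) (invC n * τ⁻¹) τ (invPt n τ) hτ
    (fun F i => th_inv F (Φ i) hτ)
  have hτi : τ⁻¹ = -(z : ℂ) / q := by rw [hτdef]; field_simp; ring
  have hpt : invPt n τ = ((9 : ℂ) * (n : ℂ) ^ 2 * q)⁻¹ * z := by
    rw [invPt, hτi]
    have : (n : ℂ) ≠ 0 := Nat.cast_ne_zero.2 (NeZero.ne n)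
    push_cast
    field_simp
    ring
  rw [hpt, hτi] at key
  rw [eq_div_of_mul_eq hk0 ((mul_comm _ _).trans key), one_mul, add_zero]
  generalize famTh (3 * n) u _ _ = X
  field_simp

theorem InFam.slashT (hu : ∀ i, IsU L (u i)) {f : ℍ → ℂ} (hf : InFam L u f) {γ : SL(2, ℤ)}
    {j : ℤ} (h00 : γ 0 0 = 1) (h01 : γ 0 1 = j) (h10 : γ 1 0 = 0) (h11 : γ 1 1 = 1) :
    InFam L u (f ∣[(1 : ℤ)] γ) := by
  obtain ⟨n, hn, Φ, c, q, hL, hq, hf⟩ := hf
  set r : ℚ := q * j
  haveI : NeZero r.den := ⟨r.den_nz⟩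
  haveI : NeZero (n * r.den) := ⟨Nat.mul_ne_zero (NeZero.ne n) r.den_nz⟩
  obtain ⟨k, hk, hk'⟩ := exists_famTh_transfer (m := n * r.den) (Dvd.intro r.den rfl)
    fun i => (hu i).mono hL
  refine ⟨n * r.den, inferInstance, fun i R => Φ i (redv (Dvd.intro r.den rfl) R) *
    ZMod.stdAddChar ((r.num : ZMod r.den) * qf (redv (Dvd.intro_left n rfl) R)), c / k, q,
    hL.mul_right _, hq, fun z => ?_⟩
  rw [slash_one_apply, hf, coe_smul_SL, h00, h01, h10, h11]
  have hqz := im_ratCast_mul hq z.im_pos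
  have e : (q : ℂ) * ((((1 : ℤ) : ℂ) * z + (j : ℂ)) / (((0 : ℤ) : ℂ) * z + ((1 : ℤ) : ℂ))) =
      (q : ℂ) * z + (((r.num : ℝ) / r.den : ℝ) : ℂ) := by
    have hr : (((r.num : ℝ) / r.den : ℝ) : ℂ) = (r : ℂ) := by
      rw [← Rat.cast_def]; norm_cast
    rw [hr]
    simp [r]
    ring
  rw [e]
  have key := hk' Φ _ 1 ((q : ℂ) * z + (((r.num : ℝ) / r.den : ℝ) : ℂ)) ((q : ℂ) * z)
    (by simpa using hqz) (fun F i => by rw [one_mul, th_add_div])
  have hk0 : (k : ℂ) ≠ 0 := Nat.cast_ne_zero.2 hk.ne'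
  rw [eq_div_of_mul_eq hk0 ((mul_comm _ _).trans key)]
  simp
  ring

/-- **The families are stable under the modular group.** -/
theorem InFam.slash (hu : ∀ i, IsU L (u i)) (γ : SL(2, ℤ)) :
    ∀ {f : ℍ → ℂ}, InFam L u f → InFam L u (f ∣[(1 : ℤ)] γ) := by
  suffices H : (∀ f : ℍ → ℂ, InFam L u f → InFam L u (f ∣[(1 : ℤ)] γ)) ∧
      ∀ f : ℍ → ℂ, InFam L u f → InFam L u (f ∣[(1 : ℤ)] γ⁻¹) from fun {f} h => H.1 f h
  have hmem : γ ∈ Subgroup.closure {ModularGroup.S, ModularGroup.T} := by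
    rw [SpecialLinearGroup.SL2Z_generators]; trivial
  induction hmem using Subgroup.closure_induction with
  | mem x hx =>
    rcases hx with rfl | rfl
    · refine ⟨fun f hf => hf.slashS hu, fun f hf => ?_⟩
      rw [show ModularGroup.S⁻¹ = ModularGroup.S * ModularGroup.S * ModularGroup.S by decide,
        SlashAction.slash_mul, SlashAction.slash_mul]
      exact ((hf.slashS hu).slashS hu).slashS hu
    · exact ⟨fun f hf => hf.slashT hu (j := 1) rfl rfl rfl rfl,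
        fun f hf => hf.slashT hu (j := -1) (by simp [ModularGroup.coe_T_inv])
          (by simp [ModularGroup.coe_T_inv]) (by simp [ModularGroup.coe_T_inv])
          (by simp [ModularGroup.coe_T_inv])⟩
  | one => simp
  | mul x y _ _ hx hy =>
    refine ⟨fun f hf => ?_, fun f hf => ?_⟩
    · rw [SlashAction.slash_mul]; exact hy.1 _ (hx.1 _ hf)
    · rw [_root_.mul_inv_rev, SlashAction.slash_mul]; exact hx.2 _ (hy.2 _ hf)
  | inv x _ hx => exact ⟨hx.2, fun f hf => by rw [inv_inv]; exact hx.1 f hf⟩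

/-! ### The limit at `i ∞` -/

variable (L) in
/-- Above every level there is a Hecke relation with eigenvalue `0`. -/
def Killed (u : ι → H3 → ℂ) : Prop :=
  ∀ n : ℕ, L ∣ n → 0 < n → ∃ p : ℕ, p.Prime ∧ p % 3 = 1 ∧ ¬ p ∣ n ∧ (p : ZMod n) = 1 ∧
    ∀ R, IsLeftReps n p R → ∀ i, ∀ x : H3, ∑ δ ∈ R, u i (act δ x) = 0

theorem sqHecke_famTh_eq_zero (hC : CountIdentity) (hu : ∀ i, IsU n (u i)) {p : ℕ} (hp : p.Prime)
    (hp3 : p % 3 = 1) (hpn : ¬ p ∣ n) (hp1 : (p : ZMod n) = 1)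
    (hrel : ∀ R, IsLeftReps n p R → ∀ i, ∀ x : H3, ∑ δ ∈ R, u i (act δ x) = 0)
    (Φ : ι → (Fin 4 → ZMod n) → ℂ) {τ : ℂ} (hτ : 0 < τ.im) :
    sqHecke p 1 (famTh n u Φ) τ = 0 := by
  have key : ∀ i, sqHecke p 1 (liftTh n (u i) (Φ i)) τ = 0 := fun i => by
    have h := sqHecke_lift (u := u i) hC hp hp3 hpn (hu i) (c := 0)
      (fun R hR x => by rw [zero_mul, hrel R hR i x]) (Φ i) hτ
    rw [zero_mul] at h
    simp only [hp1, one_pow, one_smul] at h
    rw [sqHecke, one_pow, one_mul, mul_one]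
    exact h.symm
  calc sqHecke p 1 (famTh n u Φ) τ = ∑ i, sqHecke p 1 (liftTh n (u i) (Φ i)) τ := by
        simp only [sqHecke, famTh, one_pow, one_mul, mul_one, Finset.mul_sum,
          Finset.sum_add_distrib]
        rw [Finset.sum_comm (s := Finset.range (p ^ 2)), Finset.sum_comm (s := Finset.range p)]
    _ = 0 := Finset.sum_eq_zero fun i _ => key i

theorem tendsto_affine_im {q : ℝ} (hq : 0 < q) {r : ℂ} (hr : r.im = 0) :
    Tendsto (fun τ : ℂ => (q : ℂ) * τ + r) (comap Complex.im atTop) (comap Complex.im atTop) := by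
  refine tendsto_comap_iff.2 ?_
  simp only [Function.comp_def, Complex.add_im, Complex.im_ofReal_mul, hr, add_zero]
  exact tendsto_comap.const_mul_atTop hq

theorem sqHecke_limit {G : ℂ → ℂ} {c : ℂ} (hG : Tendsto G (comap Complex.im atTop) (𝓝 c)) {p : ℕ}
    (hp : 0 < p) (h : ∀ τ : ℂ, 0 < τ.im → sqHecke p 1 G τ = 0) : c = 0 := by
  have hp' : (0 : ℝ) < p := Nat.cast_pos.2 hp
  have a1 : ∀ j : ℕ, Tendsto (fun τ : ℂ => G ((τ + j) / (p : ℂ) ^ 2)) (comap Complex.im atTop)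
      (𝓝 c) := fun j => by
    refine (hG.comp (tendsto_affine_im (q := ((p : ℝ) ^ 2)⁻¹) (by positivity)
      (r := ((((p : ℝ) ^ 2)⁻¹ * j : ℝ) : ℂ)) (Complex.ofReal_im _))).congr fun τ => ?_
    simp only [Function.comp_apply]
    congr 1
    push_cast
    ring
  have a2 : ∀ k : ℕ, Tendsto (fun τ : ℂ => G (τ + k / (p : ℂ))) (comap Complex.im atTop)
      (𝓝 c) := fun k => by
    refine (hG.comp (tendsto_affine_im one_pos
      (r := (((k : ℝ) / p : ℝ) : ℂ)) (Complex.ofReal_im _))).congr fun τ => ?_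
    simp
  have a3 : Tendsto (fun τ : ℂ => G ((p : ℂ) ^ 2 * τ)) (comap Complex.im atTop) (𝓝 c) := by
    refine (hG.comp (tendsto_affine_im (q := (p : ℝ) ^ 2) (by positivity)
      Complex.zero_im)).congr fun τ => ?_
    simp
  have hlim : Tendsto (sqHecke p 1 G) (comap Complex.im atTop)
      (𝓝 ((1 / (p : ℂ)) * ∑ _j ∈ Finset.range (p ^ 2), c + 1 * ∑ _k ∈ Finset.range p, c +
        (p : ℂ) * 1 * c + (p : ℂ) * 1 ^ 2 * c)) :=
    ((((tendsto_finsetSum _ fun j _ => a1 j).const_mul _).add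
      ((tendsto_finsetSum _ fun k _ => a2 k).const_mul _)).add (hG.const_mul _)).add
        (a3.const_mul _)
  haveI : (comap Complex.im atTop).NeBot :=
    comap_neBot fun s hs => by
      obtain ⟨y, hy⟩ := nonempty_of_mem hs
      exact ⟨(y : ℂ) * I, by simpa using hy⟩
  have h0 := tendsto_nhds_unique hlim ((tendsto_const_nhds (x := (0 : ℂ))).congr' (by
    filter_upwards [(eventually_gt_atTop (0 : ℝ)).comap Complex.im] with τ hτ
    exact (h τ hτ).symm))
  simp only [Finset.sum_const, Finset.card_range, nsmul_eq_mul, one_mul, one_pow, mul_one] at h0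
  have hp0 : (p : ℂ) ≠ 0 := Nat.cast_ne_zero.2 hp.ne'
  push_cast at h0
  field_simp at h0
  have h4 : (4 : ℂ) * p ≠ 0 := mul_ne_zero (by norm_num) hp0
  refine (mul_eq_zero.1 (show (4 : ℂ) * p * c = 0 from ?_)).resolve_left h4
  linear_combination h0

theorem tendsto_opF_zero (hC : CountIdentity) (hk : Killed L u) (hL : L ∣ n)
    (hu : ∀ i, IsU n (u i)) (Φ : ι → (Fin 4 → ZMod n) → ℂ) (b : Bool)
    (hb : b = true → ∀ τ : ℂ, 0 < τ.im → dbarY (famTh n u Φ) τ = 0) :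
    Tendsto (opF b (famTh n u Φ)) (comap Complex.im atTop) (𝓝 0) := by
  obtain ⟨c, hc⟩ := exists_tendsto_opF hu Φ b hb
  obtain ⟨p, hp, hp3, hpn, hp1, hrel⟩ := hk n hL (Nat.pos_of_neZero n)
  have hc0 : c = 0 := sqHecke_limit hc hp.pos fun τ hτ => by
    have hF := rdiff_famTh hu Φ
    have e := opF_sqHecke b hF hp.pos 1 hτ
    rw [map_one] at e
    rw [← e, opF_congr b (G := fun w => 0 * famTh n u Φ w) (fun w hw => by
        rw [sqHecke_famTh_eq_zero hC hu hp hp3 hpn hp1 hrel Φ hw, zero_mul]) hτ,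
      opF_const_mul b (hF τ hτ), map_zero, zero_mul]
  rwa [hc0] at hc

/-- **The chosen function vanishes at all cusps.** -/
theorem isZeroAtImInfty_opH_slash [NeZero L] (hC : CountIdentity) (hk : Killed L u)
    (hu : ∀ i, IsU L (u i)) (Φ : ι → (Fin 4 → ZMod L) → ℂ) (b : Bool)
    (hb : b = true → ∀ τ : ℂ, 0 < τ.im → dbarY (famTh L u Φ) τ = 0) (γ : SL(2, ℤ)) :
    UpperHalfPlane.IsZeroAtImInfty (opH b L u Φ ∣[(1 : ℤ)] γ) := by
  obtain ⟨n, hn, Φ', c, q, hL, hq, hf⟩ := InFam.slash hu γ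
    (f := fun z : ℍ => famTh L u Φ (z : ℂ))
    ⟨L, inferInstance, Φ, 1, 1, dvd_rfl, one_pos, fun z => by simp⟩
  have hq' : (0 : ℝ) < (q : ℝ) := by exact_mod_cast hq
  have hu' : ∀ i, IsU n (u i) := fun i => (hu i).mono hL
  set G₀ : ℂ → ℂ := fun w => famTh n u Φ' (((q : ℝ) : ℂ) * w + 0) with hG₀
  have hG₀d : RDiff G₀ := (rdiff_famTh hu' Φ').affine hq' 0 Complex.zero_im
  have hdet : ((γ 0 0 : ℤ) : ℝ) * (γ 1 1 : ℤ) - ((γ 0 1 : ℤ) : ℝ) * (γ 1 0 : ℤ) = 1 := by
    exact_mod_cast (Matrix.det_fin_two γ.1).symm.trans γ.2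
  have hrel : ∀ τ : ℂ, 0 < τ.im →
      famTh L u Φ ((((γ 0 0 : ℤ) : ℝ) * τ + ((γ 0 1 : ℤ) : ℝ)) /
          ((((γ 1 0 : ℤ) : ℝ) : ℂ) * τ + ((γ 1 1 : ℤ) : ℝ))) =
        ((((γ 1 0 : ℤ) : ℝ) : ℂ) * τ + ((γ 1 1 : ℤ) : ℝ)) * (c * G₀ τ) := fun τ hτ => by
    have h1 := hf ⟨τ, hτ⟩
    rw [slash_one_apply, coe_smul_SL, mul_inv_eq_iff_eq_mul₀ (slOne_ne_zero γ hτ)] at h1
    simp only [UpperHalfPlane.coe_mk] at h1
    push_cast
    rw [h1, hG₀]
    push_cast
    rw [add_zero]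
    ring
  have hne : ∀ τ : ℂ, 0 < τ.im → (((γ 1 0 : ℤ) : ℝ) : ℂ) * τ + ((γ 1 1 : ℤ) : ℝ) ≠ 0 :=
    fun τ hτ => by simpa using slOne_ne_zero γ hτ
  have hslash : ∀ z : ℍ, (opH b L u Φ ∣[(1 : ℤ)] γ) z =
      cj b c * opF b (famTh n u Φ') (((q : ℝ) : ℂ) * z + 0) := fun z => by
    rw [slash_one_apply, opH, coe_smul_SL]
    have key := opF_moebius b hdet hne (rdiff_famTh hu Φ) (hG₀d.const_mul c) hrel z.im_pos
    rw [opF_const_mul b (hG₀d _ z.im_pos), hG₀,
      opF_affine b 0 Complex.zero_im (rdiff_famTh hu' Φ' _ (by simp; positivity))] at key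
    push_cast at key
    rw [key]
    push_cast
    field_simp [slOne_ne_zero γ z.im_pos]
  rcases eq_or_ne c 0 with hc | hc
  · rw [show opH b L u Φ ∣[(1 : ℤ)] γ = 0 from funext fun z => by simp [hslash, hc]]
    exact Filter.zero_zeroAtFilter _
  have hadm : b = true → ∀ w : ℂ, 0 < w.im → dbarY (famTh n u Φ') w = 0 := fun e w hw => by
    set τ : ℂ := (((q : ℝ)⁻¹ : ℝ) : ℂ) * w with hτdef
    have hτ : 0 < τ.im := by rw [hτdef, Complex.im_ofReal_mul]; positivity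
    have key := dbarY_moebius hdet hne (rdiff_famTh hu Φ) (hG₀d.const_mul c) hrel hτ
    have hpos := (UpperHalfPlane.im_pos (γ • (⟨τ, hτ⟩ : ℍ)))
    rw [← UpperHalfPlane.coe_im, coe_smul_SL] at hpos
    simp only [UpperHalfPlane.coe_mk] at hpos
    rw [hb e _ (by push_cast; exact hpos), dbarY_const_mul (hG₀d τ hτ), hG₀] at key
    have hw' : ((q : ℝ) : ℂ) * τ + 0 = w := by
      rw [add_zero, hτdef, ← mul_assoc, ← Complex.ofReal_mul, mul_inv_cancel₀ hq'.ne']
      simp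
    rw [dbarY_affine 0 Complex.zero_im (rdiff_famTh hu' Φ' _ (by rwa [hw'])), hw'] at key
    exact ((mul_eq_zero.1 ((mul_eq_zero.1 key.symm).resolve_left
      ((map_ne_zero (starRingEnd ℂ)).2 (hne τ hτ)))).resolve_left hc)
  have hlim := ((tendsto_opF_zero hC hk hL hu' Φ' b hadm).comp
    (tendsto_affine_im hq' Complex.zero_im)).const_mul (cj b c)
  rw [mul_zero] at hlim
  refine (hlim.comp (f := fun z : ℍ => (z : ℂ)) ?_).congr fun z => (hslash z).symm
  exact tendsto_comap_iff.2 tendsto_comap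

end FLTAgent.LT.Theta31
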