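import Fermat.Agent.LT.Theta31.Lift

/-!
# The operator `F ↦ conj (y ∂̄ F)` on functions on the upper half plane
-/

set_option autoImplicit false

noncomputable section

namespace FLTAgent.LT.Theta31

open Complex Filter
open scoped Real ComplexConjugate Topology

/-- `y ∂̄ F` in the normalisation `F' w = a w + b Im w ↦ y (i/2) b`. -/
def dbarY (F : ℂ → ℂ) (τ : ℂ) : ℂ :=
  (τ.im : ℂ) * (I / 2) * (fderiv ℝ F τ I - I * fderiv ℝ F τ 1)

/-- Real differentiability on the upper half plane. -/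
def RDiff (F : ℂ → ℂ) : Prop := ∀ τ : ℂ, 0 < τ.im → DifferentiableAt ℝ F τ

theorem dbarY_of_dmap {F : ℂ → ℂ} {τ a b : ℂ} (h : HasFDerivAt F (dmap a b) τ) :
    dbarY F τ = (τ.im : ℂ) * (I / 2) * b := by
  rw [dbarY, h.fderiv, dmap_apply, dmap_apply]
  simp [mul_comm a I]

/-- Holomorphy is the vanishing of `dbarY`. -/
theorem differentiableAt_of_dbarY {F : ℂ → ℂ} {τ : ℂ} (h : 0 < τ.im)
    (hF : DifferentiableAt ℝ F τ) (h0 : dbarY F τ = 0) : DifferentiableAt ℂ F τ := by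
  have e : fderiv ℝ F τ I = I * fderiv ℝ F τ 1 := by
    have := h0
    simp [dbarY, h.ne', sub_eq_zero] at this
    exact this
  refine ⟨fderiv ℝ F τ 1 • (1 : ℂ →L[ℂ] ℂ), hasFDerivAt_of_restrictScalars ℝ hF.hasFDerivAt ?_⟩
  ext w
  have hw : w = (w.re : ℝ) • (1 : ℂ) + (w.im : ℝ) • I := by
    simp [Complex.real_smul, Complex.re_add_im]
  conv_rhs => rw [hw, map_add, map_smul, map_smul, e]
  conv_lhs => rw [hw]
  simp [Complex.real_smul]
  linear_combination (fderiv ℝ F τ 1) * (Complex.re_add_im w).symm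

theorem dbarY_congr {F G : ℂ → ℂ} (h : ∀ τ : ℂ, 0 < τ.im → F τ = G τ) {τ : ℂ} (hτ : 0 < τ.im) :
    dbarY F τ = dbarY G τ := by
  have e : F =ᶠ[𝓝 τ] G := by
    filter_upwards [(isOpen_lt continuous_const Complex.continuous_im).mem_nhds hτ] with w hw
    exact h w hw
  rw [dbarY, dbarY, e.fderiv_eq]

theorem RDiff.congr {F G : ℂ → ℂ} (hF : RDiff F) (h : ∀ τ : ℂ, 0 < τ.im → F τ = G τ) : RDiff G :=
  fun τ hτ => (hF τ hτ).congr_of_eventuallyEq (by
    filter_upwards [(isOpen_lt continuous_const Complex.continuous_im).mem_nhds hτ] with w hw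
    exact (h w hw).symm)

theorem dbarY_const_mul {F : ℂ → ℂ} {τ : ℂ} (hF : DifferentiableAt ℝ F τ) (c : ℂ) :
    dbarY (fun w => c * F w) τ = c * dbarY F τ := by
  rw [dbarY, (hF.hasFDerivAt.const_mul c).fderiv, dbarY]
  simp
  ring

theorem dbarY_sum {ι : Type*} (s : Finset ι) {F : ι → ℂ → ℂ} {τ : ℂ}
    (hF : ∀ i ∈ s, DifferentiableAt ℝ (F i) τ) :
    dbarY (fun w => ∑ i ∈ s, F i w) τ = ∑ i ∈ s, dbarY (F i) τ := by
  simp only [dbarY]
  rw [(HasFDerivAt.fun_sum fun i hi => (hF i hi).hasFDerivAt).fderiv]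
  simp [Finset.mul_sum, Finset.sum_sub_distrib, mul_sub]

theorem dbarY_add {F G : ℂ → ℂ} {τ : ℂ} (hF : DifferentiableAt ℝ F τ)
    (hG : DifferentiableAt ℝ G τ) : dbarY (fun w => F w + G w) τ = dbarY F τ + dbarY G τ := by
  rw [dbarY, (hF.hasFDerivAt.fun_add hG.hasFDerivAt).fderiv, dbarY, dbarY]
  simp
  ring

theorem dbarY_affine {F : ℂ → ℂ} {τ : ℂ} {q : ℝ} (r : ℂ) (hr : r.im = 0)
    (hF : DifferentiableAt ℝ F ((q : ℂ) * τ + r)) :
    dbarY (fun w => F ((q : ℂ) * w + r)) τ = dbarY F ((q : ℂ) * τ + r) := by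
  have hL : HasFDerivAt (fun w : ℂ => (q : ℂ) * w + r) ((q : ℂ) • (1 : ℂ →L[ℝ] ℂ)) τ := by
    exact (((hasFDerivAt_id (𝕜 := ℝ) τ).const_mul (q : ℂ))).add_const r
  rw [dbarY, (hF.hasFDerivAt.comp τ hL).fderiv (f := fun w => F ((q : ℂ) * w + r)), dbarY]
  have e : ((q : ℂ) * τ + r).im = q * τ.im := by simp [hr]
  simp only [ContinuousLinearMap.coe_comp', Function.comp_apply, ContinuousLinearMap.coe_smul',
    Pi.smul_apply, one_apply_eq_self, smul_eq_mul, mul_one, e]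
  rw [show (q : ℂ) * I = q • I from Complex.real_smul.symm,
    show (q : ℂ) = q • (1 : ℂ) by simp [Complex.real_smul], map_smul, map_smul]
  simp only [Complex.real_smul, mul_one]
  push_cast
  ring

/-- The chain rule at a Möbius transformation. -/
theorem dbarY_moebius {F G : ℂ → ℂ} {a b c d : ℝ} (hdet : a * d - b * c = 1)
    (hne : ∀ τ : ℂ, 0 < τ.im → (c : ℂ) * τ + d ≠ 0) (hF : RDiff F) (hG : RDiff G)
    (h : ∀ τ : ℂ, 0 < τ.im → F ((a * τ + b) / (c * τ + d)) = (c * τ + d) * G τ)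
    {τ : ℂ} (hτ : 0 < τ.im) :
    dbarY F ((a * τ + b) / (c * τ + d)) = conj ((c : ℂ) * τ + d) * dbarY G τ := by
  set j := (c : ℂ) * τ + d with hj
  have hj0 : j ≠ 0 := hne τ hτ
  have hdet' : (a : ℂ) * d - b * c = 1 := by exact_mod_cast hdet
  set m := ((a : ℂ) * τ + b) / j with hm
  have him : m.im = τ.im / Complex.normSq j := by
    rw [hm, Complex.div_im]
    simp [j]
    field_simp
    linear_combination (Complex.normSq ((c : ℂ) * τ + d))⁻¹ * hdet
  have hmpos : 0 < m.im := him ▸ div_pos hτ (normSq_pos.2 hj0)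
  have hmob : HasDerivAt (fun w : ℂ => ((a : ℂ) * w + b) / ((c : ℂ) * w + d)) (1 / j ^ 2) τ := by
    refine (((hasDerivAt_id τ).const_mul (a : ℂ) |>.add_const (b : ℂ)).div
      ((hasDerivAt_id τ).const_mul (c : ℂ) |>.add_const (d : ℂ)) hj0).congr_deriv ?_
    simp only [id_eq, mul_one]
    congr 1
    linear_combination hdet'
  have hl : HasFDerivAt (fun w : ℂ => F (((a : ℂ) * w + b) / ((c : ℂ) * w + d)))
      ((fderiv ℝ F m).comp ((1 / j ^ 2) • (1 : ℂ →L[ℝ] ℂ))) τ := by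
    refine (hF m hmpos).hasFDerivAt.comp τ ?_
    exact hmob.complexToReal_fderiv
  have hr : HasFDerivAt (fun w : ℂ => ((c : ℂ) * w + d) * G w)
      (j • fderiv ℝ G τ + G τ • ((c : ℂ) • (1 : ℂ →L[ℝ] ℂ))) τ :=
    ((((hasFDerivAt_id (𝕜 := ℝ) τ).const_mul (c : ℂ))).add_const (d : ℂ)).mul (hG τ hτ).hasFDerivAt
  have e := (hl.congr_of_eventuallyEq (f₁ := fun w => ((c : ℂ) * w + d) * G w) (by
    filter_upwards [(isOpen_lt continuous_const Complex.continuous_im).mem_nhds hτ] with w hw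
    exact (h w hw).symm)).unique hr
  have e1 := congrArg (fun D : ℂ →L[ℝ] ℂ => D I - I * D 1) e
  simp only [ContinuousLinearMap.coe_comp', Function.comp_apply, ContinuousLinearMap.coe_smul',
    Pi.smul_apply, one_apply_eq_self, smul_eq_mul, mul_one, add_apply] at e1
  set z := 1 / j ^ 2 with hz
  have hzr : z = (z.re : ℝ) • (1 : ℂ) + (z.im : ℝ) • I := by
    simp [Complex.real_smul, Complex.re_add_im]
  have hzI : z * I = (z.re : ℝ) • I + (-z.im) • (1 : ℂ) := by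
    simp [Complex.real_smul]
    apply Complex.ext <;> simp
  rw [hzI, map_add, map_smul, map_smul] at e1
  conv_lhs at e1 => arg 2; rw [hzr, map_add, map_smul, map_smul]
  simp only [Complex.real_smul] at e1
  set A := fderiv ℝ F m 1
  set B := fderiv ℝ F m I
  have key : conj z * (B - I * A) = j * (fderiv ℝ G τ I - I * fderiv ℝ G τ 1) := by
    have hc : conj z = (z.re : ℂ) - (z.im : ℂ) * I := by
      apply Complex.ext <;> simp
    rw [hc]
    push_cast at e1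
    linear_combination e1 + ((z.im : ℂ) * A) * I_sq
  have hzc : conj z * conj j ^ 2 = 1 := by
    rw [← map_pow, ← map_mul, hz, one_div_mul_cancel (pow_ne_zero 2 hj0), map_one]
  have hn : ((Complex.normSq j : ℝ) : ℂ) = j * conj j := (Complex.mul_conj j).symm
  have hcj : conj j ≠ 0 := (map_ne_zero (starRingEnd ℂ)).2 hj0
  show (m.im : ℂ) * (I / 2) * (B - I * A) = _
  rw [him, dbarY, Complex.ofReal_div, hn]
  field_simp
  linear_combination -((τ.im : ℂ) * (B - I * A)) * hzc + ((τ.im : ℂ) * conj j ^ 2) * key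

/-- The choice between `F` and `conj (y ∂̄ F)`. -/
def opF (b : Bool) (F : ℂ → ℂ) (τ : ℂ) : ℂ := bif b then F τ else conj (dbarY F τ)

/-- The corresponding action on scalars. -/
def cj (b : Bool) : ℂ →+* ℂ := bif b then RingHom.id ℂ else starRingEnd ℂ

theorem norm_cj (b : Bool) (z : ℂ) : ‖cj b z‖ = ‖z‖ := by
  cases b <;> simp [cj]

theorem cj_ofReal (b : Bool) (x : ℝ) : cj b (x : ℂ) = (x : ℂ) := by
  cases b <;> simp [cj]

theorem opF_congr (b : Bool) {F G : ℂ → ℂ} (h : ∀ τ : ℂ, 0 < τ.im → F τ = G τ) {τ : ℂ}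
    (hτ : 0 < τ.im) : opF b F τ = opF b G τ := by
  cases b
  · exact congrArg conj (dbarY_congr h hτ)
  · exact h τ hτ

theorem opF_const_mul (b : Bool) {F : ℂ → ℂ} {τ : ℂ} (hF : DifferentiableAt ℝ F τ) (c : ℂ) :
    opF b (fun w => c * F w) τ = cj b c * opF b F τ := by
  cases b
  · show conj (dbarY _ τ) = conj c * conj (dbarY F τ)
    rw [dbarY_const_mul hF, map_mul]
  · rfl

theorem opF_add (b : Bool) {F G : ℂ → ℂ} {τ : ℂ} (hF : DifferentiableAt ℝ F τ)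
    (hG : DifferentiableAt ℝ G τ) : opF b (fun w => F w + G w) τ = opF b F τ + opF b G τ := by
  cases b
  · show conj (dbarY _ τ) = conj (dbarY F τ) + conj (dbarY G τ)
    rw [dbarY_add hF hG, map_add]
  · rfl

theorem opF_sum (b : Bool) {ι : Type*} (s : Finset ι) {F : ι → ℂ → ℂ} {τ : ℂ}
    (hF : ∀ i ∈ s, DifferentiableAt ℝ (F i) τ) :
    opF b (fun w => ∑ i ∈ s, F i w) τ = ∑ i ∈ s, opF b (F i) τ := by
  cases b
  · show conj (dbarY _ τ) = ∑ i ∈ s, conj (dbarY (F i) τ)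
    rw [dbarY_sum s hF, map_sum]
  · rfl

theorem opF_affine (b : Bool) {F : ℂ → ℂ} {τ : ℂ} {q : ℝ} (r : ℂ) (hr : r.im = 0)
    (hF : DifferentiableAt ℝ F ((q : ℂ) * τ + r)) :
    opF b (fun w => F ((q : ℂ) * w + r)) τ = opF b F ((q : ℂ) * τ + r) := by
  cases b
  · exact congrArg conj (dbarY_affine r hr hF)
  · rfl

theorem RDiff.affine {F : ℂ → ℂ} (hF : RDiff F) {q : ℝ} (hq : 0 < q) (r : ℂ) (hr : r.im = 0) :
    RDiff fun w => F ((q : ℂ) * w + r) := fun τ hτ =>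
  (hF _ (by simp [hr]; positivity)).comp τ (by fun_prop)

theorem RDiff.const_mul {F : ℂ → ℂ} (hF : RDiff F) (c : ℂ) : RDiff fun w => c * F w :=
  fun τ hτ => (hF τ hτ).const_mul c

theorem opF_moebius (e : Bool) {F G : ℂ → ℂ} {a b c d : ℝ} (hdet : a * d - b * c = 1)
    (hne : ∀ τ : ℂ, 0 < τ.im → (c : ℂ) * τ + d ≠ 0) (hF : RDiff F) (hG : RDiff G)
    (h : ∀ τ : ℂ, 0 < τ.im → F ((a * τ + b) / (c * τ + d)) = (c * τ + d) * G τ)
    {τ : ℂ} (hτ : 0 < τ.im) :
    opF e F ((a * τ + b) / (c * τ + d)) = ((c : ℂ) * τ + d) * opF e G τ := by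
  cases e
  · show conj (dbarY F _) = _ * conj (dbarY G τ)
    rw [dbarY_moebius hdet hne hF hG h hτ, map_mul, Complex.conj_conj]
  · exact h τ hτ

/-- `opF` commutes with the square of the Hecke operator. -/
theorem opF_sqHecke (b : Bool) {F : ℂ → ℂ} (hF : RDiff F) {p : ℕ} (hp : 0 < p) (e : ℂ) {τ : ℂ}
    (hτ : 0 < τ.im) :
    opF b (sqHecke p e F) τ = sqHecke p (cj b e) (opF b F) τ := by
  have hp' : (0 : ℝ) < p := Nat.cast_pos.2 hp
  set q : ℝ := ((p : ℝ) ^ 2)⁻¹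
  have hq : 0 < q := by positivity
  have e1 : ∀ (j : ℕ) (w : ℂ), (w + j) / (p : ℂ) ^ 2 = (q : ℂ) * w + ((q * j : ℝ) : ℂ) := fun j w => by
    simp [q]; field_simp
  have e2 : ∀ (k : ℕ) (w : ℂ), w + k / (p : ℂ) = ((1 : ℝ) : ℂ) * w + (((k : ℝ) / p : ℝ) : ℂ) :=
    fun k w => by simp
  have e3 : ∀ w : ℂ, (p : ℂ) ^ 2 * w = (((p : ℝ) ^ 2 : ℝ) : ℂ) * w + 0 := fun w => by simp
  have d1 : ∀ j : ℕ, DifferentiableAt ℝ (fun w => F ((q : ℂ) * w + ((q * j : ℝ) : ℂ))) τ :=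
    fun j => hF.affine hq _ (Complex.ofReal_im _) τ hτ
  have d2 : ∀ k : ℕ, DifferentiableAt ℝ
      (fun w => F (((1 : ℝ) : ℂ) * w + (((k : ℝ) / p : ℝ) : ℂ))) τ :=
    fun k => hF.affine one_pos _ (Complex.ofReal_im _) τ hτ
  have d3 : DifferentiableAt ℝ (fun w => F ((((p : ℝ) ^ 2 : ℝ) : ℂ) * w + 0)) τ :=
    hF.affine (by positivity) _ Complex.zero_im τ hτ
  have hcast : cj b (p : ℂ) = (p : ℂ) := map_natCast _ _
  show opF b (fun w => sqHecke p e F w) τ = _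
  simp only [sqHecke, e1, e2, e3]
  have S1 : DifferentiableAt ℝ (fun w => ∑ j ∈ Finset.range (p ^ 2),
      F ((q : ℂ) * w + ((q * j : ℝ) : ℂ))) τ := DifferentiableAt.fun_sum fun j _ => d1 j
  have S2 : DifferentiableAt ℝ (fun w => ∑ k ∈ Finset.range p,
      F (((1 : ℝ) : ℂ) * w + (((k : ℝ) / p : ℝ) : ℂ))) τ := DifferentiableAt.fun_sum fun k _ => d2 k
  rw [opF_add b (((S1.const_mul _).fun_add (S2.const_mul _)).fun_add ((hF τ hτ).const_mul _))
      (d3.const_mul _),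
    opF_add b ((S1.const_mul _).fun_add (S2.const_mul _)) ((hF τ hτ).const_mul _),
    opF_add b (S1.const_mul _) (S2.const_mul _), opF_const_mul b S1, opF_const_mul b S2,
    opF_const_mul b (hF τ hτ), opF_const_mul b d3, opF_sum b _ fun j _ => d1 j,
    opF_sum b _ fun k _ => d2 k]
  simp only [map_mul, map_pow, map_div₀, map_one, hcast]
  have a1 : ∀ j : ℕ, opF b (fun w => F ((q : ℂ) * w + ((q * j : ℝ) : ℂ))) τ =
      opF b F ((q : ℂ) * τ + ((q * j : ℝ) : ℂ)) := fun j =>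
    opF_affine b _ (Complex.ofReal_im _) (hF _ (by simp; positivity))
  have a2 : ∀ k : ℕ, opF b (fun w => F (((1 : ℝ) : ℂ) * w + (((k : ℝ) / p : ℝ) : ℂ))) τ =
      opF b F (((1 : ℝ) : ℂ) * τ + (((k : ℝ) / p : ℝ) : ℂ)) := fun k =>
    opF_affine b _ (Complex.ofReal_im _) (hF _ (by simpa using hτ))
  have a3 := opF_affine b 0 Complex.zero_im
    (hF ((((p : ℝ) ^ 2 : ℝ) : ℂ) * τ + 0) (by
      simp only [add_zero, Complex.im_ofReal_mul]
      exact mul_pos (pow_pos hp' 2) hτ))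
  simp only [a1, a2, a3]

end FLTAgent.LT.Theta31
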