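import Fermat.Agent.LT.Theta31.Dbar
import Mathlib.Analysis.Complex.Periodic

/-!
# Finite families of lifts

`famTh` is a finite sum of lifts; `opF` of it is periodic, `O(√y)` and, where admissible, holomorphic;
hence it has a limit at `i ∞`. Raising the level multiplies lifts by a nonzero index.
-/

set_option autoImplicit false
set_option linter.unusedSectionVars false

noncomputable section

namespace FLTAgent.LT.Theta31

open Complex Matrix MeasureTheory Hyp Filter
open scoped Real ComplexConjugate Topology ENNReal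

theorem dvdOw_of_natDvd {L L' : ℕ} (h : L ∣ L') {z : ℂ} (hz : DvdOw L' z) : DvdOw L z := by
  obtain ⟨c, rfl⟩ := h
  obtain ⟨y, hy, rfl⟩ := hz
  exact ⟨(c : ℂ) * y, mul_mem (natCast_mem Ow c) hy, by push_cast; ring⟩

theorem slOL_mono {L L' : ℕ} (h : L ∣ L') : slOL L' ≤ slOL L := fun _ hg i j =>
  dvdOw_of_natDvd h (hg i j)

theorem IsU.mono {L L' : ℕ} (h : L ∣ L') {u : H3 → ℂ} (hu : IsU L u) : IsU L' u where
  cont := hu.cont
  bdd := hu.bdd
  inv g p := hu.inv ⟨g.1, slOL_mono h g.2⟩ p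
  mean := hu.mean

theorem liftTh_smul {L : ℕ} [NeZero L] (u : H3 → ℂ) (c : ℂ) (Φ : (Fin 4 → ZMod L) → ℂ) (τ : ℂ) :
    liftTh L u (fun R => c * Φ R) τ = c * liftTh L u Φ τ := by
  simp only [liftTh, exSum, mul_assoc, tsum_mul_left, mul_left_comm _ c, integral_const_mul]

theorem liftTh_eq_integral_th {L : ℕ} (u : H3 → ℂ) (Φ : (Fin 4 → ZMod L) → ℂ) (τ : ℂ) :
    liftTh L u Φ τ = ∫ p, u p * th (frameOf p) L Φ τ ∂muL L := by
  rw [liftTh, ← integral_const_mul]
  refine integral_congr_ae (ae_of_all _ fun p => ?_)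
  simp only [th, exSum]
  ring

/-! ### Changing the level -/

theorem lintegral_muL_expand (L : ℕ) [NeZero L] [Fintype (slO ⧸ slOL L)] {f : H3 → ℝ≥0∞}
    (hf : Measurable f) :
    ∫⁻ p, f p ∂muL L = ∑ q : slO ⧸ slOL L, ∫⁻ p, wO (q.out • p) * f p ∂hypMeasure := by
  rw [lintegral_muL hf]
  simp only [wL, RS.cosetWeight, tsum_fintype, Finset.sum_mul]
  exact lintegral_finsetSum _ fun q _ =>
    (isWeight_wO.measurable.comp (measurable_const_smul q.out)).mul hf

theorem exists_index {L L' : ℕ} [NeZero L] [NeZero L'] (h : L ∣ L') :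
    ∃ k : ℕ, 0 < k ∧ ∀ f : H3 → ℂ, Measurable f → (∀ (g : slOL L) (p : H3), f (g • p) = f p) →
      Integrable f (muL L) → ∫ p, f p ∂muL L' = (k : ℂ) * ∫ p, f p ∂muL L := by
  classical
  haveI := Fintype.ofFinite (slO ⧸ slOL L)
  haveI := Fintype.ofFinite (slO ⧸ slOL L')
  have hle := slOL_mono h
  set Q := slOL L ⧸ (slOL L').subgroupOf (slOL L)
  haveI : Finite Q := by
    haveI : Finite ((slO ⧸ slOL L) × Q) :=
      Finite.of_equiv _ (Subgroup.quotientEquivProdOfLE hle)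
    exact Finite.of_injective (fun q : Q => (((1 : slO) : slO ⧸ slOL L), q))
      fun a b e => congrArg Prod.snd e
  refine ⟨Nat.card Q, Nat.card_pos, fun f hf hinv hi => ?_⟩
  have hl : ∀ φ : ℂ → ℝ≥0∞, Measurable φ →
      ∫⁻ p, φ (f p) ∂muL L' = (Nat.card Q : ℝ≥0∞) * ∫⁻ p, φ (f p) ∂muL L := by
    intro φ hφ
    set G := fun p => φ (f p)
    have hG : Measurable G := hφ.comp hf
    have hGinv : ∀ (g : slOL L) p, G (g • p) = G p := fun g p => by simp only [G, hinv]
    have key : ∀ (q : slO ⧸ slOL L'),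
        ∫⁻ p, wO (q.out • p) * G p ∂hypMeasure =
          ∫⁻ p, wO ((Subgroup.quotientEquivProdOfLE hle q).1.out • p) * G p ∂hypMeasure := by
      intro q
      set r := (Subgroup.quotientEquivProdOfLE hle q).1
      have hr : r = (q.out : slO ⧸ slOL L) := by
        simp only [r]
        conv_lhs => rw [← QuotientGroup.out_eq' q]
        rfl
      have hmem : r.out⁻¹ * q.out ∈ slOL L := QuotientGroup.eq.1 (by
        rw [QuotientGroup.out_eq', hr])
      set g : slOL L := ⟨r.out⁻¹ * q.out, hmem⟩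
      refine Eq.trans ?_ (RS.lintegral_comp_smul (G := slOL L) g (f := fun p => wO (r.out • p) * G p)
        ((isWeight_wO.measurable.comp (measurable_const_smul r.out)).mul hG))
      refine lintegral_congr fun p => ?_
      show wO (q.out • p) * G p = wO (r.out • g • p) * G (g • p)
      rw [hGinv, Subgroup.smul_def, ← mul_smul, mul_inv_cancel_left]
    rw [lintegral_muL_expand L' hG, lintegral_muL_expand L hG]
    haveI := Fintype.ofFinite Q
    rw [Finset.mul_sum, Finset.sum_congr rfl fun q _ => key q,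
      Equiv.sum_comp (Subgroup.quotientEquivProdOfLE hle)
        fun x => ∫⁻ p, wO (x.1.out • p) * G p ∂hypMeasure, Fintype.sum_prod_type]
    simp [Nat.card_eq_fintype_card, Finset.card_univ]
    exact Finset.sum_congr rfl fun x _ => by rw [Fintype.card_congr (Equiv.refl Q)]
  simpa using (RS.integral_congr_of_lintegral (ENNReal.natCast_ne_top _) hf hi hl).2

theorem exSum_redv {L L' : ℕ} [NeZero L] [NeZero L'] (h : L ∣ L') (Φ : (Fin 4 → ZMod L) → ℂ)
    (τ : ℂ) (p : H3) : exSum (fun R => Φ (redv h R)) τ p = exSum Φ τ p := by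
  simp only [exSum, redv_castv]

/-- Raising the level. -/
theorem exists_liftTh_redv {L L' : ℕ} [NeZero L] [NeZero L'] (h : L ∣ L') :
    ∃ k : ℕ, 0 < k ∧ ∀ u : H3 → ℂ, IsU L u → ∀ (Φ : (Fin 4 → ZMod L) → ℂ) (τ : ℂ), 0 < τ.im →
      liftTh L' u (fun R => Φ (redv h R)) τ = (k : ℂ) * liftTh L u Φ τ := by
  obtain ⟨k, hk, hk'⟩ := exists_index h
  refine ⟨k, hk, fun u hu Φ τ hτ => ?_⟩
  obtain ⟨C, hC⟩ := hu.bdd
  simp only [liftTh, exSum_redv]
  rw [hk' (fun p => u p * exSum Φ τ p) (hu.cont.measurable.mul (measurable_exSum hτ))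
    (fun g p => by rw [hu.inv, exSum_smul])
    (integrable_mul_of_majSum hu.cont.measurable hC (measurable_exSum hτ) (by positivity)
      fun p => enorm_exSum_le τ p)]
  ring

/-! ### Families -/

/-- A finite sum of lifts. -/
def famTh {ι : Type*} [Fintype ι] (L : ℕ) (u : ι → H3 → ℂ) (Φ : ι → (Fin 4 → ZMod L) → ℂ)
    (τ : ℂ) : ℂ :=
  ∑ i, liftTh L (u i) (Φ i) τ

variable {ι : Type*} [Fintype ι] {L : ℕ} [NeZero L]

theorem famTh_smul (u : ι → H3 → ℂ) (c : ℂ) (Φ : ι → (Fin 4 → ZMod L) → ℂ) (τ : ℂ) :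
    famTh L u (fun i R => c * Φ i R) τ = c * famTh L u Φ τ := by
  simp only [famTh, liftTh_smul, Finset.mul_sum]

theorem exists_famTh_redv {L' : ℕ} [NeZero L'] (h : L ∣ L') :
    ∃ k : ℕ, 0 < k ∧ ∀ u : ι → H3 → ℂ, (∀ i, IsU L (u i)) →
      ∀ (Φ : ι → (Fin 4 → ZMod L) → ℂ) (τ : ℂ), 0 < τ.im →
        famTh L' u (fun i R => Φ i (redv h R)) τ = (k : ℂ) * famTh L u Φ τ := by
  obtain ⟨k, hk, hk'⟩ := exists_liftTh_redv h
  exact ⟨k, hk, fun u hu Φ τ hτ => by
    simp only [famTh, Finset.mul_sum]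
    exact Finset.sum_congr rfl fun i _ => hk' (u i) (hu i) (Φ i) τ hτ⟩

variable {u : ι → H3 → ℂ} (hu : ∀ i, IsU L (u i)) (Φ : ι → (Fin 4 → ZMod L) → ℂ)

include hu

theorem rdiff_liftTh (i : ι) : RDiff (liftTh L (u i) (Φ i)) := fun τ hτ => by
  obtain ⟨a, b, hd, -⟩ := hasFDerivAt_liftTh (hu i) (Φ i) hτ
  exact hd.differentiableAt

theorem rdiff_famTh : RDiff (famTh L u Φ) := fun τ hτ => by
  show DifferentiableAt ℝ (fun w => ∑ i, liftTh L (u i) (Φ i) w) τ
  exact DifferentiableAt.fun_sum fun i _ => rdiff_liftTh hu Φ i τ hτ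

theorem dbarY_liftTh (i : ι) {τ : ℂ} (hτ : 0 < τ.im) :
    dbarY (liftTh L (u i) (Φ i)) τ = liftH L (u i) (Φ i) τ := by
  obtain ⟨a, b, hd, hb⟩ := hasFDerivAt_liftTh (hu i) (Φ i) hτ
  rw [dbarY_of_dmap hd, hb]

theorem dbarY_famTh {τ : ℂ} (hτ : 0 < τ.im) :
    dbarY (famTh L u Φ) τ = ∑ i, liftH L (u i) (Φ i) τ := by
  show dbarY (fun w => ∑ i, liftTh L (u i) (Φ i) w) τ = _
  rw [dbarY_sum _ fun i _ => rdiff_liftTh hu Φ i τ hτ]
  exact Finset.sum_congr rfl fun i _ => dbarY_liftTh hu Φ i hτ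

omit hu in
theorem famTh_add_intCast (τ : ℂ) (j : ℤ) : famTh L u Φ (τ + j) = famTh L u Φ τ := by
  simp only [famTh, liftTh_eq_integral_th, th_add_intCast]

theorem opF_famTh_add_intCast (b : Bool) {τ : ℂ} (hτ : 0 < τ.im) (j : ℤ) :
    opF b (famTh L u Φ) (τ + j) = opF b (famTh L u Φ) τ := by
  have e : ((1 : ℝ) : ℂ) * τ + (j : ℂ) = τ + j := by simp
  rw [← e, ← opF_affine b (j : ℂ) (by simp) (rdiff_famTh hu Φ _ (by simpa using hτ))]
  exact opF_congr b (fun w _ => by simp [famTh_add_intCast]) hτ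

theorem exists_opF_bound (b : Bool) :
    ∃ K : ℝ, 0 ≤ K ∧ ∀ τ : ℂ, 1 ≤ τ.im → ‖opF b (famTh L u Φ) τ‖ ≤ K * Real.sqrt τ.im := by
  choose K hK0 hK using fun i => exists_lift_bound (hu i) (Φ i)
  refine ⟨∑ i, K i, Finset.sum_nonneg fun i _ => hK0 i, fun τ hτ => ?_⟩
  rw [Finset.sum_mul]
  cases b
  · show ‖conj (dbarY (famTh L u Φ) τ)‖ ≤ _
    rw [Complex.norm_conj, dbarY_famTh hu Φ (by linarith)]
    exact norm_sum_le_of_le _ fun i _ => (hK i τ hτ).2
  · exact norm_sum_le_of_le _ fun i _ => (hK i τ hτ).1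

/-- Admissible choices give holomorphic functions. -/
theorem differentiableAt_opF (b : Bool)
    (hb : b = true → ∀ τ : ℂ, 0 < τ.im → dbarY (famTh L u Φ) τ = 0) {τ : ℂ} (hτ : 0 < τ.im) :
    DifferentiableAt ℂ (opF b (famTh L u Φ)) τ := by
  cases b
  · refine DifferentiableAt.congr_of_eventuallyEq
      (f := fun w => ∑ i, conj (liftH L (u i) (Φ i) w))
      (DifferentiableAt.fun_sum fun i _ => differentiableAt_conj_liftH (hu i) (Φ i) hτ) ?_
    filter_upwards [(isOpen_lt continuous_const Complex.continuous_im).mem_nhds hτ] with w hw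
    show conj (dbarY (famTh L u Φ) w) = _
    rw [dbarY_famTh hu Φ hw, map_sum]
  · exact differentiableAt_of_dbarY hτ (rdiff_famTh hu Φ τ hτ) (hb rfl τ hτ)

omit hu in
/-- A periodic holomorphic function which is `O(√y)` has a limit at `i ∞`. -/
theorem exists_tendsto_of_sqrt_bound {g : ℂ → ℂ} (hp : Function.Periodic g ((1 : ℝ) : ℂ))
    (hd : ∀ τ : ℂ, 0 < τ.im → DifferentiableAt ℂ g τ) {K : ℝ}
    (hK : ∀ τ : ℂ, 1 ≤ τ.im → ‖g τ‖ ≤ K * Real.sqrt τ.im) :
    ∃ c : ℂ, Tendsto g (comap Complex.im atTop) (𝓝 c) := by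
  have hev : ∀ᶠ τ in comap Complex.im atTop, (1 : ℝ) ≤ τ.im :=
    (eventually_ge_atTop (1 : ℝ)).comap Complex.im
  have hhol : ∀ᶠ τ in comap Complex.im atTop, DifferentiableAt ℂ g τ :=
    hev.mono fun τ hτ => hd τ (by linarith)
  have hbd : BoundedAtFilter (comap Complex.im atTop) g := by
    set e := fun τ : ℂ => cexp (2 * π * I * τ)
    have he : ∀ τ : ℂ, ‖e τ‖ = Real.exp (-(2 * π * τ.im)) := fun τ => by
      simp only [e, Complex.norm_exp]; congr 1; simp
    have hzero : ZeroAtFilter (comap Complex.im atTop) fun τ => e τ * g τ := by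
      rw [ZeroAtFilter, tendsto_zero_iff_norm_tendsto_zero]
      have h1 : Tendsto (fun y : ℝ => |K| * (y * Real.exp (-(2 * π) * y))) atTop (𝓝 0) := by
        have := (tendsto_rpow_mul_exp_neg_mul_atTop_nhds_zero 1 (2 * π) (by positivity)).const_mul |K|
        simpa using this
      refine squeeze_zero' (Eventually.of_forall fun τ => norm_nonneg _) ?_
        (h1.comp tendsto_comap)
      filter_upwards [hev] with τ hτ
      have h3 : Real.sqrt τ.im ≤ τ.im := Real.sqrt_le_iff.2 ⟨by linarith, le_self_pow₀ hτ (by norm_num)⟩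
      calc ‖e τ * g τ‖ ≤ Real.exp (-(2 * π * τ.im)) * (|K| * τ.im) := by
            rw [norm_mul, he]
            exact mul_le_mul_of_nonneg_left ((hK τ hτ).trans
              (mul_le_mul (le_abs_self K) h3 (Real.sqrt_nonneg _) (abs_nonneg K))) (Real.exp_pos _).le
        _ = _ := by simp only [Function.comp_apply]; ring_nf
    have hper : Function.Periodic (fun τ => e τ * g τ) ((1 : ℝ) : ℂ) := fun τ => by
      simp only [e, hp τ]
      rw [show 2 * (π : ℂ) * I * (τ + ((1 : ℝ) : ℂ)) = 2 * π * I * τ + 2 * π * I by push_cast; ring,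
        Complex.exp_add, Complex.exp_two_pi_mul_I, mul_one]
    have hO := Function.Periodic.exp_decay_of_zero_at_inf one_pos hper (hev.mono fun τ hτ =>
      ((by fun_prop : DifferentiableAt ℂ e τ).mul (hd τ (by linarith)))) hzero
    obtain ⟨c, hc⟩ := hO.bound
    refine Asymptotics.IsBigO.of_bound c (hc.mono fun τ hτ => ?_)
    rw [Real.norm_eq_abs, abs_of_pos (Real.exp_pos _), norm_mul, he,
      show -2 * π * τ.im / 1 = -(2 * π * τ.im) by ring, mul_comm c] at hτ
    simpa using le_of_mul_le_mul_left hτ (Real.exp_pos _)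
  exact ⟨_, Function.Periodic.tendsto_at_I_inf one_pos hp hhol hbd⟩

theorem exists_tendsto_opF (b : Bool)
    (hb : b = true → ∀ τ : ℂ, 0 < τ.im → dbarY (famTh L u Φ) τ = 0) :
    ∃ c : ℂ, Tendsto (opF b (famTh L u Φ)) (comap Complex.im atTop) (𝓝 c) := by
  set G := opF b (famTh L u Φ)
  set g : ℂ → ℂ := fun τ => if 0 < τ.im then G τ else 0
  have hev : ∀ᶠ τ in comap Complex.im atTop, (1 : ℝ) ≤ τ.im :=
    (eventually_ge_atTop (1 : ℝ)).comap Complex.im
  obtain ⟨K, hK0, hK⟩ := exists_opF_bound hu Φ b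
  obtain ⟨c, hc⟩ := exists_tendsto_of_sqrt_bound (g := g) (K := K) (fun τ => by
    simp only [g, Complex.add_im, Complex.ofReal_im, add_zero]
    split_ifs with h
    · simpa using opF_famTh_add_intCast hu Φ b h 1
    · rfl) (fun τ hτ => (differentiableAt_opF hu Φ b hb hτ).congr_of_eventuallyEq (by
      filter_upwards [(isOpen_lt continuous_const Complex.continuous_im).mem_nhds hτ] with w hw
      exact if_pos hw)) fun τ hτ => by
        show ‖g τ‖ ≤ _
        rw [show g τ = G τ from if_pos (by linarith)]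
        exact hK τ hτ
  exact ⟨c, hc.congr' (hev.mono fun τ hτ => if_pos (by linarith))⟩

end FLTAgent.LT.Theta31
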