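import Fermat.Agent.LT.Theta31.Out
import Fermat.Agent.LT.Theta31.Pieces

/-!
# The last step of piece D

`sqHecke` is `p` times the square of `T p`, so one form with the right squares gives a normalised
eigenform.
-/

set_option autoImplicit false

noncomputable section

namespace FLTAgent.LT.Theta31

open scoped MatrixGroups ModularForm
open UpperHalfPlane hiding I
open CongruenceSubgroup ModularFormClass

theorem sum_range_mul (F : ℕ → ℂ) (p : ℕ) : ∀ m : ℕ,
    ∑ k ∈ Finset.range (p * m), F k = ∑ i ∈ Finset.range m, ∑ j ∈ Finset.range p, F (p * i + j)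
  | 0 => by simp
  | m + 1 => by rw [mul_add, mul_one, Finset.sum_range_add, sum_range_mul F p m, Finset.sum_range_succ]

variable {L : ℕ} [NeZero L] {ψ : DirichletCharacter ℂ L}

theorem sqHecke_eq {p : ℕ} (hp : p.Prime) (hpL : ¬ p ∣ L) (h : neb1 L ψ) (τ : ℍ) :
    sqHecke p (ψ (p : ZMod L)) (⇑(h : SW L) ∘ UpperHalfPlane.ofComplex) (τ : ℂ) =
      (p : ℂ) * ((t1Op ψ hp hpL (t1Op ψ hp hpL h) : neb1 L ψ) : SW L) τ := by
  set f : SW L := (h : SW L)
  set G : ℂ → ℂ := ⇑f ∘ UpperHalfPlane.ofComplex with hG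
  have hGz : ∀ z : ℍ, f z = G z := fun z => by simp [hG]
  have hper : Function.Periodic G 1 := by simpa [hG] using (mem_qFn_SW f).1
  have hT : ∀ (g : neb1 L ψ) (z : ℍ),
      ((t1Op ψ hp hpL g : neb1 L ψ) : SW L) z =
        (p : ℂ)⁻¹ * ∑ j ∈ Finset.range p, (g : SW L) (ModularForm.heckeMatrix p j • z) +
          ψ (p : ZMod L) * (g : SW L) (ModularForm.heckeDiagMatrix p • z) := fun g z => by
    rw [coe_t1Op, t1Fun, Pi.add_apply, Pi.smul_apply, smul_eq_mul,
      ModularForm.heckeU_apply _ hp.ne_zero, ModularForm.slash_heckeDiagMatrix_apply _ hp.ne_zero,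
      sub_self, zpow_zero, one_mul]
  have hp0 : (p : ℂ) ≠ 0 := Nat.cast_ne_zero.2 hp.ne_zero
  rw [hT]
  simp only [hT, show (h : SW L) = f from rfl, hGz, ModularForm.coe_heckeMatrix_smul hp.ne_zero,
    ModularForm.coe_heckeDiagMatrix_smul hp.ne_zero]
  have e1 : ∀ j : ℕ, (p : ℂ) * (((τ : ℂ) + j) / p) = (τ : ℂ) + j := fun j => by field_simp
  have e2 : ∀ i : ℕ, ((p : ℂ) * (τ : ℂ) + i) / p = (τ : ℂ) + i / p := fun i => by field_simp
  have e3 : ∀ j i : ℕ, ((((τ : ℂ) + j) / p) + i) / p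
      = ((τ : ℂ) + ((p * i + j : ℕ) : ℂ)) / (p : ℂ) ^ 2 := fun j i => by
    push_cast
    field_simp
    ring
  have hshift : ∀ j : ℕ, G ((τ : ℂ) + j) = G τ := fun j => by
    simpa using hper.nat_mul j (τ : ℂ)
  simp only [e1, e2, e3, hshift, ← mul_assoc (p : ℂ) (p : ℂ) (τ : ℂ), ← sq, sqHecke]
  rw [sq p, sum_range_mul, Finset.sum_add_distrib, ← Finset.mul_sum, Finset.sum_const,
    Finset.card_range, nsmul_eq_mul]
  conv_rhs => rw [Finset.sum_comm]
  field_simp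
  ring

/-- **D-final.** -/
theorem finalStep (d : Octa) : FinalStep d := by
  intro M _ ε χ g hM g0 hneb hsq
  refine thetaLift_out d (ψ := ε) hM χ (h := ⟨g, hneb⟩) (fun e => g0 (congrArg Subtype.val e))
    fun p hp hpL A hA σ hσ hGM => Subtype.ext (DFunLike.ext _ _ fun τ => ?_)
  have e := hsq p hp hpL A hA σ hσ hGM (τ : ℂ) τ.im_pos
  rw [show (⇑g : ℍ → ℂ) = ⇑((⟨g, hneb⟩ : neb1 M ε) : SW M) from rfl, sqHecke_eq hp hpL,
    UpperHalfPlane.ofComplex_apply, mul_assoc (p : ℂ), mul_assoc (p : ℂ)] at e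
  exact mul_left_cancel₀ (Nat.cast_ne_zero.2 hp.ne_zero) e

end FLTAgent.LT.Theta31
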