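import Fermat.Agent.LT.Theta31.Poisson
import Fermat.Agent.EisIndex.Theta.Poisson

/-!
# The form `-det` on hermitian matrices over the integers of `ℚ(√-3)` and its Gaussians

A vector `v` stands for the matrix `[[v₀, b], [b̄, v₁]]`, `b = v₂ + v₃ ω`, `ω = (1 + √-3) / 2`.
A frame is an isometry from this quadratic space to `-s² + |t|²`; it stands for a point of
hyperbolic three space.
-/

set_option autoImplicit false
set_option linter.unusedSectionVars false

noncomputable section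

namespace FLTAgent.LT.Theta31

open Complex MeasureTheory Matrix
open scoped Real ComplexConjugate

section Algebra

variable {R : Type*} [CommRing R]

/-- `-det`. -/
def qf (v : Fin 4 → R) : R := v 2 ^ 2 + v 2 * v 3 + v 3 ^ 2 - v 0 * v 1

/-- The polar form of `qf`. -/
def bil (v w : Fin 4 → R) : R :=
  2 * (v 2 * w 2) + v 2 * w 3 + v 3 * w 2 + 2 * (v 3 * w 3) - v 0 * w 1 - v 1 * w 0

/-- Three times the dual vector of the linear form `k`. -/
def dual (k : Fin 4 → R) : Fin 4 → R :=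
  ![-(3 * k 1), -(3 * k 0), 2 * k 2 - k 3, 2 * k 3 - k 2]

theorem qf_add (v w : Fin 4 → R) : qf (v + w) = qf v + qf w + bil v w := by
  simp [qf, bil]
  ring

theorem qf_smul (c : R) (v : Fin 4 → R) : qf (c • v) = c ^ 2 * qf v := by
  simp [qf]
  ring

theorem bil_dual (k w : Fin 4 → R) : bil (dual k) w = 3 * ∑ i, k i * w i := by
  simp [bil, dual, Fin.sum_univ_four]
  ring

theorem bil_smul_left (c : R) (v w : Fin 4 → R) : bil (c • v) w = c * bil v w := by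
  simp [bil]
  ring

theorem bil_smul_right (c : R) (v w : Fin 4 → R) : bil v (c • w) = c * bil v w := by
  simp [bil]
  ring

theorem map_qf {S : Type*} [CommRing S] (f : R →+* S) (v : Fin 4 → R) :
    f (qf v) = qf (fun i => f (v i)) := by
  simp [qf]

theorem map_bil {S : Type*} [CommRing S] (f : R →+* S) (v w : Fin 4 → R) :
    f (bil v w) = bil (fun i => f (v i)) (fun i => f (w i)) := by
  simp [bil, map_ofNat]

theorem map_dual {S : Type*} [CommRing S] (f : R →+* S) (k : Fin 4 → R) (i : Fin 4) :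
    f (dual k i) = dual (fun j => f (k j)) i := by
  fin_cases i <;> simp [dual, map_ofNat]

end Algebra

/-- The signature of a frame. -/
def sgn : Fin 4 → ℝ := ![-1, 1, 1, 1]

/-- Half the matrix of the polar form. -/
def gram : Matrix (Fin 4) (Fin 4) ℝ :=
  !![0, -1 / 2, 0, 0; -1 / 2, 0, 0, 0; 0, 0, 1, 1 / 2; 0, 0, 1 / 2, 1]

/-- An isometry to `-s² + |t|²`. -/
structure Frame where
  /-- The matrix. -/
  mat : Matrix (Fin 4) (Fin 4) ℝ
  isom : matᵀ * Matrix.diagonal sgn * mat = gram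

namespace Frame

variable (F : Frame)

/-- The coordinates of a vector in the frame. -/
def co (v : Fin 4 → ℝ) : Fin 4 → ℝ := F.mat *ᵥ v

/-- The negative coordinate. -/
def neg (v : Fin 4 → ℝ) : ℝ := F.co v 0

theorem sum_sgn_mul (v w : Fin 4 → ℝ) :
    2 * ∑ i, sgn i * (F.co v i * F.co w i) = bil v w := by
  have h1 : ∑ i, sgn i * (F.co v i * F.co w i) =
      F.co v ⬝ᵥ (Matrix.diagonal sgn *ᵥ F.co w) := by
    simp only [dotProduct, mulVec_diagonal]
    exact Finset.sum_congr rfl fun i _ => by ring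
  have h2 : F.co v ⬝ᵥ (Matrix.diagonal sgn *ᵥ F.co w) = v ⬝ᵥ (gram *ᵥ w) := by
    rw [← F.isom, ← mulVec_mulVec, ← mulVec_mulVec, dotProduct_mulVec v F.matᵀ, vecMul_transpose]
    rfl
  rw [h1, h2]
  simp [gram, bil, dotProduct, mulVec, Fin.sum_univ_four]
  ring

theorem sum_sgn_sq (v : Fin 4 → ℝ) : ∑ i, sgn i * F.co v i ^ 2 = qf v := by
  have h := F.sum_sgn_mul v v
  simp only [← sq] at h
  have e : bil v v = 2 * qf v := by simp [bil, qf]; ring
  linarith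

theorem sum_sq_eq (v : Fin 4 → ℝ) : ∑ i, F.co v i ^ 2 = qf v + 2 * F.neg v ^ 2 := by
  rw [← F.sum_sgn_sq]
  simp [sgn, neg, Fin.sum_univ_four]
  ring

theorem det_mat_sq : F.mat.det ^ 2 = 3 / 16 := by
  have h := congrArg Matrix.det F.isom
  rw [det_mul, det_mul, det_transpose, det_diagonal] at h
  have hg : gram.det = -(3 / 16) := by
    simp [gram, Matrix.det_succ_row_zero, Fin.sum_univ_succ, Fin.succAbove]
    norm_num
  simp [hg, sgn, Fin.prod_univ_four] at h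
  linear_combination h

theorem det_mat_ne_zero : F.mat.det ≠ 0 := fun h => by
  have := F.det_mat_sq
  rw [h] at this
  norm_num at this

theorem abs_det_mat : |F.mat.det| = Real.sqrt 3 / 4 := by
  rw [← Real.sqrt_sq_eq_abs, F.det_mat_sq, show (3 : ℝ) / 16 = 3 / 4 ^ 2 by norm_num,
    Real.sqrt_div' _ (by norm_num), Real.sqrt_sq (by norm_num)]

/-- The majorant is positive definite. -/
theorem exists_bound : ∃ ε > 0, ∀ v : Fin 4 → ℝ, ε * ∑ i, v i ^ 2 ≤ ∑ i, F.co v i ^ 2 := by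
  obtain ⟨B, hB⟩ : ∃ B : ℝ, B = ∑ i, ∑ j, F.mat⁻¹ i j ^ 2 := ⟨_, rfl⟩
  have hB0 : 0 ≤ B := hB ▸ Finset.sum_nonneg fun i _ => Finset.sum_nonneg fun j _ => sq_nonneg _
  refine ⟨(B + 1)⁻¹, by positivity, fun v => ?_⟩
  have hv : v = F.mat⁻¹ *ᵥ F.co v := by
    rw [co, mulVec_mulVec, nonsing_inv_mul _ (isUnit_iff_ne_zero.2 F.det_mat_ne_zero), one_mulVec]
  have h : ∑ i, v i ^ 2 ≤ B * ∑ j, F.co v j ^ 2 := by
    rw [hB, Finset.sum_mul]
    refine Finset.sum_le_sum fun i _ => ?_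
    conv_lhs => rw [hv]
    exact Finset.sum_mul_sq_le_sq_mul_sq Finset.univ (F.mat⁻¹ i) (F.co v)
  have h0 : 0 ≤ ∑ j, F.co v j ^ 2 := Finset.sum_nonneg fun j _ => sq_nonneg _
  rw [inv_mul_le_iff₀ (by linarith : (0 : ℝ) < B + 1)]
  nlinarith

end Frame

/-- The exponential of a vector. -/
def ex (F : Frame) (τ : ℂ) (v : Fin 4 → ℝ) : ℂ :=
  cexp (2 * π * I * τ * (qf v : ℝ) - 4 * π * (τ.im : ℂ) * ((F.neg v ^ 2 : ℝ) : ℂ))

variable (F : Frame)

theorem neg_smul_vec (c : ℝ) (v : Fin 4 → ℝ) : F.neg (c • v) = c * F.neg v := by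
  simp [Frame.neg, Frame.co, mulVec_smul]

theorem ex_smul (c : ℝ) (τ : ℂ) (v : Fin 4 → ℝ) : ex F τ (c • v) = ex F ((c : ℂ) ^ 2 * τ) v := by
  rw [ex, ex, qf_smul, neg_smul_vec, show ((c : ℂ) ^ 2 * τ).im = c ^ 2 * τ.im by simp [← ofReal_pow]]
  congr 1
  push_cast
  ring

theorem norm_ex (τ : ℂ) (v : Fin 4 → ℝ) :
    ‖ex F τ v‖ = Real.exp (-(2 * π * τ.im * ∑ i, F.co v i ^ 2)) := by
  rw [ex, Complex.norm_exp, F.sum_sq_eq]
  congr 1
  simp [← ofReal_pow]
  ring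

/-- The coefficients of the Gaussian in the frame. -/
def bco (τ : ℂ) : Fin 4 → ℂ :=
  ![2 * π * I * conj τ, -(2 * π * I * τ), -(2 * π * I * τ), -(2 * π * I * τ)]

theorem bco_re_pos {τ : ℂ} (h : 0 < τ.im) (i : Fin 4) : 0 < (bco τ i).re := by
  fin_cases i <;> simp [bco] <;> positivity

theorem ex_eq_sum (τ : ℂ) (v : Fin 4 → ℝ) :
    ex F τ v = cexp (-∑ i, bco τ i * (F.co v i : ℂ) ^ 2) := by
  have hq : (qf v : ℝ) = -(F.co v 0) ^ 2 + F.co v 1 ^ 2 + F.co v 2 ^ 2 + F.co v 3 ^ 2 := by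
    rw [← F.sum_sgn_sq]
    simp [sgn, Fin.sum_univ_four]
  have hc : conj τ = τ - 2 * (τ.im : ℂ) * I := by
    apply Complex.ext <;> simp
    ring
  rw [ex, hq]
  congr 1
  simp [bco, Frame.neg, Fin.sum_univ_four, hc]
  linear_combination -(4 * π * (τ.im : ℂ) * (F.co v 0 : ℂ) ^ 2) * I_sq

theorem continuous_ex (τ : ℂ) : Continuous (ex F τ) := by
  unfold ex Frame.neg Frame.co qf Matrix.mulVec dotProduct
  fun_prop

/-- Domination of integral translates. -/
theorem exists_dominated {τ : ℂ} (h : 0 < τ.im) (r : ℝ) :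
    ∃ u : (Fin 4 → ℤ) → ℝ, Summable u ∧
      ∀ x : Fin 4 → ℝ, (∀ i, |x i| ≤ r) → ∀ v, ‖ex F τ (x + rvec v)‖ ≤ u v := by
  obtain ⟨ε, hε, hb⟩ := F.exists_bound
  set a := 2 * π * τ.im * ε
  have ha : 0 < a := by positivity
  refine ⟨fun v => Real.exp (4 * a * r ^ 2) * ∏ i, Real.exp (-(a / 2 * (v i : ℝ) ^ 2) + 0 * v i),
    (EisIndex.Theta.summable_prod_fn (f := fun _ k => Real.exp (-(a / 2 * (k : ℝ) ^ 2) + 0 * k))
      (fun i k => (Real.exp_pos _).le)
      fun i => EisIndex.Theta.summable_int_gaussian (by positivity) 0).mul_left _,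
    fun x hx v => ?_⟩
  simp only [norm_ex, ← Real.exp_sum, ← Real.exp_add]
  refine Real.exp_le_exp.2 ?_
  have h1 := mul_le_mul_of_nonneg_left (hb (x + rvec v)) (by positivity : 0 ≤ 2 * π * τ.im)
  have h2 : ∑ i, ((v i : ℝ) ^ 2 / 2 - r ^ 2) ≤ ∑ i, (x + rvec v) i ^ 2 := by
    refine Finset.sum_le_sum fun i _ => ?_
    have hxi : x i ^ 2 ≤ r ^ 2 := sq_le_sq' (abs_le.1 (hx i)).1 (abs_le.1 (hx i)).2
    have hexp : (x + rvec v) i ^ 2 = x i ^ 2 + 2 * x i * v i + (v i : ℝ) ^ 2 := by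
      simp [rvec]; ring
    nlinarith [sq_nonneg (2 * x i + v i)]
  rw [Finset.sum_sub_distrib] at h2
  simp only [zero_mul, add_zero, Finset.sum_const, Finset.card_univ, Fintype.card_fin,
    nsmul_eq_mul, ← Finset.sum_div] at h2 ⊢
  rw [Finset.sum_neg_distrib, ← Finset.mul_sum]
  have h3 := mul_le_mul_of_nonneg_left h2 ha.le
  push_cast at h3
  have ea : a = 2 * π * τ.im * ε := rfl
  nlinarith

theorem summable_norm_ex {τ : ℂ} (h : 0 < τ.im) (x : Fin 4 → ℝ) :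
    Summable fun v => ‖ex F τ (x + rvec v)‖ := by
  obtain ⟨u, hu, hle⟩ := exists_dominated F h ‖x‖
  exact Summable.of_nonneg_of_le (fun v => norm_nonneg _)
    (fun v => hle x (fun i => norm_le_pi_norm x i) v) hu

theorem integrable_ex {τ : ℂ} (h : 0 < τ.im) : Integrable (ex F τ) := by
  obtain ⟨ε, hε, hb⟩ := F.exists_bound
  refine Integrable.mono (GaussianFourier.integrable_cexp_neg_mul_sum_add
    (b := ((2 * π * τ.im * ε : ℝ) : ℂ)) (by rw [ofReal_re]; positivity) (fun _ : Fin 4 => 0))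
    (continuous_ex F τ).aestronglyMeasurable ?_
  refine Filter.Eventually.of_forall fun v => ?_
  rw [norm_ex, Complex.norm_exp]
  refine Real.exp_le_exp.2 ?_
  have h1 := mul_le_mul_of_nonneg_left (hb v) (by positivity : 0 ≤ 2 * π * τ.im)
  simp [← ofReal_pow, ← ofReal_sum]
  nlinarith

theorem prod_cpow_bco {τ : ℂ} (h : 0 < τ.im) :
    ∏ i, ((π : ℂ) / bco τ i) ^ (1 / 2 : ℂ) = I / (4 * τ * (‖τ‖ : ℂ)) := by
  have hτ : τ ≠ 0 := fun e => by simp [e] at h
  obtain ⟨w, hw⟩ : ∃ w : ℂ, w = (π : ℂ) / -(2 * π * I * τ) := ⟨_, rfl⟩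
  have hw' : w = I / (2 * τ) := by
    rw [hw]
    field_simp
    linear_combination -I_sq
  have hre : 0 < w.re := by
    rw [hw']
    simp [Complex.div_re]
    have : 0 < normSq τ := normSq_pos.2 hτ
    positivity
  have hconj : (π : ℂ) / (2 * π * I * conj τ) = conj w := by
    rw [hw]
    simp [map_div₀, map_neg, map_mul, conj_ofReal, map_ofNat]
  have hsq : (w ^ (1 / 2 : ℂ)) ^ 2 = w := by
    rw [one_div]
    exact cpow_nat_inv_pow w two_ne_zero
  have harg : w.arg ≠ π := fun e => by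
    rw [arg_eq_pi_iff] at e
    linarith [e.1]
  have hcw : conj w ^ (1 / 2 : ℂ) = conj (w ^ (1 / 2 : ℂ)) := by
    rw [conj_cpow _ _ harg]
    simp [map_div₀, map_one, map_ofNat]
  simp only [Fin.prod_univ_four, bco, Matrix.cons_val_zero, Matrix.cons_val_one, Matrix.cons_val]
  rw [hconj, ← hw, hcw]
  have hn : ((‖w‖ : ℝ) : ℂ) = conj (w ^ (1 / 2 : ℂ)) * w ^ (1 / 2 : ℂ) := by
    rw [conj_mul', ← ofReal_pow, ← norm_pow, hsq]
  calc conj (w ^ (1 / 2 : ℂ)) * w ^ (1 / 2 : ℂ) * w ^ (1 / 2 : ℂ) * w ^ (1 / 2 : ℂ)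
      = (conj (w ^ (1 / 2 : ℂ)) * w ^ (1 / 2 : ℂ)) * (w ^ (1 / 2 : ℂ)) ^ 2 := by ring
    _ = _ := by
      rw [← hn, hsq, hw']
      simp only [norm_div, norm_mul, norm_I, RCLike.norm_ofNat]
      have : (‖τ‖ : ℂ) ≠ 0 := by simpa using hτ
      push_cast
      field_simp
      ring

/-- The Fourier integrals of the Gaussian. -/
theorem fourierInt_ex {τ : ℂ} (h : 0 < τ.im) (k : Fin 4 → ℤ) :
    fourierInt (ex F τ) k =
      I / ((Real.sqrt 3 : ℂ) * τ * (‖τ‖ : ℂ)) * ex F (-τ⁻¹) ((3 : ℝ)⁻¹ • dual (rvec k)) := by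
  have hτ : τ ≠ 0 := fun e => by simp [e] at h
  set u := F.co (dual (rvec k))
  set c : Fin 4 → ℂ := fun i => -(4 * π * I / 3) * ((sgn i * u i : ℝ) : ℂ)
  set g : (Fin 4 → ℝ) → ℂ := fun z => cexp (-∑ i, bco τ i * (z i : ℂ) ^ 2 + ∑ i, c i * z i)
  have hg : ∀ v : Fin 4 → ℝ, echar (-k) v * ex F τ v = g (F.mat *ᵥ v) := fun v => by
    rw [ex_eq_sum, echar, ← Complex.exp_add]
    show _ = cexp (-∑ i, bco τ i * (F.co v i : ℂ) ^ 2 + ∑ i, c i * (F.co v i : ℂ))
    congr 1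
    have h1 := F.sum_sgn_mul (dual (rvec k)) v
    rw [bil_dual] at h1
    have h2 : (3 : ℂ) * ∑ i, (k i : ℂ) * (v i : ℂ) =
        2 * ∑ i, ((sgn i * u i : ℝ) : ℂ) * (F.co v i : ℂ) := by
      have := congrArg (fun x : ℝ => (x : ℂ)) h1.symm
      simp only [rvec, ofReal_mul, ofReal_sum, ofReal_intCast, ofReal_ofNat] at this
      rw [this]
      congr 1
      exact Finset.sum_congr rfl fun i _ => by push_cast [u]; ring
    simp only [Pi.neg_apply, Int.cast_neg, neg_mul, Finset.sum_neg_distrib, c, mul_assoc,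
      ← Finset.mul_sum] at h2 ⊢
    linear_combination -(2 * π * I / 3) * h2
  have hdet := F.det_mat_ne_zero
  have hmap := Real.map_matrix_volume_pi_eq_smul_volume_pi hdet
  have hgc : Continuous g := by fun_prop
  have e1 : fourierInt (ex F τ) k =
      ((|F.mat.det|⁻¹ : ℝ) : ℂ) * ∫ z, g z := by
    rw [fourierInt]
    simp only [hg]
    rw [← integral_map (φ := fun v => F.mat *ᵥ v) (by fun_prop) hgc.aestronglyMeasurable]
    rw [show (fun v => F.mat *ᵥ v) = ⇑(Matrix.toLin' F.mat) from rfl, hmap,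
      integral_smul_measure, ENNReal.toReal_ofReal (abs_nonneg _), abs_inv, Complex.real_smul]
  rw [e1, GaussianFourier.integral_cexp_neg_sum_mul_add (bco_re_pos h), Finset.prod_mul_distrib,
    prod_cpow_bco h, ← Complex.exp_sum, F.abs_det_mat, ex_eq_sum]
  have hexp : ∑ i, c i ^ 2 / (4 * bco τ i) =
      -∑ i, bco (-τ⁻¹) i * (F.co ((3 : ℝ)⁻¹ • dual (rvec k)) i : ℂ) ^ 2 := by
    have hc : ∀ i, (F.co ((3 : ℝ)⁻¹ • dual (rvec k)) i : ℂ) = (3 : ℂ)⁻¹ * (u i : ℂ) := fun i => by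
      simp [Frame.co, mulVec_smul, u]
    have hτc : conj τ ≠ 0 := (map_ne_zero _).2 hτ
    have hπ : (π : ℂ) ≠ 0 := ofReal_ne_zero.2 Real.pi_ne_zero
    simp only [hc, c, Fin.sum_univ_four, bco, sgn, Matrix.cons_val_zero, Matrix.cons_val_one,
      Matrix.cons_val, map_neg, map_inv₀]
    push_cast
    field_simp
    ring
  rw [hexp]
  have hs : (Real.sqrt 3 : ℂ) ≠ 0 := by simp
  push_cast
  field_simp

theorem im_neg_inv {τ : ℂ} (h : 0 < τ.im) : 0 < (-τ⁻¹).im := by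
  rw [Complex.neg_im, Complex.inv_im, neg_div, neg_neg]
  exact div_pos h (normSq_pos.2 fun e => by simp [e] at h)

theorem summable_norm_ex_dual {τ : ℂ} (h : 0 < τ.im) (c : ℝ) (hc : 0 < c) :
    Summable fun k : Fin 4 → ℤ => ‖ex F τ (c • dual (rvec k))‖ := by
  have h' : 0 < ((c : ℂ) ^ 2 * τ).im := by
    rw [show ((c : ℂ) ^ 2 * τ).im = c ^ 2 * τ.im by simp [← ofReal_pow]]
    positivity
  simp only [ex_smul]
  have hinj : Function.Injective (dual : (Fin 4 → ℤ) → Fin 4 → ℤ) := fun a b e => by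
    have h0 := congrFun e 0; have h1 := congrFun e 1; have h2 := congrFun e 2
    have h3 := congrFun e 3
    simp [dual] at h0 h1 h2 h3
    funext i
    fin_cases i <;> simp <;> omega
  refine ((summable_norm_ex F h' 0).comp_injective hinj).congr fun k => ?_
  simp only [Function.comp_apply, zero_add]
  congr 2
  funext i
  exact map_dual (Int.castRingHom ℝ) k i

/-- The inversion on a coset. -/
theorem hasSum_ex_inv {τ : ℂ} (h : 0 < τ.im) {n : ℕ} (hn : 0 < n) (r : Fin 4 → ℝ) :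
    HasSum (fun k : Fin 4 → ℤ => I / ((Real.sqrt 3 : ℂ) * (n : ℂ) ^ 4 * τ * (‖τ‖ : ℂ)) *
        (ex F (-τ⁻¹) ((3 * n : ℝ)⁻¹ • dual (rvec k)) * echar k ((n : ℝ)⁻¹ • r)))
      (∑' v : Fin 4 → ℤ, ex F τ (r + (n : ℝ) • rvec v)) := by
  have hτ : τ ≠ 0 := fun e => by simp [e] at h
  have hn' : (0 : ℝ) < n := Nat.cast_pos.2 hn
  set σ := ((n : ℝ) : ℂ) ^ 2 * τ
  have hσ : 0 < σ.im := by
    rw [show σ.im = (n : ℝ) ^ 2 * τ.im by simp [σ, ← ofReal_pow, -ofReal_natCast]]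
    positivity
  have hsum : Summable (fourierInt (ex F σ)) := by
    refine Summable.congr ?_ fun k => (fourierInt_ex F hσ k).symm
    exact ((summable_norm_ex_dual F (im_neg_inv hσ) 3⁻¹ (by norm_num)).of_norm).mul_left _
  have key := hasSum_poisson (continuous_ex F σ) (integrable_ex F hσ) (exists_dominated F hσ) hsum
    ((n : ℝ)⁻¹ • r)
  have e1 : periodize (ex F σ) ((n : ℝ)⁻¹ • r) = ∑' v, ex F τ (r + (n : ℝ) • rvec v) :=
    tsum_congr fun v => by
      rw [← ex_smul, smul_add, smul_smul, mul_inv_cancel₀ hn'.ne', one_smul]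
  have e2 : ∀ k : Fin 4 → ℤ, fourierInt (ex F σ) k * echar k ((n : ℝ)⁻¹ • r) =
      I / ((Real.sqrt 3 : ℂ) * (n : ℂ) ^ 4 * τ * (‖τ‖ : ℂ)) *
        (ex F (-τ⁻¹) ((3 * n : ℝ)⁻¹ • dual (rvec k)) * echar k ((n : ℝ)⁻¹ • r)) := fun k => by
    rw [fourierInt_ex F hσ, mul_assoc]
    congr 1
    · simp only [σ, norm_mul, norm_pow, Complex.norm_natCast,
        ofReal_natCast]
      push_cast
      ring
    · congr 1
      rw [mul_inv (3 : ℝ), mul_comm (3 : ℝ)⁻¹, ← smul_smul, ex_smul F (n : ℝ)⁻¹]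
      congr 1
      simp [σ]
      ring
  rw [e1] at key
  exact key.congr_fun fun k => (e2 k).symm

end FLTAgent.LT.Theta31
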