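import Fermat.Agent.LT.Theta31.Theta
import Fermat.Agent.LT.Hyp.Act

/-!
# Frames of points of upper half space, congruence by matrices over `ℤ[ω]`
-/

set_option autoImplicit false
set_option linter.unusedSectionVars false

noncomputable section

namespace FLTAgent.LT.Theta31

open Complex Matrix
open scoped Real ComplexConjugate

/-- `(1 + √-3) / 2`. -/
def omC : ℂ := (1 + (Real.sqrt 3 : ℂ) * I) / 2

theorem sqrt_three_sq : (Real.sqrt 3 : ℂ) ^ 2 = 3 := by
  rw [← ofReal_pow, Real.sq_sqrt (by norm_num)]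
  norm_num

theorem omC_sq : omC ^ 2 = omC - 1 := by
  rw [omC]
  linear_combination ((Real.sqrt 3 : ℂ) ^ 2 / 4) * I_sq - sqrt_three_sq / 4

theorem conj_omC : conj omC = 1 - omC := by
  simp [omC, map_ofNat]
  ring

/-- The hermitian matrix of a vector. -/
def hermX (v : Fin 4 → ℝ) : Matrix (Fin 2) (Fin 2) ℂ :=
  !![(v 0 : ℂ), (v 2 : ℂ) + (v 3 : ℂ) * omC; conj ((v 2 : ℂ) + (v 3 : ℂ) * omC), (v 1 : ℂ)]

/-- The matrix of the frame of a point. -/
def frameMat (z : ℂ) (t : ℝ) : Matrix (Fin 4) (Fin 4) ℝ :=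
  !![1 / (2 * t), (z.re ^ 2 + z.im ^ 2 + t ^ 2) / (2 * t), -(z.re / t),
      -((z.re + Real.sqrt 3 * z.im) / (2 * t));
    1 / (2 * t), (z.re ^ 2 + z.im ^ 2 - t ^ 2) / (2 * t), -(z.re / t),
      -((z.re + Real.sqrt 3 * z.im) / (2 * t));
    0, -z.re, 1, 1 / 2;
    0, -z.im, 0, Real.sqrt 3 / 2]

/-- The frame of a point. -/
def frameOf (p : H3) : Frame where
  mat := frameMat p.1 (p.2 : ℝ)
  isom := by
    have ht : (p.2 : ℝ) ≠ 0 := ne_of_gt p.2.2
    have h3 : Real.sqrt 3 ^ 2 = 3 := Real.sq_sqrt (by norm_num)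
    ext i j
    fin_cases i <;> fin_cases j <;>
      simp [frameMat, gram, sgn, Matrix.mul_apply, Fin.sum_univ_four] <;>
      field_simp <;>
      first
        | ring1
        | linear_combination h3
        | linear_combination (p.2 : ℝ) ^ 2 * h3
        | linear_combination (p.2 : ℝ) * h3

theorem neg_frameOf (p : H3) (v : Fin 4 → ℝ) :
    (frameOf p).neg v = (v 0 + (p.1.re ^ 2 + p.1.im ^ 2 + (p.2 : ℝ) ^ 2) * v 1 - 2 * p.1.re * v 2 -
      (p.1.re + Real.sqrt 3 * p.1.im) * v 3) / (2 * (p.2 : ℝ)) := by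
  have ht : (p.2 : ℝ) ≠ 0 := ne_of_gt p.2.2
  simp [Frame.neg, Frame.co, frameOf, frameMat, Matrix.mulVec, dotProduct, Fin.sum_univ_four]
  field_simp
  ring

theorem coe_neg_frameOf (p : H3) (v : Fin 4 → ℝ) :
    ((frameOf p).neg v : ℂ) = (adjugate (Hyp.herm p) * hermX v).trace / 2 := by
  have ht := Hyp.snd_ne_zero p
  rw [neg_frameOf]
  simp [Hyp.herm, hermX, Matrix.adjugate_fin_two, Matrix.trace_fin_two, conj_omC]
  generalize hz : p.1 = z
  obtain ⟨x, y⟩ := z
  rw [show ({ re := x, im := y } : ℂ) = (x : ℂ) + (y : ℂ) * I from Complex.mk_eq_add_mul_I x y]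
  simp [omC]
  field_simp
  ring_nf
  simp only [I_sq]
  ring

/-- Congruence transports the negative coordinate. -/
theorem neg_frameOf_act (g : GL (Fin 2) ℂ) (p : H3) {v w : Fin 4 → ℝ}
    (h : (‖(Matrix.GeneralLinearGroup.det g : ℂ)‖ : ℂ) • hermX w =
      (g : Matrix (Fin 2) (Fin 2) ℂ) * hermX v * (g : Matrix (Fin 2) (Fin 2) ℂ)ᴴ) :
    (frameOf (act g p)).neg w = (frameOf p).neg v := by
  apply ofReal_injective
  rw [coe_neg_frameOf, coe_neg_frameOf]
  set G : Matrix (Fin 2) (Fin 2) ℂ := g.val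
  set n : ℂ := (‖(Matrix.GeneralLinearGroup.det g : ℂ)‖ : ℂ)
  have hn : n ≠ 0 :=
    ofReal_ne_zero.2 (norm_ne_zero_iff.2 (Matrix.GeneralLinearGroup.det g).ne_zero)
  have e1 : Hyp.herm (act g p) = n⁻¹ • (G * Hyp.herm p * Gᴴ) := by
    rw [Hyp.mul_herm_mul, smul_smul, inv_mul_cancel₀ hn, one_smul]
  have e2 : hermX w = n⁻¹ • (G * hermX v * Gᴴ) := by
    rw [← h, smul_smul, inv_mul_cancel₀ hn, one_smul]
  have hdet : G.det * conj G.det = n ^ 2 := by
    rw [Complex.mul_conj']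
    rfl
  rw [e1, e2, adjugate_smul, Fintype.card_fin, show (2 : ℕ) - 1 = 1 from rfl, pow_one,
    Matrix.smul_mul, Matrix.mul_smul, smul_smul, trace_smul, adjugate_mul_distrib,
    adjugate_mul_distrib, smul_eq_mul]
  have e3 : (adjugate Gᴴ * (adjugate (Hyp.herm p) * adjugate G) * (G * hermX v * Gᴴ)).trace =
      G.det * conj G.det * (adjugate (Hyp.herm p) * hermX v).trace := by
    rw [show adjugate Gᴴ * (adjugate (Hyp.herm p) * adjugate G) * (G * hermX v * Gᴴ) =
      adjugate Gᴴ * adjugate (Hyp.herm p) * (adjugate G * G) * hermX v * Gᴴ by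
      simp only [Matrix.mul_assoc], adjugate_mul, Matrix.mul_smul, Matrix.mul_one,
      Matrix.smul_mul, Matrix.smul_mul, trace_smul, smul_eq_mul, Matrix.trace_mul_comm,
      ← Matrix.mul_assoc, ← Matrix.mul_assoc, mul_adjugate, det_conjTranspose, Matrix.smul_mul,
      Matrix.smul_mul, Matrix.one_mul, trace_smul, smul_eq_mul, Complex.star_def]
    ring
  rw [e3, hdet]
  field_simp

/-! ### Integrality -/

/-- The ring `ℤ[ω]` inside `ℂ`. -/
def Ow : Subring ℂ where
  carrier := {z | ∃ m n : ℤ, z = m + n * omC}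
  one_mem' := ⟨1, 0, by simp⟩
  zero_mem' := ⟨0, 0, by simp⟩
  add_mem' := fun {x y} ⟨m, n, hx⟩ ⟨m', n', hy⟩ => ⟨m + m', n + n', by subst hx hy; push_cast; ring⟩
  neg_mem' := fun {x} ⟨m, n, hx⟩ => ⟨-m, -n, by subst hx; push_cast; ring⟩
  mul_mem' := fun {x y} ⟨m, n, hx⟩ ⟨m', n', hy⟩ =>
    ⟨m * m' - n * n', m * n' + n * m' + n * n', by
      subst hx hy
      push_cast
      linear_combination ((n : ℂ) * n') * omC_sq⟩

theorem conj_mem_Ow {z : ℂ} (h : z ∈ Ow) : conj z ∈ Ow := by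
  obtain ⟨m, n, rfl⟩ := h
  exact ⟨m + n, -n, by simp [conj_omC]; ring⟩

/-- `z` is a multiple of `L` in `ℤ[ω]`. -/
def DvdOw (L : ℕ) (z : ℂ) : Prop := ∃ y ∈ Ow, z = (L : ℂ) * y

/-- An integral matrix. -/
def IntMat (G : Matrix (Fin 2) (Fin 2) ℂ) : Prop := ∀ i j, G i j ∈ Ow

theorem intMat_mul {G H : Matrix (Fin 2) (Fin 2) ℂ} (hG : IntMat G) (hH : IntMat H) :
    IntMat (G * H) := fun i j => by
  rw [Matrix.mul_apply]
  exact sum_mem fun k _ => mul_mem (hG i k) (hH k j)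

theorem intMat_conjTranspose {G : Matrix (Fin 2) (Fin 2) ℂ} (hG : IntMat G) : IntMat Gᴴ :=
  fun i j => conj_mem_Ow (hG j i)

theorem intMat_hermX (v : Fin 4 → ℤ) : IntMat (hermX (rvec v)) := by
  intro i j
  have hb : (v 2 : ℂ) + (v 3 : ℂ) * omC ∈ Ow := ⟨v 2, v 3, rfl⟩
  fin_cases i <;> fin_cases j <;>
    simp only [hermX, rvec, Matrix.of_apply, Matrix.cons_val', Matrix.cons_val_zero,
      Matrix.cons_val_one, Matrix.empty_val', Matrix.cons_val_fin_one, Fin.zero_eta, Fin.mk_one,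
      ofReal_intCast]
  · exact intCast_mem Ow _
  · exact hb
  · exact conj_mem_Ow hb
  · exact intCast_mem Ow _

/-- The coordinates of a hermitian matrix, rounded down. -/
def vecOf (H : Matrix (Fin 2) (Fin 2) ℂ) : Fin 4 → ℤ :=
  ![round (H 0 0).re, round (H 1 1).re, round ((H 0 1).re - (H 0 1).im / Real.sqrt 3),
    round (2 * (H 0 1).im / Real.sqrt 3)]

theorem round_intCast' (m : ℤ) : round (m : ℝ) = m := round_intCast m

theorem coords_of_mem (m n : ℤ) :
    round (((m : ℂ) + n * omC).re - ((m : ℂ) + n * omC).im / Real.sqrt 3) = m ∧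
      round (2 * ((m : ℂ) + n * omC).im / Real.sqrt 3) = n := by
  have h3 : Real.sqrt 3 ≠ 0 := by simp
  constructor
  · rw [show ((m : ℂ) + n * omC).re - ((m : ℂ) + n * omC).im / Real.sqrt 3 = (m : ℝ) by
      simp [omC]; field_simp; ring]
    exact round_intCast m
  · rw [show 2 * ((m : ℂ) + n * omC).im / Real.sqrt 3 = (n : ℝ) by
      simp [omC]; field_simp]
    exact round_intCast n

theorem hermX_vecOf {H : Matrix (Fin 2) (Fin 2) ℂ} (hH : IntMat H) (hherm : Hᴴ = H) :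
    hermX (rvec (vecOf H)) = H := by
  have hd : ∀ i, ∃ a : ℤ, H i i = (a : ℂ) := fun i => by
    obtain ⟨m, n, hmn⟩ := hH i i
    have him : (H i i).im = 0 :=
      Complex.conj_eq_iff_im.1 (congrFun (congrFun hherm i) i)
    rw [hmn] at him
    simp [omC] at him
    exact ⟨m, by simp [hmn, him]⟩
  obtain ⟨a, ha⟩ := hd 0
  obtain ⟨d, hd'⟩ := hd 1
  obtain ⟨m, n, hmn⟩ := hH 0 1
  have h10 : H 1 0 = conj (H 0 1) := (congrFun (congrFun hherm 1) 0).symm
  obtain ⟨e2, e3⟩ := coords_of_mem m n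
  rw [← hmn] at e2 e3
  ext i j
  fin_cases i <;> fin_cases j <;> simp [hermX, vecOf, rvec, ha, hd', h10, e2, e3]
  · exact hmn.symm
  · rw [hmn]; simp

/-- Congruence on integral vectors. -/
def congV (G : Matrix (Fin 2) (Fin 2) ℂ) (v : Fin 4 → ℤ) : Fin 4 → ℤ :=
  vecOf (G * hermX (rvec v) * Gᴴ)

theorem conjTranspose_hermX (v : Fin 4 → ℝ) : (hermX v)ᴴ = hermX v := by
  ext i j
  fin_cases i <;> fin_cases j <;> simp [hermX]

theorem hermX_congV {G : Matrix (Fin 2) (Fin 2) ℂ} (hG : IntMat G) (v : Fin 4 → ℤ) :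
    hermX (rvec (congV G v)) = G * hermX (rvec v) * Gᴴ :=
  hermX_vecOf (intMat_mul (intMat_mul hG (intMat_hermX v)) (intMat_conjTranspose hG))
    (by rw [conjTranspose_mul, conjTranspose_mul, conjTranspose_conjTranspose,
      conjTranspose_hermX, Matrix.mul_assoc])

theorem hermX_injective : Function.Injective hermX := by
  intro v w h
  have h00 := congrFun (congrFun h 0) 0
  have h11 := congrFun (congrFun h 1) 1
  have h01 := congrFun (congrFun h 0) 1
  simp [hermX] at h00 h11 h01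
  have him := congrArg Complex.im h01
  simp [omC] at him
  have hre := congrArg Complex.re h01
  simp [omC, him] at hre
  funext i
  fin_cases i
  exacts [h00, h11, hre, him]

theorem rvec_injective : Function.Injective (rvec : (Fin 4 → ℤ) → Fin 4 → ℝ) := fun v w h =>
  funext fun i => Int.cast_injective (congrFun h i)

theorem congV_congV {G H : Matrix (Fin 2) (Fin 2) ℂ} (hG : IntMat G) (hH : IntMat H)
    (v : Fin 4 → ℤ) : congV G (congV H v) = congV (G * H) v := by
  refine rvec_injective (hermX_injective ?_)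
  rw [hermX_congV hG, hermX_congV hH, hermX_congV (intMat_mul hG hH), conjTranspose_mul]
  simp only [Matrix.mul_assoc]

theorem congV_one (v : Fin 4 → ℤ) : congV 1 v = v := by
  refine rvec_injective (hermX_injective ?_)
  rw [hermX_congV fun i j => by
    rcases eq_or_ne i j with rfl | h
    · simp [one_mem]
    · simp [h, zero_mem]]
  simp

theorem dvd_coords {L : ℕ} {z : ℂ} (h : DvdOw L z) {m n : ℤ} (e : z = m + n * omC) :
    (L : ℤ) ∣ m ∧ (L : ℤ) ∣ n := by
  obtain ⟨y, ⟨m', n', rfl⟩, rfl⟩ := h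
  have him := congrArg Complex.im e
  simp [omC] at him
  have h3 : Real.sqrt 3 ≠ 0 := by simp
  have hn : ((L * n' : ℤ) : ℝ) = n := by
    push_cast
    field_simp at him
    linarith
  have hn' : (L : ℤ) * n' = n := Int.cast_injective hn
  subst hn'
  have hre : ((L * m' : ℤ) : ℂ) = m := by
    push_cast at e ⊢
    linear_combination e
  have hm : (L : ℤ) * m' = m := Int.cast_injective hre
  exact ⟨⟨m', hm.symm⟩, ⟨n', rfl⟩⟩

theorem dvdOw_add {L : ℕ} {x y : ℂ} (hx : DvdOw L x) (hy : DvdOw L y) : DvdOw L (x + y) := by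
  obtain ⟨a, ha, rfl⟩ := hx
  obtain ⟨b, hb, rfl⟩ := hy
  exact ⟨a + b, add_mem ha hb, by ring⟩

theorem dvdOw_mul_left {L : ℕ} {x y : ℂ} (hy : y ∈ Ow) (hx : DvdOw L x) : DvdOw L (y * x) := by
  obtain ⟨a, ha, rfl⟩ := hx
  exact ⟨y * a, mul_mem hy ha, by ring⟩

theorem dvdOw_mul_right {L : ℕ} {x y : ℂ} (hy : y ∈ Ow) (hx : DvdOw L x) : DvdOw L (x * y) := by
  rw [mul_comm]
  exact dvdOw_mul_left hy hx

/-- Congruence by a matrix congruent to one is congruent to the identity. -/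
theorem castv_congV {L : ℕ} {G : Matrix (Fin 2) (Fin 2) ℂ} (hG : IntMat G)
    (h1 : ∀ i j, DvdOw L (G i j - (1 : Matrix (Fin 2) (Fin 2) ℂ) i j)) (v : Fin 4 → ℤ) :
    castv L (congV G v) = castv L v := by
  set X := hermX (rvec v)
  have hX := intMat_hermX v
  have e : G * X * Gᴴ - X = (G - 1) * X * Gᴴ + X * (G - 1)ᴴ := by
    rw [conjTranspose_sub, conjTranspose_one, Matrix.sub_mul, Matrix.sub_mul, Matrix.mul_sub,
      Matrix.one_mul, Matrix.mul_one]
    abel
  have hsum : ∀ {ι : Type} (s : Finset ι) (f : ι → ℂ), (∀ k, DvdOw L (f k)) →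
      DvdOw L (∑ k ∈ s, f k) := fun s f hf =>
    Finset.sum_induction f (DvdOw L) (fun _ _ => dvdOw_add) ⟨0, zero_mem _, by simp⟩ fun k _ => hf k
  have key : ∀ i j, DvdOw L (hermX (rvec (congV G v)) i j - X i j) := fun i j => by
    rw [hermX_congV hG, ← Matrix.sub_apply, e, Matrix.add_apply, Matrix.mul_apply, Matrix.mul_apply]
    refine dvdOw_add (hsum _ _ fun k => ?_) (hsum _ _ fun k => ?_)
    · rw [Matrix.mul_apply, Finset.sum_mul]
      exact hsum _ _ fun l => dvdOw_mul_right (intMat_conjTranspose hG k j)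
        (dvdOw_mul_right (hX l k) (h1 i l))
    · refine dvdOw_mul_left (hX i k) ?_
      obtain ⟨y, hy, e'⟩ := h1 j k
      exact ⟨conj y, conj_mem_Ow hy, by simp [Matrix.conjTranspose_apply, e']⟩
  funext i
  simp only [castv]
  rw [ZMod.intCast_eq_intCast_iff_dvd_sub]
  have k00 : DvdOw L (((congV G v 0 - v 0 : ℤ) : ℂ) + ((0 : ℤ) : ℂ) * omC) := by
    simpa [hermX, rvec, X] using key 0 0
  have k11 : DvdOw L (((congV G v 1 - v 1 : ℤ) : ℂ) + ((0 : ℤ) : ℂ) * omC) := by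
    simpa [hermX, rvec, X] using key 1 1
  have k01 : DvdOw L (((congV G v 2 - v 2 : ℤ) : ℂ) + ((congV G v 3 - v 3 : ℤ) : ℂ) * omC) := by
    convert key 0 1 using 1
    simp [hermX, rvec, X]
    ring
  obtain ⟨h2, h3⟩ := dvd_coords k01 rfl
  have := (dvd_coords k00 rfl).1
  have := (dvd_coords k11 rfl).1
  rw [dvd_sub_comm]
  fin_cases i <;> assumption

theorem coe_qf (v : Fin 4 → ℝ) : ((qf v : ℝ) : ℂ) = -(hermX v).det := by
  simp [qf, hermX, Matrix.det_fin_two, conj_omC]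
  linear_combination ((v 3 : ℂ) ^ 2) * omC_sq

/-- The Gaussian at the image point. -/
theorem ex_congV {g : GL (Fin 2) ℂ} (hG : IntMat g.val)
    (hn : ‖(Matrix.GeneralLinearGroup.det g : ℂ)‖ = 1) {p : H3} {τ : ℂ} (v : Fin 4 → ℤ) :
    ex (frameOf (act g p)) τ (rvec (congV g.val v)) = ex (frameOf p) τ (rvec v) := by
  have h1 : qf (rvec (congV g.val v)) = qf (rvec v) := by
    apply ofReal_injective
    have h2 : g.val.det * conj g.val.det = 1 := by
      rw [Complex.mul_conj']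
      show ((‖(Matrix.GeneralLinearGroup.det g : ℂ)‖ : ℝ) : ℂ) ^ 2 = 1
      rw [hn]; simp
    rw [coe_qf, coe_qf, hermX_congV hG, det_mul, det_mul, det_conjTranspose, Complex.star_def]
    linear_combination -(hermX (rvec v)).det * h2
  have h2 := neg_frameOf_act g p (v := rvec v) (w := rvec (congV g.val v))
    (by rw [hn, ofReal_one, one_smul, hermX_congV hG])
  rw [ex, ex, h1, h2]

/-- Theta series at the image point. -/
theorem th_act_of_det_one (g : GL (Fin 2) ℂ) {G' : Matrix (Fin 2) (Fin 2) ℂ}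
    (hG : IntMat g.val) (hG' : IntMat G') (hinv : G' * g.val = 1) (hinv' : g.val * G' = 1)
    (hn : ‖(Matrix.GeneralLinearGroup.det g : ℂ)‖ = 1) {L : ℕ} [NeZero L]
    (Φ : (Fin 4 → ZMod L) → ℂ) (τ : ℂ) (p : H3) :
    (Real.sqrt τ.im : ℂ) * ∑' v, Φ (castv L (congV g.val v)) * ex (frameOf p) τ (rvec v) =
      th (frameOf (act g p)) L Φ τ := by
  rw [th]
  congr 1
  let e : (Fin 4 → ℤ) ≃ (Fin 4 → ℤ) :=
    ⟨congV g.val, congV G', fun v => by rw [congV_congV hG' hG, hinv, congV_one],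
      fun v => by rw [congV_congV hG hG', hinv', congV_one]⟩
  rw [← e.tsum_eq fun v => Φ (castv L v) * ex (frameOf (act g p)) τ (rvec v)]
  refine tsum_congr fun v => ?_
  show _ = Φ (castv L (congV g.val v)) * ex (frameOf (act g p)) τ (rvec (congV g.val v))
  rw [ex_congV hG hn]

end FLTAgent.LT.Theta31
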