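import Fermat.Agent.LT.Theta31.Geom
import Fermat.Agent.LT.Hyp.Moments

/-!
# Small spherical means of the Gaussians

`∫ H(d(p,q)) E(q) = c(H) E(p) + D(H)/3 · (Δ + 1) E(p) + error`, where `c(H)` is the eigenvalue of
the spectral parameter zero.
-/

set_option autoImplicit false

noncomputable section

namespace FLTAgent.LT.Theta31

open Complex MeasureTheory Set Hyp
open scoped Real ComplexConjugate

/-- `2`-Taylor bound from a bound of the third derivative. -/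
theorem taylor_three {g g1 g2 g3 : ℝ → ℝ} (h1 : ∀ x, HasDerivAt g (g1 x) x)
    (h2 : ∀ x, HasDerivAt g1 (g2 x) x) (h3 : ∀ x, HasDerivAt g2 (g3 x) x) {t h M : ℝ} (hh : 0 ≤ h)
    (hM : ∀ x ∈ Icc (t - h) (t + h), |g3 x| ≤ M) :
    ∀ x ∈ Icc (t - h) (t + h), |g x - g t - g1 t * (x - t) - g2 t / 2 * (x - t) ^ 2| ≤ M * h ^ 3 := by
  have ht : t ∈ Icc (t - h) (t + h) := ⟨by linarith, by linarith⟩
  have hM0 : 0 ≤ M := (abs_nonneg _).trans (hM t ht)
  have hx : ∀ x ∈ Icc (t - h) (t + h), |x - t| ≤ h := fun x hx =>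
    abs_le.2 ⟨by linarith [hx.1], by linarith [hx.2]⟩
  have step : ∀ (f f' : ℝ → ℝ) (B : ℝ), (∀ x, HasDerivAt f (f' x) x) → f t = 0 → 0 ≤ B →
      (∀ x ∈ Icc (t - h) (t + h), |f' x| ≤ B) → ∀ x ∈ Icc (t - h) (t + h), |f x| ≤ B * h :=
    fun f f' B hf h0 hB hb x hxm => by
      have := (convex_Icc (t - h) (t + h)).norm_image_sub_le_of_norm_hasDerivWithin_le
        (fun y _ => (hf y).hasDerivWithinAt) (fun y hy => by rw [Real.norm_eq_abs]; exact hb y hy)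
        ht hxm
      rw [h0, sub_zero, Real.norm_eq_abs, Real.norm_eq_abs] at this
      exact this.trans (mul_le_mul_of_nonneg_left (hx x hxm) hB)
  have a2 := step (fun x => g2 x - g2 t) g3 M (fun x => (h3 x).sub_const _) (by simp) hM0 hM
  have a1 := step (fun x => g1 x - g1 t - g2 t * (x - t)) (fun x => g2 x - g2 t) (M * h)
    (fun x => (((h2 x).sub_const (g1 t)).sub
      (((hasDerivAt_id x).sub_const t).const_mul (g2 t))).congr_deriv (by simp)) (by simp)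
    (by positivity) a2
  have a0 := step (fun x => g x - g t - g1 t * (x - t) - g2 t / 2 * (x - t) ^ 2)
    (fun x => g1 x - g1 t - g2 t * (x - t)) (M * h * h)
    (fun x => ((((h1 x).sub_const (g t)).sub
      (((hasDerivAt_id x).sub_const t).const_mul (g1 t))).sub
        ((((hasDerivAt_id x).sub_const t).pow 2).const_mul (g2 t / 2))).congr_deriv
      (by simp; ring)) (by simp) (by positivity) a1
  intro x hxm
  exact (a0 x hxm).trans_eq (by ring)

/-- `r / sinh r` against `1 - (cosh r - 1) / 3`. -/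
theorem sinh_ratio_bound {r : ℝ} (hr : 0 ≤ r) :
    |r - Real.sinh r + (Real.cosh r - 1) * Real.sinh r / 3| ≤
      2 / 3 * (Real.cosh r - 1) ^ 2 * Real.sinh r := by
  set f : ℝ → ℝ := fun x => x - Real.sinh x + (Real.cosh x - 1) * Real.sinh x / 3
  have hd : ∀ x, HasDerivAt f (2 / 3 * (Real.cosh x - 1) ^ 2) x := fun x => by
    refine (((hasDerivAt_id x).sub (Real.hasDerivAt_sinh x)).add
      ((((Real.hasDerivAt_cosh x).sub_const 1).mul (Real.hasDerivAt_sinh x)).div_const 3)).congr_deriv ?_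
    have := Real.cosh_sq x
    linear_combination (-1 / 3 : ℝ) * this
  have hb : ∀ x ∈ Icc 0 r, ‖2 / 3 * (Real.cosh x - 1) ^ 2‖ ≤ 2 / 3 * (Real.cosh r - 1) ^ 2 := by
    intro x hx
    rw [Real.norm_eq_abs, abs_of_nonneg (by positivity)]
    refine mul_le_mul_of_nonneg_left (pow_le_pow_left₀ (by linarith [Real.one_le_cosh x]) ?_ 2)
      (by norm_num)
    have : Real.cosh x ≤ Real.cosh r :=
      Real.cosh_le_cosh.2 (by rw [abs_of_nonneg hx.1, abs_of_nonneg hr]; exact hx.2)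
    linarith
  have := (convex_Icc 0 r).norm_image_sub_le_of_norm_hasDerivWithin_le
    (fun y _ => (hd y).hasDerivWithinAt) hb (left_mem_Icc.2 hr) (right_mem_Icc.2 hr)
  simp only [f, Real.sinh_zero, Real.cosh_zero, sub_zero, mul_zero, zero_div, add_zero,
    Real.norm_eq_abs, abs_of_nonneg hr] at this
  refine this.trans (mul_le_mul_of_nonneg_left ?_ (by positivity))
  exact Real.self_le_sinh_iff.2 hr

/-- The eigenvalue of the bump. -/
def cH (δ : ℝ) : ℝ := ∫ r in Ioi (0 : ℝ), bump δ (Real.cosh r) * (4 * π * r * Real.sinh r)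

/-- The first moment of the bump. -/
def dH (δ : ℝ) : ℝ := ∫ q, bump δ (rho q) * (rho q - 1) ∂hypMeasure

theorem dH_nonneg (δ : ℝ) : 0 ≤ dH δ :=
  integral_nonneg fun q => mul_nonneg (bump_nonneg _ _) (by linarith [one_le_rho q])

theorem integrableOn_of_bump {δ : ℝ} {g : ℝ → ℝ} (hg : Continuous g) :
    IntegrableOn (fun r => bump δ (Real.cosh r) * g r) (Ioi 0) := by
  have hc : Continuous fun r => bump δ (Real.cosh r) * g r :=
    ((continuous_bump δ).comp Real.continuous_cosh).mul hg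
  refine (hc.integrable_of_hasCompactSupport (HasCompactSupport.mul_right ?_)).integrableOn
  refine HasCompactSupport.of_support_subset_isCompact (isCompact_Icc (a := -(|δ| + 2))
    (b := |δ| + 2)) fun r hr => ?_
  by_contra h
  refine hr (bump_eq_zero ?_)
  rw [Set.mem_Icc, ← abs_le, not_le] at h
  have h2 : |r| ≤ Real.cosh r := by
    rcases abs_cases r with ⟨e, h0⟩ | ⟨e, h0⟩ <;> rw [e]
    · exact (Real.self_le_sinh_iff.2 h0).trans (Real.sinh_lt_cosh r).le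
    · calc -r ≤ Real.sinh (-r) := Real.self_le_sinh_iff.2 (by linarith)
        _ ≤ Real.cosh r := by rw [← Real.cosh_neg]; exact (Real.sinh_lt_cosh (-r)).le
  linarith [le_abs_self δ]

theorem abs_cH_sub (δ : ℝ) :
    |cH δ - ((∫ q, bump δ (rho q) ∂hypMeasure) - dH δ / 3)| ≤ 2 / 3 * δ * dH δ := by
  have r0 := integral_radial (continuous_bump δ) (bump_nonneg δ) org
  set f1 : ℝ → ℝ := fun x => bump δ x * |x - 1|
  have r1 := integral_radial (f := f1) ((continuous_bump δ).mul (by fun_prop))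
    (fun x => mul_nonneg (bump_nonneg _ _) (abs_nonneg _)) org
  have e1 : dH δ = ∫ q, f1 (coshDist org q) ∂hypMeasure := by
    refine integral_congr_ae (ae_of_all _ fun q => ?_)
    show bump δ (rho q) * (rho q - 1) = bump δ (rho q) * |rho q - 1|
    rw [abs_of_nonneg (by linarith [one_le_rho q])]
  rw [e1, r1, show (∫ q, bump δ (rho q) ∂hypMeasure) = _ from r0, cH]
  simp only [f1]
  have i0 : IntegrableOn (fun r => 4 * π * Real.sinh r ^ 2 * bump δ (Real.cosh r)) (Ioi 0) := by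
    simpa only [mul_comm (bump δ _)] using
      integrableOn_of_bump (δ := δ) (g := fun r => 4 * π * Real.sinh r ^ 2) (by fun_prop)
  have i1 : IntegrableOn
      (fun r => 4 * π * Real.sinh r ^ 2 * (bump δ (Real.cosh r) * |Real.cosh r - 1|)) (Ioi 0) := by
    refine IntegrableOn.congr_fun ?_ (fun r _ => by ring :
      Set.EqOn (fun r => bump δ (Real.cosh r) * (4 * π * Real.sinh r ^ 2 * |Real.cosh r - 1|)) _ _)
      measurableSet_Ioi
    exact integrableOn_of_bump (δ := δ) (g := fun r => 4 * π * Real.sinh r ^ 2 * |Real.cosh r - 1|)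
        (by fun_prop)
  have i2 := integrableOn_of_bump (δ := δ) (g := fun r => 4 * π * r * Real.sinh r) (by fun_prop)
  have i3 : IntegrableOn (fun r => 4 * π * Real.sinh r ^ 2 * bump δ (Real.cosh r) -
      4 * π * Real.sinh r ^ 2 * (bump δ (Real.cosh r) * |Real.cosh r - 1|) / 3) (Ioi 0) :=
    i0.sub (i1.div_const 3)
  rw [← integral_div, ← integral_sub i0 (i1.div_const 3), ← integral_sub i2 i3, ← integral_const_mul]
  refine abs_integral_le_integral_abs.trans (setIntegral_mono_on ?_ (i1.const_mul _)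
    measurableSet_Ioi fun r hr => ?_)
  · exact (i2.sub i3).abs
  have hr0 : 0 ≤ r := le_of_lt hr
  have hs : 0 ≤ Real.sinh r := Real.sinh_nonneg_iff.2 hr0
  have hc : 0 ≤ Real.cosh r - 1 := by linarith [Real.one_le_cosh r]
  have hb := bump_nonneg δ (Real.cosh r)
  simp only [Pi.sub_apply, abs_of_nonneg hc]
  rw [show bump δ (Real.cosh r) * (4 * π * r * Real.sinh r) -
      (4 * π * Real.sinh r ^ 2 * bump δ (Real.cosh r) -
        4 * π * Real.sinh r ^ 2 * (bump δ (Real.cosh r) * (Real.cosh r - 1)) / 3) =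
      bump δ (Real.cosh r) * (4 * π * Real.sinh r) *
        (r - Real.sinh r + (Real.cosh r - 1) * Real.sinh r / 3) by ring,
    abs_mul, abs_of_nonneg (by positivity : 0 ≤ bump δ (Real.cosh r) * (4 * π * Real.sinh r))]
  rcases le_or_gt (Real.cosh r - 1) δ with h | h
  · refine (mul_le_mul_of_nonneg_left (sinh_ratio_bound hr0) (by positivity)).trans ?_
    have hfac : 0 ≤ bump δ (Real.cosh r) * (4 * π * Real.sinh r) * Real.sinh r *
        (Real.cosh r - 1) * (2 / 3) := by positivity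
    nlinarith [mul_le_mul_of_nonneg_left h hfac]
  · rw [bump_eq_zero (by linarith)]
    simp

/-- The negative coordinate at a moved point. -/
theorem neg_moved (p q : H3) (v : Fin 4 → ℝ) :
    (frameOf (act (toPt p) q)).neg v =
      (frameOf p).co v 0 * rho q + (frameOf p).co v 1 * coU q - (frameOf p).co v 2 * coV q -
        (frameOf p).co v 3 * coW q := by
  have hp : (p.2 : ℝ) ≠ 0 := ne_of_gt p.2.2
  have hq : (q.2 : ℝ) ≠ 0 := ne_of_gt q.2.2
  have h1 : (act (toPt p) q).1 = ((p.2 : ℝ) : ℂ) * q.1 + p.1 :=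
    congrArg Prod.fst (emb_act_toPt p q)
  have h2 : ((act (toPt p) q).2 : ℝ) = (p.2 : ℝ) * (q.2 : ℝ) :=
    congrArg Prod.snd (emb_act_toPt p q)
  rw [neg_frameOf, h1, h2]
  simp [Frame.co, frameOf, frameMat, Matrix.mulVec, dotProduct, Fin.sum_univ_four, coU, coV, coW,
    rho_eq]
  field_simp
  ring

/-- The majorant. -/
def maj (F : Frame) (v : Fin 4 → ℝ) : ℝ := ∑ i, F.co v i ^ 2

theorem maj_nonneg (F : Frame) (v : Fin 4 → ℝ) : 0 ≤ maj F v :=
  Finset.sum_nonneg fun i _ => sq_nonneg _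

/-- `(Δ + 1)` applied to the Gaussian. -/
def opEx (F : Frame) (τ : ℂ) (v : Fin 4 → ℝ) : ℂ :=
  (((qf v + F.neg v ^ 2) * (64 * π ^ 2 * τ.im ^ 2 * F.neg v ^ 2 - 8 * π * τ.im) -
      24 * π * τ.im * F.neg v ^ 2 + 1 : ℝ) : ℂ) * ex F τ v

theorem pow_mul_exp_le {c x : ℝ} (hc : 0 < c) (hx : 0 ≤ x) (k : ℕ) :
    (1 + x) ^ k * Real.exp (-(c * x)) ≤ k.factorial / c ^ k * Real.exp c := by
  have h := Real.pow_div_factorial_le_exp (x := c * (1 + x)) (by positivity) k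
  rw [div_le_iff₀ (by positivity), mul_pow, mul_add, mul_one, Real.exp_add] at h
  rw [Real.exp_neg, ← div_eq_mul_inv, div_le_iff₀ (Real.exp_pos _), mul_assoc, div_mul_eq_mul_div,
    le_div_iff₀ (by positivity)]
  linarith

/-- The real Gaussian factor and its derivatives. -/
theorem gauss_derivs (a : ℝ) :
    (∀ x : ℝ, HasDerivAt (fun x => Real.exp (-(a * x ^ 2)))
        (-(2 * a * x) * Real.exp (-(a * x ^ 2))) x) ∧
    (∀ x : ℝ, HasDerivAt (fun x => -(2 * a * x) * Real.exp (-(a * x ^ 2)))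
        ((4 * a ^ 2 * x ^ 2 - 2 * a) * Real.exp (-(a * x ^ 2))) x) ∧
    (∀ x : ℝ, HasDerivAt (fun x => (4 * a ^ 2 * x ^ 2 - 2 * a) * Real.exp (-(a * x ^ 2)))
        ((-(8 * a ^ 3 * x ^ 3) + 12 * a ^ 2 * x) * Real.exp (-(a * x ^ 2))) x) := by
  have h1 : ∀ x : ℝ, HasDerivAt (fun x => Real.exp (-(a * x ^ 2)))
      (-(2 * a * x) * Real.exp (-(a * x ^ 2))) x := fun x =>
    (((hasDerivAt_pow 2 x).const_mul a).neg.exp).congr_deriv (by simp; ring)
  refine ⟨h1, fun x => ?_, fun x => ?_⟩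
  · exact ((((hasDerivAt_id x).const_mul (2 * a)).neg).mul (h1 x)).congr_deriv (by simp; ring)
  · exact ((((hasDerivAt_pow 2 x).const_mul (4 * a ^ 2)).sub_const (2 * a)).mul (h1 x)).congr_deriv
      (by simp; ring)

/-- A continuous function with a known integral against the bump. -/
def HasMoment (δ : ℝ) (f : H3 → ℝ) (v : ℝ) : Prop :=
  Integrable (fun q => bump δ (rho q) * f q) hypMeasure ∧
    ∫ q, bump δ (rho q) * f q ∂hypMeasure = v

theorem HasMoment.add {δ : ℝ} {f g : H3 → ℝ} {a b : ℝ} (hf : HasMoment δ f a)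
    (hg : HasMoment δ g b) : HasMoment δ (fun q => f q + g q) (a + b) := by
  simp only [HasMoment, mul_add]
  exact ⟨hf.1.add hg.1, by rw [integral_add hf.1 hg.1, hf.2, hg.2]⟩

theorem HasMoment.const_mul {δ : ℝ} {f : H3 → ℝ} {a : ℝ} (hf : HasMoment δ f a) (c : ℝ) :
    HasMoment δ (fun q => c * f q) (c * a) := by
  simp only [HasMoment, mul_left_comm _ c]
  exact ⟨hf.1.const_mul c, by rw [integral_const_mul, hf.2]⟩

/-- The moments of degree at most two. -/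
theorem hasMoment_list {δ : ℝ} (hδ : 0 ≤ δ) :
    HasMoment δ (fun _ => 1) (∫ q, bump δ (rho q) ∂hypMeasure) ∧
    HasMoment δ (fun q => rho q - 1) (dH δ) ∧
    HasMoment δ (fun q => (rho q - 1) ^ 2) (∫ q, bump δ (rho q) * (rho q - 1) ^ 2 ∂hypMeasure) ∧
    (HasMoment δ coU 0 ∧ HasMoment δ coV 0 ∧ HasMoment δ coW 0) ∧
    (HasMoment δ (fun q => (rho q - 1) * coU q) 0 ∧ HasMoment δ (fun q => (rho q - 1) * coV q) 0 ∧
      HasMoment δ (fun q => (rho q - 1) * coW q) 0) ∧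
    (HasMoment δ (fun q => coU q * coV q) 0 ∧ HasMoment δ (fun q => coU q * coW q) 0 ∧
      HasMoment δ (fun q => coV q * coW q) 0) ∧
    (HasMoment δ (fun q => coU q ^ 2) ((2 * dH δ +
        ∫ q, bump δ (rho q) * (rho q - 1) ^ 2 ∂hypMeasure) / 3) ∧
      HasMoment δ (fun q => coV q ^ 2) ((2 * dH δ +
        ∫ q, bump δ (rho q) * (rho q - 1) ^ 2 ∂hypMeasure) / 3) ∧
      HasMoment δ (fun q => coW q ^ 2) ((2 * dH δ +
        ∫ q, bump δ (rho q) * (rho q - 1) ^ 2 ∂hypMeasure) / 3)) := by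
  have cr := continuous_rho
  have cu := continuous_coU
  have cv := continuous_coV
  have cw := continuous_coW
  have i1 : ∀ {f : H3 → ℝ}, Continuous f → (∀ q, rho q ≤ 1 + δ → |f q| ≤ (1 + δ) ^ 2) →
      Integrable (fun q => bump δ (rho q) * f q) hypMeasure := fun hf h => integrable_bump_mul hf h
  have bu : ∀ q, rho q ≤ 1 + δ → |rho q - 1| ≤ 1 + δ := fun q h => by
    rw [abs_of_nonneg (by linarith [one_le_rho q])]; linarith
  have bc : ∀ q, rho q ≤ 1 + δ → |coU q| ≤ 1 + δ ∧ |coV q| ≤ 1 + δ ∧ |coW q| ≤ 1 + δ :=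
    fun q h => ⟨(abs_co_le q).1.trans h, (abs_co_le q).2.1.trans h, (abs_co_le q).2.2.trans h⟩
  have b1 : ∀ x : ℝ, |x| ≤ 1 + δ → |x| ≤ (1 + δ) ^ 2 := fun x h => h.trans (by nlinarith)
  have b2 : ∀ x z : ℝ, |x| ≤ 1 + δ → |z| ≤ 1 + δ → |x * z| ≤ (1 + δ) ^ 2 := fun x z h h' => by
    rw [abs_mul, sq]
    exact mul_le_mul h h' (abs_nonneg _) (by linarith)
  have key : ∀ (g : GL (Fin 2) ℂ) (f : H3 → ℝ), act g org = org → (∀ q, f (act g q) = -f q) →
      ∫ q, bump δ (rho q) * f q ∂hypMeasure = 0 := fun g f hg hf => by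
    have := integral_bump_symm (δ := δ) hg hf
    simp only [mul_neg, integral_neg] at this
    linarith
  obtain ⟨o1, o2, o3⟩ := moments_one δ
  obtain ⟨x1, x2, x3⟩ := moments_mixed δ
  obtain ⟨t1, t2, t3⟩ := moments_two δ
  have j1 : Integrable (fun q => bump δ (rho q) * (rho q - 1)) hypMeasure :=
    i1 (by fun_prop) fun q h => b1 _ (bu q h)
  have j2 : Integrable (fun q => bump δ (rho q) * (rho q - 1) ^ 2) hypMeasure :=
    i1 (by fun_prop) fun q h => by rw [sq]; exact b2 _ _ (bu q h) (bu q h)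
  have eS : ∫ q, bump δ (rho q) * coU q ^ 2 ∂hypMeasure =
      (2 * dH δ + ∫ q, bump δ (rho q) * (rho q - 1) ^ 2 ∂hypMeasure) / 3 := by
    rw [eq_div_iff (by norm_num : (3 : ℝ) ≠ 0), mul_comm, t3, dH, ← integral_const_mul,
      ← integral_add (j1.const_mul 2) j2]
    exact integral_congr_ae (ae_of_all _ fun q => by ring)
  refine ⟨⟨?_, by simp⟩, ⟨j1, rfl⟩, ⟨j2, rfl⟩,
    ⟨⟨i1 cu fun q h => b1 _ (bc q h).1, o1⟩, ⟨i1 cv fun q h => b1 _ (bc q h).2.1, o2⟩,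
      ⟨i1 cw fun q h => b1 _ (bc q h).2.2, o3⟩⟩,
    ⟨⟨i1 (by fun_prop) fun q h => b2 _ _ (bu q h) (bc q h).1, key invC _ (co_invC org).1 ?_⟩,
      ⟨i1 (by fun_prop) fun q h => b2 _ _ (bu q h) (bc q h).2.1, key negZ _ (co_negZ org).1 ?_⟩,
      ⟨i1 (by fun_prop) fun q h => b2 _ _ (bu q h) (bc q h).2.2, key negZ _ (co_negZ org).1 ?_⟩⟩,
    ⟨⟨i1 (by fun_prop) fun q h => b2 _ _ (bc q h).1 (bc q h).2.1, x1⟩,
      ⟨i1 (by fun_prop) fun q h => b2 _ _ (bc q h).1 (bc q h).2.2, x2⟩,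
      ⟨i1 (by fun_prop) fun q h => b2 _ _ (bc q h).2.1 (bc q h).2.2, x3⟩⟩,
    ⟨⟨i1 (by fun_prop) fun q h => by rw [sq]; exact b2 _ _ (bc q h).1 (bc q h).1, eS⟩,
      ⟨i1 (by fun_prop) fun q h => by rw [sq]; exact b2 _ _ (bc q h).2.1 (bc q h).2.1, t1.trans eS⟩,
      ⟨i1 (by fun_prop) fun q h => by rw [sq]; exact b2 _ _ (bc q h).2.2 (bc q h).2.2,
        t2.trans eS⟩⟩⟩
  · exact i1 continuous_const fun q _ => b1 _ (by simp [hδ])
  · intro q; rw [rho_act_fix (co_invC org).1, (co_invC q).2]; ring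
  · intro q; rw [rho_act_fix (co_negZ org).1, (co_negZ q).2.1]; ring
  · intro q; rw [rho_act_fix (co_negZ org).1, (co_negZ q).2.2.1]; ring

/-- The third derivative near `t`. -/
theorem gauss_third_le {a M t h x : ℝ} (ha : 0 < a) (hh : 0 ≤ h) (hM : 0 ≤ M) (hh8 : h ≤ (1 + M) / 8)
    (htM : |t| ≤ 1 + M) (hth : 2 * |t| * h ≤ M / 4) (hx : |x - t| ≤ h) :
    |(-(8 * a ^ 3 * x ^ 3) + 12 * a ^ 2 * x) * Real.exp (-(a * x ^ 2))| ≤
      (64 * a ^ 3 + 24 * a ^ 2) * (1 + M) ^ 3 *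
        (Real.exp (-(a * t ^ 2)) * Real.exp (a * (M / 4))) := by
  have hxa : |x| ≤ 2 * (1 + M) := by
    have := abs_add_le (x - t) t
    rw [sub_add_cancel] at this
    linarith
  have h2 : |t| ≤ |x| + h := by
    have := abs_sub x (x - t)
    rw [sub_sub_cancel] at this
    linarith
  have h1 : t ^ 2 ≤ x ^ 2 + 2 * |t| * h := by
    rw [← sq_abs t, ← sq_abs x]
    rcases le_or_gt |t| h with h3 | h3
    · have := mul_le_mul_of_nonneg_left h3 (abs_nonneg t)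
      nlinarith only [this, sq_nonneg |x|, abs_nonneg t, hh]
    · have := pow_le_pow_left₀ (sub_nonneg.2 h3.le) (show |t| - h ≤ |x| by linarith) 2
      nlinarith only [this, sq_nonneg h]
  have hexp : Real.exp (-(a * x ^ 2)) ≤ Real.exp (-(a * t ^ 2)) * Real.exp (a * (M / 4)) := by
    rw [← Real.exp_add]
    refine Real.exp_le_exp.2 ?_
    have h4 := mul_le_mul_of_nonneg_left (h1.trans (add_le_add le_rfl hth)) ha.le
    linarith
  rw [abs_mul, abs_of_pos (Real.exp_pos _)]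
  refine mul_le_mul ?_ hexp (Real.exp_pos _).le (by positivity)
  have p1 : |x ^ 3| ≤ 8 * (1 + M) ^ 3 := by
    rw [abs_pow]
    exact (pow_le_pow_left₀ (abs_nonneg x) hxa 3).trans_eq (by ring)
  have p2 : |x| ≤ 2 * (1 + M) ^ 3 :=
    hxa.trans (mul_le_mul_of_nonneg_left (le_self_pow₀ (by linarith) (by norm_num)) (by norm_num))
  calc |(-(8 * a ^ 3 * x ^ 3) + 12 * a ^ 2 * x)|
      ≤ |-(8 * a ^ 3 * x ^ 3)| + |12 * a ^ 2 * x| := abs_add_le _ _
    _ = 8 * a ^ 3 * |x ^ 3| + 12 * a ^ 2 * |x| := by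
        rw [abs_neg, abs_mul _ (x ^ 3), abs_of_pos (show 0 < 8 * a ^ 3 by positivity),
          abs_mul _ x, abs_of_pos (show 0 < 12 * a ^ 2 by positivity)]
    _ ≤ 8 * a ^ 3 * (8 * (1 + M) ^ 3) + 12 * a ^ 2 * (2 * (1 + M) ^ 3) := by gcongr
    _ = _ := by ring

/-- Distance of the moved negative coordinate from the original one. -/
theorem moved_sq_le {δ ρ U V W t e1 e2 e3 : ℝ} (hs : U ^ 2 + V ^ 2 + W ^ 2 = ρ ^ 2 - 1) (h1 : 1 ≤ ρ)
    (hq : ρ ≤ 1 + δ) (hδ : δ ≤ 1) :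
    (t * ρ + e1 * U - e2 * V - e3 * W - t) ^ 2 ≤
      7 * (e1 ^ 2 + e2 ^ 2 + e3 ^ 2 + t ^ 2) * (ρ - 1) := by
  have hcs : (e1 * U - e2 * V - e3 * W) ^ 2 ≤ (e1 ^ 2 + e2 ^ 2 + e3 ^ 2) * (ρ ^ 2 - 1) := by
    rw [← hs]
    nlinarith only [sq_nonneg (e1 * V + e2 * U), sq_nonneg (e1 * W + e3 * U),
      sq_nonneg (e2 * W - e3 * V)]
  have hr2 : (ρ - 1) ^ 2 ≤ 1 * (ρ - 1) := by
    rw [sq]
    exact mul_le_mul_of_nonneg_right (by linarith) (by linarith)
  have hr3 : ρ ^ 2 - 1 ≤ 3 * (ρ - 1) := by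
    have := mul_le_mul_of_nonneg_left (show ρ + 1 ≤ 3 by linarith) (sub_nonneg.2 h1)
    linarith
  have a1 := mul_le_mul_of_nonneg_left hr2 (sq_nonneg t)
  have a2 := mul_le_mul_of_nonneg_left hr3 (show (0 : ℝ) ≤ e1 ^ 2 + e2 ^ 2 + e3 ^ 2 by positivity)
  have a3 := mul_nonneg (sq_nonneg t) (sub_nonneg.2 h1)
  have a4 := mul_nonneg (show (0 : ℝ) ≤ e1 ^ 2 + e2 ^ 2 + e3 ^ 2 by positivity) (sub_nonneg.2 h1)
  nlinarith only [a1, a2, a3, a4, hcs,
    sq_nonneg (t * (ρ - 1) - (e1 * U - e2 * V - e3 * W))]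

/-- The Taylor remainder. -/
theorem taylor_rem {a δ ρ X t M : ℝ} (ha : 0 < a) (hδ : 0 < δ) (hδ' : δ ≤ 1 / 500) (h1 : 1 ≤ ρ)
    (hq : ρ ≤ 1 + δ) (htM : t ^ 2 ≤ M) (hX : (X - t) ^ 2 ≤ 7 * M * (ρ - 1)) :
    |Real.exp (-(a * X ^ 2)) - Real.exp (-(a * t ^ 2)) -
        -(2 * a * t) * Real.exp (-(a * t ^ 2)) * (X - t) -
        (4 * a ^ 2 * t ^ 2 - 2 * a) * Real.exp (-(a * t ^ 2)) / 2 * (X - t) ^ 2| ≤
      21 * (64 * a ^ 3 + 24 * a ^ 2) * (1 + M) ^ 5 * Real.sqrt δ *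
        (Real.exp (-(a * t ^ 2)) * Real.exp (a * (M / 4))) * (ρ - 1) := by
  have hM0 : 0 ≤ M := (sq_nonneg t).trans htM
  obtain ⟨hd1, hd2, hd3⟩ := gauss_derivs a
  obtain ⟨h, hdef⟩ : ∃ h, h = Real.sqrt (7 * M * δ) := ⟨_, rfl⟩
  have hh : 0 ≤ h := hdef ▸ Real.sqrt_nonneg _
  obtain ⟨k, kdef⟩ : ∃ k, k = |X - t| := ⟨_, rfl⟩
  have hk2 : k ^ 2 ≤ 7 * M * (ρ - 1) := by rw [kdef, sq_abs]; exact hX
  have hk0 : 0 ≤ k := kdef ▸ abs_nonneg _
  have hkh : k ≤ h := hdef ▸ Real.le_sqrt_of_sq_le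
    (hk2.trans (mul_le_mul_of_nonneg_left (by linarith) (by positivity)))
  have hh8 : h ≤ (1 + M) / 8 := by
    rw [hdef, Real.sqrt_le_iff]
    refine ⟨by positivity, ?_⟩
    have := mul_le_mul_of_nonneg_left hδ' (show 0 ≤ 7 * M by positivity)
    nlinarith only [this, hM0, sq_nonneg (M - 1)]
  have htM' : |t| ≤ 1 + M := by
    refine (abs_le_of_sq_le_sq ?_ (by linarith))
    nlinarith only [htM, hM0, sq_nonneg M]
  have hth : 2 * |t| * h ≤ M / 4 := by
    refine (abs_le_of_sq_le_sq' ?_ (by positivity)).2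
    rw [mul_pow, mul_pow, sq_abs, hdef, Real.sq_sqrt (by positivity)]
    have e1 := mul_le_mul_of_nonneg_left htM (show 0 ≤ 28 * M * δ by positivity)
    have e2 := mul_le_mul_of_nonneg_left hδ' (show 0 ≤ 28 * (M * M) by positivity)
    nlinarith only [e1, e2, mul_self_nonneg M]
  have hT := taylor_three (t := t) hd1 hd2 hd3 hk0 (fun x hx => gauss_third_le ha hh hM0 hh8 htM' hth
      ((abs_le.2 ⟨by linarith [hx.1], by linarith [hx.2]⟩).trans hkh)) X
    ⟨by linarith [neg_abs_le (X - t)], by linarith [le_abs_self (X - t)]⟩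
  refine hT.trans ?_
  have h21 : h ≤ 3 * Real.sqrt δ * (1 + M) := by
    rw [hdef, Real.sqrt_le_iff]
    refine ⟨by positivity, ?_⟩
    rw [mul_pow, mul_pow, Real.sq_sqrt hδ.le]
    have := mul_le_mul_of_nonneg_right
      (show 7 * M ≤ 9 * (1 + M) ^ 2 by nlinarith only [hM0, sq_nonneg M]) hδ.le
    linarith
  have hk3 : k ^ 3 ≤ 21 * (1 + M) ^ 2 * Real.sqrt δ * (ρ - 1) := by
    calc k ^ 3 = k ^ 2 * k := by ring
      _ ≤ 7 * M * (ρ - 1) * (3 * Real.sqrt δ * (1 + M)) :=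
        mul_le_mul hk2 (hkh.trans h21) hk0 (mul_nonneg (by positivity) (by linarith))
      _ = 21 * (M * (1 + M)) * Real.sqrt δ * (ρ - 1) := by ring
      _ ≤ _ := by
        refine mul_le_mul_of_nonneg_right (mul_le_mul_of_nonneg_right ?_ (Real.sqrt_nonneg δ))
          (by linarith)
        nlinarith only [hM0]
  refine (mul_le_mul_of_nonneg_left hk3 (by positivity)).trans_eq ?_
  ring

/-- The second order part. -/
theorem main_bound {a δ D Q θ M t R : ℝ} (ha : 0 < a) (hδ : 0 ≤ δ) (hD : 0 ≤ D) (hQ0 : 0 ≤ Q)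
    (hQ : Q ≤ δ * D) (hθ : |θ| ≤ 2 / 3 * δ * D) (hM : R + t ^ 2 = M) (hR : 0 ≤ R) :
    |-θ + (4 * a ^ 2 * t ^ 2 - 2 * a) / 2 * Q * (t ^ 2 + R / 3)| ≤
      δ * D * ((1 + (4 * a ^ 2 + 2 * a)) * (1 + M) ^ 2) := by
  have hM0 : 0 ≤ M := hM ▸ add_nonneg hR (sq_nonneg t)
  have htM : t ^ 2 ≤ 1 + M := by linarith
  refine (abs_add_le _ _).trans ?_
  rw [abs_neg, abs_mul, abs_mul, abs_of_nonneg hQ0,
    abs_of_nonneg (by positivity : 0 ≤ t ^ 2 + R / 3)]
  have hA : |(4 * a ^ 2 * t ^ 2 - 2 * a) / 2| ≤ (4 * a ^ 2 + 2 * a) * (1 + M) := by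
    have e1 := mul_le_mul_of_nonneg_left htM (sq_nonneg a)
    have e2 := mul_nonneg ha.le hM0
    rw [abs_le]
    constructor <;> nlinarith only [e1, e2, ha.le, hM0, mul_nonneg (sq_nonneg a) (sq_nonneg t),
      mul_nonneg (sq_nonneg a) hM0]
  have e3 := mul_le_mul (mul_le_mul hA hQ hQ0 (by positivity))
    (show t ^ 2 + R / 3 ≤ 1 + M by linarith) (by positivity) (by positivity)
  have e4 : 2 / 3 * δ * D ≤ δ * D * (1 + M) ^ 2 := by
    have := mul_le_mul_of_nonneg_left (show (2 / 3 : ℝ) ≤ (1 + M) ^ 2 by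
      nlinarith only [hM0, sq_nonneg M]) (mul_nonneg hδ hD)
    linarith
  refine (add_le_add (hθ.trans e4) e3).trans_eq ?_
  ring

/-- Small spherical means of a real Gaussian in the negative coordinate. -/
theorem scalar_bound {y : ℝ} (hy : 0 < y) :
    ∃ C : ℝ, 0 ≤ C ∧ ∀ δ : ℝ, 0 < δ → δ ≤ 1 / 500 → ∀ (F : Frame) (v : Fin 4 → ℝ),
      |(∫ q, bump δ (rho q) * Real.exp (-(4 * π * y * (F.co v 0 * rho q + F.co v 1 * coU q -
            F.co v 2 * coV q - F.co v 3 * coW q) ^ 2)) ∂hypMeasure) -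
          cH δ * Real.exp (-(4 * π * y * F.neg v ^ 2)) -
          dH δ / 3 * ((qf v + F.neg v ^ 2) * (64 * π ^ 2 * y ^ 2 * F.neg v ^ 2 - 8 * π * y) -
            24 * π * y * F.neg v ^ 2 + 1) * Real.exp (-(4 * π * y * F.neg v ^ 2))| *
        Real.exp (-(2 * π * y * qf v)) ≤
      C * Real.sqrt δ * dH δ * Real.exp (-(π * y / 2 * maj F v)) := by
  obtain ⟨a, adef⟩ : ∃ a, a = 4 * π * y := ⟨_, rfl⟩
  have ha : 0 < a := by rw [adef]; positivity
  obtain ⟨c, cdef⟩ : ∃ c, c = π * y / 2 := ⟨_, rfl⟩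
  have hc : 0 < c := by rw [cdef]; positivity
  refine ⟨(1 + (4 * a ^ 2 + 2 * a) + 21 * (64 * a ^ 3 + 24 * a ^ 2)) *
    ((Nat.factorial 5 : ℝ) / c ^ 5 * Real.exp c), by positivity, fun δ hδ hδ' F v => ?_⟩
  obtain ⟨t, ht⟩ : ∃ t, t = F.co v 0 := ⟨_, rfl⟩
  obtain ⟨e1, he1⟩ : ∃ e, e = F.co v 1 := ⟨_, rfl⟩
  obtain ⟨e2, he2⟩ : ∃ e, e = F.co v 2 := ⟨_, rfl⟩
  obtain ⟨e3, he3⟩ : ∃ e, e = F.co v 3 := ⟨_, rfl⟩
  obtain ⟨R, Rdef⟩ : ∃ R, R = e1 ^ 2 + e2 ^ 2 + e3 ^ 2 := ⟨_, rfl⟩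
  obtain ⟨M, Mdef⟩ : ∃ M, M = e1 ^ 2 + e2 ^ 2 + e3 ^ 2 + t ^ 2 := ⟨_, rfl⟩
  have hneg : F.neg v = t := ht.symm
  have hq : qf v = R - t ^ 2 := by
    rw [← F.sum_sgn_sq, Rdef, ht, he1, he2, he3]
    simp [sgn, Fin.sum_univ_four]
    ring
  have hM : maj F v = M := by
    rw [maj, Fin.sum_univ_four, Mdef, ht, he1, he2, he3]
    ring
  rw [hneg, ← ht, ← he1, ← he2, ← he3, hq, hM, sub_add_cancel,
    show 64 * π ^ 2 * y ^ 2 = 4 * a ^ 2 by rw [adef]; ring,
    show 24 * π * y = 6 * a by rw [adef]; ring, show 8 * π * y = 2 * a by rw [adef]; ring,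
    show 2 * π * y = a / 2 by rw [adef]; ring, ← adef, ← cdef]
  have hM0 : 0 ≤ M := by rw [Mdef]; positivity
  have hR0 : 0 ≤ R := by rw [Rdef]; positivity
  have hMR : R + t ^ 2 = M := by rw [Rdef, Mdef]
  obtain ⟨m0, m1, m2, ⟨mU, mV, mW⟩, ⟨muU, muV, muW⟩, ⟨mUV, mUW, mVW⟩, ⟨mUU, mVV, mWW⟩⟩ :=
    hasMoment_list hδ.le
  obtain ⟨Q, Qdef⟩ : ∃ Q, Q = ∫ q, bump δ (rho q) * (rho q - 1) ^ 2 ∂hypMeasure := ⟨_, rfl⟩
  rw [← Qdef] at m2 mUU mVV mWW
  obtain ⟨B0, B0def⟩ : ∃ B, B = ∫ q, bump δ (rho q) ∂hypMeasure := ⟨_, rfl⟩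
  rw [← B0def] at m0
  obtain ⟨G0, G0def⟩ : ∃ G, G = Real.exp (-(a * t ^ 2)) := ⟨_, rfl⟩
  obtain ⟨G1, G1def⟩ : ∃ G, G = -(2 * a * t) * G0 := ⟨_, rfl⟩
  obtain ⟨G2, G2def⟩ : ∃ G, G = (4 * a ^ 2 * t ^ 2 - 2 * a) * G0 := ⟨_, rfl⟩
  set T : H3 → ℝ := fun q => G0 + G1 * (t * rho q + e1 * coU q - e2 * coV q - e3 * coW q - t) +
    G2 / 2 * (t * rho q + e1 * coU q - e2 * coV q - e3 * coW q - t) ^ 2
  have mT : HasMoment δ T
      (G0 * B0 + G1 * (t * dH δ) + G2 / 2 * (t ^ 2 * Q + R * ((2 * dH δ + Q) / 3))) := by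
    have l := ((m1.const_mul t).add ((mU.const_mul e1).add
      ((mV.const_mul (-e2)).add (mW.const_mul (-e3))))).const_mul G1
    have sqr := (((m2.const_mul (t ^ 2)).add ((mUU.const_mul (e1 ^ 2)).add
      ((mVV.const_mul (e2 ^ 2)).add (mWW.const_mul (e3 ^ 2))))).add
      (((muU.const_mul (2 * t * e1)).add ((muV.const_mul (-(2 * t * e2))).add
        (muW.const_mul (-(2 * t * e3))))).add ((mUV.const_mul (-(2 * e1 * e2))).add
          ((mUW.const_mul (-(2 * e1 * e3))).add (mVW.const_mul (2 * e2 * e3)))))).const_mul (G2 / 2)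
    convert ((m0.const_mul G0).add l).add sqr using 1
    · funext q; simp only [T]; ring
    · rw [Rdef]; ring
  have hQ0 : 0 ≤ Q := by
    rw [Qdef]
    exact integral_nonneg fun q => mul_nonneg (bump_nonneg _ _) (sq_nonneg _)
  have hQ : Q ≤ δ * dH δ := by
    rw [← m2.2, ← (m1.const_mul δ).2]
    refine integral_mono m2.1 (m1.const_mul δ).1 fun q => ?_
    have h1 := one_le_rho q
    rcases le_or_gt (rho q) (1 + δ) with hq' | hq'
    · exact mul_le_mul_of_nonneg_left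
        ((sq (rho q - 1)).trans_le (mul_le_mul_of_nonneg_right (by linarith) (by linarith)))
        (bump_nonneg _ _)
    · simp [bump_eq_zero hq'.le]
  obtain ⟨K, Kdef⟩ : ∃ K, K = 21 * (64 * a ^ 3 + 24 * a ^ 2) * (1 + M) ^ 5 * Real.sqrt δ *
    (G0 * Real.exp (a * (M / 4))) := ⟨_, rfl⟩
  have cr := continuous_rho
  have cu := continuous_coU
  have cv := continuous_coV
  have cw := continuous_coW
  have iG : Integrable (fun q => bump δ (rho q) * Real.exp (-(a * (t * rho q + e1 * coU q -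
      e2 * coV q - e3 * coW q) ^ 2))) hypMeasure :=
    integrable_bump_mul (by fun_prop) (C := 1) fun q _ => by
      rw [abs_of_pos (Real.exp_pos _), Real.exp_le_one_iff, neg_nonpos]
      positivity
  obtain ⟨IG, IGdef⟩ : ∃ I, I = ∫ q, bump δ (rho q) * Real.exp (-(a * (t * rho q + e1 * coU q -
      e2 * coV q - e3 * coW q) ^ 2)) ∂hypMeasure := ⟨_, rfl⟩
  rw [← IGdef]
  have hRem : |IG - (G0 * B0 + G1 * (t * dH δ) +
      G2 / 2 * (t ^ 2 * Q + R * ((2 * dH δ + Q) / 3)))| ≤ K * dH δ := by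
    rw [IGdef, ← mT.2, ← integral_sub iG mT.1, ← (m1.const_mul K).2]
    refine abs_integral_le_integral_abs.trans
      (integral_mono (iG.sub mT.1).abs (m1.const_mul K).1 fun q => ?_)
    show |bump δ (rho q) * _ - bump δ (rho q) * T q| ≤ bump δ (rho q) * (K * (rho q - 1))
    rw [← mul_sub, abs_mul, abs_of_nonneg (bump_nonneg _ _)]
    rcases le_or_gt (rho q) (1 + δ) with hq' | hq'
    · refine mul_le_mul_of_nonneg_left ?_ (bump_nonneg _ _)
      have := taylor_rem ha hδ hδ' (one_le_rho q) hq' (show t ^ 2 ≤ M by linarith)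
        ((moved_sq_le (sum_sq_co q) (one_le_rho q) hq' (by linarith)).trans_eq (by rw [Mdef]))
      simpa only [T, G1def, G2def, G0def, Kdef, sub_sub, add_assoc] using this
    · simp [bump_eq_zero hq'.le]
  have hθ : |cH δ - (B0 - dH δ / 3)| ≤ 2 / 3 * δ * dH δ := B0def ▸ abs_cH_sub δ
  have hmain := main_bound ha hδ.le (dH_nonneg δ) hQ0 hQ hθ hMR hR0
  have hδs : δ ≤ Real.sqrt δ := Real.le_sqrt_of_sq_le
    ((sq δ).trans_le (mul_le_of_le_one_left hδ.le (by linarith)))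
  have h25 : (1 + M) ^ 2 ≤ (1 + M) ^ 5 := pow_le_pow_right₀ (by linarith) (by norm_num)
  have hD := dH_nonneg δ
  have hG0 : 0 < G0 := G0def ▸ Real.exp_pos _
  calc |IG - cH δ * Real.exp (-(a * t ^ 2)) - dH δ / 3 * (R * (4 * a ^ 2 * t ^ 2 - 2 * a) - 6 * a * t ^ 2 + 1) * Real.exp (-(a * t ^ 2))| *
        Real.exp (-(a / 2 * (R - t ^ 2)))
      = |(IG - (G0 * B0 + G1 * (t * dH δ) + G2 / 2 * (t ^ 2 * Q + R * ((2 * dH δ + Q) / 3)))) +
          G0 * (-(cH δ - (B0 - dH δ / 3)) + (4 * a ^ 2 * t ^ 2 - 2 * a) / 2 * Q *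
            (t ^ 2 + R / 3))| * Real.exp (-(a / 2 * (R - t ^ 2))) := by
        rw [G1def, G2def, ← G0def]
        congr 2
        ring
    _ ≤ (K * dH δ + G0 * (Real.sqrt δ * dH δ * ((1 + (4 * a ^ 2 + 2 * a)) * (1 + M) ^ 5) *
          Real.exp (a * (M / 4)))) * Real.exp (-(a / 2 * (R - t ^ 2))) := by
        refine mul_le_mul_of_nonneg_right ?_ (Real.exp_pos _).le
        refine (abs_add_le _ _).trans (add_le_add hRem ?_)
        rw [abs_mul, abs_of_pos hG0]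
        refine mul_le_mul_of_nonneg_left (hmain.trans ?_) hG0.le
        refine le_trans ?_ (le_mul_of_one_le_right
          (mul_nonneg (mul_nonneg (Real.sqrt_nonneg _) hD) (by positivity))
          (Real.one_le_exp (by positivity)))
        gcongr
    _ = (1 + (4 * a ^ 2 + 2 * a) + 21 * (64 * a ^ 3 + 24 * a ^ 2)) * Real.sqrt δ * dH δ *
          ((1 + M) ^ 5 * Real.exp (-(c * M)) * Real.exp (-(c * M))) := by
        have e : G0 * Real.exp (a * (M / 4)) * Real.exp (-(a / 2 * (R - t ^ 2))) =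
            Real.exp (-(c * M)) * Real.exp (-(c * M)) := by
          rw [G0def, ← Real.exp_add, ← Real.exp_add, ← Real.exp_add]
          congr 1
          rw [← hMR, adef, cdef]
          ring
        rw [Kdef, mul_assoc ((1 + M) ^ 5), ← e]
        ring
    _ ≤ _ := by
        refine (mul_le_mul_of_nonneg_left
          (mul_le_mul_of_nonneg_right (pow_mul_exp_le hc hM0 5) (Real.exp_pos _).le)
          (by positivity)).trans_eq ?_
        ring

/-- **Small spherical means.** -/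
theorem exists_spherical_bound {τ : ℂ} (h : 0 < τ.im) :
    ∃ C : ℝ, 0 ≤ C ∧ ∀ δ : ℝ, 0 < δ → δ ≤ 1 / 500 → ∀ (p : H3) (v : Fin 4 → ℝ),
      ‖(∫ q, (bump δ (coshDist p q) : ℂ) * ex (frameOf q) τ v ∂hypMeasure) -
          (cH δ : ℂ) * ex (frameOf p) τ v - (dH δ : ℂ) / 3 * opEx (frameOf p) τ v‖ ≤
        C * Real.sqrt δ * dH δ * Real.exp (-(π * τ.im / 2 * maj (frameOf p) v)) := by
  obtain ⟨C, hC0, hC⟩ := scalar_bound h
  refine ⟨C, hC0, fun δ hδ hδ' p v => ?_⟩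
  have hex : ∀ F : Frame, ex F τ v = cexp (2 * π * I * τ * (qf v : ℝ)) *
      ((Real.exp (-(4 * π * τ.im * F.neg v ^ 2)) : ℝ) : ℂ) := fun F => by
    rw [ofReal_exp, ex, ← Complex.exp_add]
    congr 1
    push_cast
    ring
  have hn : ‖cexp (2 * π * I * τ * (qf v : ℝ))‖ = Real.exp (-(2 * π * τ.im * qf v)) := by
    rw [Complex.norm_exp]
    congr 1
    simp
  have hI : ∫ q, (bump δ (coshDist p q) : ℂ) * ex (frameOf q) τ v ∂hypMeasure =
      cexp (2 * π * I * τ * (qf v : ℝ)) * ((∫ q, bump δ (rho q) * Real.exp (-(4 * π * τ.im *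
        ((frameOf p).co v 0 * rho q + (frameOf p).co v 1 * coU q - (frameOf p).co v 2 * coV q -
          (frameOf p).co v 3 * coW q) ^ 2)) ∂hypMeasure : ℝ) : ℂ) := by
    rw [← integral_complex_ofReal, ← integral_const_mul, ← integral_act (toPt p) fun q =>
      (bump δ (coshDist p q) : ℂ) * ex (frameOf q) τ v]
    refine integral_congr_ae (ae_of_all _ fun q => ?_)
    have h1 := coshDist_act (toPt p) org q
    rw [act_toPt_org] at h1
    show (bump δ (coshDist p (act (toPt p) q)) : ℂ) * ex (frameOf (act (toPt p) q)) τ v = _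
    rw [h1, hex, neg_moved, show coshDist org q = rho q from rfl]
    push_cast
    ring
  rw [hI, opEx, hex (frameOf p)]
  refine (le_of_eq ?_).trans (hC δ hδ hδ' (frameOf p) v)
  rw [← hn, mul_comm (|_|), ← Real.norm_eq_abs, ← Complex.norm_real, ← norm_mul]
  congr 1
  push_cast
  ring

end FLTAgent.LT.Theta31
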