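import Fermat.Agent.LT.Theta31.Domain
import Fermat.Agent.LT.Theta31.Spherical

/-!
# The Gaussian sums of the majorants are integrable on the quotient
-/

set_option autoImplicit false

noncomputable section

namespace FLTAgent.LT.Theta31

open Complex Matrix MeasureTheory Set Hyp
open scoped Real ComplexConjugate ENNReal

theorem tsum_pi_prod (g : ℤ → ℝ≥0∞) :
    ∀ k : ℕ, ∑' v : Fin k → ℤ, ∏ i, g (v i) = (∑' n, g n) ^ k := by
  intro k
  induction k with
  | zero => simp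
  | succ k ih =>
    rw [← (Fin.consEquiv fun _ : Fin (k + 1) => ℤ).tsum_eq, ENNReal.tsum_prod', pow_succ', ← ih,
      ← ENNReal.tsum_mul_right]
    refine tsum_congr fun a => ?_
    rw [← ENNReal.tsum_mul_left]
    refine tsum_congr fun b => ?_
    simp [Fin.consEquiv, Fin.prod_univ_succ]

theorem tsum_nat_gauss_le {c : ℝ} (hc : 0 < c) :
    ∑' k : ℕ, ENNReal.ofReal (Real.exp (-(c * (k : ℝ) ^ 2))) ≤
      ENNReal.ofReal (Real.exp (1 / 4) * (1 + 1 / Real.sqrt c)) := by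
  set s := Real.sqrt c
  have hs : 0 < s := Real.sqrt_pos.2 hc
  have hs2 : s ^ 2 = c := Real.sq_sqrt hc.le
  set r := Real.exp (-s)
  have hr1 : r < 1 := Real.exp_lt_one_iff.2 (by linarith)
  have hgeo := summable_geometric_of_lt_one (Real.exp_pos (-s)).le hr1
  have hle : ∀ k : ℕ, ENNReal.ofReal (Real.exp (-(c * (k : ℝ) ^ 2))) ≤
      ENNReal.ofReal (Real.exp (1 / 4) * r ^ k) := fun k => by
    refine ENNReal.ofReal_le_ofReal ?_
    rw [← Real.exp_nat_mul, ← Real.exp_add]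
    refine Real.exp_le_exp.2 ?_
    rw [← hs2]
    nlinarith [sq_nonneg (s * k - 1 / 2)]
  refine (ENNReal.tsum_le_tsum hle).trans ?_
  rw [← ENNReal.ofReal_tsum_of_nonneg (fun k => by positivity) (hgeo.mul_left _), tsum_mul_left,
    tsum_geometric_of_lt_one (Real.exp_pos (-s)).le hr1]
  refine ENNReal.ofReal_le_ofReal (mul_le_mul_of_nonneg_left ?_ (Real.exp_pos _).le)
  rw [inv_le_iff_one_le_mul₀ (by linarith)]
  have h := Real.add_one_le_exp s
  have e : r * Real.exp s = 1 := by rw [← Real.exp_add]; simp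
  have h2 : r * (s + 1) ≤ 1 := (mul_le_mul_of_nonneg_left h (Real.exp_pos _).le).trans_eq e
  rw [show (1 + 1 / s) * (1 - r) = (s + 1) * (1 - r) / s by field_simp, le_div_iff₀ hs]
  nlinarith

theorem tsum_int_gauss_le {c : ℝ} (hc : 0 < c) (x : ℝ) :
    ∑' n : ℤ, ENNReal.ofReal (Real.exp (-(c * ((n : ℝ) + x) ^ 2))) ≤
      ENNReal.ofReal (2 * Real.exp (1 / 4) * (1 + 1 / Real.sqrt c)) := by
  rw [← (Equiv.subRight ⌊x⌋).tsum_eq,
    tsum_of_nat_of_neg_add_one ENNReal.summable ENNReal.summable]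
  have h := tsum_nat_gauss_le hc
  have e : ∀ m : ℤ, ((Equiv.subRight ⌊x⌋ m : ℤ) : ℝ) + x = (m : ℝ) + Int.fract x := fun m => by
    show ((m - ⌊x⌋ : ℤ) : ℝ) + x = _
    rw [Int.fract]; push_cast; ring
  simp only [e]
  have h0 := Int.fract_nonneg x
  have h1 := (Int.fract_lt_one x).le
  rw [mul_assoc, two_mul, ENNReal.ofReal_add (by positivity) (by positivity)]
  refine add_le_add (le_trans (ENNReal.tsum_le_tsum fun k => ?_) h)
    (le_trans (ENNReal.tsum_le_tsum fun k => ?_) h)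
  · refine ENNReal.ofReal_le_ofReal (Real.exp_le_exp.2 (neg_le_neg ?_))
    push_cast
    refine mul_le_mul_of_nonneg_left ?_ hc.le
    nlinarith [mul_nonneg (Nat.cast_nonneg (α := ℝ) k) h0,
      mul_nonneg (Nat.cast_nonneg (α := ℝ) k) (sub_nonneg.2 h1)]
  · refine ENNReal.ofReal_le_ofReal (Real.exp_le_exp.2 (neg_le_neg ?_))
    push_cast
    refine mul_le_mul_of_nonneg_left ?_ hc.le
    nlinarith [mul_nonneg (Nat.cast_nonneg (α := ℝ) k) h0,
      mul_nonneg (Nat.cast_nonneg (α := ℝ) k) (sub_nonneg.2 h1)]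

theorem maj_eq (F : Frame) (v : Fin 4 → ℝ) : maj F v = qf v + 2 * F.neg v ^ 2 := F.sum_sq_eq v

/-- The majorant in the box coordinates. -/
theorem maj_lower {p : H3} (hp : p ∈ boxC) (v : Fin 4 → ℝ) :
    (v 0 + ((p.1.re ^ 2 + p.1.im ^ 2) * v 1 - 2 * p.1.re * v 2 -
        (p.1.re + Real.sqrt 3 * p.1.im) * v 3)) ^ 2 / (2 * (p.2 : ℝ) ^ 2) +
      1 / 36 * (v 1 ^ 2 + v 2 ^ 2 + v 3 ^ 2) ≤ maj (frameOf p) v := by
  obtain ⟨hz, ht⟩ := hp
  have htp : (0 : ℝ) < p.2 := p.2.2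
  have h3 : Real.sqrt 3 ^ 2 = 3 := Real.sq_sqrt (by norm_num)
  rw [Complex.normSq_apply] at hz
  set x := p.1.re
  set y := p.1.im
  set t := (p.2 : ℝ)
  set X := v 0 + ((x ^ 2 + y ^ 2) * v 1 - 2 * x * v 2 - (x + Real.sqrt 3 * y) * v 3)
  have hmaj : maj (frameOf p) v = X ^ 2 / (2 * t ^ 2) + t ^ 2 * v 1 ^ 2 / 2 +
      (-(x * v 1) + v 2 + v 3 / 2) ^ 2 + (-(y * v 1) + Real.sqrt 3 / 2 * v 3) ^ 2 := by
    simp [maj, Frame.co, frameOf, frameMat, Matrix.mulVec, dotProduct, Fin.sum_univ_four, X, x, y, t]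
    field_simp
    ring
  rw [hmaj]
  set A := -(x * v 1) + v 2 + v 3 / 2
  set B := -(y * v 1) + Real.sqrt 3 / 2 * v 3
  have hx : x ^ 2 ≤ 1 := by nlinarith
  have hy : y ^ 2 ≤ 1 := by nlinarith
  have e3 : 3 * v 3 ^ 2 = 4 * (B + y * v 1) ^ 2 := by
    simp only [B]; linear_combination -(v 3 ^ 2) * h3
  have b3 : 3 * v 3 ^ 2 ≤ 8 * B ^ 2 + 8 * v 1 ^ 2 := by
    rw [e3]
    nlinarith [sq_nonneg (B - y * v 1), mul_le_mul_of_nonneg_right hy (sq_nonneg (v 1))]
  have b2 : v 2 ^ 2 ≤ 3 * A ^ 2 + 3 * v 1 ^ 2 + 3 / 4 * v 3 ^ 2 := by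
    rw [show v 2 = A + x * v 1 - v 3 / 2 by simp only [A]; ring]
    nlinarith [sq_nonneg (A - x * v 1), sq_nonneg (A + v 3 / 2), sq_nonneg (x * v 1 + v 3 / 2),
      mul_le_mul_of_nonneg_right hx (sq_nonneg (v 1))]
  nlinarith [mul_le_mul_of_nonneg_right ht (sq_nonneg (v 1)), sq_nonneg A, sq_nonneg B]

/-- The Gaussian sum of the majorants. -/
def majSum (c : ℝ) (p : H3) : ℝ≥0∞ :=
  ∑' v : Fin 4 → ℤ, ENNReal.ofReal (Real.exp (-(c * maj (frameOf p) (rvec v))))

theorem majSum_le {c : ℝ} (hc : 0 < c) :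
    ∃ K : ℝ, 0 ≤ K ∧ ∀ p ∈ boxC, majSum c p ≤ ENNReal.ofReal (K * (1 + (p.2 : ℝ))) := by
  set K1 := 2 * Real.exp (1 / 4) * (1 + 1 / Real.sqrt (c / 36))
  have hK1 : 0 ≤ K1 := by positivity
  set a := Real.sqrt (c / 2)
  have ha : 0 < a := Real.sqrt_pos.2 (by positivity)
  refine ⟨K1 ^ 3 * (2 * Real.exp (1 / 4)) * (1 + 1 / a), by positivity, fun p hp => ?_⟩
  have htp : (0 : ℝ) < p.2 := p.2.2
  set g : ℤ → ℝ≥0∞ := fun n => ENNReal.ofReal (Real.exp (-(c / 36 * (n : ℝ) ^ 2)))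
  have hg : ∑' n, g n ≤ ENNReal.ofReal K1 := by
    have h := tsum_int_gauss_le (by positivity : (0 : ℝ) < c / 36) 0
    simp only [add_zero] at h
    exact h
  set shift : (Fin 3 → ℤ) → ℝ := fun b => (p.1.re ^ 2 + p.1.im ^ 2) * (b 0 : ℝ) -
    2 * p.1.re * (b 1 : ℝ) - (p.1.re + Real.sqrt 3 * p.1.im) * (b 2 : ℝ)
  set c' := c / (2 * (p.2 : ℝ) ^ 2)
  have hc' : 0 < c' := by positivity
  have hterm : ∀ (n : ℤ) (b : Fin 3 → ℤ),
      ENNReal.ofReal (Real.exp (-(c * maj (frameOf p) (rvec (Fin.cons n b : Fin 4 → ℤ))))) ≤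
        (∏ i, g (b i)) * ENNReal.ofReal (Real.exp (-(c' * ((n : ℝ) + shift b) ^ 2))) := by
    intro n b
    simp only [g]
    rw [← ENNReal.ofReal_prod_of_nonneg fun i _ => (Real.exp_pos _).le, ← ENNReal.ofReal_mul
      (Finset.prod_nonneg fun i _ => (Real.exp_pos _).le), ← Real.exp_sum, ← Real.exp_add]
    refine ENNReal.ofReal_le_ofReal (Real.exp_le_exp.2 ?_)
    have h := mul_le_mul_of_nonneg_left (maj_lower hp (rvec (Fin.cons n b : Fin 4 → ℤ))) hc.le
    simp only [rvec, Fin.cons_zero, show (1 : Fin 4) = Fin.succ 0 from rfl,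
      show (2 : Fin 4) = Fin.succ 1 from rfl, show (3 : Fin 4) = Fin.succ 2 from rfl,
      Fin.cons_succ] at h
    simp only [Fin.sum_univ_three, c', shift, div_mul_eq_mul_div]
    rw [mul_add, ← mul_div_assoc] at h
    linarith
  have hsq : 1 / Real.sqrt c' = (p.2 : ℝ) / a := by
    rw [show c' = a ^ 2 / (p.2 : ℝ) ^ 2 by
      simp only [a, c']; rw [Real.sq_sqrt (by positivity)]; ring, Real.sqrt_div' _ (sq_nonneg _),
      Real.sqrt_sq ha.le, Real.sqrt_sq htp.le, one_div_div]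
  have h1 : ∀ b, ∑' n : ℤ, ENNReal.ofReal (Real.exp (-(c' * ((n : ℝ) + shift b) ^ 2))) ≤
      ENNReal.ofReal (2 * Real.exp (1 / 4) * (1 + (p.2 : ℝ) / a)) := fun b => by
    rw [← hsq]; exact tsum_int_gauss_le hc' _
  calc majSum c p = ∑' (n : ℤ) (b : Fin 3 → ℤ),
        ENNReal.ofReal (Real.exp (-(c * maj (frameOf p) (rvec (Fin.cons n b : Fin 4 → ℤ))))) := by
        rw [majSum, ← (Fin.consEquiv fun _ : Fin 4 => ℤ).tsum_eq, ENNReal.tsum_prod']
        rfl
    _ ≤ ∑' (n : ℤ) (b : Fin 3 → ℤ),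
        (∏ i, g (b i)) * ENNReal.ofReal (Real.exp (-(c' * ((n : ℝ) + shift b) ^ 2))) :=
        ENNReal.tsum_le_tsum fun n => ENNReal.tsum_le_tsum fun b => hterm n b
    _ = ∑' b : Fin 3 → ℤ,
        (∏ i, g (b i)) * ∑' n : ℤ, ENNReal.ofReal (Real.exp (-(c' * ((n : ℝ) + shift b) ^ 2))) := by
        rw [ENNReal.tsum_comm]
        simp only [ENNReal.tsum_mul_left]
    _ ≤ ∑' b : Fin 3 → ℤ,
        (∏ i, g (b i)) * ENNReal.ofReal (2 * Real.exp (1 / 4) * (1 + (p.2 : ℝ) / a)) :=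
        ENNReal.tsum_le_tsum fun b => mul_le_mul_right (h1 b) _
    _ ≤ ENNReal.ofReal K1 ^ 3 * ENNReal.ofReal (2 * Real.exp (1 / 4) * (1 + (p.2 : ℝ) / a)) := by
        rw [ENNReal.tsum_mul_right, tsum_pi_prod]
        exact mul_le_mul_left (pow_le_pow_left₀ zero_le hg 3) _
    _ ≤ _ := by
        rw [← ENNReal.ofReal_pow hK1, ← ENNReal.ofReal_mul (by positivity)]
        refine ENNReal.ofReal_le_ofReal ?_
        rw [mul_assoc (K1 ^ 3 * _), ← mul_assoc (K1 ^ 3)]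
        refine mul_le_mul_of_nonneg_left ?_ (by positivity)
        have : 0 ≤ 1 / a := by positivity
        rw [show (1 + 1 / a) * (1 + (p.2 : ℝ)) = 1 + 1 / a + (p.2 : ℝ) + (p.2 : ℝ) / a by ring]
        linarith

theorem measurable_maj (v : Fin 4 → ℝ) : Measurable fun p : H3 => maj (frameOf p) v := by
  simp only [maj_eq, neg_frameOf]
  fun_prop

theorem measurable_majSum (c : ℝ) : Measurable (majSum c) :=
  Measurable.ennreal_tsum fun v => ((measurable_maj (rvec v)).const_mul c).neg.exp.ennreal_ofReal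

theorem majSum_smul (c : ℝ) (g : slO) (p : H3) : majSum c (g • p) = majSum c p := by
  set G' := (g⁻¹ : slO).1.val
  have e1 : G' * g.1.val = 1 := by
    rw [← Units.val_mul, show (g⁻¹ : slO).1 * g.1 = 1 from inv_mul_cancel g.1, Units.val_one]
  have e2 : g.1.val * G' = 1 := by
    rw [← Units.val_mul, show g.1 * (g⁻¹ : slO).1 = 1 from mul_inv_cancel g.1, Units.val_one]
  let e : (Fin 4 → ℤ) ≃ (Fin 4 → ℤ) :=
    ⟨congV g.1.val, congV G', fun v => by rw [congV_congV (g⁻¹ : slO).2.1 g.2.1, e1, congV_one],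
      fun v => by rw [congV_congV g.2.1 (g⁻¹ : slO).2.1, e2, congV_one]⟩
  rw [majSum, majSum, ← e.tsum_eq]
  refine tsum_congr fun v => ?_
  congr 3
  congr 1
  have h : ‖ex (frameOf (g • p)) I (rvec (congV g.1.val v))‖ = ‖ex (frameOf p) I (rvec v)‖ := by
    rw [slO_smul_def, ex_congV g.2.1 (norm_det_slO g)]
  rw [norm_ex, norm_ex, Real.exp_eq_exp, neg_inj, I_im] at h
  exact mul_left_cancel₀ (by positivity : (2 * π * 1 : ℝ) ≠ 0) h

theorem lintegral_boxC_lt_top :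
    ∫⁻ p in boxC, ENNReal.ofReal (1 + (p.2 : ℝ)) ∂hypMeasure < ⊤ := by
  classical
  rw [← lintegral_indicator measurableSet_boxC, lintegral_hyp
    (Measurable.indicator (by fun_prop) measurableSet_boxC)]
  set s := Metric.closedBall (0 : ℂ) 1
  set F : ℝ → ℝ≥0∞ := (Ioi (1 / 2 : ℝ)).indicator fun t => ENNReal.ofReal (3 * t ^ (-2 : ℝ))
  have hF : Measurable F := Measurable.indicator (by fun_prop) measurableSet_Ioi
  refine lt_of_le_of_lt (b := ∫⁻ x : ℂ × ℝ, s.indicator 1 x.1 * F x.2) (lintegral_mono fun x => ?_) ?_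
  · unfold liftFun
    by_cases h : 0 < x.2
    · rw [dif_pos h]
      by_cases hx : (x.1, (⟨x.2, h⟩ : Ioi (0 : ℝ))) ∈ boxC
      · have hx2 : 1 / 2 < x.2 := by
          have := hx.2
          simp only at this
          nlinarith
        have hx1 : x.1 ∈ s := by
          have h1 := hx.1
          simp only [Complex.normSq_eq_norm_sq] at h1
          simp only [s, Metric.mem_closedBall, dist_zero_right]
          nlinarith [norm_nonneg x.1]
        rw [indicator_of_mem hx, indicator_of_mem hx1, Pi.one_apply, one_mul,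
          show F x.2 = ENNReal.ofReal (3 * x.2 ^ (-2 : ℝ)) from indicator_of_mem (mem_Ioi.2 hx2) _,
          ← ENNReal.ofReal_mul (by positivity), Real.rpow_neg h.le, Real.rpow_two]
        refine ENNReal.ofReal_le_ofReal ?_
        rw [← div_eq_inv_mul, ← div_eq_mul_inv, div_le_div_iff₀ (by positivity) (by positivity)]
        nlinarith
      · simp [indicator_of_notMem hx]
    · simp [h]
  · rw [Measure.volume_eq_prod,
      lintegral_prod_mul (measurable_one.indicator measurableSet_closedBall).aemeasurable hF.aemeasurable]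
    refine ENNReal.mul_lt_top ?_ ?_
    · rw [lintegral_indicator_one measurableSet_closedBall]
      exact measure_closedBall_lt_top
    · rw [lintegral_indicator measurableSet_Ioi]
      exact (((integrableOn_Ioi_rpow_of_lt (by norm_num : (-2 : ℝ) < -1)
        (by norm_num : (0 : ℝ) < 1 / 2)).const_mul 3).lintegral_lt_top)

/-- The Gaussian sums of the majorants are integrable on the quotient of level `L`. -/
theorem lintegral_wL_majSum_lt_top (L : ℕ) [NeZero L] {c : ℝ} (hc : 0 < c) :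
    ∫⁻ p, wL L p * majSum c p ∂hypMeasure < ⊤ := by
  rw [isWeight_wO.lintegral_subgroup (slOL L) (isWeight_wL L) (measurable_majSum c) (majSum_smul c)]
  refine ENNReal.mul_lt_top (ENNReal.natCast_lt_top _) ?_
  refine lt_of_le_of_lt (isWeight_wO.lintegral_le_cover measurableSet_boxC exists_smul_mem_boxC
    (measurable_majSum c) (majSum_smul c)) ?_
  obtain ⟨K, hK, hle⟩ := majSum_le hc
  refine lt_of_le_of_lt (setLIntegral_mono (by fun_prop) hle) ?_
  simp only [ENNReal.ofReal_mul hK]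
  rw [lintegral_const_mul _ (by fun_prop)]
  exact ENNReal.mul_lt_top ENNReal.ofReal_lt_top lintegral_boxC_lt_top

end FLTAgent.LT.Theta31
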