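import Fermat.Agent.LT.Theta31.Growth

/-!
# The lifted Gaussians annihilate the eigenfunctions

For `u` of spectral parameter zero, `∫ u · (Δ + 1) θ = 0` on the quotient.
-/

set_option autoImplicit false
set_option linter.unusedSectionVars false

noncomputable section

namespace FLTAgent.LT.Theta31

open Complex Matrix MeasureTheory Set Hyp Filter
open scoped Real ComplexConjugate ENNReal Topology

/-- The measure of the quotient of level `L`. -/
def muL (L : ℕ) : Measure H3 := RS.wMeasure hypMeasure (wL L)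

/-- A bounded invariant eigenfunction of spectral parameter zero. -/
structure IsU (L : ℕ) (u : H3 → ℂ) : Prop where
  cont : Continuous u
  bdd : ∃ C : ℝ, ∀ p, ‖u p‖ ≤ C
  inv : ∀ (g : slOL L) (p : H3), u (g • p) = u p
  mean : ∀ H : ℝ → ℂ, Continuous H → HasCompactSupport H → ∀ p : H3,
    ∫ q, H (coshDist p q) * u q ∂hypMeasure =
      (∫ r in Ioi (0 : ℝ), H (Real.cosh r) * ((4 * Real.pi * r * Real.sinh r : ℝ) : ℂ)) * u p

theorem tsum_norm_bound {ι : Type*} {f : ι → ℂ} {b : ι → ℝ} (hb : ∀ i, 0 ≤ b i)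
    (h : ∀ i, ‖f i‖ ≤ b i) : ‖∑' i, f i‖ₑ ≤ ∑' i, ENNReal.ofReal (b i) := by
  refine (enorm_tsum_le_tsum_enorm).trans (ENNReal.tsum_le_tsum fun i => ?_)
  rw [← ofReal_norm]
  exact ENNReal.ofReal_le_ofReal (h i)

theorem summable_exp_maj (p : H3) {c : ℝ} (hc : 0 < c) :
    Summable fun v : Fin 4 → ℤ => Real.exp (-(c * maj (frameOf p) (rvec v))) := by
  have h := summable_norm_ex (frameOf p) (τ := ((c / (2 * π) : ℝ) : ℂ) * I)
    (by rw [Complex.mul_I_im, Complex.ofReal_re]; positivity) 0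
  refine h.congr fun v => ?_
  rw [zero_add, norm_ex, Complex.mul_I_im, Complex.ofReal_re, maj]
  congr 2
  field_simp

theorem majSum_eq (p : H3) {c : ℝ} (hc : 0 < c) :
    majSum c p = ENNReal.ofReal (∑' v : Fin 4 → ℤ, Real.exp (-(c * maj (frameOf p) (rvec v)))) :=
  (ENNReal.ofReal_tsum_of_nonneg (fun _ => (Real.exp_pos _).le) (summable_exp_maj p hc)).symm

/-- Measurability of sums. -/
theorem measurable_tsum_of_summable {f : (Fin 4 → ℤ) → H3 → ℂ} (hf : ∀ v, Measurable (f v))
    (hs : ∀ p, Summable fun v => f v p) : Measurable fun p => ∑' v, f v p := by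
  refine measurable_of_tendsto_metrizable' (ι := Finset (Fin 4 → ℤ)) atTop
    (fun s => Finset.measurable_sum s fun v _ => hf v) ?_
  exact tendsto_pi_nhds.2 fun p => (hs p).hasSum

theorem continuous_neg_frameOf (v : Fin 4 → ℝ) : Continuous fun p : H3 => (frameOf p).neg v := by
  simp only [neg_frameOf]
  exact Continuous.div (by fun_prop) (by fun_prop) fun p => by
    have := p.2.2
    simp only [mem_Ioi] at this
    positivity

theorem continuous_ex_frameOf (τ : ℂ) (v : Fin 4 → ℝ) :
    Continuous fun p : H3 => ex (frameOf p) τ v := by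
  have := continuous_neg_frameOf v
  unfold ex
  fun_prop

theorem continuous_opEx_frameOf (τ : ℂ) (v : Fin 4 → ℝ) :
    Continuous fun p : H3 => opEx (frameOf p) τ v := by
  have := continuous_neg_frameOf v
  have := continuous_ex_frameOf τ v
  unfold opEx
  fun_prop

theorem norm_ex_maj (F : Frame) (τ : ℂ) (v : Fin 4 → ℝ) :
    ‖ex F τ v‖ = Real.exp (-(2 * π * τ.im * maj F v)) := norm_ex F τ v

/-- Majorants at points at bounded distance. -/
theorem maj_le_of_dist (p q : H3) (v : Fin 4 → ℝ) :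
    maj (frameOf p) v ≤ (1 + 4 * coshDist q p ^ 2) * maj (frameOf q) v := by
  obtain ⟨r, rfl⟩ : ∃ r, p = act (toPt q) r := ⟨act (toPt q)⁻¹ p, (act_act_inv _ p).symm⟩
  have hd : coshDist q (act (toPt q) r) = rho r := by
    conv_lhs => enter [1]; rw [← act_toPt_org q]
    exact coshDist_act (toPt q) org r
  rw [hd, maj_eq, neg_moved]
  set e := (frameOf q).co v
  have hm : maj (frameOf q) v = e 0 ^ 2 + e 1 ^ 2 + e 2 ^ 2 + e 3 ^ 2 := by
    simp [maj, Fin.sum_univ_four, e]
  have hq : qf v ≤ maj (frameOf q) v := by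
    rw [maj_eq]; nlinarith [sq_nonneg ((frameOf q).neg v)]
  have hs := sum_sq_co r
  have hcs : (e 0 * rho r + e 1 * coU r - e 2 * coV r - e 3 * coW r) ^ 2 ≤
      (e 0 ^ 2 + e 1 ^ 2 + e 2 ^ 2 + e 3 ^ 2) *
        (rho r ^ 2 + coU r ^ 2 + coV r ^ 2 + coW r ^ 2) := by
    nlinarith [sq_nonneg (e 0 * coU r - e 1 * rho r), sq_nonneg (e 0 * coV r + e 2 * rho r),
      sq_nonneg (e 0 * coW r + e 3 * rho r), sq_nonneg (e 1 * coV r + e 2 * coU r),
      sq_nonneg (e 1 * coW r + e 3 * coU r), sq_nonneg (e 2 * coW r - e 3 * coV r)]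
  rw [← hm, show rho r ^ 2 + coU r ^ 2 + coV r ^ 2 + coW r ^ 2 = 2 * rho r ^ 2 - 1 by linarith]
    at hcs
  nlinarith [maj_nonneg (frameOf q) v]

/-- The polynomial in the definition of `opEx` is absorbed. -/
theorem exists_opEx_bound {τ : ℂ} (h : 0 < τ.im) :
    ∃ K : ℝ, 0 ≤ K ∧ ∀ (F : Frame) (v : Fin 4 → ℝ),
      ‖opEx F τ v‖ ≤ K * Real.exp (-(π * τ.im * maj F v)) := by
  set y := τ.im
  set A := 2 * (64 * π ^ 2 * y ^ 2 + 8 * π * y) + 24 * π * y + 1
  have hc : 0 < π * y := by positivity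
  refine ⟨A * ((Nat.factorial 2 : ℝ) / (π * y) ^ 2 * Real.exp (π * y)), by positivity,
    fun F v => ?_⟩
  set M := maj F v
  have hM := maj_nonneg F v
  set n := F.neg v ^ 2
  have hn0 : 0 ≤ n := sq_nonneg _
  have hMn : qf v + 2 * n = M := (maj_eq F v).symm
  have hnM : n ≤ M := by
    simp only [n, M, maj, Frame.neg]
    exact Finset.single_le_sum (f := fun i => F.co v i ^ 2) (fun i _ => sq_nonneg _) (Finset.mem_univ 0)
  rw [opEx, norm_mul, norm_ex_maj, Complex.norm_real, Real.norm_eq_abs]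
  have hP : |(qf v + n) * (64 * π ^ 2 * y ^ 2 * n - 8 * π * y) - 24 * π * y * n + 1| ≤
      A * (1 + M) ^ 2 := by
    have h1 : |qf v + n| ≤ 2 * (1 + M) := abs_le.2 ⟨by linarith, by linarith⟩
    have h2 : |64 * π ^ 2 * y ^ 2 * n - 8 * π * y| ≤ (64 * π ^ 2 * y ^ 2 + 8 * π * y) * (1 + M) := by
      have a1 := mul_le_mul_of_nonneg_left hnM (by positivity : 0 ≤ 64 * π ^ 2 * y ^ 2)
      have a2 : 0 ≤ 64 * π ^ 2 * y ^ 2 * n := by positivity
      have a3 : 0 ≤ 8 * π * y * M := by positivity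
      have a4 : 0 ≤ 64 * π ^ 2 * y ^ 2 := by positivity
      refine abs_le.2 ⟨by nlinarith, by nlinarith⟩
    have h3 : |24 * π * y * n| ≤ 24 * π * y * (1 + M) ^ 2 := by
      rw [abs_of_nonneg (by positivity)]
      exact mul_le_mul_of_nonneg_left (by nlinarith) (by positivity)
    calc _ ≤ |(qf v + n) * (64 * π ^ 2 * y ^ 2 * n - 8 * π * y)| + |24 * π * y * n| + |1| :=
          (abs_add_le _ _).trans (add_le_add (abs_sub _ _) le_rfl)
      _ ≤ 2 * (1 + M) * ((64 * π ^ 2 * y ^ 2 + 8 * π * y) * (1 + M)) +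
            24 * π * y * (1 + M) ^ 2 + (1 + M) ^ 2 := by
          refine add_le_add (add_le_add ?_ h3) ?_
          · rw [abs_mul]; exact mul_le_mul h1 h2 (abs_nonneg _) (by positivity)
          · rw [abs_one]; nlinarith
      _ = _ := by simp only [A]; ring
  refine (mul_le_mul_of_nonneg_right hP (Real.exp_pos _).le).trans ?_
  rw [show -(2 * π * y * M) = -(π * y * M) + -(π * y * M) by ring, Real.exp_add, mul_assoc,
    mul_assoc A _ (Real.exp _), ← mul_assoc ((1 + M) ^ 2)]
  exact mul_le_mul_of_nonneg_left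
    (mul_le_mul_of_nonneg_right (pow_mul_exp_le hc hM 2) (Real.exp_pos _).le) (by positivity)

section sums

variable {L : ℕ} [NeZero L] (Φ : (Fin 4 → ZMod L) → ℂ)

/-- The sum of the Gaussians. -/
def exSum (τ : ℂ) (p : H3) : ℂ := ∑' v, Φ (castv L v) * ex (frameOf p) τ (rvec v)

/-- The sum of their images under `Δ + 1`. -/
def opSum (τ : ℂ) (p : H3) : ℂ := ∑' v, Φ (castv L v) * opEx (frameOf p) τ (rvec v)

/-- The size of the coefficients. -/
def phiNorm : ℝ := ∑ R, ‖Φ R‖

theorem phiNorm_nonneg : 0 ≤ phiNorm Φ := Finset.sum_nonneg fun _ _ => norm_nonneg _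

theorem norm_le_phiNorm (R : Fin 4 → ZMod L) : ‖Φ R‖ ≤ phiNorm Φ := norm_le_sum_norm Φ R

variable {Φ}

theorem enorm_phi_tsum_le {f : (Fin 4 → ℤ) → ℂ} {K c : ℝ} (hK : 0 ≤ K) (p : H3)
    (h : ∀ v, ‖f v‖ ≤ K * Real.exp (-(c * maj (frameOf p) (rvec v)))) :
    ‖∑' v, Φ (castv L v) * f v‖ₑ ≤ ENNReal.ofReal (phiNorm Φ * K) * majSum c p := by
  refine (tsum_norm_bound (b := fun v => phiNorm Φ * K *
    Real.exp (-(c * maj (frameOf p) (rvec v))))
    (fun v => mul_nonneg (mul_nonneg (phiNorm_nonneg Φ) hK) (Real.exp_pos _).le) fun v => ?_).trans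
    (le_of_eq ?_)
  · rw [norm_mul, mul_assoc]
    exact mul_le_mul (norm_le_phiNorm Φ _) (h v) (norm_nonneg _) (phiNorm_nonneg Φ)
  · rw [majSum, ← ENNReal.tsum_mul_left]
    exact tsum_congr fun v => ENNReal.ofReal_mul (mul_nonneg (phiNorm_nonneg Φ) hK)

theorem summable_phi_mul {f : (Fin 4 → ℤ) → ℂ} {K c : ℝ} (hc : 0 < c) (p : H3)
    (h : ∀ v, ‖f v‖ ≤ K * Real.exp (-(c * maj (frameOf p) (rvec v)))) :
    Summable fun v => Φ (castv L v) * f v := by
  refine Summable.of_norm_bounded (((summable_exp_maj p hc).mul_left K).mul_left (phiNorm Φ))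
    fun v => ?_
  rw [norm_mul]
  exact mul_le_mul (norm_le_phiNorm Φ _) (h v) (norm_nonneg _) (phiNorm_nonneg Φ)

theorem enorm_exSum_le (τ : ℂ) (p : H3) :
    ‖exSum Φ τ p‖ₑ ≤ ENNReal.ofReal (phiNorm Φ) * majSum (2 * π * τ.im) p := by
  simpa [exSum] using enorm_phi_tsum_le (Φ := Φ) zero_le_one p (f := fun v => ex (frameOf p) τ (rvec v))
    (c := 2 * π * τ.im) fun v => by rw [norm_ex_maj, one_mul]

theorem summable_exSum {τ : ℂ} (h : 0 < τ.im) (p : H3) :
    Summable fun v => Φ (castv L v) * ex (frameOf p) τ (rvec v) :=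
  summable_term (frameOf p) h Φ

theorem measurable_exSum {τ : ℂ} (h : 0 < τ.im) : Measurable (exSum Φ τ) :=
  measurable_tsum_of_summable (fun v => (continuous_ex_frameOf τ _).measurable.const_mul _)
    (summable_exSum h)

theorem measurable_opSum {τ : ℂ} (h : 0 < τ.im) : Measurable (opSum Φ τ) := by
  obtain ⟨K, hK, hb⟩ := exists_opEx_bound h
  exact measurable_tsum_of_summable (fun v => (continuous_opEx_frameOf τ _).measurable.const_mul _)
    fun p => summable_phi_mul (by positivity) p fun v => hb _ _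

theorem exSum_smul (τ : ℂ) (g : slOL L) (p : H3) : exSum Φ τ (g • p) = exSum Φ τ p := by
  rcases eq_or_ne (Real.sqrt τ.im : ℂ) 0 with h0 | h0
  all_goals
    set G' := ((g : slO)⁻¹).1.val
    have e1 : G' * (g : slO).1.val = 1 := by
      rw [← Units.val_mul, show ((g : slO)⁻¹).1 * (g : slO).1 = 1 from inv_mul_cancel (g : slO).1,
        Units.val_one]
    have e2 : (g : slO).1.val * G' = 1 := by
      rw [← Units.val_mul, show (g : slO).1 * ((g : slO)⁻¹).1 = 1 from mul_inv_cancel (g : slO).1,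
        Units.val_one]
    let e : (Fin 4 → ℤ) ≃ (Fin 4 → ℤ) :=
      ⟨congV (g : slO).1.val, congV G',
        fun v => by rw [congV_congV ((g : slO)⁻¹).2.1 (g : slO).2.1, e1, congV_one],
        fun v => by rw [congV_congV (g : slO).2.1 ((g : slO)⁻¹).2.1, e2, congV_one]⟩
    rw [exSum, exSum, ← e.tsum_eq]
    refine tsum_congr fun v => ?_
    show Φ (castv L (congV (g : slO).1.val v)) *
      ex (frameOf (act (g : slO).1 p)) τ (rvec (congV (g : slO).1.val v)) = _
    rw [castv_congV (g : slO).2.1 g.2, ex_congV (g : slO).2.1 (norm_det_slO _)]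

theorem lintegral_muL {f : H3 → ℝ≥0∞} (hf : Measurable f) :
    ∫⁻ p, f p ∂muL L = ∫⁻ p, wL L p * f p ∂hypMeasure :=
  RS.lintegral_wMeasure (isWeight_wL L).measurable hf

theorem lintegral_muL_majSum_lt_top {c : ℝ} (hc : 0 < c) :
    ∫⁻ p, majSum c p ∂muL L < ⊤ := by
  rw [lintegral_muL (measurable_majSum c)]
  exact lintegral_wL_majSum_lt_top L hc

/-- Integrability against a bounded function. -/
theorem integrable_mul_of_majSum {u f : H3 → ℂ} (hu : Measurable u) {C : ℝ} (hC : ∀ p, ‖u p‖ ≤ C)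
    (hf : Measurable f) {K c : ℝ} (hc : 0 < c)
    (h : ∀ p, ‖f p‖ₑ ≤ ENNReal.ofReal K * majSum c p) :
    Integrable (fun p => u p * f p) (muL L) := by
  refine ⟨(hu.mul hf).aestronglyMeasurable, ?_⟩
  refine lt_of_le_of_lt (lintegral_mono (g := fun p => ENNReal.ofReal C *
    (ENNReal.ofReal K * majSum c p)) fun p => ?_) ?_
  · rw [enorm_mul, ← ofReal_norm (u p)]
    exact mul_le_mul' (ENNReal.ofReal_le_ofReal (hC p)) (h p)
  · rw [lintegral_const_mul _ ((measurable_majSum c).const_mul _),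
      lintegral_const_mul _ (measurable_majSum c)]
    exact ENNReal.mul_lt_top ENNReal.ofReal_lt_top
      (ENNReal.mul_lt_top ENNReal.ofReal_lt_top (lintegral_muL_majSum_lt_top hc))

/-! ### The test function -/

/-- A compactly supported function equal to the bump on `[1, ∞)`. -/
def cutBump (δ x : ℝ) : ℝ := bump δ x * max 0 (min 1 x)

theorem cutBump_eq {δ x : ℝ} (h : 1 ≤ x) : cutBump δ x = bump δ x := by
  simp [cutBump, min_eq_left h]

theorem cutBump_coshDist (δ : ℝ) (p q : H3) :
    cutBump δ (coshDist p q) = bump δ (coshDist p q) := cutBump_eq (one_le_coshDist p q)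

theorem continuous_cutBump (δ : ℝ) : Continuous fun x => (cutBump δ x : ℂ) := by
  have := continuous_bump δ
  unfold cutBump
  fun_prop

theorem hasCompactSupport_cutBump (δ : ℝ) : HasCompactSupport fun x => (cutBump δ x : ℂ) := by
  refine HasCompactSupport.of_support_subset_isCompact (isCompact_Icc (a := 0) (b := |δ| + 1))
    fun x hx => ?_
  by_contra hc
  rw [Set.mem_Icc, not_and_or, not_le, not_le] at hc
  refine hx ?_
  rcases hc with h | h
  · simp [cutBump, min_le_of_right_le h.le]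
  · simp [cutBump, bump_eq_zero (show 1 + δ ≤ x by linarith [le_abs_self δ])]

theorem dH_pos {δ : ℝ} (hδ : 0 < δ) : 0 < dH δ := by
  have h := integral_radial (f := fun x => bump δ x * |x - 1|)
    ((continuous_bump δ).mul (by fun_prop)) (fun x => mul_nonneg (bump_nonneg _ _) (abs_nonneg _)) org
  have e : dH δ = ∫ q, bump δ (coshDist org q) * |coshDist org q - 1| ∂hypMeasure := by
    refine integral_congr_ae (ae_of_all _ fun q => ?_)
    show bump δ (rho q) * (rho q - 1) = bump δ (rho q) * |rho q - 1|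
    rw [abs_of_nonneg (by linarith [one_le_rho q])]
  rw [e, h]
  set f := fun r => 4 * π * Real.sinh r ^ 2 * (bump δ (Real.cosh r) * |Real.cosh r - 1|)
  have hf0 : 0 ≤ᵐ[volume.restrict (Ioi (0 : ℝ))] f := ae_of_all _ fun r => by
    have := bump_nonneg δ (Real.cosh r)
    simp only [f, Pi.zero_apply]
    positivity
  have hfi : IntegrableOn f (Ioi 0) := by
    have := integrableOn_of_bump (δ := δ)
      (g := fun r => 4 * π * Real.sinh r ^ 2 * |Real.cosh r - 1|) (by fun_prop)
    refine this.congr_fun (fun r _ => ?_) measurableSet_Ioi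
    simp only [f]
    ring
  rw [setIntegral_pos_iff_support_of_nonneg_ae hf0 hfi]
  have hr : 0 < Real.arcosh (1 + δ) := Real.arcosh_pos (by linarith)
  refine lt_of_lt_of_le (?_ : 0 < volume (Ioo 0 (Real.arcosh (1 + δ))))
    (measure_mono fun r hr' => ⟨?_, hr'.1⟩)
  · rw [Real.volume_Ioo]; simpa using hr
  · have h1 : 1 < Real.cosh r := Real.one_lt_cosh.2 hr'.1.ne'
    have h2 : Real.cosh r < 1 + δ := by
      rw [← Real.cosh_arcosh (show 1 ≤ 1 + δ by linarith)]
      exact Real.cosh_lt_cosh.2 (by rw [abs_of_pos hr'.1, abs_of_pos hr]; exact hr'.2)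
    have h3 : 0 < Real.sinh r := Real.sinh_pos_iff.2 hr'.1
    have h4 : 0 < bump δ (Real.cosh r) := by simp [bump]; linarith
    have h5 : 0 < |Real.cosh r - 1| := abs_pos.2 (by linarith)
    have : 0 < f r := by simp only [f]; positivity
    exact this.ne'

theorem cH_complex (δ : ℝ) :
    (∫ r in Ioi (0 : ℝ), (cutBump δ (Real.cosh r) : ℂ) * ((4 * π * r * Real.sinh r : ℝ) : ℂ)) =
      (cH δ : ℂ) := by
  rw [cH, ← integral_complex_ofReal]
  refine integral_congr_ae (ae_of_all _ fun r => ?_)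
  simp [cutBump_eq (Real.one_le_cosh r)]

/-! ### Exchanging the weight -/

/-- The smoothed sum. -/
def smSum (δ : ℝ) (τ : ℂ) (p : H3) : ℂ :=
  ∫ q, (bump δ (coshDist p q) : ℂ) * exSum Φ τ q ∂hypMeasure

theorem lintegral_bump_eq (δ : ℝ) (p : H3) :
    ∫⁻ q, ENNReal.ofReal (bump δ (coshDist p q)) ∂hypMeasure =
      ∫⁻ q, ENNReal.ofReal (bump δ (rho q)) ∂hypMeasure := by
  have hm : Measurable fun q => ENNReal.ofReal (bump δ (coshDist p q)) :=
    (ENNReal.continuous_ofReal.comp ((continuous_bump δ).comp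
      (continuous_coshDist.comp (continuous_const.prodMk continuous_id)))).measurable
  rw [← (measurePreserving_act (toPt p)).lintegral_comp hm]
  refine lintegral_congr fun q => ?_
  have h := coshDist_act (toPt p) org q
  rw [act_toPt_org] at h
  rw [h]
  rfl

theorem lintegral_bump_lt_top (δ : ℝ) :
    ∫⁻ q, ENNReal.ofReal (bump δ (rho q)) ∂hypMeasure < ⊤ := by
  have h : Integrable (fun q => bump δ (rho q) * (1 : ℝ)) hypMeasure :=
    integrable_bump_mul continuous_const (C := 1) fun q _ => by simp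
  simp only [mul_one] at h
  exact h.lintegral_lt_top

theorem bump_mul_exp_le {δ : ℝ} (hδ : δ ≤ 1) {c : ℝ} (hc : 0 ≤ c) (p q : H3) (v : Fin 4 → ℝ) :
    bump δ (coshDist p q) * Real.exp (-(17 * c * maj (frameOf q) v)) ≤
      bump δ (coshDist p q) * Real.exp (-(c * maj (frameOf p) v)) := by
  rcases le_or_gt (coshDist p q) 2 with h | h
  · refine mul_le_mul_of_nonneg_left (Real.exp_le_exp.2 (neg_le_neg ?_)) (bump_nonneg _ _)
    have h1 := maj_le_of_dist p q v
    rw [coshDist_comm q p] at h1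
    have h2 : coshDist p q ^ 2 ≤ 4 := by nlinarith [one_le_coshDist p q]
    have h3 := mul_le_mul_of_nonneg_right (show 1 + 4 * coshDist p q ^ 2 ≤ 17 by linarith)
      (maj_nonneg (frameOf q) v)
    nlinarith [mul_le_mul_of_nonneg_left (h1.trans h3) hc]
  · simp [bump_eq_zero (show 1 + δ ≤ coshDist p q by linarith)]

theorem enorm_bump_exSum_le {δ : ℝ} (hδ : δ ≤ 1) {τ : ℂ} (h : 0 < τ.im) (p q : H3) :
    ‖(bump δ (coshDist p q) : ℂ) * exSum Φ τ q‖ₑ ≤
      ENNReal.ofReal (bump δ (coshDist p q)) *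
        (ENNReal.ofReal (phiNorm Φ) * majSum (2 * π * τ.im / 17) p) := by
  rw [enorm_mul, ← ofReal_norm, Complex.norm_real, Real.norm_eq_abs,
    abs_of_nonneg (bump_nonneg _ _)]
  refine (mul_le_mul' le_rfl (enorm_exSum_le τ q)).trans ?_
  rw [mul_left_comm, mul_left_comm _ (ENNReal.ofReal (phiNorm Φ))]
  refine mul_le_mul' le_rfl ?_
  rw [majSum, majSum, ← ENNReal.tsum_mul_left, ← ENNReal.tsum_mul_left]
  refine ENNReal.tsum_le_tsum fun v => ?_
  rw [← ENNReal.ofReal_mul (bump_nonneg _ _), ← ENNReal.ofReal_mul (bump_nonneg _ _)]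
  refine ENNReal.ofReal_le_ofReal ?_
  have := bump_mul_exp_le hδ (c := 2 * π * τ.im / 17) (by positivity) p q (rvec v)
  rwa [show 17 * (2 * π * τ.im / 17) = 2 * π * τ.im by ring] at this

instance smulInvariant_slOL : SMulInvariantMeasure (slOL L) H3 hypMeasure :=
  ⟨fun g _ hs => (measurePreserving_act (g : slO).1).measure_preimage hs.nullMeasurableSet⟩

instance measurableConstSMul_prod_slOL : MeasurableConstSMul (slOL L) (H3 × H3) :=
  ⟨fun g => ((measurable_act (g : slO).1).comp measurable_fst).prodMk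
    ((measurable_act (g : slO).1).comp measurable_snd)⟩

instance smulInvariant_prod_slOL :
    SMulInvariantMeasure (slOL L) (H3 × H3) (hypMeasure.prod hypMeasure) :=
  ⟨fun g _ hs => ((measurePreserving_act (g : slO).1).prod
    (measurePreserving_act (g : slO).1)).measure_preimage hs.nullMeasurableSet⟩

theorem coshDist_smul (g : slOL L) (p q : H3) : coshDist (g • p) (g • q) = coshDist p q :=
  coshDist_act (g : slO).1 p q

/-- Symmetry of the kernel. -/
theorem integral_mul_smSum {u : H3 → ℂ} (hu : IsU L u) {δ : ℝ} (hδ : δ ≤ 1) {τ : ℂ}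
    (h : 0 < τ.im) :
    ∫ p, u p * smSum (Φ := Φ) δ τ p ∂muL L =
      (cH δ : ℂ) * ∫ p, u p * exSum Φ τ p ∂muL L := by
  obtain ⟨C, hC⟩ := hu.bdd
  set w := wL L
  have hw := isWeight_wL L
  set K : H3 × H3 → ℂ := fun x =>
    (bump δ (coshDist x.1 x.2) : ℂ) * (u x.1 * exSum Φ τ x.2) with hKdef
  have hKm : Measurable K :=
    (Complex.measurable_ofReal.comp
      (((continuous_bump δ).comp continuous_coshDist).measurable)).mul
      ((hu.cont.measurable.comp measurable_fst).mul ((measurable_exSum h).comp measurable_snd))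
  have hKinv : ∀ (g : slOL L) x, K (g • x) = K x := fun g x => by
    simp only [hKdef, Prod.smul_fst, Prod.smul_snd, coshDist_smul, hu.inv, exSum_smul]
  have hw1 : RS.IsWeight (slOL L) (fun x : H3 × H3 => w x.1) :=
    ⟨hw.measurable.comp measurable_fst, fun x => hw.sum_one x.1⟩
  have hw2 : RS.IsWeight (slOL L) (fun x : H3 × H3 => w x.2) :=
    ⟨hw.measurable.comp measurable_snd, fun x => hw.sum_one x.2⟩
  have hprod : RS.wMeasure (hypMeasure.prod hypMeasure) (fun x : H3 × H3 => w x.1) =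
      (muL L).prod hypMeasure := (prod_withDensity_left hw.measurable).symm
  have hprod2 : RS.wMeasure (hypMeasure.prod hypMeasure) (fun x : H3 × H3 => w x.2) =
      hypMeasure.prod (muL L) := (prod_withDensity_right hw.measurable).symm
  haveI : SFinite (muL L) := by unfold muL RS.wMeasure; infer_instance
  have hKi : Integrable K ((muL L).prod hypMeasure) := by
    refine ⟨hKm.aestronglyMeasurable, ?_⟩
    set F : H3 → ℝ≥0∞ := fun p => ENNReal.ofReal C *
      (ENNReal.ofReal (phiNorm Φ) * majSum (2 * π * τ.im / 17) p)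
    have hFm : Measurable F := ((measurable_majSum _).const_mul _).const_mul _
    show ∫⁻ x, ‖K x‖ₑ ∂(muL L).prod hypMeasure < ⊤
    rw [lintegral_prod _ hKm.enorm.aemeasurable]
    refine lt_of_le_of_lt (lintegral_mono (g := fun p => F p *
      ∫⁻ q, ENNReal.ofReal (bump δ (rho q)) ∂hypMeasure) fun p => ?_) ?_
    · show ∫⁻ q, ‖K (p, q)‖ₑ ∂hypMeasure ≤ F p * _
      rw [← lintegral_bump_eq δ p, ← lintegral_const_mul' _ _ (by
        simp only [F]
        exact (ENNReal.mul_lt_top ENNReal.ofReal_lt_top (ENNReal.mul_lt_top ENNReal.ofReal_lt_top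
          (by rw [majSum_eq p (by positivity)]; exact ENNReal.ofReal_lt_top))).ne)]
      refine lintegral_mono fun q => ?_
      simp only [hKdef, F]
      rw [mul_left_comm, enorm_mul, ← ofReal_norm (u p), mul_assoc]
      refine mul_le_mul' (ENNReal.ofReal_le_ofReal (hC p)) ?_
      rw [mul_comm (ENNReal.ofReal (phiNorm Φ) * _)]
      exact enorm_bump_exSum_le hδ h p q
    · rw [lintegral_mul_const _ hFm, lintegral_const_mul _ ((measurable_majSum _).const_mul _),
        lintegral_const_mul _ (measurable_majSum _)]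
      exact ENNReal.mul_lt_top (ENNReal.mul_lt_top ENNReal.ofReal_lt_top
        (ENNReal.mul_lt_top ENNReal.ofReal_lt_top (lintegral_muL_majSum_lt_top (by positivity))))
        (lintegral_bump_lt_top δ)
  obtain ⟨hKi2, heq⟩ := hw2.integral_eq hw1 hKm hKinv (hprod.symm ▸ hKi)
  rw [hprod2] at hKi2 heq
  rw [hprod] at heq
  calc ∫ p, u p * smSum (Φ := Φ) δ τ p ∂muL L = ∫ x, K x ∂(muL L).prod hypMeasure := by
        rw [integral_prod _ hKi]
        refine integral_congr_ae (ae_of_all _ fun p => ?_)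
        simp only [smSum, hKdef, ← integral_const_mul]
        exact integral_congr_ae (ae_of_all _ fun q => by ring)
    _ = ∫ x, K x ∂hypMeasure.prod (muL L) := heq.symm
    _ = _ := by
        rw [integral_prod_symm _ hKi2, ← integral_const_mul]
        refine integral_congr_ae (ae_of_all _ fun q => ?_)
        have hm := hu.mean _ (continuous_cutBump δ) (hasCompactSupport_cutBump δ) q
        rw [cH_complex] at hm
        simp only [cutBump_coshDist] at hm
        show ∫ p, (bump δ (coshDist p q) : ℂ) * (u p * exSum Φ τ q) ∂hypMeasure =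
          (cH δ : ℂ) * (u q * exSum Φ τ q)
        rw [← mul_assoc (cH δ : ℂ), ← hm, ← integral_mul_const]
        exact integral_congr_ae (ae_of_all _ fun p => by
          show (bump δ (coshDist p q) : ℂ) * (u p * exSum Φ τ q) =
            (bump δ (coshDist q p) : ℂ) * u p * exSum Φ τ q
          rw [coshDist_comm q p]; ring)

theorem exists_smSum_bound {τ : ℂ} (h : 0 < τ.im) :
    ∃ K : ℝ, 0 ≤ K ∧ ∀ δ : ℝ, 0 < δ → δ ≤ 1 / 500 → ∀ p : H3,
      ‖smSum (Φ := Φ) δ τ p - (cH δ : ℂ) * exSum Φ τ p - (dH δ : ℂ) / 3 * opSum Φ τ p‖ₑ ≤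
        ENNReal.ofReal (phiNorm Φ * (K * Real.sqrt δ * dH δ)) * majSum (π * τ.im / 2) p := by
  obtain ⟨C, hC0, hC⟩ := exists_spherical_bound h
  obtain ⟨K', hK', hop⟩ := exists_opEx_bound h
  refine ⟨C, hC0, fun δ hδ hδ' p => ?_⟩
  have hcd : Continuous fun q => coshDist p q :=
    continuous_coshDist.comp (continuous_const.prodMk continuous_id)
  have hex : ∀ v : Fin 4 → ℤ, Measurable fun q =>
      (bump δ (coshDist p q) : ℂ) * (Φ (castv L v) * ex (frameOf q) τ (rvec v)) := fun v =>
    ((continuous_ofReal.comp ((continuous_bump δ).comp hcd)).mul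
      (continuous_const.mul (continuous_ex_frameOf τ (rvec v)))).measurable
  have hsum : smSum (Φ := Φ) δ τ p = ∑' v, Φ (castv L v) *
      ∫ q, (bump δ (coshDist p q) : ℂ) * ex (frameOf q) τ (rvec v) ∂hypMeasure := by
    rw [smSum]
    have hfin : ∑' v : Fin 4 → ℤ, ∫⁻ q, ‖(bump δ (coshDist p q) : ℂ) *
        (Φ (castv L v) * ex (frameOf q) τ (rvec v))‖ₑ ∂hypMeasure ≠ ⊤ := by
      refine ne_top_of_le_ne_top (b := (ENNReal.ofReal (phiNorm Φ) * majSum (2 * π * τ.im / 17) p) *
        ∫⁻ q, ENNReal.ofReal (bump δ (rho q)) ∂hypMeasure) (ENNReal.mul_ne_top (ENNReal.mul_ne_top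
          ENNReal.ofReal_ne_top (by rw [majSum_eq p (by positivity)]; exact ENNReal.ofReal_ne_top))
          (lintegral_bump_lt_top δ).ne) ?_
      rw [← lintegral_bump_eq δ p, majSum, ← ENNReal.tsum_mul_left, ← ENNReal.tsum_mul_right]
      refine ENNReal.tsum_le_tsum fun v => ?_
      rw [← lintegral_const_mul' _ _ (ENNReal.mul_ne_top ENNReal.ofReal_ne_top ENNReal.ofReal_ne_top)]
      refine lintegral_mono fun q => ?_
      rw [← ofReal_norm, norm_mul, norm_mul, norm_ex_maj, Complex.norm_real, Real.norm_eq_abs,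
        abs_of_nonneg (bump_nonneg _ _), ← ENNReal.ofReal_mul (phiNorm_nonneg Φ),
        ← ENNReal.ofReal_mul (mul_nonneg (phiNorm_nonneg Φ) (Real.exp_pos _).le)]
      refine ENNReal.ofReal_le_ofReal ?_
      have hb := bump_mul_exp_le (c := 2 * π * τ.im / 17) (show δ ≤ 1 by linarith) (by positivity) p q
        (rvec v)
      rw [show 17 * (2 * π * τ.im / 17) = 2 * π * τ.im by ring] at hb
      calc bump δ (coshDist p q) * (‖Φ (castv L v)‖ *
            Real.exp (-(2 * π * τ.im * maj (frameOf q) (rvec v))))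
          = ‖Φ (castv L v)‖ * (bump δ (coshDist p q) *
              Real.exp (-(2 * π * τ.im * maj (frameOf q) (rvec v)))) := by ring
        _ ≤ phiNorm Φ * (bump δ (coshDist p q) *
              Real.exp (-(2 * π * τ.im / 17 * maj (frameOf p) (rvec v)))) :=
            mul_le_mul (norm_le_phiNorm Φ _) hb
              (mul_nonneg (bump_nonneg _ _) (Real.exp_pos _).le) (phiNorm_nonneg Φ)
        _ = _ := by ring
    calc ∫ q, (bump δ (coshDist p q) : ℂ) * exSum Φ τ q ∂hypMeasure
        = ∫ q, ∑' v, (bump δ (coshDist p q) : ℂ) *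
            (Φ (castv L v) * ex (frameOf q) τ (rvec v)) ∂hypMeasure := by
          simp only [exSum, ← tsum_mul_left]
      _ = ∑' v, ∫ q, (bump δ (coshDist p q) : ℂ) *
            (Φ (castv L v) * ex (frameOf q) τ (rvec v)) ∂hypMeasure :=
          integral_tsum (fun v => (hex v).aestronglyMeasurable) hfin
      _ = _ := tsum_congr fun v => by
          rw [← integral_const_mul]
          exact integral_congr_ae (ae_of_all _ fun q => by ring)
  set A : (Fin 4 → ℤ) → ℂ := fun v =>
    ∫ q, (bump δ (coshDist p q) : ℂ) * ex (frameOf q) τ (rvec v) ∂hypMeasure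
  set B : (Fin 4 → ℤ) → ℂ := fun v => (cH δ : ℂ) * ex (frameOf p) τ (rvec v)
  set D : (Fin 4 → ℤ) → ℂ := fun v => (dH δ : ℂ) / 3 * opEx (frameOf p) τ (rvec v)
  have hB : ∀ v, ‖B v‖ ≤ |cH δ| * Real.exp (-(2 * π * τ.im * maj (frameOf p) (rvec v))) := fun v => by
    simp only [B, norm_mul, norm_ex_maj, Complex.norm_real, Real.norm_eq_abs, le_refl]
  have hD : ∀ v, ‖D v‖ ≤ dH δ / 3 * K' * Real.exp (-(π * τ.im * maj (frameOf p) (rvec v))) := by
    intro v
    simp only [D, norm_mul, norm_div, Complex.norm_real, Real.norm_eq_abs,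
      abs_of_nonneg (dH_nonneg δ), Complex.norm_ofNat]
    rw [mul_assoc]
    exact mul_le_mul_of_nonneg_left (hop _ _) (by have := dH_nonneg δ; positivity)
  have sE : Summable fun v => Φ (castv L v) * (A v - B v - D v) :=
    summable_phi_mul (by positivity) p fun v => hC δ hδ hδ' p (rvec v)
  have sB := summable_phi_mul (Φ := Φ) (by positivity) p hB
  have sD := summable_phi_mul (Φ := Φ) (by positivity) p hD
  have sA : Summable fun v => Φ (castv L v) * A v :=
    ((sE.add sB).add sD).congr fun v => by ring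
  have e : smSum (Φ := Φ) δ τ p - (cH δ : ℂ) * exSum Φ τ p - (dH δ : ℂ) / 3 * opSum Φ τ p =
      ∑' v, Φ (castv L v) * (A v - B v - D v) := by
    rw [hsum, exSum, opSum, ← tsum_mul_left, ← tsum_mul_left,
      ← sA.tsum_sub (sB.congr fun v => by simp only [B]; ring),
      ← (sA.sub (sB.congr fun v => by simp only [B]; ring)).tsum_sub
        (sD.congr fun v => by simp only [D]; ring)]
    refine tsum_congr fun v => ?_
    simp only [A, B, D]
    ring
  rw [e]
  exact enorm_phi_tsum_le (mul_nonneg (mul_nonneg hC0 (Real.sqrt_nonneg _)) (dH_nonneg δ)) p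
    fun v => hC δ hδ hδ' p (rvec v)

/-- **The eigenfunctions are orthogonal to `(Δ + 1)` of the theta series.** -/
theorem integral_mul_opSum {u : H3 → ℂ} (hu : IsU L u) {τ : ℂ} (h : 0 < τ.im) :
    ∫ p, u p * opSum Φ τ p ∂muL L = 0 := by
  obtain ⟨C, hC⟩ := hu.bdd
  obtain ⟨K, hK0, hK⟩ := exists_smSum_bound (Φ := Φ) h
  obtain ⟨K', hK', hop⟩ := exists_opEx_bound h
  have hopb : ∀ p, ‖opSum Φ τ p‖ₑ ≤ ENNReal.ofReal (phiNorm Φ * K') * majSum (π * τ.im) p :=
    fun p => enorm_phi_tsum_le hK' p fun v => hop _ _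
  have iO := integrable_mul_of_majSum (L := L) hu.cont.measurable hC (measurable_opSum h)
    (by positivity) hopb
  have iE := integrable_mul_of_majSum (L := L) hu.cont.measurable hC (measurable_exSum (Φ := Φ) h)
    (by positivity) fun p => enorm_exSum_le τ p
  set I := ∫ p, u p * opSum Φ τ p ∂muL L
  set M := (∫⁻ p, majSum (π * τ.im / 2) p ∂muL L).toReal
  have key : ∀ δ : ℝ, 0 < δ → δ ≤ 1 / 500 →
      ‖I‖ ≤ 3 * |C| * phiNorm Φ * K * M * Real.sqrt δ := by
    intro δ hδ hδ'
    set R : H3 → ℂ := fun p =>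
      smSum (Φ := Φ) δ τ p - (cH δ : ℂ) * exSum Φ τ p - (dH δ : ℂ) / 3 * opSum Φ τ p
    have hRm : Measurable R := by
      refine ((?_ : Measurable (smSum (Φ := Φ) δ τ)).sub ((measurable_exSum h).const_mul _)).sub
        ((measurable_opSum h).const_mul _)
      have hm : StronglyMeasurable fun x : H3 × H3 =>
          (bump δ (coshDist x.1 x.2) : ℂ) * exSum Φ τ x.2 :=
        ((Complex.measurable_ofReal.comp (((continuous_bump δ).comp continuous_coshDist).measurable)).mul
          ((measurable_exSum h).comp measurable_snd)).stronglyMeasurable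
      exact hm.integral_prod_right'.measurable
    have iR := integrable_mul_of_majSum (L := L) hu.cont.measurable hC hRm (by positivity)
      (hK δ hδ hδ')
    have e : (dH δ : ℂ) / 3 * I = -∫ p, u p * R p ∂muL L := by
      have e1 : ∫ p, u p * smSum (Φ := Φ) δ τ p ∂muL L =
          (∫ p, u p * R p ∂muL L) + (cH δ : ℂ) * (∫ p, u p * exSum Φ τ p ∂muL L) +
            (dH δ : ℂ) / 3 * I := by
        rw [← integral_const_mul, ← integral_const_mul, ← integral_add iR (iE.const_mul _),
          ← integral_add (f := fun p => u p * R p + (cH δ : ℂ) * (u p * exSum Φ τ p))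
            (iR.add (iE.const_mul _)) (iO.const_mul _)]
        exact integral_congr_ae (ae_of_all _ fun p => by simp only [R]; ring)
      rw [integral_mul_smSum hu (by linarith) h] at e1
      linear_combination -e1
    have hd := dH_pos hδ
    have hb : ‖∫ p, u p * R p ∂muL L‖ ≤ |C| * (phiNorm Φ * (K * Real.sqrt δ * dH δ)) * M := by
      have hnn : 0 ≤ |C| * (phiNorm Φ * (K * Real.sqrt δ * dH δ)) * M :=
        mul_nonneg (mul_nonneg (abs_nonneg C) (mul_nonneg (phiNorm_nonneg Φ)
          (mul_nonneg (mul_nonneg hK0 (Real.sqrt_nonneg δ)) hd.le))) ENNReal.toReal_nonneg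
      refine (ENNReal.ofReal_le_ofReal_iff hnn).1 ?_
      rw [ofReal_norm]
      refine (enorm_integral_le_lintegral_enorm _).trans ?_
      refine (lintegral_mono (g := fun p => ENNReal.ofReal |C| *
        (ENNReal.ofReal (phiNorm Φ * (K * Real.sqrt δ * dH δ)) *
          majSum (π * τ.im / 2) p)) fun p => ?_).trans ?_
      · rw [enorm_mul, ← ofReal_norm (u p)]
        exact mul_le_mul' (ENNReal.ofReal_le_ofReal ((hC p).trans (le_abs_self C))) (hK δ hδ hδ' p)
      · rw [lintegral_const_mul _ ((measurable_majSum _).const_mul _),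
          lintegral_const_mul _ (measurable_majSum _), ENNReal.ofReal_mul (mul_nonneg (abs_nonneg C)
            (mul_nonneg (phiNorm_nonneg Φ) (mul_nonneg (mul_nonneg hK0 (Real.sqrt_nonneg δ)) hd.le))),
          ENNReal.ofReal_mul (abs_nonneg C), mul_assoc,
          ENNReal.ofReal_toReal (lintegral_muL_majSum_lt_top (by positivity)).ne, mul_assoc]
    have e2 := congrArg norm e
    rw [norm_neg, norm_mul, norm_div, Complex.norm_real, Real.norm_eq_abs, abs_of_pos hd,
      Complex.norm_ofNat] at e2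
    refine le_of_mul_le_mul_left ?_ (by positivity : 0 < dH δ / 3)
    rw [e2]
    exact hb.trans_eq (by ring)
  rw [← norm_eq_zero]
  refine le_antisymm (le_of_forall_pos_le_add fun ε hε => ?_) (norm_nonneg _)
  set A := 3 * |C| * phiNorm Φ * K * M
  have hA : 0 ≤ A := mul_nonneg (mul_nonneg (mul_nonneg (by positivity) (phiNorm_nonneg Φ)) hK0)
    ENNReal.toReal_nonneg
  set δ := min (1 / 500) ((ε / (A + 1)) ^ 2)
  have hδ : 0 < δ := lt_min (by norm_num) (by positivity)
  refine (key δ hδ (min_le_left _ _)).trans ?_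
  have hs : Real.sqrt δ ≤ ε / (A + 1) := by
    rw [Real.sqrt_le_iff]
    exact ⟨by positivity, min_le_right _ _⟩
  refine (mul_le_mul_of_nonneg_left hs hA).trans ?_
  rw [zero_add, ← mul_div_assoc, div_le_iff₀ (by linarith)]
  nlinarith

end sums

end FLTAgent.LT.Theta31
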