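import Fermat.Agent.LT.Theta31.Pieces
import Mathlib.Analysis.Calculus.ParametricIntegral

/-!
# The lifts as functions of `τ`

`f = liftTh` and `h = y ∂̄ f = liftH` are real differentiable, `∂_τ h = 0` by the kernel identity,
and both are `O(√y)`.
-/

set_option autoImplicit false
set_option linter.unusedSectionVars false

noncomputable section

namespace FLTAgent.LT.Theta31

open Complex Matrix MeasureTheory Hyp Set Filter
open scoped Real ComplexConjugate ENNReal Topology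

/-- The imaginary part as a real linear map to `ℂ`. -/
def imC : ℂ →L[ℝ] ℂ := Complex.ofRealCLM.comp Complex.imCLM

/-- `w ↦ a w + b Im w`. -/
def dmap (a b : ℂ) : ℂ →L[ℝ] ℂ := a • (1 : ℂ →L[ℝ] ℂ) + b • imC

theorem dmap_apply (a b w : ℂ) : dmap a b w = a * w + b * (w.im : ℂ) := by
  simp [dmap, imC]

theorem dmap_zero_right (a : ℂ) : dmap a 0 = a • (1 : ℂ →L[ℝ] ℂ) := by
  ext w; simp [dmap_apply]

/-- `w ↦ Im w` and its size. -/
theorem norm_dmap_le (a b : ℂ) : ‖dmap a b‖ ≤ ‖a‖ + ‖b‖ := by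
  refine ContinuousLinearMap.opNorm_le_bound _ (by positivity) fun w => ?_
  rw [dmap_apply]
  refine (norm_add_le _ _).trans ?_
  rw [norm_mul, norm_mul, Complex.norm_real, Real.norm_eq_abs]
  nlinarith [Complex.abs_im_le_norm w, norm_nonneg b, norm_nonneg w, norm_nonneg a]

/-- A polynomial weight in `(y, t²)` with its derivative in `y`. -/
structure Wgt where
  /-- The weight. -/
  P : ℝ → ℝ → ℂ
  /-- Its derivative. -/
  P' : ℝ → ℝ → ℂ
  meas : ∀ y, Measurable (P y)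
  meas' : ∀ y, Measurable (P' y)
  deriv : ∀ n y, 0 < y → HasDerivAt (fun s => P s n) (P' y n) y
  bound : ∀ y0, 0 < y0 → ∃ K, 0 ≤ K ∧ ∀ y ∈ Icc (y0 / 2) (2 * y0), ∀ n, 0 ≤ n →
    ‖P y n‖ ≤ K * (1 + n) ^ 2 ∧ ‖P' y n‖ ≤ K * (1 + n) ^ 2

variable {L : ℕ} [NeZero L]

/-- The measure on pairs of a point and a vector. -/
def muV (L : ℕ) : Measure (H3 × (Fin 4 → ℤ)) := (muL L).prod Measure.count

/-- The term of a weighted lift. -/
def term (L : ℕ) (u : H3 → ℂ) (Φ : (Fin 4 → ZMod L) → ℂ) (W : ℝ → ℝ → ℂ) (τ : ℂ)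
    (x : H3 × (Fin 4 → ℤ)) : ℂ :=
  u x.1 * Φ (castv L x.2) *
    (W τ.im ((frameOf x.1).neg (rvec x.2) ^ 2) * ex (frameOf x.1) τ (rvec x.2))

/-- A weighted lift. -/
def liftW (L : ℕ) (u : H3 → ℂ) (Φ : (Fin 4 → ZMod L) → ℂ) (W : ℝ → ℝ → ℂ) (τ : ℂ) : ℂ :=
  ∫ x, term L u Φ W τ x ∂muV L

/-- The coefficient of `w` in the derivative. -/
def termA (L : ℕ) (u : H3 → ℂ) (Φ : (Fin 4 → ZMod L) → ℂ) (W : ℝ → ℝ → ℂ) (τ : ℂ)
    (x : H3 × (Fin 4 → ℤ)) : ℂ :=
  2 * π * I * (qf (rvec x.2) : ℝ) * term L u Φ W τ x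

/-- The coefficient of `Im w` in the derivative. -/
def termB (L : ℕ) (u : H3 → ℂ) (Φ : (Fin 4 → ZMod L) → ℂ) (W : Wgt) (τ : ℂ)
    (x : H3 × (Fin 4 → ℤ)) : ℂ :=
  term L u Φ (fun y n => W.P' y n - 4 * π * (n : ℝ) * W.P y n) τ x

instance sfinite_muL (L : ℕ) : SFinite (muL L) := by unfold muL RS.wMeasure; infer_instance

theorem hasFDerivAt_ex (F : Frame) (v : Fin 4 → ℝ) (τ : ℂ) :
    HasFDerivAt (fun τ => ex F τ v)
      (dmap (2 * π * I * (qf v : ℝ) * ex F τ v)
        (-4 * π * ((F.neg v ^ 2 : ℝ) : ℂ) * ex F τ v)) τ := by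
  set T : ℂ →L[ℝ] ℂ := dmap (2 * π * I * (qf v : ℝ)) (-4 * π * ((F.neg v ^ 2 : ℝ) : ℂ))
  have e : (fun τ : ℂ => ex F τ v) = fun τ => cexp (T τ) := funext fun w => by
    rw [ex, dmap_apply]
    congr 1
    ring
  rw [e]
  refine (T.hasFDerivAt.cexp).congr_fderiv ?_
  ext w
  simp only [ContinuousLinearMap.coe_smul', Pi.smul_apply, smul_eq_mul, T, dmap_apply]
  rw [show ex F τ v = cexp (T τ) from congrFun e τ]
  simp only [T, dmap_apply]
  ring

theorem hasFDerivAt_term (u : H3 → ℂ) (Φ : (Fin 4 → ZMod L) → ℂ) (W : Wgt) {τ : ℂ}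
    (h : 0 < τ.im) (x : H3 × (Fin 4 → ℤ)) :
    HasFDerivAt (fun τ => term L u Φ W.P τ x)
      (dmap (termA L u Φ W.P τ x) (termB L u Φ W τ x)) τ := by
  set n := (frameOf x.1).neg (rvec x.2) ^ 2
  have hP : HasFDerivAt (fun w : ℂ => W.P w.im n) (dmap 0 (W.P' τ.im n)) τ := by
    refine (HasFDerivAt.comp (f := fun w : ℂ => w.im) τ (W.deriv n τ.im h).hasFDerivAt
      Complex.imCLM.hasFDerivAt).congr_fderiv ?_
    ext w
    simp [dmap_apply, mul_comm]
  refine ((hP.mul (hasFDerivAt_ex (frameOf x.1) (rvec x.2) τ)).const_mul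
    (u x.1 * Φ (castv L x.2))).congr_fderiv ?_
  ext w
  simp only [ContinuousLinearMap.coe_smul', Pi.smul_apply, smul_eq_mul,
    ContinuousLinearMap.add_apply, dmap_apply, termA, termB, term, n]
  ring

theorem lintegral_muV {f : H3 × (Fin 4 → ℤ) → ℝ≥0∞} (hf : Measurable f) :
    ∫⁻ x, f x ∂muV L = ∫⁻ p, ∑' v, f (p, v) ∂muL L := by
  rw [muV, lintegral_prod _ hf.aemeasurable]
  simp only [lintegral_count]

theorem measurable_term (u : H3 → ℂ) (hu : Measurable u) (Φ : (Fin 4 → ZMod L) → ℂ)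
    (W : ℝ → ℝ → ℂ) (hW : ∀ y, Measurable (W y)) (τ : ℂ) : Measurable (term L u Φ W τ) := by
  refine measurable_from_prod_countable_left fun v => ?_
  exact ((hu.mul_const (Φ (castv L v)))).mul
    (((hW τ.im).comp ((continuous_neg_frameOf (rvec v)).measurable.pow_const 2)).mul
      (continuous_ex_frameOf τ (rvec v)).measurable)

/-- The dominating function. -/
def domin (c : ℝ) (x : H3 × (Fin 4 → ℤ)) : ℝ := Real.exp (-(c * maj (frameOf x.1) (rvec x.2)))

theorem measurable_domin (c : ℝ) : Measurable (domin c) := by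
  refine measurable_from_prod_countable_left fun v => ?_
  exact ((measurable_maj (rvec v)).const_mul c).neg.exp

theorem integrable_domin {c : ℝ} (hc : 0 < c) : Integrable (domin c) (muV L) := by
  refine ⟨(measurable_domin c).aestronglyMeasurable, ?_⟩
  show ∫⁻ x, ‖domin c x‖ₑ ∂muV L < ⊤
  rw [lintegral_muV (measurable_domin c).enorm]
  refine lt_of_le_of_lt (le_of_eq ?_) (lintegral_muL_majSum_lt_top (L := L) hc)
  refine lintegral_congr fun p => tsum_congr fun v => ?_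
  exact Real.enorm_eq_ofReal (Real.exp_pos _).le

theorem neg_sq_le_maj (F : Frame) (v : Fin 4 → ℝ) : F.neg v ^ 2 ≤ maj F v :=
  Finset.single_le_sum (f := fun i => F.co v i ^ 2) (fun i _ => sq_nonneg _) (Finset.mem_univ 0)

theorem abs_qf_le_maj (F : Frame) (v : Fin 4 → ℝ) : |qf v| ≤ maj F v :=
  abs_le.2 ⟨by linarith [maj_eq F v, neg_sq_le_maj F v],
    by linarith [maj_eq F v, sq_nonneg (F.neg v)]⟩

/-- A weighted term is dominated near a point. -/
theorem norm_term_le {u : H3 → ℂ} {C : ℝ} (hC : ∀ p, ‖u p‖ ≤ C) (Φ : (Fin 4 → ZMod L) → ℂ)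
    {W : ℝ → ℝ → ℂ} {K y0 : ℝ} (hy0 : 0 < y0) {k : ℕ} {τ : ℂ} (hτ : y0 / 2 ≤ τ.im)
    (x : H3 × (Fin 4 → ℤ))
    (hW : ‖W τ.im ((frameOf x.1).neg (rvec x.2) ^ 2)‖ ≤
      K * (1 + maj (frameOf x.1) (rvec x.2)) ^ k) :
    ‖term L u Φ W τ x‖ ≤ |C| * phiNorm Φ * (|K| * ((Nat.factorial k : ℝ) / (π * y0 / 2) ^ k *
      Real.exp (π * y0 / 2))) * domin (π * y0 / 2) x := by
  set M := maj (frameOf x.1) (rvec x.2)
  have hM : 0 ≤ M := maj_nonneg _ _
  set c := π * y0 / 2
  have hc : 0 < c := by positivity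
  rw [term, norm_mul, norm_mul, norm_mul, norm_ex_maj, domin, mul_assoc (|C| * phiNorm Φ)]
  refine mul_le_mul (mul_le_mul ((hC _).trans (le_abs_self C)) (norm_le_phiNorm Φ _)
    (norm_nonneg _) (abs_nonneg _)) ?_ (by positivity)
    (mul_nonneg (abs_nonneg _) (phiNorm_nonneg Φ))
  have hexp : Real.exp (-(2 * π * τ.im * M)) ≤ Real.exp (-(c * M)) * Real.exp (-(c * M)) := by
    rw [← Real.exp_add]
    refine Real.exp_le_exp.2 ?_
    have : c + c ≤ 2 * π * τ.im := by simp only [c]; nlinarith [Real.pi_pos]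
    nlinarith
  calc ‖W τ.im _‖ * Real.exp (-(2 * π * τ.im * M))
      ≤ |K| * (1 + M) ^ k * (Real.exp (-(c * M)) * Real.exp (-(c * M))) :=
        mul_le_mul (hW.trans (mul_le_mul_of_nonneg_right (le_abs_self K) (by positivity))) hexp
          (Real.exp_pos _).le (by positivity)
    _ = |K| * ((1 + M) ^ k * Real.exp (-(c * M))) * Real.exp (-(c * M)) := by ring
    _ ≤ _ := mul_le_mul_of_nonneg_right
        (mul_le_mul_of_nonneg_left (pow_mul_exp_le hc hM k) (abs_nonneg K)) (Real.exp_pos _).le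

/-- The bounds at one `τ`. -/
theorem exists_term_bounds {u : H3 → ℂ} {C : ℝ} (hC : ∀ p, ‖u p‖ ≤ C)
    (Φ : (Fin 4 → ZMod L) → ℂ) (W : Wgt) {y0 : ℝ} (hy0 : 0 < y0) :
    ∃ K : ℝ, ∀ τ : ℂ, τ.im ∈ Icc (y0 / 2) (2 * y0) → ∀ x,
      ‖term L u Φ W.P τ x‖ ≤ K * domin (π * y0 / 2) x ∧
        ‖termA L u Φ W.P τ x‖ + ‖termB L u Φ W τ x‖ ≤ K * domin (π * y0 / 2) x := by
  obtain ⟨K, hK0, hK⟩ := W.bound y0 hy0
  refine ⟨|C| * phiNorm Φ * (|K| * ((Nat.factorial 2 : ℝ) / (π * y0 / 2) ^ 2 *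
      Real.exp (π * y0 / 2))) +
    (|C| * phiNorm Φ * (|2 * π * K| * ((Nat.factorial 3 : ℝ) / (π * y0 / 2) ^ 3 *
      Real.exp (π * y0 / 2))) +
    |C| * phiNorm Φ * (|(1 + 4 * π) * K| * ((Nat.factorial 3 : ℝ) / (π * y0 / 2) ^ 3 *
      Real.exp (π * y0 / 2)))), fun τ hτ x => ?_⟩
  set M := maj (frameOf x.1) (rvec x.2)
  set n := (frameOf x.1).neg (rvec x.2) ^ 2
  have hn : 0 ≤ n := sq_nonneg _
  have hnM : n ≤ M := neg_sq_le_maj _ _
  have hM : 0 ≤ M := maj_nonneg _ _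
  obtain ⟨h1, h2⟩ := hK τ.im hτ n hn
  have hsq : (1 + n) ^ 2 ≤ (1 + M) ^ 2 := pow_le_pow_left₀ (by linarith) (by linarith) 2
  have b0 := norm_term_le hC Φ (W := W.P) hy0 hτ.1 x (h1.trans (mul_le_mul_of_nonneg_left hsq hK0))
  have bA : ‖termA L u Φ W.P τ x‖ ≤ |C| * phiNorm Φ * (|2 * π * K| *
      ((Nat.factorial 3 : ℝ) / (π * y0 / 2) ^ 3 * Real.exp (π * y0 / 2))) *
      domin (π * y0 / 2) x := by
    refine le_trans (le_of_eq ?_) (norm_term_le hC Φ
      (W := fun y m => (2 * π * I * (qf (rvec x.2) : ℝ)) * W.P y m) hy0 hτ.1 x ?_)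
    · simp only [termA, term]; congr 1; ring
    · rw [norm_mul, norm_mul, norm_mul, norm_mul, Complex.norm_I, Complex.norm_real,
        Complex.norm_real, Complex.norm_ofNat, Real.norm_eq_abs, Real.norm_eq_abs,
        abs_of_pos Real.pi_pos, mul_one]
      calc 2 * π * |qf (rvec x.2)| * ‖W.P τ.im n‖ ≤ 2 * π * (1 + M) * (K * (1 + M) ^ 2) := by
            refine mul_le_mul (mul_le_mul_of_nonneg_left ?_ (by positivity))
              (h1.trans (mul_le_mul_of_nonneg_left hsq hK0)) (norm_nonneg _) (by positivity)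
            linarith [abs_qf_le_maj (frameOf x.1) (rvec x.2)]
        _ = _ := by ring
  have bB : ‖termB L u Φ W τ x‖ ≤ |C| * phiNorm Φ * (|(1 + 4 * π) * K| *
      ((Nat.factorial 3 : ℝ) / (π * y0 / 2) ^ 3 * Real.exp (π * y0 / 2))) *
      domin (π * y0 / 2) x := by
    refine norm_term_le hC Φ hy0 hτ.1 x ((norm_sub_le _ _).trans ?_)
    rw [norm_mul, norm_mul, norm_mul, Complex.norm_real, Complex.norm_real, Complex.norm_ofNat,
      Real.norm_eq_abs, Real.norm_eq_abs, abs_of_pos Real.pi_pos, abs_of_nonneg hn]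
    calc ‖W.P' τ.im n‖ + 4 * π * n * ‖W.P τ.im n‖
        ≤ K * (1 + M) ^ 2 + 4 * π * (1 + M) * (K * (1 + M) ^ 2) := by
          refine add_le_add (h2.trans (mul_le_mul_of_nonneg_left hsq hK0)) ?_
          exact mul_le_mul (mul_le_mul_of_nonneg_left (by linarith) (by positivity))
            (h1.trans (mul_le_mul_of_nonneg_left hsq hK0)) (norm_nonneg _) (by positivity)
      _ ≤ K * (1 + M) ^ 3 + 4 * π * (1 + M) * (K * (1 + M) ^ 2) :=
          add_le_add (mul_le_mul_of_nonneg_left (pow_le_pow_right₀ (by linarith) (by norm_num)) hK0)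
            le_rfl
      _ = _ := by ring
  have hd : 0 ≤ domin (π * y0 / 2) x := (Real.exp_pos _).le
  have p1 := mul_nonneg (mul_nonneg (mul_nonneg (abs_nonneg C) (phiNorm_nonneg Φ))
    (mul_nonneg (abs_nonneg K) (show 0 ≤ (Nat.factorial 2 : ℝ) / (π * y0 / 2) ^ 2 *
      Real.exp (π * y0 / 2) by positivity))) hd
  have hA0 : 0 ≤ ‖termA L u Φ W.P τ x‖ + ‖termB L u Φ W τ x‖ := by positivity
  rw [add_mul, add_mul]
  constructor <;> linarith

/-- Real differentiability of a weighted lift. -/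
theorem hasFDerivAt_liftW {u : H3 → ℂ} (hu : IsU L u) (Φ : (Fin 4 → ZMod L) → ℂ) (W : Wgt)
    {τ : ℂ} (h : 0 < τ.im) :
    HasFDerivAt (liftW L u Φ W.P)
      (dmap (∫ x, termA L u Φ W.P τ x ∂muV L) (∫ x, termB L u Φ W τ x ∂muV L)) τ ∧
    Integrable (term L u Φ W.P τ) (muV L) ∧ Integrable (termA L u Φ W.P τ) (muV L) ∧
    Integrable (termB L u Φ W τ) (muV L) := by
  obtain ⟨C, hC⟩ := hu.bdd
  obtain ⟨K, hK⟩ := exists_term_bounds (L := L) hC Φ W h
  have hd := (integrable_domin (L := L) (show 0 < π * τ.im / 2 by positivity)).const_mul K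
  have hm := hu.cont.measurable
  have hmB : ∀ τ, Measurable (termB L u Φ W τ) := fun τ => measurable_term u hm Φ _
    (fun y => (W.meas' y).sub ((measurable_const.mul Complex.measurable_ofReal).mul (W.meas y))) τ
  have hmA : Measurable (termA L u Φ W.P τ) :=
    (measurable_from_prod_countable_left (f := fun x : H3 × (Fin 4 → ℤ) =>
      (2 * π * I * (qf (rvec x.2) : ℝ) : ℂ))
      fun v => (measurable_const : Measurable fun _ : H3 => (2 * π * I * (qf (rvec v) : ℝ) : ℂ))).mul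
      (measurable_term u hm Φ _ W.meas τ)
  have hy : τ.im ∈ Icc (τ.im / 2) (2 * τ.im) := ⟨by linarith, by linarith⟩
  have i0 : Integrable (term L u Φ W.P τ) (muV L) :=
    hd.mono' (measurable_term u hm Φ _ W.meas τ).aestronglyMeasurable
      (ae_of_all _ fun x => (hK τ hy x).1)
  have iA : Integrable (termA L u Φ W.P τ) (muV L) :=
    hd.mono' hmA.aestronglyMeasurable (ae_of_all _ fun x => by
      linarith [(hK τ hy x).2, norm_nonneg (termB L u Φ W τ x)])
  have iB : Integrable (termB L u Φ W τ) (muV L) :=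
    hd.mono' (hmB τ).aestronglyMeasurable (ae_of_all _ fun x => by
      linarith [(hK τ hy x).2, norm_nonneg (termA L u Φ W.P τ x)])
  refine ⟨?_, i0, iA, iB⟩
  have hmem : ∀ w ∈ Metric.ball τ (τ.im / 2), w.im ∈ Icc (τ.im / 2) (2 * τ.im) ∧ 0 < w.im := by
    intro w hw
    rw [Metric.mem_ball, dist_eq_norm] at hw
    have := abs_le.1 ((Complex.abs_im_le_norm (w - τ)).trans hw.le)
    rw [Complex.sub_im] at this
    exact ⟨⟨by linarith, by linarith⟩, by linarith⟩
  have := hasFDerivAt_integral_of_dominated_of_fderiv_le (μ := muV L)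
    (F := fun w x => term L u Φ W.P w x)
    (F' := fun w x => dmap (termA L u Φ W.P w x) (termB L u Φ W w x))
    (bound := fun x => K * domin (π * τ.im / 2) x)
    (Metric.ball_mem_nhds τ (half_pos h))
    (Eventually.of_forall fun w => (measurable_term u hm Φ _ W.meas w).aestronglyMeasurable)
    i0
    (by
      unfold dmap
      exact (iA.aestronglyMeasurable.smul_const _).add (iB.aestronglyMeasurable.smul_const _))
    (ae_of_all _ fun x w hw => (norm_dmap_le _ _).trans (hK w (hmem w hw).1 x).2)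
    hd (ae_of_all _ fun x w hw => hasFDerivAt_term u Φ W (hmem w hw).2 x)
  refine this.congr_fderiv ?_
  unfold dmap
  rw [integral_add (iA.smul_const _) (iB.smul_const _), integral_smul_const, integral_smul_const]

/-- The weight `√y`. -/
def wgtTh : Wgt where
  P y _ := (Real.sqrt y : ℂ)
  P' y _ := ((1 / (2 * Real.sqrt y) : ℝ) : ℂ)
  meas _ := measurable_const
  meas' _ := measurable_const
  deriv _ y hy := (Real.hasDerivAt_sqrt hy.ne').ofReal_comp
  bound y0 h0 := by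
    refine ⟨Real.sqrt (2 * y0) + 1 / (2 * Real.sqrt (y0 / 2)), by positivity, fun y hy n hn => ?_⟩
    have h1 : 1 ≤ (1 + n) ^ 2 := one_le_pow₀ (by linarith)
    have hs : 0 < Real.sqrt (y0 / 2) := Real.sqrt_pos.2 (half_pos h0)
    have e1 := Real.sqrt_le_sqrt hy.2
    have e2 : 1 / (2 * Real.sqrt y) ≤ 1 / (2 * Real.sqrt (y0 / 2)) :=
      one_div_le_one_div_of_le (by positivity)
        (mul_le_mul_of_nonneg_left (Real.sqrt_le_sqrt hy.1) (by norm_num))
    have e3 : 0 ≤ 1 / (2 * Real.sqrt y) := by positivity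
    have e4 : 0 ≤ Real.sqrt (2 * y0) := Real.sqrt_nonneg _
    have e5 : 0 ≤ 1 / (2 * Real.sqrt (y0 / 2)) := by positivity
    simp only [Complex.norm_real, Real.norm_eq_abs, abs_of_nonneg (Real.sqrt_nonneg y),
      abs_of_nonneg e3]
    constructor <;> refine le_trans ?_ (le_mul_of_one_le_right (by positivity) h1) <;> linarith

/-- The weight `(i/4) √y (1 - 8 π y n)` of `y ∂̄`. -/
def wgtH : Wgt where
  P y n := I / 4 * (Real.sqrt y * (1 - 8 * π * y * n) : ℝ)
  P' y n := I / 4 * (1 / (2 * Real.sqrt y) * (1 - 8 * π * y * n) - Real.sqrt y * (8 * π * n) : ℝ)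
  meas y := measurable_const.mul (Complex.measurable_ofReal.comp (by fun_prop))
  meas' y := measurable_const.mul (Complex.measurable_ofReal.comp (by fun_prop))
  deriv n y hy := by
    refine (((Real.hasDerivAt_sqrt hy.ne').mul ((((hasDerivAt_id y).const_mul (8 * π)).mul_const n).const_sub 1)).ofReal_comp.const_mul
      (I / 4)).congr_deriv ?_
    push_cast
    simp
    ring
  bound y0 h0 := by
    set a := Real.sqrt (2 * y0) + 1 / (2 * Real.sqrt (y0 / 2))
    have ha : 0 ≤ a := by positivity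
    refine ⟨a * (1 + 16 * π * y0 + 8 * π), by positivity, fun y hy n hn => ?_⟩
    have hy0 : 0 < y := lt_of_lt_of_le (half_pos h0) hy.1
    have e2 : 1 / (2 * Real.sqrt y) ≤ 1 / (2 * Real.sqrt (y0 / 2)) :=
      one_div_le_one_div_of_le (by positivity)
        (mul_le_mul_of_nonneg_left (Real.sqrt_le_sqrt hy.1) (by norm_num))
    have e1 := Real.sqrt_le_sqrt hy.2
    have s1 : Real.sqrt y ≤ a := by
      have : 0 ≤ 1 / (2 * Real.sqrt (y0 / 2)) := by positivity
      simp only [a]; linarith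
    have s2 : 1 / (2 * Real.sqrt y) ≤ a := by
      have : 0 ≤ Real.sqrt (2 * y0) := Real.sqrt_nonneg _
      simp only [a]; linarith
    have hp : |1 - 8 * π * y * n| ≤ (1 + 16 * π * y0) * (1 + n) := by
      have h3 : 8 * π * y * n ≤ 16 * π * y0 * n := by
        have := mul_le_mul_of_nonneg_right hy.2 hn
        nlinarith [Real.pi_pos]
      have h4 : 0 ≤ 8 * π * y * n := by positivity
      have h5 : 0 ≤ 16 * π * y0 := by positivity
      exact abs_le.2 ⟨by nlinarith, by nlinarith⟩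
    have h2 : 1 + n ≤ (1 + n) ^ 2 := le_self_pow₀ (by linarith) (by norm_num)
    have h4 : (0 : ℝ) ≤ 1 + n := by linarith
    have hI : ‖(I / 4 : ℂ)‖ = 1 / 4 := by simp
    simp only [norm_mul, hI, Complex.norm_real, Real.norm_eq_abs]
    have m1 : |Real.sqrt y * (1 - 8 * π * y * n)| ≤ a * ((1 + 16 * π * y0) * (1 + n) ^ 2) := by
      rw [abs_mul, abs_of_nonneg (Real.sqrt_nonneg y)]
      exact mul_le_mul s1 (hp.trans (mul_le_mul_of_nonneg_left h2 (by positivity))) (abs_nonneg _) ha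
    have m2 : |1 / (2 * Real.sqrt y) * (1 - 8 * π * y * n) - Real.sqrt y * (8 * π * n)| ≤
        a * ((1 + 16 * π * y0) * (1 + n) ^ 2) + a * (8 * π * (1 + n) ^ 2) := by
      refine (abs_sub _ _).trans (add_le_add ?_ ?_)
      · rw [abs_mul, abs_of_nonneg (by positivity : (0 : ℝ) ≤ 1 / (2 * Real.sqrt y))]
        exact mul_le_mul s2 (hp.trans (mul_le_mul_of_nonneg_left h2 (by positivity))) (abs_nonneg _) ha
      · rw [abs_of_nonneg (by positivity : (0 : ℝ) ≤ Real.sqrt y * (8 * π * n))]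
        exact mul_le_mul s1 (mul_le_mul_of_nonneg_left (by nlinarith) (by positivity)) (by positivity) ha
    have m3 : 0 ≤ a * (8 * π * (1 + n) ^ 2) := by positivity
    have m4 : 0 ≤ a * ((1 + 16 * π * y0) * (1 + n) ^ 2) := by positivity
    have e : a * (1 + 16 * π * y0 + 8 * π) * (1 + n) ^ 2 =
        a * ((1 + 16 * π * y0) * (1 + n) ^ 2) + a * (8 * π * (1 + n) ^ 2) := by ring
    simp only [← abs_mul]
    constructor <;> linarith [abs_nonneg (Real.sqrt y * (1 - 8 * π * y * n)),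
      abs_nonneg (1 / (2 * Real.sqrt y) * (1 - 8 * π * y * n) - Real.sqrt y * (8 * π * n))]

variable {u : H3 → ℂ} (hu : IsU L u) (Φ : (Fin 4 → ZMod L) → ℂ)

/-- `y ∂̄` of the lift. -/
def liftH (L : ℕ) (u : H3 → ℂ) (Φ : (Fin 4 → ZMod L) → ℂ) (τ : ℂ) : ℂ :=
  liftW L u Φ wgtH.P τ

theorem integral_muV {f : H3 × (Fin 4 → ℤ) → ℂ} (hf : Integrable f (muV L)) :
    ∫ x, f x ∂muV L = ∫ p, ∑' v, f (p, v) ∂muL L := by
  rw [muV, integral_prod _ hf]
  refine integral_congr_ae ?_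
  filter_upwards [hf.prod_right_ae] with p hp
  rw [integral_countable' hp]
  exact tsum_congr fun v => by simp

include hu

theorem liftTh_eq_liftW {τ : ℂ} (h : 0 < τ.im) :
    liftTh L u Φ τ = liftW L u Φ wgtTh.P τ := by
  rw [liftW, integral_muV (hasFDerivAt_liftW hu Φ wgtTh h).2.1, liftTh, ← integral_const_mul]
  refine integral_congr_ae (ae_of_all _ fun p => ?_)
  simp only [exSum, ← tsum_mul_left]
  refine tsum_congr fun v => ?_
  simp only [term, wgtTh]
  ring

/-- The lift is real differentiable and `y ∂̄` of it is `liftH`. -/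
theorem hasFDerivAt_liftTh {τ : ℂ} (h : 0 < τ.im) :
    ∃ a b : ℂ, HasFDerivAt (liftTh L u Φ) (dmap a b) τ ∧
      (τ.im : ℂ) * (I / 2) * b = liftH L u Φ τ := by
  obtain ⟨hd, -, -, -⟩ := hasFDerivAt_liftW hu Φ wgtTh h
  refine ⟨_, _, hd.congr_of_eventuallyEq ?_, ?_⟩
  · filter_upwards [(isOpen_lt continuous_const Complex.continuous_im).mem_nhds h] with w hw
    exact liftTh_eq_liftW hu Φ hw
  · rw [← integral_const_mul, liftH, liftW]
    refine integral_congr_ae (ae_of_all _ fun x => ?_)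
    simp only [termB, term, wgtTh, wgtH]
    have hs : (Real.sqrt τ.im : ℂ) ≠ 0 := Complex.ofReal_ne_zero.2 (Real.sqrt_pos.2 h).ne'
    have hs2 : (τ.im : ℂ) = (Real.sqrt τ.im : ℂ) ^ 2 := by
      rw [← Complex.ofReal_pow, Real.sq_sqrt h.le]
    push_cast
    field_simp
    rw [hs2]
    field_simp
    ring

/-- `∂_τ` of `y ∂̄ f` vanishes. -/
theorem hasFDerivAt_liftH {τ : ℂ} (h : 0 < τ.im) :
    ∃ b : ℂ, HasFDerivAt (liftH L u Φ) (dmap (I / 2 * b) b) τ := by
  obtain ⟨hd, -, iA, iB⟩ := hasFDerivAt_liftW hu Φ wgtH h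
  refine ⟨∫ x, termB L u Φ wgtH τ x ∂muV L, ?_⟩
  show HasFDerivAt (liftW L u Φ wgtH.P) _ τ
  refine hd.congr_fderiv ?_
  congr 1
  rw [← sub_eq_zero, ← integral_const_mul, ← integral_sub iA (iB.const_mul _),
    integral_muV (f := fun a => termA L u Φ wgtH.P τ a - I / 2 * termB L u Φ wgtH τ a)
      (iA.sub (iB.const_mul _))]
  have key := integral_mul_opSum (Φ := Φ) hu h
  have hy : (τ.im : ℂ) ≠ 0 := Complex.ofReal_ne_zero.2 h.ne'
  have hs : (Real.sqrt τ.im : ℂ) ≠ 0 := Complex.ofReal_ne_zero.2 (Real.sqrt_pos.2 h).ne'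
  have hs2 : (τ.im : ℂ) = (Real.sqrt τ.im : ℂ) ^ 2 := by
    rw [← Complex.ofReal_pow, Real.sq_sqrt h.le]
  calc ∫ p, ∑' v, (termA L u Φ wgtH.P τ (p, v) - I / 2 * termB L u Φ wgtH τ (p, v)) ∂muL L
      = ∫ p, (1 / (16 * (Real.sqrt τ.im : ℂ))) * (u p * opSum Φ τ p) ∂muL L := by
        refine integral_congr_ae (ae_of_all _ fun p => ?_)
        simp only [opSum, ← tsum_mul_left]
        refine tsum_congr fun v => ?_
        simp only [termA, termB, term, wgtH, opEx]
        push_cast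
        field_simp
        rw [hs2]
        ring_nf
        simp only [I_sq]
        ring
    _ = 0 := by rw [integral_const_mul, key, mul_zero]

/-- If `y ∂̄ f` vanishes the lift is holomorphic. -/
theorem differentiableAt_liftTh {τ : ℂ} (h : 0 < τ.im) (h0 : liftH L u Φ τ = 0) :
    DifferentiableAt ℂ (liftTh L u Φ) τ := by
  obtain ⟨a, b, hd, hb⟩ := hasFDerivAt_liftTh hu Φ h
  rw [h0] at hb
  have hb0 : b = 0 := by simpa [h.ne'] using hb
  subst hb0
  exact ⟨a • (1 : ℂ →L[ℂ] ℂ), hasFDerivAt_of_restrictScalars ℝ hd (by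
    ext w; simp [dmap_apply])⟩

/-- The conjugate of `y ∂̄ f` is holomorphic. -/
theorem differentiableAt_conj_liftH {τ : ℂ} (h : 0 < τ.im) :
    DifferentiableAt ℂ (fun w => conj (liftH L u Φ w)) τ := by
  obtain ⟨b, hd⟩ := hasFDerivAt_liftH hu Φ h
  have hc := Complex.conjCLE.toContinuousLinearMap.hasFDerivAt.comp τ hd
  refine ⟨conj (I / 2 * b) • (1 : ℂ →L[ℂ] ℂ), hasFDerivAt_of_restrictScalars ℝ hc ?_⟩
  ext w
  have hw : (w.im : ℂ) = (w - conj w) / (2 * I) := by
    rw [Complex.sub_conj]; push_cast; field_simp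
  simp [dmap_apply, hw]
  field_simp
  ring_nf
  simp only [I_sq]
  ring

/-- Both are `O(√y)`. -/
theorem exists_lift_bound :
    ∃ K : ℝ, 0 ≤ K ∧ ∀ τ : ℂ, 1 ≤ τ.im →
      ‖liftTh L u Φ τ‖ ≤ K * Real.sqrt τ.im ∧ ‖liftH L u Φ τ‖ ≤ K * Real.sqrt τ.im := by
  obtain ⟨C, hC⟩ := hu.bdd
  set D := |C| * phiNorm Φ
  have hD : 0 ≤ D := mul_nonneg (abs_nonneg _) (phiNorm_nonneg Φ)
  set E := 8 * (1 + Real.exp π)
  refine ⟨D * E * ∫ x, domin π x ∂muV L,
    mul_nonneg (mul_nonneg hD (by positivity)) (integral_nonneg fun x => (Real.exp_pos _).le),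
    fun τ hτ => ?_⟩
  have h : 0 < τ.im := by linarith
  have key : ∀ (W : ℝ → ℝ → ℂ),
      (∀ n, 0 ≤ n → ‖W τ.im n‖ ≤ Real.sqrt τ.im * (1 + 8 * π * τ.im * n)) →
      ‖liftW L u Φ W τ‖ ≤ (D * E * ∫ x, domin π x ∂muV L) * Real.sqrt τ.im := fun W hW => by
    have hd := ((integrable_domin (L := L) Real.pi_pos).const_mul (D * E)).mul_const (Real.sqrt τ.im)
    rw [← integral_const_mul, ← integral_mul_const]
    refine norm_integral_le_of_norm_le hd (ae_of_all _ fun x => ?_)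
    rw [term, norm_mul, norm_mul, norm_mul, norm_ex_maj, domin,
      show D * E * Real.exp (-(π * maj (frameOf x.1) (rvec x.2))) * Real.sqrt τ.im =
        D * (Real.sqrt τ.im * (E * Real.exp (-(π * maj (frameOf x.1) (rvec x.2))))) by ring]
    refine mul_le_mul (mul_le_mul ((hC _).trans (le_abs_self C)) (norm_le_phiNorm Φ _)
      (norm_nonneg _) (abs_nonneg _)) ?_ (by positivity) hD
    set M := maj (frameOf x.1) (rvec x.2)
    have hM : 0 ≤ M := maj_nonneg _ _
    have hn := neg_sq_le_maj (frameOf x.1) (rvec x.2)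
    set z := τ.im * M
    have hz : 0 ≤ z := mul_nonneg h.le hM
    refine le_trans (mul_le_mul_of_nonneg_right ((hW _ (sq_nonneg _)).trans
      (mul_le_mul_of_nonneg_left (show _ ≤ 1 + 8 * π * z by
        have := mul_le_mul_of_nonneg_left hn (show 0 ≤ 8 * π * τ.im by positivity)
        simp only [z]; linarith) (Real.sqrt_nonneg _))) (Real.exp_pos _).le) ?_
    rw [mul_assoc]
    refine mul_le_mul_of_nonneg_left ?_ (Real.sqrt_nonneg _)
    rw [show -(2 * π * τ.im * M) = -(π * z) + -(π * z) by simp only [z]; ring, Real.exp_add,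
      ← mul_assoc]
    refine mul_le_mul ?_ (Real.exp_le_exp.2 ?_) (Real.exp_pos _).le (by positivity)
    · have h1 := pow_mul_exp_le Real.pi_pos hz 1
      have h2 : 1 + 8 * π * z ≤ 8 * π * (1 + z) := by nlinarith [Real.two_le_pi]
      calc (1 + 8 * π * z) * Real.exp (-(π * z))
          ≤ 8 * π * (1 + z) * Real.exp (-(π * z)) :=
            mul_le_mul_of_nonneg_right h2 (Real.exp_pos _).le
        _ ≤ 8 * π * (1 / π * Real.exp π) := by
            rw [mul_assoc]
            exact mul_le_mul_of_nonneg_left (by simpa using h1) (by positivity)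
        _ ≤ E := by simp only [E]; field_simp; linarith
    · exact neg_le_neg (mul_le_mul_of_nonneg_left (le_mul_of_one_le_left hM hτ) Real.pi_pos.le)
  refine ⟨?_, key wgtH.P fun n hn => ?_⟩
  · rw [liftTh_eq_liftW hu Φ h]
    refine key wgtTh.P fun n hn => ?_
    show ‖(Real.sqrt τ.im : ℂ)‖ ≤ _
    rw [Complex.norm_real, Real.norm_eq_abs, abs_of_nonneg (Real.sqrt_nonneg _)]
    exact le_mul_of_one_le_right (Real.sqrt_nonneg _) (by
      linarith [show 0 ≤ 8 * π * τ.im * n by positivity])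
  · simp only [wgtH, norm_mul, Complex.norm_real, Real.norm_eq_abs]
    rw [abs_of_nonneg (Real.sqrt_nonneg _)]
    have hI : ‖(I / 4 : ℂ)‖ = 1 / 4 := by simp
    rw [hI]
    have h3 : 0 ≤ 8 * π * τ.im * n := by positivity
    have h4 : |1 - 8 * π * τ.im * n| ≤ 1 + 8 * π * τ.im * n := abs_le.2 ⟨by linarith, by linarith⟩
    have h5 := mul_le_mul_of_nonneg_left h4 (Real.sqrt_nonneg τ.im)
    have h6 : 0 ≤ Real.sqrt τ.im * (1 + 8 * π * τ.im * n) := by positivity
    linarith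

end FLTAgent.LT.Theta31
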