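import Fermat.Agent.LT.Theta31.Family
import Mathlib.NumberTheory.LegendreSymbol.QuadraticChar.Basic
import Mathlib.NumberTheory.DirichletCharacter.Basic

/-!
# The families of lifts are modular of weight one on `Γ₀(9 L²)` with character
-/

set_option autoImplicit false
set_option linter.unusedSectionVars false

noncomputable section

namespace FLTAgent.LT.Theta31

open Complex Matrix MeasureTheory
open scoped Real ComplexConjugate MatrixGroups ModularForm UpperHalfPlane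
open UpperHalfPlane (ofComplex)
open CongruenceSubgroup

theorem natPrimeThree : Fact (Nat.Prime 3) := ⟨Nat.prime_three⟩

attribute [local instance] natPrimeThree

/-- The character of `ℚ(√-3)`. -/
def chiThree : DirichletCharacter ℂ 3 :=
  (quadraticChar (ZMod 3)).ringHomComp (Int.castRingHom ℂ)

theorem chiThree_one : chiThree 1 = 1 := map_one _

theorem chiThree_two : chiThree 2 = -1 := by
  have h : quadraticChar (ZMod 3) 2 = -1 := by decide
  show ((quadraticChar (ZMod 3) 2 : ℤ) : ℂ) = -1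
  rw [h]
  norm_num

variable {L : ℕ}

/-- The sign character at `3`. -/
def signThree (et : DirichletCharacter ℂ L) : DirichletCharacter ℂ 3 :=
  open Classical in if et (-1) = 1 then chiThree else 1

theorem dvd_nine_sq (L : ℕ) : L ∣ 9 * L ^ 2 := ⟨9 * L, by ring⟩

theorem three_dvd_nine_sq (L : ℕ) : 3 ∣ 9 * L ^ 2 := ⟨3 * L ^ 2, by ring⟩

/-- The nebentypus of the lifts with coefficients homogeneous of character `et`. -/
def nebChar (et : DirichletCharacter ℂ L) : DirichletCharacter ℂ (9 * L ^ 2) :=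
  DirichletCharacter.changeLevel (dvd_nine_sq L) et *
    DirichletCharacter.changeLevel (three_dvd_nine_sq L) (signThree et)

theorem nebChar_intCast (et : DirichletCharacter ℂ L) {d : ℤ}
    (hd : IsUnit (d : ZMod (9 * L ^ 2))) :
    nebChar et (d : ZMod (9 * L ^ 2)) = et (d : ZMod L) * signThree et (d : ZMod 3) := by
  rw [nebChar, MulChar.mul_apply]
  obtain ⟨u, hu⟩ := hd
  rw [← hu, DirichletCharacter.changeLevel_eq_cast_of_dvd, DirichletCharacter.changeLevel_eq_cast_of_dvd,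
    hu, ZMod.cast_intCast (dvd_nine_sq L), ZMod.cast_intCast (three_dvd_nine_sq L)]

/-- A prime in the class of `d` modulo `c`. -/
theorem exists_prime_class {c d : ℤ} (hc : c ≠ 0) (hcop : IsCoprime d c) :
    ∃ q : ℕ, q.Prime ∧ ∃ j : ℤ, (q : ℤ) = d + j * c := by
  haveI : NeZero c.natAbs := ⟨Int.natAbs_ne_zero.2 hc⟩
  have hu : IsUnit (d : ZMod c.natAbs) := by
    obtain ⟨a, b, hab⟩ := hcop
    refine IsUnit.of_mul_eq_one (a : ZMod c.natAbs) ?_
    have e := congrArg (Int.cast : ℤ → ZMod c.natAbs) hab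
    push_cast at e
    rw [(ZMod.intCast_zmod_eq_zero_iff_dvd c _).2 (Int.natAbs_dvd.2 dvd_rfl), mul_zero, add_zero] at e
    rw [mul_comm, e]
  obtain ⟨q, -, hq, hqd⟩ := Nat.forall_exists_prime_gt_and_eq_mod hu 0
  refine ⟨q, hq, ?_⟩
  have h : ((q : ℤ) : ZMod c.natAbs) = (d : ZMod c.natAbs) := by exact_mod_cast hqd
  obtain ⟨j, hj⟩ := (Int.natAbs_dvd.1 ((ZMod.intCast_eq_intCast_iff_dvd_sub _ _ _).1 h.symm) : c ∣ (q : ℤ) - d)
  exact ⟨j, by linear_combination hj⟩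

variable {ι : Type*} [Fintype ι] [NeZero L]

/-- Transformation of the lifts with `d ≡ 1 mod 3`. -/
theorem famTh_moebius (u : ι → H3 → ℂ) (Φ : ι → (Fin 4 → ZMod L) → ℂ) {a b c d : ℤ}
    (hdet : a * d - b * c = 1) (hc : (9 * L ^ 2 : ℤ) ∣ c) (h3 : (d : ZMod 3) = 1) {τ : ℂ}
    (hτ : 0 < τ.im) :
    famTh L u Φ ((a * τ + b) / (c * τ + d)) =
      (c * τ + d) * famTh L u (fun i R => Φ i ((d : ZMod L) • R)) τ := by
  rcases eq_or_ne c 0 with rfl | hc0
  · rw [mul_zero, sub_zero] at hdet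
    rcases Int.eq_one_or_neg_one_of_mul_eq_one' hdet with ⟨rfl, rfl⟩ | ⟨rfl, rfl⟩
    · simp [famTh_add_intCast]
    · exact absurd h3 (by decide)
  obtain ⟨q, hq, j, hj⟩ := exists_prime_class (d := d) hc0 ⟨a, -b, by linear_combination hdet⟩
  haveI := Fact.mk hq
  haveI : NeZero q := ⟨hq.ne_zero⟩
  have hdet' : a * (q : ℤ) - (a * j + b) * c = 1 := by rw [hj]; linear_combination hdet
  have hq3 : q % 3 = 1 := by
    have h9 : ((c : ℤ) : ZMod 3) = 0 := (ZMod.intCast_zmod_eq_zero_iff_dvd c 3).2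
      (Dvd.dvd.trans ⟨3 * (L : ℤ) ^ 2, by push_cast; ring⟩ hc)
    have e := congrArg (Int.cast : ℤ → ZMod 3) hj
    push_cast at e
    rw [h9, mul_zero, add_zero, h3] at e
    have := (ZMod.natCast_eq_natCast_iff' q 1 3).1 (by simpa using e)
    simpa using this
  have hb0 : ((a * j + b : ℤ) : ZMod q) ≠ 0 := fun e => by
    have := congrArg (Int.cast : ℤ → ZMod q) hdet'
    push_cast at this e
    rw [ZMod.natCast_self, e] at this
    simp at this
  have hτ' : 0 < (τ - (j : ℂ)).im := by simpa using hτ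
  have hqL : (q : ZMod L) = (d : ZMod L) := by
    have e := congrArg (Int.cast : ℤ → ZMod L) hj
    push_cast at e
    rw [(ZMod.intCast_zmod_eq_zero_iff_dvd c L).2
      (Dvd.dvd.trans ⟨9 * (L : ℤ), by ring⟩ hc), mul_zero, add_zero] at e
    exact e
  have hpt : ((a : ℂ) * τ + b) / (c * τ + d) =
      ((a : ℂ) * (τ - j) + (a * j + b : ℤ)) / (c * (τ - j) + (q : ℤ)) := by
    rw [hj]; push_cast; ring_nf
  have hfac : (c : ℂ) * τ + d = c * (τ - j) + (q : ℤ) := by rw [hj]; push_cast; ring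
  rw [hpt, hfac, ← famTh_add_intCast (u := u) (fun i R => Φ i ((d : ZMod L) • R)) τ (-j),
    show τ + ((-j : ℤ) : ℂ) = τ - j by push_cast; ring]
  simp only [famTh, Finset.mul_sum, liftTh_eq_integral_th]
  refine Finset.sum_congr rfl fun i _ => ?_
  rw [← integral_const_mul]
  refine integral_congr_ae (ae_of_all _ fun p => ?_)
  have key := th_moebius (frameOf p) (d := q) (Φ i) hdet' hc hτ'
  rw [gauss_split hq3 hb0, div_self (pow_ne_zero 2 (Nat.cast_ne_zero.2 hq.ne_zero)), one_mul,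
    hqL] at key
  show u i p * th (frameOf p) L (Φ i) _ = _
  rw [Int.cast_natCast, key]
  ring

theorem coprime_lowerRight {M : ℕ} {γ : SL(2, ℤ)} (hγ : γ ∈ Gamma0 M) :
    IsUnit ((γ 1 1 : ℤ) : ZMod M) := by
  have h := congrArg (Int.cast : ℤ → ZMod M) (Matrix.det_fin_two γ.1)
  rw [γ.2] at h
  push_cast at h
  rw [Gamma0_mem.1 hγ, mul_zero, sub_zero] at h
  exact IsUnit.of_mul_eq_one (γ 0 0 : ZMod M) (by rw [mul_comm]; exact h.symm)

/-- Coefficients homogeneous of character `et`. -/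
def IsHomog (et : DirichletCharacter ℂ L) (Φ : ι → (Fin 4 → ZMod L) → ℂ) : Prop :=
  ∀ i (t : (ZMod L)ˣ) R, Φ i ((t : ZMod L) • R) = et (t : ZMod L) * Φ i R

/-- **Modularity.** -/
theorem famTh_gamma0 (u : ι → H3 → ℂ) {Φ : ι → (Fin 4 → ZMod L) → ℂ}
    {et : DirichletCharacter ℂ L} (hΦ : IsHomog et Φ) {γ : SL(2, ℤ)}
    (hγ : γ ∈ Gamma0 (9 * L ^ 2)) {τ : ℂ} (hτ : 0 < τ.im) :
    famTh L u Φ (((γ 0 0 : ℤ) * τ + (γ 0 1 : ℤ)) / ((γ 1 0 : ℤ) * τ + (γ 1 1 : ℤ))) =
      ((γ 1 0 : ℤ) * τ + (γ 1 1 : ℤ)) *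
        (nebChar et ((γ 1 1 : ℤ) : ZMod (9 * L ^ 2)) * famTh L u Φ τ) := by
  have hu := coprime_lowerRight hγ
  rw [nebChar_intCast et hu]
  have hc : (9 * L ^ 2 : ℤ) ∣ γ 1 0 := by
    have := (ZMod.intCast_zmod_eq_zero_iff_dvd _ _).1 (Gamma0_mem.1 hγ)
    exact_mod_cast this
  have hdet : γ 0 0 * γ 1 1 - γ 0 1 * γ 1 0 = 1 := (Matrix.det_fin_two γ.1).symm.trans γ.2
  set a := γ 0 0
  set b := γ 0 1
  set c := γ 1 0
  set d := γ 1 1
  have huL : IsUnit (d : ZMod L) := by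
    have := hu.map (ZMod.castHom (dvd_nine_sq L) (ZMod L))
    rwa [map_intCast] at this
  have hu3 : IsUnit (d : ZMod 3) := by
    have := hu.map (ZMod.castHom (three_dvd_nine_sq L) (ZMod 3))
    rwa [map_intCast] at this
  have hhom : ∀ e : ℤ, IsUnit (e : ZMod L) →
      famTh L u (fun i R => Φ i ((e : ZMod L) • R)) τ = et (e : ZMod L) * famTh L u Φ τ := by
    intro e he
    obtain ⟨t, ht⟩ := he
    rw [← famTh_smul, ← ht]
    simp only [hΦ _ t]
  have hcases : ∀ x : ZMod 3, IsUnit x → x = 1 ∨ x = 2 := by decide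
  rcases hcases _ hu3 with h3 | h3
  · rw [famTh_moebius u Φ hdet hc h3 hτ, hhom d huL, h3, map_one, mul_one]
  · have key := famTh_moebius u Φ (a := -a) (b := -b) (c := -c) (d := -d)
      (by linear_combination hdet) (Dvd.dvd.neg_right hc) (by push_cast; rw [h3]; decide) hτ
    have e : (((-a : ℤ) : ℂ) * τ + ((-b : ℤ) : ℂ)) / (((-c : ℤ) : ℂ) * τ + ((-d : ℤ) : ℂ)) =
        ((a : ℂ) * τ + b) / (c * τ + d) := by
      push_cast
      rw [← neg_div_neg_eq]
      ring_nf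
    rw [e, hhom (-d) (by push_cast; exact huL.neg)] at key
    rw [key, h3]
    have hEta : et ((-d : ℤ) : ZMod L) = et (-1) * et (d : ZMod L) := by
      rw [← map_mul]; push_cast; ring_nf
    have hs : signThree et 2 = -et (-1) := by
      have hsq : et (-1) * et (-1) = 1 := by rw [← map_mul]; simp
      have h2 : IsUnit (2 : ZMod 3) := IsUnit.of_mul_eq_one (2 : ZMod 3) (by decide)
      rcases mul_self_eq_one_iff.1 hsq with h | h
      · rw [signThree, if_pos h, chiThree_two, h]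
      · rw [signThree, if_neg (by rw [h]; norm_num), MulChar.one_apply h2, h, neg_neg]
    rw [hEta, hs]
    push_cast
    ring

variable {u : ι → H3 → ℂ} (hu : ∀ i, IsU L (u i)) (Φ : ι → (Fin 4 → ZMod L) → ℂ)

/-- The chosen function as a function on the upper half plane. -/
def opH (b : Bool) (L : ℕ) (u : ι → H3 → ℂ) (Φ : ι → (Fin 4 → ZMod L) → ℂ) : ℍ → ℂ :=
  fun z => opF b (famTh L u Φ) (z : ℂ)

/-- The character of the chosen function. -/
def nebOp (b : Bool) (et : DirichletCharacter ℂ L) : DirichletCharacter ℂ (9 * L ^ 2) :=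
  (nebChar et).ringHomComp (cj b)

theorem slOne_ne_zero (γ : SL(2, ℤ)) {τ : ℂ} (hτ : 0 < τ.im) :
    ((γ 1 0 : ℤ) : ℂ) * τ + (γ 1 1 : ℤ) ≠ 0 := fun e => by
  have h1 := congrArg Complex.im e
  simp [hτ.ne'] at h1
  rw [h1] at e
  simp at e
  have hdet := (Matrix.det_fin_two γ.1).symm.trans γ.2
  rw [h1, e] at hdet
  simp at hdet

theorem slash_one_apply (f : ℍ → ℂ) (γ : SL(2, ℤ)) (z : ℍ) :
    (f ∣[(1 : ℤ)] γ) z = f (γ • z) * ((((γ 1 0 : ℤ) : ℂ) * z + (γ 1 1 : ℤ)))⁻¹ := by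
  rw [ModularForm.SL_slash_apply, _root_.zpow_neg, zpow_one, ModularGroup.denom_apply]

theorem coe_smul_SL (γ : SL(2, ℤ)) (z : ℍ) :
    ((γ • z : ℍ) : ℂ) = ((γ 0 0 : ℤ) * (z : ℂ) + (γ 0 1 : ℤ)) /
      ((γ 1 0 : ℤ) * (z : ℂ) + (γ 1 1 : ℤ)) := by
  rw [UpperHalfPlane.coe_specialLinearGroup_apply]
  simp

include hu in
theorem opH_slash (b : Bool) {et : DirichletCharacter ℂ L} (hΦ : IsHomog et Φ) {γ : SL(2, ℤ)}
    (hγ : γ ∈ Gamma0 (9 * L ^ 2)) :
    opH b L u Φ ∣[(1 : ℤ)] γ =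
      nebOp b et ((γ 1 1 : ℤ) : ZMod (9 * L ^ 2)) • opH b L u Φ := by
  funext z
  rw [slash_one_apply, Pi.smul_apply, smul_eq_mul, opH, opH, coe_smul_SL]
  set ε := nebChar et ((γ 1 1 : ℤ) : ZMod (9 * L ^ 2))
  have hdet : ((γ 0 0 : ℤ) : ℝ) * (γ 1 1 : ℤ) - ((γ 0 1 : ℤ) : ℝ) * (γ 1 0 : ℤ) = 1 := by
    exact_mod_cast (Matrix.det_fin_two γ.1).symm.trans γ.2
  have key := opF_moebius b (G := fun w => ε * famTh L u Φ w) hdet
    (fun w hw => by simpa using slOne_ne_zero γ hw) (rdiff_famTh hu Φ)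
    ((rdiff_famTh hu Φ).const_mul ε) (fun w hw => by simpa using famTh_gamma0 u hΦ hγ hw) z.im_pos
  rw [opF_const_mul b (rdiff_famTh hu Φ _ z.im_pos)] at key
  push_cast at key
  have hne := slOne_ne_zero γ z.im_pos
  rw [key]
  simp only [nebOp, MulChar.ringHomComp_apply]
  field_simp
  exact mul_comm _ _

end FLTAgent.LT.Theta31
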