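import Fermat.Agent.LT.Theta31.NonvanishPlane
import Fermat.Agent.LT.Theta31.Lift
import Fermat.Agent.LT.TF.EllipticUnfold

/-!
# A nonzero period gives a nonzero lift

The coefficient function is the indicator of the orbit of `X₀ = [[0, √-3], [-√-3, 0]]`. As `y → ∞`
the renormalised lift concentrates on the real plane and tends to a multiple of the period.
-/

set_option autoImplicit false
set_option linter.unusedSectionVars false
set_option linter.style.haveILetI false
set_option synthInstance.maxHeartbeats 200000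

noncomputable section

namespace FLTAgent.LT.Theta31

open Complex hiding Gamma
open Matrix MeasureTheory Set Hyp Filter
open scoped ComplexConjugate MatrixGroups UpperHalfPlane ENNReal Topology Real
open CongruenceSubgroup

attribute [local instance] Asai.countable_SL2Z countable_Gamma

instance measurableConstSMul_slOL (N : ℕ) : MeasurableConstSMul (slOL N) H3 :=
  ⟨fun g => measurable_const_smul (g : slO)⟩

theorem slOL_le_of_dvd {L M : ℕ} (h : L ∣ M) : slOL M ≤ slOL L := by
  intro g hg i j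
  obtain ⟨y, hy, e⟩ := hg i j
  obtain ⟨k, rfl⟩ := h
  exact ⟨(k : ℂ) * y, mul_mem (natCast_mem Ow _) hy, by rw [e]; push_cast; ring⟩

theorem neg_smul (g : slO) (p : H3) (v : Fin 4 → ℤ) :
    (frameOf (g • p)).neg (rvec (congV g.1.val v)) = (frameOf p).neg (rvec v) :=
  neg_frameOf_act g.1 p (by rw [norm_det_slO, ofReal_one, one_smul, hermX_congV g.2.1])

theorem qf_congV (g : slO) (v : Fin 4 → ℤ) : qf (congV g.1.val v) = qf v := by
  have h : qf (rvec (congV g.1.val v)) = qf (rvec v) := by
    apply ofReal_injective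
    rw [coe_qf, coe_qf, hermX_congV g.2.1, det_mul, det_mul, det_conjTranspose, g.2.2]
    simp
  rw [show rvec (congV g.1.val v) = fun i => Int.castRingHom ℝ (congV g.1.val v i) from rfl,
    show rvec v = fun i => Int.castRingHom ℝ (v i) from rfl, ← map_qf, ← map_qf] at h
  exact Int.cast_injective h

theorem congV_slPl (γ : SL(2, ℤ)) : congV (slPl γ).1.val planeVec = planeVec := by
  refine rvec_injective (hermX_injective ?_)
  rw [hermX_congV (slPl γ).2.1, hermX_planeVec, Matrix.mul_smul, Matrix.smul_mul,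
    conjTranspose_eq]
  congr 1
  have e : cjM (slPl γ).1.val = (slPl γ).1.val := by
    ext i j
    simp [cjM, slPl_apply]
  rw [e, mul_symp_mul_transpose, (slPl γ).2.2, one_smul]

theorem slPl_mem {N : ℕ} {γ : SL(2, ℤ)} (h : γ ∈ Gamma N) : slPl γ ∈ slOL N := by
  rw [Gamma_mem] at h
  obtain ⟨h1, h2, h3, h4⟩ := h
  have key : ∀ (i j : Fin 2) (c : ℤ), ((γ i j : ℤ) : ZMod N) = (c : ZMod N) →
      (1 : Matrix (Fin 2) (Fin 2) ℂ) i j = (c : ℂ) →
      DvdOw N ((slPl γ).1.val i j - (1 : Matrix (Fin 2) (Fin 2) ℂ) i j) := by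
    intro i j c hc h1
    obtain ⟨z, hz⟩ := (ZMod.intCast_eq_intCast_iff_dvd_sub c (γ i j) N).1 hc.symm
    refine ⟨z, intCast_mem Ow _, ?_⟩
    rw [slPl_apply, h1]
    exact_mod_cast hz
  intro i j
  fin_cases i <;> fin_cases j
  · exact key 0 0 1 (by simpa using h1) (by simp)
  · exact key 0 1 0 (by simpa using h2) (by simp)
  · exact key 1 0 0 (by simpa using h3) (by simp)
  · exact key 1 1 1 (by simpa using h4) (by simp)

/-- The stabiliser of `X₀` in `Γ(N)`. -/
def stabV (N : ℕ) : Subgroup (slOL N) where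
  carrier := {g | congV (g : slO).1.val planeVec = planeVec}
  one_mem' := congV_one _
  mul_mem' {a b} (ha : congV (a : slO).1.val planeVec = planeVec)
      (hb : congV (b : slO).1.val planeVec = planeVec) :=
    show congV ((a : slO).1.val * (b : slO).1.val) planeVec = planeVec by
      rw [← congV_congV (a : slO).2.1 (b : slO).2.1, hb, ha]
  inv_mem' {a} (ha : congV (a : slO).1.val planeVec = planeVec) :=
    show congV ((a : slO)⁻¹).1.val planeVec = planeVec by
      conv_lhs => rw [← ha]
      rw [congV_congV ((a : slO)⁻¹).2.1 (a : slO).2.1, ← Units.val_mul,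
        show ((a : slO)⁻¹).1 * (a : slO).1 = 1 from inv_mul_cancel (a : slO).1, Units.val_one,
        congV_one]

/-- The stabiliser is `Γ(N)`. -/
def stabEquiv (N : ℕ) : Gamma N ≃ stabV N :=
  Equiv.ofBijective (fun γ => ⟨⟨slPl γ.1, slPl_mem γ.2⟩, congV_slPl γ.1⟩) ⟨fun a b h => by
    have h' : slPl a.1 = slPl b.1 := congrArg (fun x : stabV N => ((x : slOL N) : slO)) h
    refine Subtype.ext (Subtype.ext (Matrix.ext fun i j => ?_))
    have := congrArg (fun x : slO => x.1.val i j) h'
    simp only [slPl_apply] at this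
    exact Int.cast_injective this, fun g => by
    have hint : ∀ i j, ∃ k : ℤ, ((g : slOL N) : slO).1.val i j = k := fun i j =>
      exists_int_eq (((g : slOL N) : slO).2.1 i j) (conj_entry_of_congV g.2 i j)
    choose k hk using hint
    have hdet : (Matrix.of k).det = 1 := by
      have h := ((g : slOL N) : slO).2.2
      rw [Matrix.det_fin_two, hk, hk, hk, hk] at h
      rw [Matrix.det_fin_two]
      exact_mod_cast h
    have hmem : (⟨Matrix.of k, hdet⟩ : SL(2, ℤ)) ∈ Gamma N := by
      have hd : ∀ i j, (N : ℤ) ∣ k i j - (1 : Matrix (Fin 2) (Fin 2) ℤ) i j := fun i j => by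
        have h := (g : slOL N).2 i j
        rw [hk] at h
        refine (dvd_coords h (m := k i j - (1 : Matrix (Fin 2) (Fin 2) ℤ) i j) (n := 0) ?_).1
        fin_cases i <;> fin_cases j <;> simp
      have hc : ∀ i j, ((k i j : ℤ) : ZMod N) = ((1 : Matrix (Fin 2) (Fin 2) ℤ) i j : ZMod N) :=
        fun i j => ((ZMod.intCast_eq_intCast_iff_dvd_sub _ _ N).2 (hd i j)).symm
      exact Gamma_mem.2 ⟨by simpa using hc 0 0, by simpa using hc 0 1, by simpa using hc 1 0,
        by simpa using hc 1 1⟩
    exact ⟨⟨_, hmem⟩, Subtype.ext (Subtype.ext (Subtype.ext (Units.ext (Matrix.ext fun i j => by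
      show ((k i j : ℤ) : ℂ) = _
      rw [hk]))))⟩⟩

theorem stabEquiv_smul {N : ℕ} (γ : Gamma N) (p : H3) :
    stabEquiv N γ • p = slPl γ.1 • p := rfl

theorem planeEmb_smul (γ : SL(2, ℤ)) (τ : ℍ) : planeEmb (γ • τ) = slPl γ • planeEmb τ := by
  set q := slPl γ • planeEmb τ with hq
  have hre : q.1.im = 0 := by
    rw [hq, slO_smul_def, Hyp.coe_act_fst, Complex.div_ofReal_im]
    simp only [slPl_apply, planeEmb]
    simp [← Complex.ofReal_pow]
  have h : prj q = γ • τ := by
    rw [hq, prj_smul, show planeEmb τ = lay (0, τ) from (lay_zero τ).symm, prj_lay]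
  rw [← h]
  refine Prod.ext (Complex.ext ?_ ?_) (Subtype.ext ?_)
  · simp [planeEmb, prj_re]
  · simp [planeEmb, hre]
  · simp [planeEmb, prj_im, hre, Real.sqrt_sq (le_of_lt q.2.2)]

theorem neg_planeVec_lay (x : ℝ × ℍ) :
    (frameOf (lay x)).neg (rvec planeVec) ^ 2 = 3 * x.1 ^ 2 := by
  have h3 : Real.sqrt 3 ^ 2 = 3 := Real.sq_sqrt (by norm_num)
  have he := x.2.im_pos
  have hc := layC_pos x.1
  rw [neg_frameOf]
  simp [rvec, planeVec, lay]
  field_simp
  linear_combination x.1 ^ 2 * x.2.im ^ 2 * h3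

theorem integral_scale (g : ℝ × ℍ → ℂ) (hg : Measurable g) {a : ℝ} (ha : 0 < a) :
    (a : ℂ) * ∫ x, g x ∂((volume : Measure ℝ).prod (volume : Measure ℍ)) =
      ∫ x, g (x.1 / a, x.2) ∂((volume : Measure ℝ).prod (volume : Measure ℍ)) := by
  have hm : Measurable fun x : ℝ × ℍ => (x.1 / a, x.2) :=
    (measurable_fst.div_const a).prodMk measurable_snd
  rw [← integral_map hm.aemeasurable hg.aestronglyMeasurable,
    show (fun x : ℝ × ℍ => (x.1 / a, x.2)) = Prod.map (fun r => a⁻¹ * r) id from
      funext fun x => by simp [div_eq_inv_mul, Prod.map],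
    ← Measure.map_prod_map _ _ (measurable_const_mul _) measurable_id, Measure.map_id,
    Real.map_volume_mul_left (inv_ne_zero ha.ne'), inv_inv, abs_of_pos ha,
    Measure.prod_smul_left, integral_smul_measure, ENNReal.toReal_ofReal ha.le, Complex.real_smul]

/-- The Gaussian of the base vector, renormalised. -/
def gsV (y : ℝ) (p : H3) : ℝ :=
  Real.sqrt y * Real.exp (-(4 * π * y * (frameOf p).neg (rvec planeVec) ^ 2))

theorem measurable_gsV (y : ℝ) : Measurable (gsV y) :=
  ((((continuous_neg_frameOf (rvec planeVec)).pow 2).measurable.const_mul (4 * π * y)).neg.exp.const_mul _)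

theorem norm_term_mul_I {L : ℕ} (u : H3 → ℂ) {Φ : (Fin 4 → ZMod L) → ℂ} {p : H3} {v : Fin 4 → ℤ}
    (hΦ : Φ (castv L v) = 1) (y : ℝ) :
    ‖term L u Φ wgtTh.P ((y : ℂ) * I) (p, v)‖ =
      ‖u p‖ * (Real.sqrt y * Real.exp (-(2 * π * y * maj (frameOf p) (rvec v)))) := by
  rw [term, hΦ, mul_one, norm_mul, norm_mul, norm_ex_maj, Complex.mul_I_im, Complex.ofReal_re]
  congr 2
  show ‖((Real.sqrt y : ℝ) : ℂ)‖ = _
  rw [Complex.norm_real, Real.norm_of_nonneg (Real.sqrt_nonneg _)]

theorem term_mul_I {L : ℕ} (u : H3 → ℂ) {Φ : (Fin 4 → ZMod L) → ℂ} {p : H3} {v : Fin 4 → ℤ}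
    (hΦ : Φ (castv L v) = 1) (hq : qf v = 3) (y : ℝ) :
    ((Real.exp (6 * π * y) : ℝ) : ℂ) * term L u Φ wgtTh.P ((y : ℂ) * I) (p, v) =
      u p * ((Real.sqrt y * Real.exp (-(4 * π * y * (frameOf p).neg (rvec v) ^ 2)) : ℝ) : ℂ) := by
  have hqe : qf (rvec v) = 3 := by
    rw [show rvec v = fun i => Int.castRingHom ℝ (v i) from rfl, ← map_qf, hq]
    simp
  rw [term, hΦ, mul_one, ex, hqe, Complex.mul_I_im, Complex.ofReal_re,
    show wgtTh.P y ((frameOf p).neg (rvec v) ^ 2) = ((Real.sqrt y : ℝ) : ℂ) from rfl,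
    Complex.ofReal_mul, Complex.ofReal_exp, Complex.ofReal_exp]
  set n := (frameOf p).neg (rvec v)
  calc _ = u p * (Real.sqrt y : ℂ) * (cexp ((6 * π * y : ℝ) : ℂ) *
        cexp (2 * π * I * ((y : ℂ) * I) * ((3 : ℝ) : ℂ) - 4 * π * (y : ℂ) * ((n ^ 2 : ℝ) : ℂ))) := by
        ring
    _ = u p * (Real.sqrt y : ℂ) * cexp ((-(4 * π * y * n ^ 2) : ℝ) : ℂ) := by
        rw [← Complex.exp_add]
        congr 2
        push_cast
        linear_combination (6 * (π : ℂ) * y) * I_sq
    _ = _ := by ring

theorem exp_bound {y M : ℝ} (hy : 1 ≤ y) (hM : 15 ≤ M) :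
    Real.exp (6 * π * y) * Real.exp (-(2 * π * y * M)) ≤
      Real.exp (-(π * y)) * Real.exp (-(π * M)) := by
  rw [← Real.exp_add, ← Real.exp_add]
  refine Real.exp_le_exp.2 ?_
  have h1 : π * (2 * y - 1) * 15 ≤ π * (2 * y - 1) * M :=
    mul_le_mul_of_nonneg_left hM (mul_nonneg Real.pi_pos.le (by linarith))
  nlinarith [mul_le_mul_of_nonneg_left hy Real.pi_pos.le, Real.pi_pos]

/-- Integration over the weighted space in the coordinates `lay`. -/
theorem integral_wMeasure_lay {u : H3 → ℂ} (hu : Continuous u) {w2 : ℍ → ℝ≥0∞} (hw : Measurable w2)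
    (htop : ∀ τ, w2 τ < ⊤) {y : ℝ} (hy : 0 < y) :
    ∫ p, u p * ((gsV y p : ℝ) : ℂ) ∂(RS.wMeasure hypMeasure fun p => w2 (prj p)) =
      ∫ x : ℝ × ℍ,
        (((w2 x.2).toReal * (layC (x.1 / Real.sqrt y) * Real.exp (-(12 * π * x.1 ^ 2))) : ℝ) : ℂ) *
          u (lay (x.1 / Real.sqrt y, x.2)) ∂((volume : Measure ℝ).prod (volume : Measure ℍ)) := by
  have hwm : Measurable fun p => w2 (prj p) := hw.comp measurable_prj
  have hgm : Measurable fun p => u p * ((gsV y p : ℝ) : ℂ) :=
    hu.measurable.mul (Complex.measurable_ofReal.comp (measurable_gsV y))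
  have hFm : Measurable fun p => (w2 (prj p)).toReal • (u p * ((gsV y p : ℝ) : ℂ)) :=
    hwm.ennreal_toReal.smul hgm
  rw [RS.wMeasure, integral_withDensity_eq_integral_toReal_smul hwm
      (ae_of_all _ fun p => htop _), integral_lay hFm, layMu,
    prod_withDensity_left (continuous_layC.measurable.ennreal_ofReal),
    integral_withDensity_eq_integral_toReal_smul (f := fun z : ℝ × ℍ => ENNReal.ofReal (layC z.1))
      (continuous_layC.measurable.ennreal_ofReal.comp measurable_fst)
      (ae_of_all _ fun x => ENNReal.ofReal_lt_top)]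
  have hsy : (0 : ℝ) < Real.sqrt y := Real.sqrt_pos.2 hy
  have hGm : Measurable fun x : ℝ × ℍ =>
      (((w2 x.2).toReal * (layC x.1 * Real.exp (-(12 * π * y * x.1 ^ 2))) : ℝ) : ℂ) *
        u (lay x) :=
    (Complex.measurable_ofReal.comp ((hw.ennreal_toReal.comp measurable_snd).mul
      ((continuous_layC.measurable.comp measurable_fst).mul (by fun_prop)))).mul
      (hu.comp continuous_lay).measurable
  calc _ = (Real.sqrt y : ℂ) * ∫ x : ℝ × ℍ,
        (((w2 x.2).toReal * (layC x.1 * Real.exp (-(12 * π * y * x.1 ^ 2))) : ℝ) : ℂ) *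
          u (lay x) ∂((volume : Measure ℝ).prod (volume : Measure ℍ)) := by
        rw [← integral_const_mul]
        refine integral_congr_ae (ae_of_all _ fun x => ?_)
        simp only [ENNReal.toReal_ofReal (layC_pos _).le, gsV,
          prj_lay, neg_planeVec_lay, Complex.real_smul]
        rw [show 4 * π * y * (3 * x.1 ^ 2) = 12 * π * y * x.1 ^ 2 by ring]
        push_cast
        ring
    _ = _ := by
        rw [integral_scale _ hGm hsy]
        refine integral_congr_ae (ae_of_all _ fun x => ?_)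
        simp only
        rw [div_pow, Real.sq_sqrt hy.le]
        congr 6
        field_simp

/-- The concentration limit. -/
theorem tendsto_layer {u : H3 → ℂ} (hu : Continuous u) {C : ℝ} (hC : ∀ p, ‖u p‖ ≤ C)
    {w2 : ℍ → ℝ≥0∞} (hw : Measurable w2) (hfin : ∫⁻ τ, w2 τ < ⊤) :
    Tendsto (fun y : ℝ => ∫ x : ℝ × ℍ,
      (((w2 x.2).toReal * (layC (x.1 / Real.sqrt y) * Real.exp (-(12 * π * x.1 ^ 2))) : ℝ) : ℂ) *
        u (lay (x.1 / Real.sqrt y, x.2)) ∂((volume : Measure ℝ).prod (volume : Measure ℍ))) atTop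
      (𝓝 (∫ x : ℝ × ℍ, ((Real.exp (-(12 * π * x.1 ^ 2)) : ℝ) : ℂ) *
        (((w2 x.2).toReal : ℂ) * u (planeEmb x.2))
        ∂((volume : Measure ℝ).prod (volume : Measure ℍ)))) := by
  have hgauss : Integrable fun r : ℝ => (1 + |r|) * Real.exp (-(12 * π * r ^ 2)) := by
    have h1 := integrable_exp_neg_mul_sq (b := 12 * π) (by positivity)
    have h2 := (integrable_mul_exp_neg_mul_sq (b := 12 * π) (by positivity)).norm
    refine (h1.add h2).congr (ae_of_all _ fun r => ?_)
    simp only [Pi.add_apply, Real.norm_eq_abs, abs_mul, Real.abs_exp, neg_mul]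
    ring
  refine tendsto_integral_filter_of_dominated_convergence
    (fun x => |C| * ((1 + |x.1|) * Real.exp (-(12 * π * x.1 ^ 2)) * (w2 x.2).toReal)) ?_ ?_ ?_ ?_
  · refine Eventually.of_forall fun y => Measurable.aestronglyMeasurable ?_
    exact (Complex.measurable_ofReal.comp ((hw.ennreal_toReal.comp measurable_snd).mul
      ((continuous_layC.measurable.comp (measurable_fst.div_const _)).mul (by fun_prop)))).mul
      (hu.measurable.comp (continuous_lay.measurable.comp
        ((measurable_fst.div_const _).prodMk measurable_snd)))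
  · filter_upwards [eventually_ge_atTop (1 : ℝ)] with y hy
    refine ae_of_all _ fun x => ?_
    have hl : layC (x.1 / Real.sqrt y) ≤ 1 + |x.1| := by
      refine (Real.sqrt_le_left (by positivity)).2 ?_
      rw [div_pow, Real.sq_sqrt (by linarith)]
      have h1 : x.1 ^ 2 / y ≤ x.1 ^ 2 := div_le_self (sq_nonneg _) hy
      nlinarith [abs_nonneg x.1, sq_abs x.1]
    rw [norm_mul, Complex.norm_real, Real.norm_of_nonneg (mul_nonneg ENNReal.toReal_nonneg
      (mul_nonneg (layC_pos _).le (Real.exp_pos _).le))]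
    calc _ ≤ (w2 x.2).toReal * ((1 + |x.1|) * Real.exp (-(12 * π * x.1 ^ 2))) * |C| :=
          mul_le_mul (mul_le_mul_of_nonneg_left (mul_le_mul_of_nonneg_right hl (Real.exp_pos _).le)
            ENNReal.toReal_nonneg) ((hC _).trans (le_abs_self C)) (norm_nonneg _) (by positivity)
      _ = _ := by ring
  · exact (hgauss.mul_prod (integrable_toReal_of_lintegral_ne_top hw.aemeasurable
      hfin.ne)).const_mul _
  · refine ae_of_all _ fun x => ?_
    have h0 : Tendsto (fun y : ℝ => x.1 / Real.sqrt y) atTop (𝓝 0) :=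
      (Real.tendsto_sqrt_atTop).const_div_atTop x.1
    have h1 : Tendsto (fun y : ℝ => layC (x.1 / Real.sqrt y)) atTop (𝓝 1) := by
      have := (continuous_layC.tendsto 0).comp h0
      simpa [layC, Function.comp_def] using this
    have h2 : Tendsto (fun y : ℝ => u (lay (x.1 / Real.sqrt y, x.2))) atTop
        (𝓝 (u (planeEmb x.2))) := by
      rw [← lay_zero]
      exact ((hu.comp continuous_lay).tendsto _).comp (h0.prodMk_nhds tendsto_const_nhds)
    have h3 := (((h1.mul_const (Real.exp (-(12 * π * x.1 ^ 2)))).const_mul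
      (w2 x.2).toReal).ofReal).mul h2
    convert h3 using 2
    push_cast
    ring

/-- **D-nonvanishing.** -/
theorem liftNonzero : LiftNonzero := by
  classical
  intro L m hL u hu hm hinv hper
  set N := 6 * L * m with hNdef
  have hL0 : 0 < L := Nat.pos_of_ne_zero hL.out
  have hN0 : 0 < N := by positivity
  have hN6 : 6 ≤ N := by
    have : 1 ≤ L * m := Nat.mul_pos hL0 hm
    rw [hNdef, mul_assoc]; omega
  haveI : NeZero N := ⟨hN0.ne'⟩
  set L' := 3 * N with hL'def
  haveI : NeZero L' := ⟨by omega⟩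
  have hLN : L ∣ N := ⟨6 * m, by rw [hNdef]; ring⟩
  have hmN : m ∣ N := ⟨6 * L, by rw [hNdef]; ring⟩
  have hNL' : N ∣ L' := ⟨3, by rw [hL'def]; ring⟩
  have huN : ∀ (g : slOL N) (p : H3), u (g • p) = u p := fun g p =>
    hu.inv ⟨g.1, slOL_le_of_dvd hLN g.2⟩ p
  have hu' : IsU L' u :=
    ⟨hu.cont, hu.bdd, fun g p => hu.inv ⟨g.1, slOL_le_of_dvd (hLN.trans hNL') g.2⟩ p, hu.mean⟩
  set S : Set (Fin 4 → ℤ) := Set.range fun g : slOL N => congV (g : slO).1.val planeVec with hS
  set Φ : (Fin 4 → ZMod L') → ℂ := (castv L' '' S).indicator 1 with hΦ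
  by_contra hcon
  push Not at hcon
  replace hcon : ∀ y : ℝ, 0 < y → liftTh L' u Φ ((y : ℂ) * I) = 0 := fun y hy =>
    hcon L' inferInstance Φ _ (hLN.trans hNL') (by simpa using hy)
  obtain ⟨C, hC⟩ := hu.bdd
  -- the coefficient function separates the orbit
  have hqS : ∀ v ∈ S, qf v = 3 := by
    rintro _ ⟨g, rfl⟩
    rw [qf_congV, qf_planeVec]
  have hsep : ∀ v, castv L' v ∈ castv L' '' S → v ∉ S → 15 ≤ |(qf v : ℤ)| := by
    rintro v ⟨w, hw, hwv⟩ hvS
    have h3 : qf v ≠ 3 := fun h3 => hvS (by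
      obtain ⟨g, rfl⟩ := hw
      have hg' : castv L' (congV ((g : slO)⁻¹).1.val v) = castv L' planeVec := by
        rw [← castv_congV_congr ((g : slO)⁻¹).2.1 hwv]
        rw [congV_congV ((g : slO)⁻¹).2.1 (g : slO).2.1, ← Units.val_mul,
          show ((g : slO)⁻¹).1 * (g : slO).1 = 1 from inv_mul_cancel (g : slO).1, Units.val_one,
          congV_one]
      obtain ⟨h, hh⟩ := exists_slOL_congV (N := N) (by omega)
        (v := congV ((g : slO)⁻¹).1.val v) (by rw [qf_congV, h3]) hg'
      refine ⟨g * h, ?_⟩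
      show congV ((g : slO).1.val * (h : slO).1.val) planeVec = v
      rw [← congV_congV (g : slO).2.1 (h : slO).2.1, hh,
        congV_congV (g : slO).2.1 ((g : slO)⁻¹).2.1, ← Units.val_mul,
        show (g : slO).1 * ((g : slO)⁻¹).1 = 1 from mul_inv_cancel (g : slO).1, Units.val_one,
        congV_one])
    have hmod : ((qf v : ℤ) : ZMod L') = ((3 : ℤ) : ZMod L') := by
      rw [← hqS w hw]
      have e1 := map_qf (Int.castRingHom (ZMod L')) v
      have e2 := map_qf (Int.castRingHom (ZMod L')) w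
      simp only [eq_intCast] at e1 e2
      rw [e1, e2]
      exact congrArg qf hwv.symm
    obtain ⟨z, hz⟩ := (ZMod.intCast_eq_intCast_iff_dvd_sub _ _ L').1 hmod.symm
    have hz0 : z ≠ 0 := fun h0 => h3 (by rw [h0] at hz; omega)
    have hL18 : (18 : ℤ) ≤ L' := by rw [hL'def]; push_cast; omega
    rcases lt_or_gt_of_ne hz0 with h | h
    · have : (L' : ℤ) * z ≤ -18 := by nlinarith
      rw [abs_of_nonpos (by omega)]; omega
    · have : 18 ≤ (L' : ℤ) * z := by nlinarith
      rw [abs_of_nonneg (by omega)]; omega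
  -- the split
  set e : ℝ → ℂ := fun y => ((Real.exp (6 * π * y) : ℝ) : ℂ) with he
  set tS : Set (H3 × (Fin 4 → ℤ)) := univ ×ˢ S
  have htS : MeasurableSet tS := MeasurableSet.univ.prod (DiscreteMeasurableSpace.forall_measurableSet _)
  have hint : ∀ y : ℝ, 0 < y → Integrable (fun x => e y * term L' u Φ wgtTh.P ((y : ℂ) * I) x)
      (muV L') := fun y hy =>
    ((hasFDerivAt_liftW hu' Φ wgtTh (τ := (y : ℂ) * I) (by simpa using hy)).2.1).const_mul _
  set J : ℝ → ℂ := fun y => ∫ x in tS, e y * term L' u Φ wgtTh.P ((y : ℂ) * I) x ∂muV L'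
  have hJ : Tendsto J atTop (𝓝 0) := by
    set K := |C| * ∫ x, domin π x ∂muV L' with hK
    refine squeeze_zero_norm' (a := fun y => Real.sqrt y * Real.exp (-(π * y)) * K) ?_ ?_
    · filter_upwards [eventually_ge_atTop (1 : ℝ)] with y hy
      have hy0 : 0 < y := by linarith
      have h0 : J y + ∫ x in tSᶜ, e y * term L' u Φ wgtTh.P ((y : ℂ) * I) x ∂muV L' = 0 := by
        rw [integral_add_compl htS (hint y hy0), integral_const_mul]
        have := liftTh_eq_liftW hu' Φ (τ := (y : ℂ) * I) (by simpa using hy0)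
        rw [hcon y hy0] at this
        rw [show ∫ x, term L' u Φ wgtTh.P ((y : ℂ) * I) x ∂muV L' = 0 from this.symm, mul_zero]
      rw [eq_neg_of_add_eq_zero_left h0, norm_neg, ← integral_indicator htS.compl, hK,
        ← mul_assoc, ← integral_const_mul]
      refine norm_integral_le_of_norm_le (Integrable.const_mul (integrable_domin Real.pi_pos) _)
        (ae_of_all _ fun x => ?_)
      have hd : 0 ≤ Real.sqrt y * Real.exp (-(π * y)) * |C| * domin π x :=
        mul_nonneg (by positivity) (Real.exp_pos _).le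
      by_cases hx : x ∈ tSᶜ
      swap
      · rw [indicator_of_notMem hx, norm_zero]; exact hd
      rw [indicator_of_mem hx]
      by_cases hv : castv L' x.2 ∈ castv L' '' S
      swap
      · simpa [term, hΦ, indicator_of_notMem hv] using hd
      have hq := hsep x.2 hv fun h => hx ⟨trivial, h⟩
      have hΦ1 : Φ (castv L' x.2) = 1 := indicator_of_mem hv _
      have hM : (15 : ℝ) ≤ maj (frameOf x.1) (rvec x.2) := by
        refine le_trans ?_ (abs_qf_le_maj _ _)
        rw [show rvec x.2 = fun i => Int.castRingHom ℝ (x.2 i) from rfl, ← map_qf, eq_intCast,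
          ← Int.cast_abs]
        exact_mod_cast hq
      obtain ⟨p, v⟩ := x
      rw [norm_mul, norm_term_mul_I u hΦ1, he, Complex.norm_real,
        Real.norm_of_nonneg (Real.exp_pos _).le, domin]
      calc Real.exp (6 * π * y) *
            (‖u p‖ * (Real.sqrt y * Real.exp (-(2 * π * y * maj (frameOf p) (rvec v)))))
          = ‖u p‖ * Real.sqrt y *
            (Real.exp (6 * π * y) * Real.exp (-(2 * π * y * maj (frameOf p) (rvec v)))) := by ring
        _ ≤ |C| * Real.sqrt y *
            (Real.exp (-(π * y)) * Real.exp (-(π * maj (frameOf p) (rvec v)))) :=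
            mul_le_mul (mul_le_mul_of_nonneg_right ((hC _).trans (le_abs_self C))
              (Real.sqrt_nonneg _)) (exp_bound hy hM) (by positivity) (by positivity)
        _ = _ := by ring
    · have h := (tendsto_rpow_mul_exp_neg_mul_atTop_nhds_zero (1 / 2) π Real.pi_pos).mul_const K
      rw [zero_mul] at h
      refine h.congr fun y => ?_
      rw [Real.sqrt_eq_rpow, neg_mul]
  -- unfolding
  have hle : slOL L' ≤ slOL N := slOL_le_of_dvd hNL'
  set HL := (slOL L').subgroupOf (slOL N)
  haveI : (slOL L').FiniteIndex := Subgroup.finiteIndex_of_finite_quotient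
  haveI : Finite (slOL N ⧸ HL) := inferInstance
  have hwHL : RS.IsWeight HL (wL L') :=
    (isWeight_wL L').comp_equiv (Subgroup.subgroupOfEquivOfLe hle) measurable_id fun _ _ => rfl
  set v0 := RS.cosetWeight (stabV N) (wL N)
  have hv0 : RS.IsWeight (stabV N) v0 := (isWeight_wL N).cosetWeight _
  have hpl : Measurable planeEmb :=
    ((Complex.measurable_ofReal.comp UpperHalfPlane.continuous_re.measurable).prodMk
      UpperHalfPlane.continuous_im.measurable.subtype_mk)
  set w2 : ℍ → ℝ≥0∞ := fun τ => v0 (planeEmb τ)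
  have hw2 : RS.IsWeight (Gamma N) w2 := by
    refine ⟨hv0.measurable.comp hpl, fun τ => ?_⟩
    refine Eq.trans (tsum_congr fun γ => ?_)
      (((stabEquiv N).tsum_eq fun g => v0 (g • planeEmb τ)).trans (hv0.sum_one _))
    show v0 (planeEmb ((γ : SL(2, ℤ)) • τ)) = _
    rw [stabEquiv_smul, planeEmb_smul]
  set wH : H3 → ℝ≥0∞ := fun p => w2 (prj p)
  have hwH : RS.IsWeight (stabV N) wH := by
    refine ⟨hw2.measurable.comp measurable_prj, fun p => ?_⟩
    rw [← (stabEquiv N).tsum_eq]
    refine Eq.trans (tsum_congr fun γ => ?_) (hw2.sum_one (prj p))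
    show w2 (prj (stabEquiv N γ • p)) = w2 ((γ : SL(2, ℤ)) • prj p)
    rw [stabEquiv_smul, prj_smul]
  set k : ℂ := (Nat.card (slOL N ⧸ HL) : ℂ)
  have hk : k ≠ 0 := Nat.cast_ne_zero.2 Nat.card_pos.ne'
  let emb : slOL N ⧸ stabV N → (Fin 4 → ℤ) := fun q => congV (q.out : slO).1.val planeVec
  have hemb : Function.Injective emb := by
    intro q q' (hq : congV (q.out : slO).1.val planeVec = congV (q'.out : slO).1.val planeVec)
    rw [← QuotientGroup.out_eq' q, ← QuotientGroup.out_eq' q', QuotientGroup.eq]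
    show congV (((q.out : slO)⁻¹).1.val * (q'.out : slO).1.val) planeVec = planeVec
    rw [← congV_congV ((q.out : slO)⁻¹).2.1 (q'.out : slO).2.1, ← hq,
      congV_congV ((q.out : slO)⁻¹).2.1 (q.out : slO).2.1, ← Units.val_mul,
      show ((q.out : slO)⁻¹).1 * (q.out : slO).1 = 1 from inv_mul_cancel (q.out : slO).1,
      Units.val_one, congV_one]
  have hrange : S = Set.range emb := by
    refine Set.Subset.antisymm ?_ ?_
    · rintro _ ⟨g, rfl⟩
      refine ⟨QuotientGroup.mk g, ?_⟩
      obtain ⟨h, hh⟩ := QuotientGroup.mk_out_eq_mul (stabV N) g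
      show congV ((QuotientGroup.mk g : slOL N ⧸ stabV N).out : slO).1.val planeVec = _
      rw [hh]
      show congV ((g : slO).1.val * (((h : slOL N) : slO)).1.val) planeVec = _
      rw [← congV_congV (g : slO).2.1 ((h : slOL N) : slO).2.1, h.2]
    · rintro _ ⟨q, rfl⟩
      exact ⟨q.out, rfl⟩
  have hJeq : ∀ y : ℝ, 0 < y → J y = k * ∫ x : ℝ × ℍ,
      (((w2 x.2).toReal * (layC (x.1 / Real.sqrt y) * Real.exp (-(12 * π * x.1 ^ 2))) : ℝ) : ℂ) *
        u (lay (x.1 / Real.sqrt y, x.2)) ∂((volume : Measure ℝ).prod (volume : Measure ℍ)) := by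
    intro y hy
    set t : H3 → ℂ := fun p => u p * ((gsV y p : ℝ) : ℂ) with ht
    have htm : Measurable t := hu.cont.measurable.mul (Complex.measurable_ofReal.comp (measurable_gsV y))
    have htinv : ∀ (g : stabV N) (p : H3), t (g • p) = t p := fun g p => by
      have h1 : u (g • p) = u p := by rw [Subgroup.smul_def, huN]
      have h2 : (frameOf (g • p)).neg (rvec planeVec) = (frameOf p).neg (rvec planeVec) := by
        have := neg_smul ((g : slOL N) : slO) p planeVec
        rw [g.2] at this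
        exact this
      simp only [ht, gsV, h1, h2]
    have hΦq : ∀ q : slOL N ⧸ stabV N, Φ (castv L' (emb q)) = 1 := fun q =>
      indicator_of_mem (show castv L' (emb q) ∈ castv L' '' S from
        ⟨_, hrange ▸ ⟨q, rfl⟩, rfl⟩) _
    -- the summand
    have hsummand : ∀ (q : slOL N ⧸ stabV N) (p : H3), t (q.out⁻¹ • p) =
        e y * term L' u Φ wgtTh.P ((y : ℂ) * I) (p, emb q) := by
      intro q p
      have hn : (frameOf (q.out⁻¹ • p)).neg (rvec planeVec) = (frameOf p).neg (rvec (emb q)) := by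
        rw [← neg_smul (q.out : slO) (q.out⁻¹ • p) planeVec]
        congr 2
        show ((q.out : slOL N) : slO) • (((q.out : slOL N) : slO)⁻¹ • p) = p
        rw [smul_inv_smul]
      rw [he, term_mul_I u (hΦq q) (hqS _ (hrange ▸ ⟨q, rfl⟩))]
      simp only [ht, gsV, huN, hn]
    -- finiteness
    have hfin : ∫⁻ p, wL N p * ∑' q : slOL N ⧸ stabV N, ‖t (q.out⁻¹ • p)‖ₑ ∂hypMeasure < ⊤ := by
      set c := ENNReal.ofReal (|C| * Real.sqrt y * Real.exp (6 * π * y))
      have hq : ∀ (p : H3) (q : slOL N ⧸ stabV N), ‖t (q.out⁻¹ • p)‖ₑ ≤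
          c * ENNReal.ofReal (Real.exp (-(2 * π * y * maj (frameOf p) (rvec (emb q))))) := by
        intro p q
        rw [hsummand, ← ofReal_norm, ← ENNReal.ofReal_mul (by positivity)]
        refine ENNReal.ofReal_le_ofReal ?_
        rw [norm_mul, norm_term_mul_I u (hΦq q), he, Complex.norm_real,
          Real.norm_of_nonneg (Real.exp_pos _).le]
        calc _ ≤ Real.exp (6 * π * y) * (|C| * (Real.sqrt y *
              Real.exp (-(2 * π * y * maj (frameOf p) (rvec (emb q)))))) :=
              mul_le_mul_of_nonneg_left (mul_le_mul_of_nonneg_right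
                ((hC _).trans (le_abs_self C)) (by positivity)) (Real.exp_pos _).le
          _ = _ := by ring
      have hsum : ∀ p, wL N p * (∑' q : slOL N ⧸ stabV N, ‖t (q.out⁻¹ • p)‖ₑ) ≤
          c * (wL N p * majSum (2 * π * y) p) := fun p => by
        rw [mul_left_comm]
        refine mul_le_mul' le_rfl ?_
        rw [majSum, ← ENNReal.tsum_mul_left]
        exact (ENNReal.tsum_le_tsum (hq p)).trans
          (ENNReal.tsum_comp_le_tsum_of_injective hemb _)
      refine lt_of_le_of_lt (lintegral_mono hsum) ?_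
      have hwm : Measurable fun p => wL N p * majSum (2 * π * y) p :=
        (isWeight_wL N).measurable.mul (measurable_majSum _)
      rw [lintegral_const_mul _ hwm]
      exact ENNReal.mul_lt_top ENNReal.ofReal_lt_top
        (lintegral_wL_majSum_lt_top N (by positivity))
    obtain ⟨-, hiN, heqN⟩ := Ell.integral_unfold (μ := hypMeasure) (isWeight_wL N) (stabV N) hwH
      htm htinv hfin
    haveI : Countable (slOL N ⧸ stabV N) := Quotient.countable
    set fN : H3 → ℂ := fun p => ∑' q : slOL N ⧸ stabV N, t (q.out⁻¹ • p)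
    have hfm : Measurable fN := measurable_complex_tsum fun q => htm.comp (measurable_const_smul _)
    have hfinv : ∀ (g : slOL N) (p : H3), fN (g • p) = fN p := fun g p => by
      have hq : ∀ (r : slOL N) (x : H3), t ((QuotientGroup.mk r : slOL N ⧸ stabV N).out⁻¹ • x) =
          t (r⁻¹ • x) := fun r x => by
        obtain ⟨h, hh⟩ := QuotientGroup.mk_out_eq_mul (stabV N) r
        rw [hh, _root_.mul_inv_rev, mul_smul]
        exact htinv h⁻¹ _
      refine Eq.trans (((MulAction.toPerm g : Equiv.Perm (slOL N ⧸ stabV N))).tsum_eq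
        fun q => t (q.out⁻¹ • (g • p))).symm (tsum_congr fun q => ?_)
      rw [MulAction.toPerm_apply, show g • q = QuotientGroup.mk (g * q.out) by
        conv_lhs => rw [← QuotientGroup.out_eq' q]
        rfl, hq, ← mul_smul, _root_.mul_inv_rev, inv_mul_cancel_right]
    obtain ⟨-, hsub⟩ := (isWeight_wL N).integral_subgroup HL hwHL hfm hfinv hiN
    calc J y = ∫ p, fN p ∂muL L' := by
          rw [show J y = ∫ x, tS.indicator (fun x => e y * term L' u Φ wgtTh.P ((y : ℂ) * I) x) x
            ∂muV L' from (integral_indicator htS).symm,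
            integral_muV ((hint y hy).indicator htS)]
          refine integral_congr_ae (ae_of_all _ fun p => ?_)
          show ∑' v, tS.indicator _ (p, v) = fN p
          rw [← hemb.tsum_eq fun v hv => hrange ▸ (Set.mem_of_indicator_ne_zero hv).2]
          exact tsum_congr fun q => by
            rw [indicator_of_mem (show ((p, emb q) : H3 × (Fin 4 → ℤ)) ∈ tS from
              ⟨trivial, hrange ▸ ⟨q, rfl⟩⟩), hsummand]
      _ = k * ∫ p, t p ∂(RS.wMeasure hypMeasure wH) := by
          rw [muL, hsub, heqN]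
      _ = _ := by
          rw [integral_wMeasure_lay hu.cont hw2.measurable
            (fun τ => lt_of_le_of_lt (hw2.le_one _) ENNReal.one_lt_top) hy]
  -- the limit
  have hlim := tendsto_layer hu.cont hC hw2.measurable (lintegral_weight_lt_top hw2)
  have hzero := tendsto_nhds_unique (hlim.const_mul k)
    (hJ.congr' (by
      filter_upwards [eventually_gt_atTop (0 : ℝ)] with y hy
      exact hJeq y hy))
  rw [integral_prod_mul (f := fun r : ℝ => ((Real.exp (-(12 * π * r ^ 2)) : ℝ) : ℂ))
    (g := fun τ : ℍ => ((w2 τ).toReal : ℂ) * u (planeEmb τ))] at hzero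
  have hg0 : (∫ r : ℝ, ((Real.exp (-(12 * π * r ^ 2)) : ℝ) : ℂ)) ≠ 0 := by
    rw [integral_complex_ofReal, Complex.ofReal_ne_zero]
    simp_rw [show ∀ r : ℝ, -(12 * π * r ^ 2) = -(12 * π) * r ^ 2 from fun r => by ring]
    rw [integral_gaussian]
    positivity
  have hI : ∫ τ : ℍ, ((w2 τ).toReal : ℂ) * u (planeEmb τ) = 0 :=
    (mul_eq_zero.1 ((mul_eq_zero.1 hzero).resolve_left hk)).resolve_left hg0
  have hP := two_mul_integral_weight hm hmN hw2 (U := fun τ => u (planeEmb τ))
    (hu.cont.comp (by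
      rw [show planeEmb = fun τ => lay ((0 : ℝ), τ) from funext fun τ => (lay_zero τ).symm]
      exact continuous_lay.comp (continuous_const.prodMk continuous_id) : Continuous planeEmb)) (fun τ => hC _) hinv
  rw [hI, mul_zero] at hP
  haveI : NeZero m := ⟨hm.ne'⟩
  haveI : (Gamma N).FiniteIndex := inferInstance
  have hcard : (Nat.card (↥(Gamma m) ⧸ (Gamma N).subgroupOf (Gamma m)) : ℂ) ≠ 0 :=
    Nat.cast_ne_zero.2 Nat.card_pos.ne'
  exact hper ((mul_eq_zero.1 hP.symm).resolve_left hcard)

end FLTAgent.LT.Theta31
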