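import Fermat.Agent.LT.Theta31.Domain
import Fermat.Agent.Dim.Gamma0Cosets

/-!
# The orbit of the vector of the real plane

Integral vectors of norm three congruent to `X₀` modulo `3 N` are congruent to `X₀` under `Γ(N)`:
a twisted real structure on `ℤ[ω]²` close to the standard one has a unimodular fixed basis.
-/

set_option autoImplicit false
set_option linter.unusedSectionVars false

noncomputable section

namespace FLTAgent.LT.Theta31

open Complex Matrix
open scoped ComplexConjugate MatrixGroups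

local notation "C2" => Matrix (Fin 2) (Fin 2) ℂ

/-- The vector of the real plane. -/
def planeVec : Fin 4 → ℤ := ![0, 0, -1, 2]

/-- `√-3`. -/
def rtC : ℂ := 2 * omC - 1

theorem rtC_sq : rtC * rtC = -3 := by
  rw [rtC]
  linear_combination 4 * omC_sq

theorem conj_rtC : conj rtC = -rtC := by
  simp [rtC, conj_omC, map_ofNat]
  ring

theorem rtC_ne_zero : rtC ≠ 0 := fun h => by
  have := rtC_sq
  simp [h] at this

/-- `[[0, 1], [-1, 0]]`. -/
def sympC : C2 := !![0, 1; -1, 0]

theorem hermX_planeVec : hermX (rvec planeVec) = rtC • sympC := by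
  ext i j
  fin_cases i <;> fin_cases j <;> simp [hermX, rvec, planeVec, sympC, rtC, conj_omC, map_ofNat] <;>
    ring

theorem qf_planeVec : qf planeVec = 3 := by simp [qf, planeVec]

theorem mul_symp_mul_transpose (h : C2) : h * sympC * hᵀ = h.det • sympC := by
  ext i j
  fin_cases i <;> fin_cases j <;>
    simp [sympC, Matrix.mul_apply, Fin.sum_univ_two, Matrix.det_fin_two] <;> ring

/-- Entrywise conjugation. -/
def cjM (M : C2) : C2 := M.map (starRingEnd ℂ)

theorem cjM_mul (M M' : C2) : cjM (M * M') = cjM M * cjM M' := Matrix.map_mul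

theorem cjM_cjM (M : C2) : cjM (cjM M) = M := by
  ext i j; simp [cjM]

theorem conjTranspose_eq (M : C2) : Mᴴ = (cjM M)ᵀ := rfl

theorem det_cjM (M : C2) : (cjM M).det = conj M.det := by
  simp [cjM, Matrix.det_fin_two]

theorem exists_int_eq {z : ℂ} (hz : z ∈ Ow) (hr : conj z = z) : ∃ k : ℤ, z = k := by
  obtain ⟨m, n, rfl⟩ := hz
  have him := Complex.conj_eq_iff_im.1 hr
  simp [omC] at him
  exact ⟨m, by simp [him]⟩

theorem intMat_one : IntMat (1 : C2) := fun i j => by
  rcases eq_or_ne i j with rfl | h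
  · simp [one_mem]
  · simp [h, zero_mem]

theorem det_mem_Ow {M : C2} (h : IntMat M) : M.det ∈ Ow := by
  rw [Matrix.det_fin_two]
  exact sub_mem (mul_mem (h 0 0) (h 1 1)) (mul_mem (h 0 1) (h 1 0))

theorem omC_mem : omC ∈ Ow := ⟨0, 1, by simp⟩

/-- Congruence is linear. -/
theorem congV_add_smul {G : C2} (hG : IntMat G) (v z : Fin 4 → ℤ) (M : ℤ) :
    congV G (fun i => v i + M * z i) = fun i => congV G v i + M * congV G z i := by
  refine rvec_injective (hermX_injective ?_)
  have key : ∀ a b : Fin 4 → ℤ,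
      hermX (rvec fun i => a i + M * b i) = hermX (rvec a) + (M : ℂ) • hermX (rvec b) := by
    intro a b
    ext i j
    fin_cases i <;> fin_cases j <;> simp [hermX, rvec, conj_omC, map_intCast] <;> ring
  rw [hermX_congV hG, key, key, hermX_congV hG, hermX_congV hG, Matrix.mul_add, Matrix.add_mul,
    Matrix.mul_smul, Matrix.smul_mul]

theorem castv_congV_congr {M : ℕ} {G : C2} (hG : IntMat G) {v w : Fin 4 → ℤ}
    (h : castv M v = castv M w) : castv M (congV G v) = castv M (congV G w) := by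
  have hd : ∀ i, (M : ℤ) ∣ v i - w i := fun i =>
    (ZMod.intCast_eq_intCast_iff_dvd_sub (w i) (v i) M).1 (congrFun h i).symm
  choose z hz using hd
  have hv : v = fun i => w i + (M : ℤ) * z i := funext fun i => by linarith [hz i]
  rw [hv, congV_add_smul hG]
  funext i
  simp [castv]

/-- Matrices with determinant one modulo `N` lift to `SL(2, ℤ)`. -/
theorem exists_SL2_congr {N : ℕ} (hN : 0 < N) (K : Matrix (Fin 2) (Fin 2) ℤ)
    (hK : (N : ℤ) ∣ K.det - 1) : ∃ γ : SL(2, ℤ), ∀ i j, (N : ℤ) ∣ γ i j - K i j := by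
  rw [Matrix.det_fin_two] at hK
  set a := K 0 0; set b := K 0 1; set c := K 1 0; set d := K 1 1
  obtain ⟨c', hc', hc'0⟩ : ∃ c' : ℤ, (N : ℤ) ∣ c' - c ∧ c' ≠ 0 := by
    by_cases hc : c = 0
    · exact ⟨N, by simp [hc], by exact_mod_cast hN.ne'⟩
    · exact ⟨c, by simp, hc⟩
  obtain ⟨d', hd', hcop⟩ := Dim.exists_coprime_lift (M := N) (g := c'.natAbs)
    (Int.natAbs_ne_zero.2 hc'0) d fun p hp hpc hpN hpd => by
      have h1 : (p : ℤ) ∣ c' := Int.natCast_dvd.2 hpc
      have h2 : (p : ℤ) ∣ (N : ℤ) := Int.natCast_dvd_natCast.2 hpN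
      have h3 : (p : ℤ) ∣ c := by
        have := dvd_sub h1 (h2.trans hc'); simpa using this
      have h4 : (p : ℤ) ∣ a * d - b * c := dvd_sub (dvd_mul_of_dvd_right hpd _) (dvd_mul_of_dvd_right h3 _)
      have h5 := dvd_sub h4 (h2.trans hK)
      rw [sub_sub_cancel] at h5
      exact hp.not_dvd_one (Int.natCast_dvd_natCast.1 (by simpa using h5))
  have hcop' : IsCoprime d' c' := by
    rw [Int.isCoprime_iff_gcd_eq_one] at hcop ⊢
    simpa [Int.gcd, Int.natAbs_abs] using hcop
  obtain ⟨x₀, y₀, hxy⟩ := hcop'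
  obtain ⟨k, hk⟩ : (N : ℤ) ∣ a * d' - b * c' - 1 := by
    have hdd : (N : ℤ) ∣ d' - d := (ZMod.intCast_eq_intCast_iff_dvd_sub _ _ N).1 hd'.symm
    have e : a * d' - b * c' - 1 = (a * d - b * c - 1) + a * (d' - d) - b * (c' - c) := by ring
    rw [e]
    exact dvd_sub (dvd_add hK (dvd_mul_of_dvd_right hdd a)) (dvd_mul_of_dvd_right hc' b)
  refine ⟨⟨!![a - N * (k * x₀), b + N * (k * y₀); c', d'], ?_⟩, fun i j => ?_⟩
  · rw [Matrix.det_fin_two]
    simp
    linear_combination hk - (N : ℤ) * k * hxy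
  · fin_cases i <;> fin_cases j
    · exact ⟨-(k * x₀), by simp [a]⟩
    · exact ⟨k * y₀, by simp [b]⟩
    · simpa [c] using hc'
    · simpa [d] using (ZMod.intCast_eq_intCast_iff_dvd_sub _ _ N).1 hd'.symm

/-- The real structure `w ↦ A w̄`. -/
def sig (A : C2) (w : Fin 2 → ℂ) : Fin 2 → ℂ := A *ᵥ fun i => conj (w i)

/-- The determinant of a pair. -/
def pdet (a b : Fin 2 → ℂ) : ℂ := a 0 * b 1 - a 1 * b 0

theorem pdet_sig (A : C2) (hA : A.det = 1) (a b : Fin 2 → ℂ) :
    pdet (sig A a) (sig A b) = conj (pdet a b) := by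
  rw [Matrix.det_fin_two] at hA
  simp [pdet, sig, Matrix.mulVec, dotProduct, Fin.sum_univ_two]
  linear_combination (conj (a 0) * conj (b 1) - conj (a 1) * conj (b 0)) * hA

/-- A twisted real structure close to the standard one has a unimodular fixed basis. -/
theorem exists_fixed_frame {N : ℕ} (hN : 2 ≤ N) {B : C2} (hB : IntMat B)
    (hdet : (1 + (rtC * N) • B).det = 1)
    (hinv : (1 + (rtC * N) • B) * cjM (1 + (rtC * N) • B) = 1) :
    ∃ g : C2, IntMat g ∧ g.det = 1 ∧ (1 + (rtC * N) • B) * cjM g = g ∧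
      ∀ i j, DvdOw N (g i j - (1 : C2) i j) := by
  set A := 1 + (rtC * N) • B with hA
  have hsig2 : ∀ w, sig A (sig A w) = w := fun w => by
    have e : (fun i => conj (sig A w i)) = cjM A *ᵥ w := by
      funext i
      simp [sig, cjM, Matrix.mulVec, dotProduct, Fin.sum_univ_two]
    rw [sig, e, mulVec_mulVec, hinv, one_mulVec]
  let Fix : (Fin 2 → ℂ) → Prop := fun w => (∀ i, w i ∈ Ow) ∧ sig A w = w
  -- the decomposition
  have hdec : ∀ w : Fin 2 → ℂ, (∀ i, w i ∈ Ow) → ∀ nv : Fin 2 → ℤ,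
      (∀ i, w i - conj (w i) = rtC * nv i) →
      Fix (fun i => (nv i : ℂ) - N * (B *ᵥ fun i => conj (w i)) i) ∧
      Fix (fun i => w i - omC * ((nv i : ℂ) - N * (B *ᵥ fun i => conj (w i)) i)) := by
    intro w hw nv hnv
    set β : Fin 2 → ℂ := fun i => (nv i : ℂ) - N * (B *ᵥ fun i => conj (w i)) i with hβ
    have hrβ : ∀ i, rtC * β i = w i - sig A w i := fun i => by
      simp only [hβ, sig, hA, Matrix.add_mulVec, Matrix.smul_mulVec, one_mulVec, Pi.add_apply,
        Pi.smul_apply, smul_eq_mul]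
      linear_combination -hnv i
    have hint : ∀ i, β i ∈ Ow := fun i => by
      refine sub_mem (intCast_mem Ow _) (mul_mem (natCast_mem Ow _) ?_)
      simp only [Matrix.mulVec, dotProduct, Fin.sum_univ_two]
      exact add_mem (mul_mem (hB i 0) (conj_mem_Ow (hw 0))) (mul_mem (hB i 1) (conj_mem_Ow (hw 1)))
    have hlin : ∀ (c : ℂ) (x y : Fin 2 → ℂ), sig A (fun i => x i - c * y i) =
        fun i => sig A x i - conj c * sig A y i := fun c x y => by
      funext i
      simp [sig, Matrix.mulVec, dotProduct, Fin.sum_univ_two]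
      ring
    have hfixβ : sig A β = β := by
      have e := congrFun (hlin rtC w β)
      funext i
      have e1 : (fun i => w i - rtC * β i) = sig A w := funext fun i => by rw [hrβ]; ring
      have e2 := e i
      rw [e1, hsig2, conj_rtC] at e2
      exact mul_left_cancel₀ rtC_ne_zero (by linear_combination -e2 - hrβ i)
    refine ⟨⟨hint, hfixβ⟩, fun i => sub_mem (hw i) (mul_mem omC_mem (hint i)), ?_⟩
    rw [hlin, hfixβ]
    funext i
    have := hrβ i
    rw [rtC] at this
    rw [conj_omC]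
    linear_combination this
  have hpint : ∀ a b, Fix a → Fix b → ∃ k : ℤ, pdet a b = k := fun a b ha hb => by
    refine exists_int_eq (sub_mem (mul_mem (ha.1 0) (hb.1 1)) (mul_mem (ha.1 1) (hb.1 0))) ?_
    have h := pdet_sig A hdet a b
    rw [ha.2, hb.2] at h
    exact h.symm
  -- the columns near the identity
  set F : C2 := 1 + (omC * N) • B with hF
  have hFcol : ∀ j, Fix (fun i => F i j) := by
    intro j
    have hw : ∀ i, (1 : C2) i j ∈ Ow := fun i => intMat_one i j
    have h2 := (hdec (fun i => (1 : C2) i j) hw 0 fun i => by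
      rcases eq_or_ne i j with rfl | h
      · simp
      · simp [h]).2
    have e : (fun i => F i j) = fun i => (1 : C2) i j -
        omC * (((0 : Fin 2 → ℤ) i : ℂ) - N * (B *ᵥ fun i => conj ((1 : C2) i j)) i) := by
      funext i
      have e1 : (B *ᵥ fun i => conj ((1 : C2) i j)) i = B i j := by
        obtain rfl | rfl : j = 0 ∨ j = 1 := by omega
        all_goals simp [Matrix.mulVec, dotProduct, Fin.sum_univ_two]
      rw [e1]
      simp [hF]
      ring
    rw [e]
    exact h2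
  have hFdet : DvdOw N (F.det - 1) := by
    refine ⟨omC * (B 0 0 + B 1 1) + omC ^ 2 * N * B.det, add_mem
      (mul_mem omC_mem (add_mem (hB 0 0) (hB 1 1)))
      (mul_mem (mul_mem (pow_mem omC_mem 2) (natCast_mem Ow _)) (det_mem_Ow hB)), ?_⟩
    simp [hF, Matrix.det_fin_two]
    ring
  -- the minimal pair
  classical
  let P : ℕ → Prop := fun d => ∃ a b, Fix a ∧ Fix b ∧ ∃ k : ℤ, pdet a b = k ∧ k ≠ 0 ∧ k.natAbs = d
  have hP : ∃ d, P d := by
    obtain ⟨k, hk⟩ := hpint _ _ (hFcol 0) (hFcol 1)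
    refine ⟨_, _, _, hFcol 0, hFcol 1, k, hk, fun h0 => ?_, rfl⟩
    have hFd : F.det = pdet (fun i => F i 0) (fun i => F i 1) := by
      rw [Matrix.det_fin_two, pdet]; ring
    rw [hFd, hk, h0] at hFdet
    have := (dvd_coords hFdet (m := -1) (n := 0) (by simp)).1
    rw [dvd_neg] at this
    have := Int.le_of_dvd one_pos this
    omega
  obtain ⟨w₁, w₂, hw₁, hw₂, k, hk, hk0, hkd⟩ := Nat.find_spec hP
  have hsub : ∀ a b, Fix a → Fix b → ∀ q : ℤ, Fix (fun i => a i - (q : ℂ) * b i) := by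
    intro a b ha hb q
    refine ⟨fun i => sub_mem (ha.1 i) (mul_mem (intCast_mem Ow _) (hb.1 i)), ?_⟩
    funext i
    have e1 := congrFun ha.2 i
    have e2 := congrFun hb.2 i
    simp only [sig, Matrix.mulVec, dotProduct, Fin.sum_univ_two, map_sub, map_mul,
      map_intCast] at e1 e2 ⊢
    linear_combination e1 - (q : ℂ) * e2
  have hmin : ∀ a b, Fix a → Fix b → ∀ x : ℤ, pdet a b = x → x.natAbs < k.natAbs → x = 0 := by
    intro a b ha hb x hx hlt
    by_contra h0
    exact absurd (Nat.find_min' hP ⟨a, b, ha, hb, x, hx, h0, rfl⟩) (by omega)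
  have hlt : ∀ x : ℤ, (x % k).natAbs < k.natAbs := fun x => by
    have h1 := Int.emod_nonneg x hk0
    have h2 := Int.emod_lt_abs x hk0
    rw [Int.abs_eq_natAbs] at h2
    omega
  have hspan : ∀ a, Fix a → ∃ p p' : ℤ, ∀ i, a i = (p : ℂ) * w₁ i + (p' : ℂ) * w₂ i := by
    intro a ha
    obtain ⟨x, hx⟩ := hpint a w₂ ha hw₂
    obtain ⟨y, hy⟩ := hpint w₁ a hw₁ ha
    have hx0 : x % k = 0 := hmin _ w₂ (hsub a w₁ ha hw₁ (x / k)) hw₂ _ (by
      rw [Int.emod_def, pdet]
      rw [pdet] at hx hk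
      push_cast
      linear_combination hx - ((x / k : ℤ) : ℂ) * hk) (hlt x)
    have hy0 : y % k = 0 := hmin w₁ _ hw₁ (hsub a w₂ ha hw₂ (y / k)) _ (by
      rw [Int.emod_def, pdet]
      rw [pdet] at hy hk
      push_cast
      linear_combination hy - ((y / k : ℤ) : ℂ) * hk) (hlt y)
    obtain ⟨p, hp⟩ := Int.dvd_of_emod_eq_zero hx0
    obtain ⟨p', hp'⟩ := Int.dvd_of_emod_eq_zero hy0
    refine ⟨p, p', fun i => mul_left_cancel₀ (Int.cast_ne_zero.2 hk0 : (k : ℂ) ≠ 0) ?_⟩
    rw [pdet] at hx hy hk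
    rw [hp] at hx; rw [hp'] at hy
    push_cast at hx hy
    obtain rfl | rfl : i = 0 ∨ i = 1 := by omega
    · linear_combination (-(a 0)) * hk + w₁ 0 * hx + w₂ 0 * hy
    · linear_combination (-(a 1)) * hk + w₁ 1 * hx + w₂ 1 * hy
  -- the basis is unimodular
  have hk1 : k * k = 1 := by
    have he : ∀ j, ∃ p p' : ℂ, p ∈ Ow ∧ p' ∈ Ow ∧
        ∀ i, (1 : C2) i j = p * w₁ i + p' * w₂ i := fun j => by
      have hw : ∀ i, (1 : C2) i j ∈ Ow := fun i => intMat_one i j
      obtain ⟨h1, h2⟩ := hdec (fun i => (1 : C2) i j) hw 0 fun i => by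
        rcases eq_or_ne i j with rfl | h
        · simp
        · simp [h]
      obtain ⟨p, p', hp⟩ := hspan _ h1
      obtain ⟨q, q', hq⟩ := hspan _ h2
      refine ⟨q + omC * p, q' + omC * p', add_mem (intCast_mem Ow _) (mul_mem omC_mem (intCast_mem Ow _)),
        add_mem (intCast_mem Ow _) (mul_mem omC_mem (intCast_mem Ow _)), fun i => ?_⟩
      linear_combination hq i + omC * hp i
    obtain ⟨p, p', hp, hp', h0⟩ := he 0
    obtain ⟨q, q', hq, hq', h1⟩ := he 1
    obtain ⟨m, l, hml⟩ : p * q' - p' * q ∈ Ow := sub_mem (mul_mem hp hq') (mul_mem hp' hq)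
    have e00 := h0 0; have e10 := h0 1; have e01 := h1 0; have e11 := h1 1
    simp at e00 e10 e01 e11
    rw [pdet] at hk
    have e : (k : ℂ) * (p * q' - p' * q) = 1 := by
      rw [← hk]
      linear_combination (q * w₁ 0 + q' * w₂ 0) * e10 - (q * w₁ 1 + q' * w₂ 1) * e00 - e11
    rw [hml] at e
    have him := congrArg Complex.im e
    simp [omC] at him
    have hl : l = 0 := by
      rcases him with h | h
      · exact absurd h hk0
      · exact h
    subst hl
    have : k * m = 1 := by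
      have e' : ((k * m : ℤ) : ℂ) = ((1 : ℤ) : ℂ) := by push_cast; simpa using e
      exact_mod_cast e'
    rcases Int.eq_one_or_neg_one_of_mul_eq_one this with h | h <;> simp [h]
  set M : C2 := !![w₁ 0, (k : ℂ) * w₂ 0; w₁ 1, (k : ℂ) * w₂ 1] with hM
  have hMdet : M.det = 1 := by
    have : ((k * k : ℤ) : ℂ) = 1 := by rw [hk1]; simp
    push_cast at this
    rw [pdet] at hk
    simp [hM, Matrix.det_fin_two]
    linear_combination this + (k : ℂ) * hk
  have hMint : IntMat M := fun i j => by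
    fin_cases i <;> fin_cases j <;> simp [hM]
    exacts [hw₁.1 0, mul_mem (intCast_mem Ow _) (hw₂.1 0), hw₁.1 1,
      mul_mem (intCast_mem Ow _) (hw₂.1 1)]
  have hMfix : A * cjM M = M := by
    have a0 := congrFun hw₁.2 0; have a1 := congrFun hw₁.2 1
    have b0 := congrFun hw₂.2 0; have b1 := congrFun hw₂.2 1
    simp only [sig, Matrix.mulVec, dotProduct, Fin.sum_univ_two] at a0 a1 b0 b1
    ext i j
    fin_cases i <;> fin_cases j <;> simp [hM, cjM, Matrix.mul_apply, Fin.sum_univ_two]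
    · linear_combination a0
    · linear_combination (k : ℂ) * b0
    · linear_combination a1
    · linear_combination (k : ℂ) * b1
  obtain ⟨p, p', hp⟩ := hspan _ (hFcol 0)
  obtain ⟨q, q', hq⟩ := hspan _ (hFcol 1)
  set K : Matrix (Fin 2) (Fin 2) ℤ := !![p, q; k * p', k * q'] with hK
  have hkC : (k : ℂ) * k = 1 := by exact_mod_cast hk1
  have hFMK : F = M * K.map (Int.cast : ℤ → ℂ) := by
    have hp0 := hp 0; have hp1 := hp 1; have hq0 := hq 0; have hq1 := hq 1
    ext i j
    fin_cases i <;> fin_cases j <;> simp [hM, hK, Matrix.mul_apply, Fin.sum_univ_two]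
    · linear_combination hp0 - (p' : ℂ) * w₂ 0 * hkC
    · linear_combination hq0 - (q' : ℂ) * w₂ 0 * hkC
    · linear_combination hp1 - (p' : ℂ) * w₂ 1 * hkC
    · linear_combination hq1 - (q' : ℂ) * w₂ 1 * hkC
  have hKdet : (N : ℤ) ∣ K.det - 1 := by
    have e : ((K.det - 1 : ℤ) : ℂ) = F.det - 1 := by
      rw [hFMK, Matrix.det_mul, hMdet, one_mul]
      simp [Matrix.det_fin_two]
    rw [← e] at hFdet
    exact (dvd_coords hFdet (m := K.det - 1) (n := 0) (by simp)).1
  obtain ⟨γ, hγ⟩ := exists_SL2_congr (by omega) K hKdet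
  set G : C2 := (γ : Matrix (Fin 2) (Fin 2) ℤ).map (Int.cast : ℤ → ℂ) with hG
  have hGint : IntMat G := fun i j => intCast_mem Ow _
  have hGdet : G.det = 1 := by
    have h2 := γ.2
    rw [Matrix.det_fin_two] at h2
    simp [hG, Matrix.det_fin_two]
    exact_mod_cast h2
  have hGcj : cjM G = G := by ext i j; simp [hG, cjM]
  refine ⟨M * G, intMat_mul hMint hGint, by rw [Matrix.det_mul, hMdet, hGdet, one_mul],
    by rw [cjM_mul, hGcj, ← Matrix.mul_assoc, hMfix], fun i j => ?_⟩
  have e : (M * G) i j - (1 : C2) i j =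
      (M * (G - K.map (Int.cast : ℤ → ℂ))) i j + (omC * B i j) * N := by
    rw [Matrix.mul_sub, Matrix.sub_apply, ← hFMK]
    simp [hF]
    ring
  rw [e, Matrix.mul_apply, Fin.sum_univ_two]
  have hd : ∀ a b, DvdOw N ((G - K.map (Int.cast : ℤ → ℂ)) a b) := fun a b => by
    obtain ⟨z, hz⟩ := hγ a b
    refine ⟨z, intCast_mem Ow _, ?_⟩
    have hz' : ((γ a b - K a b : ℤ) : ℂ) = (((N : ℤ) * z : ℤ) : ℂ) := by rw [hz]
    push_cast at hz'
    simpa [hG] using hz'
  exact dvdOw_add (dvdOw_add (dvdOw_mul_left (hMint i 0) (hd 0 j))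
    (dvdOw_mul_left (hMint i 1) (hd 1 j))) ⟨omC * B i j, mul_mem omC_mem (hB i j), by ring⟩

/-- Vectors of norm three congruent to `X₀` modulo `3 N` lie in its `Γ(N)`-orbit. -/
theorem exists_slOL_congV {N : ℕ} (hN : 2 ≤ N) {v : Fin 4 → ℤ} (hq : qf v = 3)
    (hv : castv (3 * N) v = castv (3 * N) planeVec) :
    ∃ g : slOL N, congV (g : slO).1.val planeVec = v := by
  have hd : ∀ i, ((3 * N : ℕ) : ℤ) ∣ v i - planeVec i := fun i =>
    (ZMod.intCast_eq_intCast_iff_dvd_sub _ _ _).1 (congrFun hv i).symm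
  choose z hz using hd
  set β : ℂ := (z 2 : ℂ) + (z 3 : ℂ) * omC with hβ
  set B : C2 := !![-β, (z 0 : ℂ); -(z 1 : ℂ), conj β] with hBdef
  have hB : IntMat B := fun i j => by
    fin_cases i <;> fin_cases j <;> simp [hBdef]
    exacts [⟨z 2, z 3, rfl⟩, conj_mem_Ow ⟨z 2, z 3, rfl⟩]
  set A : C2 := 1 + (rtC * N) • B with hA
  have hzr : ∀ i, (v i : ℂ) = (planeVec i : ℂ) + 3 * (N : ℂ) * (z i : ℂ) := fun i => by
    have h : ((v i - planeVec i : ℤ) : ℂ) = ((((3 * N : ℕ) : ℤ) * z i : ℤ) : ℂ) := by rw [hz i]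
    push_cast at h
    linear_combination h
  have hrt : rtC = 2 * omC - 1 := rfl
  have hX : hermX (rvec v) = rtC • (A * sympC) := by
    ext i j
    fin_cases i <;> fin_cases j <;>
      simp [hermX, rvec, hzr, planeVec, hA, hBdef, sympC, Matrix.mul_apply, Fin.sum_univ_two, hβ,
        conj_omC, map_ofNat, map_natCast, map_intCast]
    · linear_combination (N : ℂ) * (z 0 : ℂ) * rtC_sq
    · linear_combination (N : ℂ) * ((z 2 : ℂ) + (z 3 : ℂ) * omC) * rtC_sq - hrt
    · linear_combination (N : ℂ) * ((z 2 : ℂ) + (z 3 : ℂ) * (1 - omC)) * rtC_sq + hrt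
    · linear_combination (N : ℂ) * (z 1 : ℂ) * rtC_sq
  have hdet : A.det = 1 := by
    have h1 := coe_qf (rvec v)
    have h2 : qf (rvec v) = 3 := by
      rw [show rvec v = fun i => Int.castRingHom ℝ (v i) from rfl, ← map_qf, hq]
      simp
    rw [h2, hX, Matrix.det_smul, Matrix.det_mul, Fintype.card_fin,
      show sympC.det = 1 by simp [sympC, Matrix.det_fin_two]] at h1
    push_cast at h1
    linear_combination (-1 / 3 : ℂ) * h1 + A.det / 3 * rtC_sq
  have hinv : A * cjM A = 1 := by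
    have e : cjM A = adjugate A := by
      rw [Matrix.adjugate_fin_two]
      ext i j
      fin_cases i <;> fin_cases j <;> simp [cjM, hA, hBdef, conj_rtC]
    rw [e, Matrix.mul_adjugate, hdet, one_smul]
  obtain ⟨g, hgint, hgdet, hgfix, hgcong⟩ := exists_fixed_frame hN hB hdet hinv
  let gg : GL (Fin 2) ℂ := Matrix.GeneralLinearGroup.mkOfDetNeZero g (by rw [hgdet]; exact one_ne_zero)
  refine ⟨⟨⟨gg, hgint, hgdet⟩, hgcong⟩, rvec_injective (hermX_injective ?_)⟩
  show hermX (rvec (congV g planeVec)) = _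
  rw [hermX_congV hgint, hermX_planeVec, hX, Matrix.mul_smul, Matrix.smul_mul, conjTranspose_eq]
  congr 1
  conv_lhs => rw [show g * sympC = A * cjM g * sympC by rw [hgfix]]
  rw [Matrix.mul_assoc A, Matrix.mul_assoc A, mul_symp_mul_transpose, det_cjM, hgdet, map_one,
    one_smul]

/-- The stabiliser of `X₀` is real. -/
theorem conj_entry_of_congV {g : slO} (h : congV g.1.val planeVec = planeVec) (i j : Fin 2) :
    conj (g.1.val i j) = g.1.val i j := by
  have e := hermX_congV g.2.1 planeVec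
  rw [h, hermX_planeVec, Matrix.mul_smul, Matrix.smul_mul, conjTranspose_eq] at e
  have e1 : g.1.val * sympC * (cjM g.1.val)ᵀ = sympC :=
    (smul_right_injective C2 rtC_ne_zero e).symm
  have e2 : cjM g.1.val * sympC * (cjM g.1.val)ᵀ = sympC := by
    rw [mul_symp_mul_transpose, det_cjM, g.2.2, map_one, one_smul]
  have hu : IsUnit (sympC * (cjM g.1.val)ᵀ) := by
    rw [Matrix.isUnit_iff_isUnit_det, Matrix.det_mul, Matrix.det_transpose, det_cjM, g.2.2]
    simp [sympC, Matrix.det_fin_two]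
  have e3 : g.1.val = cjM g.1.val :=
    hu.mul_right_cancel (by rw [← Matrix.mul_assoc, ← Matrix.mul_assoc, e1, e2])
  exact (congrFun (congrFun e3 i) j).symm

end FLTAgent.LT.Theta31
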