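import Fermat.Agent.LT.Theta31.NonvanishAlg
import Fermat.Agent.LT.Asai.Strip.Tiling
import Fermat.Agent.LT.Asai.Strip.Coords
import Fermat.Agent.LT.Asai.Strip.Bound
import Fermat.Agent.LT.Interface

/-!
# Upper half space as layers over the upper half plane, and periods as weighted integrals
-/

set_option autoImplicit false
set_option linter.unusedSectionVars false
set_option linter.style.haveILetI false

noncomputable section

namespace FLTAgent.LT.Theta31

open Complex hiding Gamma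
open Matrix MeasureTheory Set Hyp
open scoped ComplexConjugate MatrixGroups UpperHalfPlane ENNReal
open CongruenceSubgroup

/-! ### The real plane -/

/-- An integral matrix of determinant one in `SL(2, ℤ[ω])`. -/
def slPl (γ : SL(2, ℤ)) : slO :=
  ⟨Matrix.GeneralLinearGroup.mkOfDetNeZero
      ((γ : Matrix (Fin 2) (Fin 2) ℤ).map (Int.cast : ℤ → ℂ))
      (by
        rw [show (Int.cast : ℤ → ℂ) = ⇑(Int.castRingHom ℂ) from rfl, ← RingHom.mapMatrix_apply,
          ← RingHom.map_det, γ.det_coe]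
        simp),
    fun i j => intCast_mem Ow _, by
      show ((γ : Matrix (Fin 2) (Fin 2) ℤ).map (Int.cast : ℤ → ℂ)).det = 1
      rw [show (Int.cast : ℤ → ℂ) = ⇑(Int.castRingHom ℂ) from rfl, ← RingHom.mapMatrix_apply,
        ← RingHom.map_det, γ.det_coe]
      simp⟩

theorem slPl_apply (γ : SL(2, ℤ)) (i j : Fin 2) : (slPl γ).1.val i j = ((γ i j : ℤ) : ℂ) := rfl

/-- The projection to the upper half plane along the layers. -/
def prj (p : H3) : ℍ :=
  UpperHalfPlane.mk ⟨p.1.re, Real.sqrt (p.1.im ^ 2 + (p.2 : ℝ) ^ 2)⟩ (by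
    have : (0 : ℝ) < p.2 := p.2.2
    exact Real.sqrt_pos.2 (by positivity))

theorem prj_re (p : H3) : (prj p).re = p.1.re := rfl

theorem prj_im (p : H3) : (prj p).im = Real.sqrt (p.1.im ^ 2 + (p.2 : ℝ) ^ 2) := rfl

theorem measurable_prj : Measurable prj := by
  refine Continuous.measurable (UpperHalfPlane.isEmbedding_coe.continuous_iff.2 ?_)
  show Continuous fun p : H3 => (⟨p.1.re, Real.sqrt (p.1.im ^ 2 + (p.2 : ℝ) ^ 2)⟩ : ℂ)
  exact Complex.equivRealProdCLM.symm.continuous.comp (by fun_prop :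
    Continuous fun p : H3 => (p.1.re, Real.sqrt (p.1.im ^ 2 + (p.2 : ℝ) ^ 2)))

/-- The projection is equivariant. -/
theorem prj_smul (γ : SL(2, ℤ)) (p : H3) : prj (slPl γ • p) = γ • prj p := by
  have hdet : ((γ 0 0 : ℤ) : ℝ) * γ 1 1 - (γ 0 1 : ℤ) * γ 1 0 = 1 := by
    have h := Matrix.det_fin_two (γ : Matrix (Fin 2) (Fin 2) ℤ)
    rw [γ.det_coe] at h
    exact_mod_cast h.symm
  set x := p.1.re
  set η := p.1.im
  set t : ℝ := (p.2 : ℝ)
  have ht : 0 < t := p.2.2
  set e : ℝ := Real.sqrt (η ^ 2 + t ^ 2)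
  have he2 : e ^ 2 = η ^ 2 + t ^ 2 := Real.sq_sqrt (by positivity)
  have he : 0 < e := Real.sqrt_pos.2 (by positivity)
  set q : ℝ := ((γ 1 0 : ℤ) * x + γ 1 1) ^ 2 + ((γ 1 0 : ℤ) : ℝ) ^ 2 * e ^ 2
  set g := (slPl γ).1
  have hg : ∀ i j, g i j = ((γ i j : ℤ) : ℂ) := slPl_apply γ
  have hden : den g p = q := by
    simp only [den, hg, q, he2]
    simp [Complex.normSq_apply, x, η, t]
    ring
  have hq : Complex.normSq (UpperHalfPlane.denom (γ : GL (Fin 2) ℝ) (prj p)) = q := by
    rw [ModularGroup.denom_apply]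
    simp [Complex.normSq_apply, q, prj_re, prj_im, x, η, t, e]
    ring
  have hq0 : 0 < q := hden ▸ den_pos _ _
  have hsm : ((γ • prj p : ℍ) : ℂ) =
      ((γ 0 0 : ℤ) * (prj p : ℂ) + γ 0 1) / ((γ 1 0 : ℤ) * (prj p : ℂ) + γ 1 1) := by
    rw [UpperHalfPlane.coe_specialLinearGroup_apply]
    simp [algebraMap_int_eq]
  have hgdet : (Matrix.GeneralLinearGroup.det g : ℂ) = 1 := (slPl γ).2.2
  refine UpperHalfPlane.ext ?_
  apply Complex.ext
  · show (prj (act g p)).re = (γ • prj p : ℍ).re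
    have h1 : (γ • prj p : ℍ).re =
        (((γ 0 0 : ℤ) * x + γ 0 1) * ((γ 1 0 : ℤ) * x + γ 1 1) +
          (γ 0 0 : ℤ) * (γ 1 0 : ℤ) * e ^ 2) / q := by
      show ((γ • prj p : ℍ) : ℂ).re = _
      rw [hsm, Complex.div_re]
      simp [Complex.normSq_apply, q, prj_re, prj_im, x, η, t, e]
      ring
    rw [h1, prj_re, Hyp.coe_act_fst, hden, Complex.div_ofReal_re]
    simp only [hg, he2]
    congr 1
    simp [x, η, t, ← Complex.ofReal_pow]
    ring
  · show (prj (act g p)).im = (γ • prj p : ℍ).im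
    rw [ModularGroup.im_smul_eq_div_normSq, hq, prj_im, prj_im, Hyp.coe_act_fst, Hyp.coe_act_snd,
      hden, Complex.div_ofReal_im, hgdet]
    simp only [hg, norm_one, one_mul]
    have him : (((γ 0 0 : ℤ) : ℂ) * p.1 + ((γ 0 1 : ℤ) : ℂ)) *
        conj (((γ 1 0 : ℤ) : ℂ) * p.1 + ((γ 1 1 : ℤ) : ℂ)) +
        ((γ 0 0 : ℤ) : ℂ) * conj ((γ 1 0 : ℤ) : ℂ) * ((p.2 : ℝ) : ℂ) ^ 2 =
        ⟨((γ 0 0 : ℤ) * x + γ 0 1) * ((γ 1 0 : ℤ) * x + γ 1 1) +
          (γ 0 0 : ℤ) * (γ 1 0 : ℤ) * (η ^ 2 + t ^ 2), η⟩ := by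
      apply Complex.ext <;> simp [x, η, t, ← Complex.ofReal_pow]
      · ring
      · linear_combination p.1.im * hdet
    rw [him]
    simp only
    rw [show (η / q) ^ 2 + (t / q) ^ 2 = (η ^ 2 + t ^ 2) / q ^ 2 by ring,
      Real.sqrt_div (by positivity), Real.sqrt_sq hq0.le]

/-! ### Layers -/

/-- `√(1 + s²)`. -/
def layC (s : ℝ) : ℝ := Real.sqrt (1 + s ^ 2)

theorem layC_pos (s : ℝ) : 0 < layC s := Real.sqrt_pos.2 (by positivity)

theorem continuous_layC : Continuous layC := by unfold layC; fun_prop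

/-- The point over `τ` in the layer `s`. -/
def lay (x : ℝ × ℍ) : H3 :=
  (⟨x.2.re, x.1 * x.2.im / layC x.1⟩, ⟨x.2.im / layC x.1, div_pos x.2.im_pos (layC_pos _)⟩)

theorem continuous_lay : Continuous lay := by
  have h1 : Continuous fun x : ℝ × ℍ => x.2.re := UpperHalfPlane.continuous_re.comp continuous_snd
  have h2 : Continuous fun x : ℝ × ℍ => x.2.im := UpperHalfPlane.continuous_im.comp continuous_snd
  have h3 : Continuous fun x : ℝ × ℍ => layC x.1 := continuous_layC.comp continuous_fst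
  refine Continuous.prodMk ?_ (Continuous.subtype_mk (h2.div h3 fun x => (layC_pos _).ne') _)
  exact Complex.equivRealProdCLM.symm.continuous.comp
    (h1.prodMk ((continuous_fst.mul h2).div h3 fun x => (layC_pos _).ne'))

theorem prj_lay (x : ℝ × ℍ) : prj (lay x) = x.2 := by
  refine UpperHalfPlane.ext (Complex.ext rfl ?_)
  show Real.sqrt ((x.1 * x.2.im / layC x.1) ^ 2 + (x.2.im / layC x.1) ^ 2) = x.2.im
  have h := layC_pos x.1
  have e : layC x.1 ^ 2 = 1 + x.1 ^ 2 := Real.sq_sqrt (by positivity)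
  rw [show (x.1 * x.2.im / layC x.1) ^ 2 + (x.2.im / layC x.1) ^ 2 =
    x.2.im ^ 2 * ((1 + x.1 ^ 2) / layC x.1 ^ 2) by ring, ← e, div_self (by positivity), mul_one,
    Real.sqrt_sq x.2.im_pos.le]

theorem lay_zero (τ : ℍ) : lay (0, τ) = planeEmb τ := by
  refine Prod.ext (Complex.ext ?_ ?_) (Subtype.ext ?_) <;> simp [lay, planeEmb, layC]

theorem lintegral_comp_mul {a : ℝ} (ha : 0 < a) {F : ℝ → ℝ≥0∞} (hF : Measurable F) :
    ENNReal.ofReal a * ∫⁻ x, F (a * x) = ∫⁻ x, F x := by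
  rw [← lintegral_map hF (measurable_const_mul a), Real.map_volume_mul_left ha.ne',
    lintegral_smul_measure, smul_eq_mul, ← mul_assoc, ← ENNReal.ofReal_mul ha.le,
    abs_of_pos (inv_pos.2 ha), mul_inv_cancel₀ ha.ne', ENNReal.ofReal_one, one_mul]

/-- The measure on layers. -/
def layMu : Measure ℝ := (volume : Measure ℝ).withDensity fun s => ENNReal.ofReal (layC s)

instance sfinite_layMu : SFinite layMu := by unfold layMu; infer_instance

theorem lintegral_lay {f : H3 → ℝ≥0∞} (hf : Measurable f) :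
    ∫⁻ x, f (lay x) ∂(layMu.prod volume) = ∫⁻ p, f p ∂hypMeasure := by
  have hG : Measurable (liftFun f) := measurable_liftFun hf
  set G : ℝ → ℝ → ℝ → ℝ≥0∞ := fun x η t => liftFun f (⟨x, η⟩, t)
  have hGm : Measurable fun q : ℝ × ℝ × ℝ => G q.1 q.2.1 q.2.2 := by
    refine hG.comp (Measurable.prodMk ?_ measurable_snd.snd)
    exact Complex.measurableEquivRealProd.symm.measurable.comp
      (measurable_fst.prodMk measurable_snd.fst)
  -- the common value
  set K : ℝ → ℝ → ℝ → ℝ≥0∞ := fun x t s => ENNReal.ofReal ((t ^ 2)⁻¹) * G x (t * s) t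
  have hKm : Measurable fun q : ℝ × ℝ × ℝ => K q.1 q.2.1 q.2.2 := by
    refine Measurable.mul (by fun_prop) ?_
    exact hGm.comp (f := fun q : ℝ × ℝ × ℝ => (q.1, q.2.1 * q.2.2, q.2.1)) (by fun_prop)
  have hR : ∫⁻ p, f p ∂hypMeasure = ∫⁻ x, ∫⁻ t, ∫⁻ s, K x t s := by
    rw [lintegral_hyp hf, Measure.volume_eq_prod, lintegral_prod _ (by fun_prop)]
    rw [← Complex.volume_preserving_equiv_real_prod.symm.lintegral_comp_emb
      Complex.measurableEquivRealProd.symm.measurableEmbedding, Measure.volume_eq_prod,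
      lintegral_prod _ (by fun_prop)]
    refine lintegral_congr fun x => ?_
    rw [lintegral_lintegral_swap]
    swap
    · exact ((by fun_prop : Measurable fun q : ℝ × ℝ => ENNReal.ofReal ((q.2 ^ 3)⁻¹)).mul
        (hGm.comp (f := fun q : ℝ × ℝ => (x, q.1, q.2)) (by fun_prop))).aemeasurable
    refine lintegral_congr fun t => ?_
    by_cases ht : 0 < t
    · show ∫⁻ η : ℝ, ENNReal.ofReal ((t ^ 3)⁻¹) * G x η t = _
      rw [← lintegral_comp_mul ht
        (F := fun η => ENNReal.ofReal ((t ^ 3)⁻¹) * G x η t)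
        (measurable_const.mul (hGm.comp (f := fun η : ℝ => (x, η, t)) (by fun_prop))),
        ← lintegral_const_mul' _ _ ENNReal.ofReal_ne_top]
      refine lintegral_congr fun s => ?_
      simp only [K]
      rw [← mul_assoc, ← ENNReal.ofReal_mul ht.le]
      congr 2
      field_simp
    · simp [G, K, liftFun, ht, Complex.measurableEquivRealProd]
  rw [hR]
  have hm : Measurable fun x : ℝ × ℍ => f (lay x) := hf.comp continuous_lay.measurable
  rw [lintegral_prod _ hm.aemeasurable, layMu,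
    lintegral_withDensity_eq_lintegral_mul _ (continuous_layC.measurable.ennreal_ofReal)
      hm.lintegral_prod_right']
  have hL : ∀ s, ∫⁻ τ : ℍ, f (lay (s, τ)) =
      ∫⁻ x, ∫⁻ e, ENNReal.ofReal ((e ^ 2)⁻¹) * G x (s * e / layC s) (e / layC s) := by
    intro s
    set H : ℂ → ℝ≥0∞ := fun z => G z.re (s * z.im / layC s) (z.im / layC s)
    have hH : Measurable H :=
      hGm.comp (f := fun z : ℂ => (z.re, s * z.im / layC s, z.im / layC s)) (by fun_prop)
    have e1 : ∀ τ : ℍ, f (lay (s, τ)) = H τ := fun τ => by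
      have hp : 0 < (τ : ℂ).im / layC s := div_pos τ.im_pos (layC_pos s)
      simp only [H, G, liftFun, lay]
      rw [dif_pos hp]
      rfl
    simp only [e1]
    have hH' : Measurable fun p : ℝ × ℝ => H ⟨p.1, p.2⟩ :=
      hH.comp Complex.measurableEquivRealProd.symm.measurable
    rw [Asai.lintegral_uhp hH, Asai.coordMeasure,
      lintegral_withDensity_eq_lintegral_mul _
        (by fun_prop : Measurable fun p : ℝ × ℝ => ENNReal.ofReal ((p.2 ^ 2)⁻¹))
        (g := fun p : ℝ × ℝ => H ⟨p.1, p.2⟩)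
        (hH.comp Complex.measurableEquivRealProd.symm.measurable),
      lintegral_prod _ ((by fun_prop : Measurable fun p : ℝ × ℝ => ENNReal.ofReal ((p.2 ^ 2)⁻¹)).mul
        hH').aemeasurable]
    refine lintegral_congr fun x => ?_
    rw [← lintegral_indicator measurableSet_Ioi]
    refine lintegral_congr fun e => ?_
    by_cases he : 0 < e
    · rw [indicator_of_mem (show e ∈ Ioi (0 : ℝ) from he)]
      rfl
    · have he' : ¬ 0 < e / layC s := fun h => he ((div_pos_iff_of_pos_right (layC_pos s)).1 h)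
      rw [indicator_of_notMem (show e ∉ Ioi (0 : ℝ) from he)]
      simp [G, liftFun, he']
  have hscale : ∀ s, ENNReal.ofReal (layC s) * ∫⁻ τ : ℍ, f (lay (s, τ)) =
      ∫⁻ x, ∫⁻ t, K x t s := by
    intro s
    have hc := layC_pos s
    rw [hL, ← lintegral_const_mul' _ _ ENNReal.ofReal_ne_top]
    refine lintegral_congr fun x => ?_
    rw [← lintegral_comp_mul hc
      (F := fun e => ENNReal.ofReal ((e ^ 2)⁻¹) * G x (s * e / layC s) (e / layC s))
      ((by fun_prop : Measurable fun e : ℝ => ENNReal.ofReal ((e ^ 2)⁻¹)).mul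
        (hGm.comp (f := fun e : ℝ => (x, s * e / layC s, e / layC s)) (by fun_prop))),
      ← mul_assoc, ← ENNReal.ofReal_mul hc.le, ← lintegral_const_mul' _ _ ENNReal.ofReal_ne_top]
    refine lintegral_congr fun t => ?_
    simp only [K]
    rw [← mul_assoc, ← ENNReal.ofReal_mul (mul_pos hc hc).le]
    congr 2
    · field_simp
    · field_simp
    · field_simp
  simp only [Pi.mul_apply, hscale]
  rw [lintegral_lintegral_swap]
  swap
  · exact (Measurable.lintegral_prod_right'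
      (f := fun q : (ℝ × ℝ) × ℝ => K q.1.2 q.2 q.1.1)
      (hKm.comp (f := fun q : (ℝ × ℝ) × ℝ => (q.1.2, q.2, q.1.1)) (by fun_prop))).aemeasurable
  refine lintegral_congr fun x => ?_
  exact lintegral_lintegral_swap
    (hKm.comp (f := fun q : ℝ × ℝ => (x, q.2, q.1)) (by fun_prop)).aemeasurable

theorem measurePreserving_lay : MeasurePreserving lay (layMu.prod volume) hypMeasure := by
  refine ⟨continuous_lay.measurable, Measure.ext fun s hs => ?_⟩
  rw [Measure.map_apply continuous_lay.measurable hs,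
    ← lintegral_indicator_one (continuous_lay.measurable hs), ← lintegral_indicator_one hs,
    ← lintegral_lay (measurable_one.indicator hs)]
  rfl

theorem integral_lay {g : H3 → ℂ} (hg : Measurable g) :
    ∫ p, g p ∂hypMeasure = ∫ x, g (lay x) ∂(layMu.prod volume) := by
  rw [← measurePreserving_lay.map_eq, integral_map continuous_lay.measurable.aemeasurable
    hg.aestronglyMeasurable]

/-! ### Weighted integrals on the plane -/

section period

attribute [local instance] Asai.countable_SL2Z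

instance measurableConstSMul_Gamma (N : ℕ) : MeasurableConstSMul (Gamma N) ℍ :=
  ⟨fun g => (Asai.measurePreserving_smulSL (g : SL(2, ℤ))).measurable⟩

theorem countable_Gamma (N : ℕ) : Countable (Gamma N) := Subtype.countable

attribute [local instance] countable_Gamma

theorem sum_weight_mul_smul {N : ℕ} {w : ℍ → ℝ≥0∞} (hw : RS.IsWeight (Gamma N) w)
    (q : SL(2, ℤ)) (τ : ℍ) : ∑' h : Gamma N, w ((q * (h : SL(2, ℤ))) • τ) = 1 := by
  haveI := Gamma_normal (N := N)
  let c : Gamma N ≃ Gamma N :=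
    { toFun := fun h => ⟨q * h * q⁻¹, (Gamma_normal (N := N)).conj_mem _ h.2 q⟩
      invFun := fun h => ⟨q⁻¹ * h * q, by
        simpa using (Gamma_normal (N := N)).conj_mem _ h.2 q⁻¹⟩
      left_inv := fun h => Subtype.ext (by simp [mul_assoc])
      right_inv := fun h => Subtype.ext (by simp [mul_assoc]) }
  refine Eq.trans ?_ ((c.tsum_eq fun h : Gamma N => w (h • (q • τ))).trans (hw.sum_one _))
  refine tsum_congr fun h => ?_
  show _ = w ((q * h * q⁻¹) • (q • τ))
  rw [← mul_smul, inv_mul_cancel_right]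

/-- Coset representatives times the subgroup. -/
def cosetPairEquiv {G : Type*} [Group G] (H : Subgroup G) : (G ⧸ H) × H ≃ G :=
  Equiv.ofBijective (fun x => x.1.out * (x.2 : G)) ⟨by
    rintro ⟨q, h⟩ ⟨q', h'⟩ (he : q.out * (h : G) = q'.out * (h' : G))
    have hq : q = q' := by
      have := congrArg (QuotientGroup.mk (s := H)) he
      simpa [QuotientGroup.mk_mul_of_mem] using this
    subst hq
    simp [Subtype.ext (mul_left_cancel he)], fun g => by
    refine ⟨(QuotientGroup.mk g, ⟨(QuotientGroup.mk g : G ⧸ H).out⁻¹ * g, ?_⟩), by simp⟩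
    exact QuotientGroup.eq.1 (QuotientGroup.out_eq' _)⟩

theorem cosetPairEquiv_apply {G : Type*} [Group G] (H : Subgroup G) (q : G ⧸ H) (h : H) :
    cosetPairEquiv H (q, h) = q.out * (h : G) := rfl

theorem tsum_weight_smul {N : ℕ} [NeZero N] {w : ℍ → ℝ≥0∞} (hw : RS.IsWeight (Gamma N) w)
    (τ : ℍ) : ∑' g : SL(2, ℤ), w (g • τ) = Nat.card (SL(2, ℤ) ⧸ Gamma N) := by
  haveI : Finite (SL(2, ℤ) ⧸ Gamma N) := inferInstance
  haveI := Fintype.ofFinite (SL(2, ℤ) ⧸ Gamma N)
  rw [← (cosetPairEquiv (Gamma N)).tsum_eq,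
    ENNReal.tsum_prod', tsum_fintype, Nat.card_eq_fintype_card]
  simp only [← Finset.card_univ, Finset.cast_card]
  refine Finset.sum_congr rfl fun q _ => ?_
  refine Eq.trans (tsum_congr fun h => ?_) (sum_weight_mul_smul hw q.out τ)
  rfl

theorem lintegral_weight_lt_top {N : ℕ} [NeZero N] {w : ℍ → ℝ≥0∞}
    (hw : RS.IsWeight (Gamma N) w) : ∫⁻ τ, w τ < ⊤ := by
  have h := Asai.lintegral_fd_tsum_smul hw.measurable
  rw [← lintegral_tsum (f := fun (g : SL(2, ℤ)) τ => w (g • τ)) fun g => (hw.measurable.comp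
    (Asai.measurePreserving_smulSL g).measurable).aemeasurable] at h
  simp only [tsum_weight_smul hw, setLIntegral_const] at h
  have hfin : (Nat.card (SL(2, ℤ) ⧸ Gamma N) : ℝ≥0∞) * volume (ModularGroup.fd : Set ℍ) < ⊤ :=
    ENNReal.mul_lt_top (ENNReal.natCast_lt_top _) Asai.volume_fd_lt_top
  rw [h] at hfin
  exact lt_top_iff_ne_top.2 fun h0 => by rw [h0] at hfin; simp at hfin

theorem integrable_weight_mul {N : ℕ} [NeZero N] {w : ℍ → ℝ≥0∞}
    (hw : RS.IsWeight (Gamma N) w) {U : ℍ → ℂ} (hU : Measurable U) {C : ℝ}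
    (hC : ∀ τ, ‖U τ‖ ≤ C) : Integrable fun τ => ((w τ).toReal : ℂ) * U τ :=
  ((integrable_toReal_of_lintegral_ne_top hw.measurable.aemeasurable
    (lintegral_weight_lt_top hw).ne).ofReal).mul_bdd hU.aestronglyMeasurable (ae_of_all _ hC)

/-- A weighted integral is a multiple of the period. -/
theorem two_mul_integral_weight {N m : ℕ} [NeZero N] (hm : 0 < m) (hmN : m ∣ N) {w : ℍ → ℝ≥0∞}
    (hw : RS.IsWeight (Gamma N) w) {U : ℍ → ℂ} (hUc : Continuous U) {C : ℝ}
    (hC : ∀ τ, ‖U τ‖ ≤ C) (hinv : ∀ γ ∈ Gamma m, ∀ τ, U (γ • τ) = U τ) :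
    2 * ∫ τ, ((w τ).toReal : ℂ) * U τ =
      (Nat.card (↥(Gamma m) ⧸ (Gamma N).subgroupOf (Gamma m)) : ℂ) * period m U := by
  haveI : NeZero m := ⟨hm.ne'⟩
  haveI := Gamma_normal (N := m)
  have hle : Gamma N ≤ Gamma m := by
    intro g hg
    rw [Gamma_mem] at hg ⊢
    obtain ⟨h1, h2, h3, h4⟩ := hg
    refine ⟨?_, ?_, ?_, ?_⟩
    · simpa [ZMod.cast_one hmN] using congrArg (ZMod.castHom hmN (ZMod m)) h1
    · simpa using congrArg (ZMod.castHom hmN (ZMod m)) h2
    · simpa using congrArg (ZMod.castHom hmN (ZMod m)) h3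
    · simpa [ZMod.cast_one hmN] using congrArg (ZMod.castHom hmN (ZMod m)) h4
  haveI : Finite (SL(2, ℤ) ⧸ Gamma N) := inferInstance
  haveI := Fintype.ofFinite (SL(2, ℤ) ⧸ Gamma N)
  haveI : Finite (SL(2, ℤ) ⧸ Gamma m) := inferInstance
  haveI := Fintype.ofFinite (SL(2, ℤ) ⧸ Gamma m)
  have hP := integrable_weight_mul hw hUc.measurable hC
  obtain ⟨-, -, key⟩ := Asai.setIntegral_fd_tsum_smul hP
  rw [← key]
  have hright : ∀ (a : SL(2, ℤ)) (h : SL(2, ℤ)), h ∈ Gamma m → ∀ τ, U ((a * h) • τ) = U (a • τ) := by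
    intro a h hh τ
    rw [show a * h = (a * h * a⁻¹) * a by group, mul_smul,
      hinv _ ((Gamma_normal (N := m)).conj_mem _ hh a)]
  have hsum : ∀ τ : ℍ, ∑' g : SL(2, ℤ), ((w (g • τ)).toReal : ℂ) * U (g • τ) =
      ∑ q : SL(2, ℤ) ⧸ Gamma N, U (q.out • τ) := by
    intro τ
    have hs : Summable fun g : SL(2, ℤ) => ((w (g • τ)).toReal : ℂ) * U (g • τ) := by
      have h1 : Summable fun g : SL(2, ℤ) => (w (g • τ)).toReal :=
        ENNReal.summable_toReal (by rw [tsum_weight_smul hw τ]; exact ENNReal.natCast_ne_top _)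
      refine Summable.of_norm_bounded (h1.mul_right C) fun g => ?_
      rw [norm_mul, Complex.norm_real, Real.norm_eq_abs, abs_of_nonneg ENNReal.toReal_nonneg]
      exact mul_le_mul_of_nonneg_left (hC _) ENNReal.toReal_nonneg
    let e := cosetPairEquiv (Gamma N)
    rw [← e.tsum_eq, Summable.tsum_prod (f := fun x : (SL(2, ℤ) ⧸ Gamma N) × Gamma N =>
      ((w (e x • τ)).toReal : ℂ) * U (e x • τ)) ((e.summable_iff).2 hs), tsum_fintype]
    refine Finset.sum_congr rfl fun q _ => ?_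
    have he : ∀ h : Gamma N, e (q, h) = q.out * h := fun h => rfl
    simp only [he, fun h : Gamma N => hright q.out h (hle h.2)]
    rw [tsum_mul_right, ← Complex.ofReal_tsum,
      ← ENNReal.tsum_toReal_eq fun h => ne_top_of_le_ne_top ENNReal.one_ne_top (hw.le_one _),
      sum_weight_mul_smul hw q.out τ]
    simp
  simp only [hsum]
  have hfd : ∀ q : SL(2, ℤ), IntegrableOn (fun τ => U (q • τ)) ModularGroup.fd := fun q => by
    refine IntegrableOn.of_bound Asai.volume_fd_lt_top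
      (hUc.measurable.comp (Asai.measurePreserving_smulSL q).measurable).aestronglyMeasurable C
      (ae_of_all _ fun τ => hC _)
  rw [integral_finsetSum (f := fun (q : SL(2, ℤ) ⧸ Gamma N) τ => U (q.out • τ)) _ fun q _ => hfd q.out]
  rw [period, finsum_eq_sum_of_fintype]
  let e2 := Subgroup.quotientEquivProdOfLE hle
  have hfst : ∀ q : SL(2, ℤ) ⧸ Gamma N, (e2 q).1 = QuotientGroup.mk q.out := fun q => by
    conv_lhs => rw [← QuotientGroup.out_eq' q]
    rfl
  have hout : ∀ q : SL(2, ℤ) ⧸ Gamma N, (∫ τ in ModularGroup.fd, U (q.out • τ)) =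
      ∫ τ in ModularGroup.fd, U ((e2 q).1.out • τ) := fun q => by
    refine setIntegral_congr_fun Asai.measurableSet_fd fun τ _ => ?_
    have hh : q.out⁻¹ * ((e2 q).1).out ∈ Gamma m := by
      refine QuotientGroup.eq.1 ?_
      rw [QuotientGroup.out_eq', hfst]
    rw [← hright q.out _ hh, mul_inv_cancel_left]
  simp only [hout]
  haveI : Finite (↥(Gamma m) ⧸ (Gamma N).subgroupOf (Gamma m)) := by
    haveI : Finite ((SL(2, ℤ) ⧸ Gamma m) × (↥(Gamma m) ⧸ (Gamma N).subgroupOf (Gamma m))) :=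
      Finite.of_equiv _ e2
    exact Finite.prod_right (SL(2, ℤ) ⧸ Gamma m)
  haveI := Fintype.ofFinite (↥(Gamma m) ⧸ (Gamma N).subgroupOf (Gamma m))
  rw [e2.sum_comp fun x => ∫ τ in ModularGroup.fd, U (x.1.out • τ), Fintype.sum_prod_type,
    Nat.card_eq_fintype_card]
  simp [Finset.mul_sum]

end period

end FLTAgent.LT.Theta31
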