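import Fermat.Agent.LT.Theta31.OutHecke
import Fermat.Agent.LT.Interface

/-!
# From the weight one lift to an eigenform

A nonzero form with nebentypus on which every `T (p²)`, `σ_p ∈ G_M`, acts by the scalar of the
octahedral representation gives a normalised eigenform `f` with `a_p² = ω p · tr₀ σ_p²`.
-/

set_option autoImplicit false

noncomputable section

namespace FLTAgent.LT.Theta31

open scoped MatrixGroups ModularForm
open UpperHalfPlane hiding I
open CongruenceSubgroup ModularFormClass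

/-- A commuting family on a nonzero finite-dimensional complex space has a common eigenvector in
every invariant subspace. -/
theorem exists_common_eigen {V ι : Type*} [AddCommGroup V] [Module ℂ V] [FiniteDimensional ℂ V]
    (T : ι → Module.End ℂ V) (hcomm : ∀ i j, T i * T j = T j * T i) (W : Submodule ℂ V)
    (hW : W ≠ ⊥) (hinv : ∀ i, ∀ x ∈ W, T i x ∈ W) :
    ∃ x ∈ W, x ≠ 0 ∧ ∀ i, ∃ c : ℂ, T i x = c • x := by
  obtain ⟨U, ⟨hU0, hUW, hUinv⟩, hmin⟩ := wellFounded_lt.has_min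
    {U : Submodule ℂ V | U ≠ ⊥ ∧ U ≤ W ∧ ∀ i, ∀ x ∈ U, T i x ∈ U} ⟨W, hW, le_rfl, hinv⟩
  have : Nontrivial U := Submodule.nontrivial_iff_ne_bot.2 hU0
  have hscal : ∀ i, ∃ c : ℂ, ∀ x ∈ U, T i x = c • x := fun i => by
    obtain ⟨c, hc⟩ := Module.End.exists_eigenvalue ((T i).restrict (hUinv i))
    obtain ⟨v, hv⟩ := hc.exists_hasEigenvector
    refine ⟨c, fun x hx => ?_⟩
    by_contra hne
    refine hmin (U ⊓ (T i).eigenspace c) ⟨?_, inf_le_left.trans hUW, fun j y hy => ?_⟩ ?_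
    · refine (Submodule.ne_bot_iff _).2 ⟨v, ⟨v.2, ?_⟩, fun h => hv.2 (Subtype.ext h)⟩
      exact Module.End.mem_eigenspace_iff.2 (congrArg Subtype.val hv.apply_eq_smul)
    · refine ⟨hUinv j y hy.1, Module.End.mem_eigenspace_iff.2 ?_⟩
      rw [← Module.End.mul_apply, hcomm, Module.End.mul_apply,
        Module.End.mem_eigenspace_iff.1 hy.2, map_smul]
    · exact lt_of_le_not_ge inf_le_left fun h => hne (Module.End.mem_eigenspace_iff.1 (h hx).2)
  obtain ⟨x, hx, hx0⟩ := (Submodule.ne_bot_iff U).1 hU0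
  exact ⟨x, hUW hx, hx0, fun i => (hscal i).imp fun c hc => hc x hx⟩

variable {L : ℕ} [NeZero L] {ψ : DirichletCharacter ℂ L}

theorem odd_of_mem_neb1 {h : SW L} (hh : h ∈ neb1 L ψ) (h0 : h ≠ 0) : ψ.Odd := by
  have e := hh (-1) (Gamma0_mem.2 (by simp))
  obtain ⟨τ, hτ⟩ : ∃ τ, h τ ≠ 0 := by
    by_contra h'
    exact h0 (DFunLike.ext _ _ fun τ => not_not.1 fun hne => h' ⟨τ, hne⟩)
  have e' := congrFun e τ
  simp [ModularForm.SL_slash_apply, UpperHalfPlane.denom] at e'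
  show ψ (-1) = -1
  exact mul_right_cancel₀ hτ (by linear_combination -e')

/-- An eigenvector of every `T p` is moved by the operators at the level to one with `a 1 = 1`. -/
theorem exists_normalised {h : neb1 L ψ} (h0 : h ≠ 0) (c : ℕ → ℂ)
    (hc : ∀ p : ℕ, p.Prime → ¬ p ∣ L → ∀ n,
      qCoeff (h : SW L) (p * n) + ψ (p : ZMod L) * (if p ∣ n then qCoeff (h : SW L) (n / p) else 0)
        = c p * qCoeff (h : SW L) n) :
    ∃ f : SW L, qCoeff f 1 = 1 ∧ (∀ p : ℕ, p.Prime → ¬ p ∣ L → qCoeff f p = c p) ∧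
      ∀ p : ℕ, p.Prime → ¬ p ∣ L → ∀ n : ℕ,
        qCoeff f (p * n) + ψ (p : ZMod L) * (if p ∣ n then qCoeff f (n / p) else 0) =
          qCoeff f p * qCoeff f n := by
  classical
  set a : ℕ → ℂ := fun n => qCoeff (h : SW L) n
  have hex : ∃ n, a n ≠ 0 := by
    by_contra hh
    exact h0 (Subtype.ext (eq_of_coefW fun n => by
      show a n = _
      rw [not_not.1 fun hne => hh ⟨n, hne⟩, show qCoeff (((0 : neb1 L ψ) : SW L)) n = 0 from
        map_zero (coefW n)]))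
  set n₀ := Nat.find hex
  have hn₀ : a n₀ ≠ 0 := Nat.find_spec hex
  have hmin : ∀ m < n₀, a m = 0 := fun m hm => not_not.1 (Nat.find_min hex hm)
  have hpos : n₀ ≠ 0 := fun e => hn₀ (e ▸ qCoeff_zero_SW (h : SW L))
  have hprimes : ∀ q ∈ n₀.primeFactorsList, q.Prime ∧ q ∣ L := fun q hq => by
    have hq' := Nat.prime_of_mem_primeFactorsList hq
    refine ⟨hq', by_contra fun hqL => hn₀ ?_⟩
    obtain ⟨m, hm⟩ := Nat.dvd_of_mem_primeFactorsList hq
    have hm0 : m ≠ 0 := fun e => hpos (by rw [hm, e, mul_zero])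
    have hmlt : m < n₀ := hm ▸ lt_mul_of_one_lt_left (Nat.pos_of_ne_zero hm0) hq'.one_lt
    have e := hc q hq' hqL m
    have z : (if q ∣ m then a (m / q) else 0) = 0 := by
      split_ifs
      · exact hmin _ ((Nat.div_le_self m q).trans_lt hmlt)
      · rfl
    change a (q * m) + ψ (q : ZMod L) * (if q ∣ m then a (m / q) else 0) = c q * a m at e
    rwa [z, hmin m hmlt, mul_zero, mul_zero, add_zero, ← hm] at e
  obtain ⟨g, hg⟩ := exists_dilate n₀.primeFactorsList hprimes h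
  rw [Nat.prod_primeFactorsList hpos] at hg
  refine ⟨(a n₀)⁻¹ • (g : SW L), ?_⟩
  have hf : ∀ n, qCoeff ((a n₀)⁻¹ • (g : SW L) : SW L) n = (a n₀)⁻¹ * a (n₀ * n) := fun n => by
    rw [← coefW_apply, map_smul, coefW_apply, hg, smul_eq_mul]
  have hrel : ∀ p : ℕ, p.Prime → ¬ p ∣ L → ∀ n : ℕ,
      qCoeff ((a n₀)⁻¹ • (g : SW L) : SW L) (p * n) +
          ψ (p : ZMod L) * (if p ∣ n then qCoeff ((a n₀)⁻¹ • (g : SW L) : SW L) (n / p) else 0) =
        c p * qCoeff ((a n₀)⁻¹ • (g : SW L) : SW L) n := fun p hp hpL n => by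
    have hcop : p.Coprime n₀ := hp.coprime_iff_not_dvd.2 fun hd =>
      hpL (hprimes p ((Nat.mem_primeFactorsList hpos).2 ⟨hp, hd⟩)).2
    have e : a (p * (n₀ * n)) + ψ (p : ZMod L) * (if p ∣ n₀ * n then a (n₀ * n / p) else 0)
        = c p * a (n₀ * n) := hc p hp hpL (n₀ * n)
    have hiff : p ∣ n₀ * n ↔ p ∣ n := hcop.dvd_mul_left
    simp only [hf]
    rw [mul_left_comm p n₀ n] at e
    by_cases hd : p ∣ n
    · rw [if_pos hd, ← Nat.mul_div_assoc n₀ hd]
      rw [if_pos (hiff.2 hd)] at e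
      linear_combination (a n₀)⁻¹ * e
    · rw [if_neg hd]
      rw [if_neg (fun hh => hd (hiff.1 hh))] at e
      linear_combination (a n₀)⁻¹ * e
  have h1 : qCoeff ((a n₀)⁻¹ • (g : SW L) : SW L) 1 = 1 := by
    rw [hf, mul_one, inv_mul_cancel₀ hn₀]
  have hp1 : ∀ p : ℕ, p.Prime → ¬ p ∣ L →
      qCoeff ((a n₀)⁻¹ • (g : SW L) : SW L) p = c p := fun p hp hpL => by
    have e := hrel p hp hpL 1
    rwa [if_neg hp.not_dvd_one, mul_zero, add_zero, h1, mul_one, mul_one] at e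
  exact ⟨h1, hp1, fun p hp hpL n => by rw [hp1 p hp hpL]; exact hrel p hp hpL n⟩

/-- **The modular forms half of the theta lift.** -/
theorem thetaLift_out (d : Octa) (hL : d.Good L) (χ : DirichletCharacter ℂ L)
    {h : neb1 L ψ} (h0 : h ≠ 0)
    (hT2 : ∀ (p : ℕ) (hp : p.Prime) (hpL : ¬ p ∣ L), ∀ A : ValuationSubring Qb, A.LiesOverPrime p →
      ∀ σ : Gam, A.IsFrobeniusAt σ p → σ ∈ d.GM →
        t1Op ψ hp hpL (t1Op ψ hp hpL h) = (χ (p : ZMod L) * d.tr0 σ ^ 2) • h) :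
    ∃ (L : ℕ) (_ : NeZero L) (ε ω : DirichletCharacter ℂ L)
      (f : CuspForm (CongruenceSubgroup.Gamma1 L) 1),
      d.Good L ∧ ModularFormClass.qCoeff f 1 = 1 ∧
      (∀ p : ℕ, p.Prime → ¬ p ∣ L → ∀ n : ℕ,
        ModularFormClass.qCoeff f (p * n) +
            ε (p : ZMod L) * (if p ∣ n then ModularFormClass.qCoeff f (n / p) else 0) =
          ModularFormClass.qCoeff f p * ModularFormClass.qCoeff f n) ∧
      ∀ p : ℕ, p.Prime → ¬ p ∣ L → ∀ A : ValuationSubring Qb, A.LiesOverPrime p →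
        ∀ σ : Gam, A.IsFrobeniusAt σ p → σ ∈ d.GM →
          ModularFormClass.qCoeff f p ^ 2 = ω (p : ZMod L) * d.tr0 σ ^ 2 := by
  have := finiteDimensional_neb1 (odd_of_mem_neb1 h.2 fun e => h0 (Subtype.ext e))
  let T : {p : ℕ // p.Prime ∧ ¬ p ∣ L} → Module.End ℂ (neb1 L ψ) := fun p => t1Op ψ p.2.1 p.2.2
  have hcomm : ∀ i j, T i * T j = T j * T i := fun i j => t1Op_comm _ _ _ _
  let W : Submodule ℂ (neb1 L ψ) :=
    ⨅ (p : {p : ℕ // p.Prime ∧ ¬ p ∣ L}) (A : ValuationSubring Qb) (_ : A.LiesOverPrime (p : ℕ))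
      (σ : Gam) (_ : A.IsFrobeniusAt σ (p : ℕ)) (_ : σ ∈ d.GM),
      LinearMap.ker (T p * T p - (χ ((p : ℕ) : ZMod L) * d.tr0 σ ^ 2) • (1 : Module.End ℂ _))
  have hmem : h ∈ W := by
    simp only [W, Submodule.mem_iInf, LinearMap.mem_ker]
    intro p A hA σ hσ hM
    rw [LinearMap.sub_apply, sub_eq_zero, LinearMap.smul_apply, Module.End.one_apply,
      Module.End.mul_apply]
    exact hT2 p p.2.1 p.2.2 A hA σ hσ hM
  have hinv : ∀ i, ∀ x ∈ W, T i x ∈ W := fun i x hx => by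
    simp only [W, Submodule.mem_iInf, LinearMap.mem_ker] at hx ⊢
    intro p A hA σ hσ hM
    have e := congrArg (T i) (hx p A hA σ hσ hM)
    simp only [LinearMap.sub_apply, LinearMap.smul_apply, Module.End.one_apply,
      Module.End.mul_apply, map_sub, map_smul, map_zero] at e ⊢
    have c : ∀ y, T i (T p y) = T p (T i y) := fun y => LinearMap.congr_fun (hcomm i p) y
    rwa [c, c] at e
  obtain ⟨x, hxW, hx0, hx⟩ := exists_common_eigen T hcomm W
    ((Submodule.ne_bot_iff W).2 ⟨h, hmem, h0⟩) hinv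
  choose cp hcp using hx
  classical
  let c : ℕ → ℂ := fun p => if hp : p.Prime ∧ ¬ p ∣ L then cp ⟨p, hp⟩ else 0
  have hc : ∀ (p : ℕ) (hp : p.Prime) (hpL : ¬ p ∣ L), T ⟨p, hp, hpL⟩ x = c p • x :=
    fun p hp hpL => by rw [hcp ⟨p, hp, hpL⟩]; simp only [c, dif_pos (⟨hp, hpL⟩ : p.Prime ∧ ¬ p ∣ L)]
  obtain ⟨f, hf1, hfp, hfrec⟩ := exists_normalised hx0 c fun p hp hpL n => by
    have e : coefW n ((T ⟨p, hp, hpL⟩ x : neb1 L ψ) : SW L) = coefW n ((c p • x : neb1 L ψ) : SW L) :=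
      congrArg (fun y : neb1 L ψ => coefW n (y : SW L)) (hc p hp hpL)
    rw [Submodule.coe_smul, map_smul, coefW_apply, coefW_apply, qCoeff_t1Op] at e
    exact e
  refine ⟨L, ‹_›, ψ, χ, f, hL, hf1, hfrec, fun p hp hpL A hA σ hσ hM => ?_⟩
  simp only [W, Submodule.mem_iInf, LinearMap.mem_ker] at hxW
  have e := hxW ⟨p, hp, hpL⟩ A hA σ hσ hM
  rw [LinearMap.sub_apply, sub_eq_zero, LinearMap.smul_apply, Module.End.one_apply,
    Module.End.mul_apply, hc p hp hpL, map_smul, hc p hp hpL, smul_smul] at e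
  rw [hfp p hp hpL, sq]
  exact smul_left_injective ℂ hx0 e

end FLTAgent.LT.Theta31
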