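import Fermat.Agent.DS.HeckeOne
import Fermat.Agent.DS.SystemField

/-!
# Hecke operators in weight one on forms with nebentypus

`T p` away from the level, and `U q` at the primes of the level, with their coefficients.
-/

set_option autoImplicit false

noncomputable section

namespace FLTAgent.LT.Theta31

open scoped MatrixGroups Manifold ModularForm
open UpperHalfPlane hiding I
open CongruenceSubgroup ModularFormClass
open FLTAgent.IntegralStructure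

variable {L : ℕ}

/-- Weight one cusp forms on `Γ₁(L)`. -/
abbrev SW (L : ℕ) : Type := CuspForm (Gamma1 L : Subgroup (GL (Fin 2) ℝ)) 1

/-- The forms with nebentypus `ψ`. -/
def neb1 (L : ℕ) (ψ : DirichletCharacter ℂ L) : Submodule ℂ (SW L) where
  carrier := {h | ∀ γ : SL(2, ℤ), γ ∈ Gamma0 L →
    ⇑h ∣[(1 : ℤ)] γ = ψ ((γ 1 1 : ℤ) : ZMod L) • ⇑h}
  zero_mem' := fun γ _ => by
    rw [show (⇑(0 : SW L) : ℍ → ℂ) = 0 from rfl, SlashAction.zero_slash, smul_zero]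
  add_mem' := fun {h h'} hh hh' γ hγ => by
    rw [FunLike.coe_add, SlashAction.add_slash, hh γ hγ, hh' γ hγ, smul_add]
  smul_mem' := fun r h hh γ hγ => by
    rw [FunLike.coe_smul, ModularForm.SL_smul_slash, hh γ hγ, smul_comm]

set_option linter.unusedSectionVars false

variable [NeZero L] {ψ : DirichletCharacter ℂ L}

theorem mem_qFn_SW (f : SW L) : (f : ℍ → ℂ) ∈ qFn :=
  modularForm_mem_qFn f (DS.one_mem_strictPeriods_gamma1 L)

/-- The coefficient as a linear map. -/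
def coefW (n : ℕ) : SW L →ₗ[ℂ] ℂ where
  toFun f := PowerSeries.coeff n (qHom ⟨f, mem_qFn_SW f⟩)
  map_add' f g := by
    rw [show (⟨((f + g : SW L) : ℍ → ℂ), mem_qFn_SW _⟩ : qFn)
      = ⟨f, mem_qFn_SW f⟩ + ⟨g, mem_qFn_SW g⟩ from Subtype.ext rfl, map_add, map_add]
  map_smul' c f := by
    rw [show (⟨((c • f : SW L) : ℍ → ℂ), mem_qFn_SW _⟩ : qFn)
      = c • ⟨f, mem_qFn_SW f⟩ from Subtype.ext rfl, map_smul, map_smul]
    rfl

theorem coefW_apply (n : ℕ) (f : SW L) : coefW n f = qCoeff f n := rfl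

theorem eq_of_coefW {f g : SW L} (h : ∀ n, qCoeff f n = qCoeff g n) : f = g :=
  DFunLike.coe_injective
    (congrArg Subtype.val (qHom_injective (a₁ := ⟨f, mem_qFn_SW f⟩) (a₂ := ⟨g, mem_qFn_SW g⟩)
      (PowerSeries.ext fun n => h n)))

theorem qCoeff_zero_SW (f : SW L) : qCoeff f 0 = 0 := by
  have := (CuspFormClass.zero_at_infty f : IsZeroAtImInfty (f : ℍ → ℂ))
  rw [qCoeff]
  exact CuspFormClass.qExpansion_coeff_zero f one_pos (DS.one_mem_strictPeriods_gamma1 L)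

theorem finiteDimensional_neb1 (hψ : ψ.Odd) : FiniteDimensional ℂ (neb1 L ψ) := by
  have := DS.finiteDimensional_divSpace (ψ⁻¹) (DS.inv_odd hψ)
  have hmem : ∀ f : neb1 L ψ, qHom ⟨(f : SW L), mem_qFn_SW (f : SW L)⟩ ∈ DS.divSpace (ψ⁻¹) := by
    intro f
    obtain ⟨G, hG⟩ := DS.exists_prod_form (f := (f : SW L)) (ε := ψ) f.2
    refine ⟨G, ?_⟩
    show qHom (qC G) = qHom _ * qHom _
    rw [← map_mul]
    exact congrArg qHom (Subtype.ext hG)
  refine Module.Finite.of_injective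
    (({ toFun := fun f => qHom ⟨(f : SW L), mem_qFn_SW (f : SW L)⟩
        map_add' := fun f g => by
          rw [← map_add]
          exact congrArg qHom (Subtype.ext rfl)
        map_smul' := fun c f => by
          rw [RingHom.id_apply, ← map_smul]
          exact congrArg qHom (Subtype.ext rfl) } : neb1 L ψ →ₗ[ℂ] PowerSeries ℂ).codRestrict
      (DS.divSpace (ψ⁻¹)) hmem) ?_
  intro f g e
  refine Subtype.ext (eq_of_coefW fun n => ?_)
  exact congrArg (PowerSeries.coeff n) (congrArg Subtype.val e)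

/-- `T p` as a function. -/
def t1Fun (ψ : DirichletCharacter ℂ L) (p : ℕ) (h : ℍ → ℂ) : ℍ → ℂ :=
  ModularForm.heckeU 1 p h + ψ (p : ZMod L) • (h ∣[(1 : ℤ)] ModularForm.heckeDiagMatrix p)

open P2MW.S_ModularForm_heckeT_slash_eq_self_of_mem_Gamma0.ModularForm.HeckeSlashInvariance in
theorem t1Fun_eq_sum {p : ℕ} [NeZero p] (h : neb1 L ψ) {γp : SL(2, ℤ)} (h0 : γp ∈ Gamma0 L)
    (h1 : ((γp 1 1 : ℤ) : ZMod L) = (p : ZMod L)) :
    t1Fun ψ p ⇑(h : SW L) = ∑ x, ⇑(h : SW L) ∣[(1 : ℤ)] DS.tRepOne p γp x := by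
  rw [t1Fun, heckeU_eq_sum_zmod, Fintype.sum_option, add_comm]
  congr 1
  show _ = _ ∣[(1 : ℤ)] ((γp : GL (Fin 2) ℝ) * ModularForm.heckeDiagMatrix p)
  rw [SlashAction.slash_mul, ← ModularForm.SL_slash, h.2 γp h0, h1, ModularForm.smul_slash,
    ModularForm.σ_heckeDiagMatrix, ContinuousAlgEquiv.refl_apply]

theorem t1Fun_slash {p : ℕ} (hp : p.Prime) (hpL : ¬ p ∣ L) (h : neb1 L ψ) {g : SL(2, ℤ)}
    (hg : g ∈ Gamma0 L) :
    t1Fun ψ p ⇑(h : SW L) ∣[(1 : ℤ)] g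
      = ψ ((g 1 1 : ℤ) : ZMod L) • t1Fun ψ p ⇑(h : SW L) := by
  have : NeZero p := ⟨hp.ne_zero⟩
  obtain ⟨γp, h0, h1⟩ := DS.exists_lowerRight_eq hp hpL
  obtain ⟨σ, δ, hδ, hrel⟩ := DS.exists_transferOne hp hpL h0 h1 hg
  rw [t1Fun_eq_sum h h0 h1, SlashAction.sum_slash, Finset.smul_sum,
    ← Equiv.sum_comp σ (fun x => ψ _ • (_ ∣[(1 : ℤ)] DS.tRepOne p γp x))]
  refine Finset.sum_congr rfl fun x _ => ?_
  rw [ModularForm.SL_slash, ← SlashAction.slash_mul, hrel, SlashAction.slash_mul,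
    ← ModularForm.SL_slash, h.2 _ (hδ x).1, (hδ x).2, ModularForm.smul_slash, UpperHalfPlane.σ,
    if_pos (DS.tRepOne_det_pos p γp _), ContinuousAlgEquiv.refl_apply]

open P2MW.S_CuspFormClass_isZeroAt_heckeT.ModularForm.S06W2 in
/-- `T p` on a form. -/
def t1Form {p : ℕ} (hp : p.Prime) (hpL : ¬ p ∣ L) (h : neb1 L ψ) : SW L where
  toFun := t1Fun ψ p ⇑(h : SW L)
  slash_action_eq' A hA := by
    obtain ⟨g, hg, rfl⟩ := hA
    obtain ⟨-, hg1, hg0⟩ := (Gamma1_mem L g).1 hg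
    show t1Fun ψ p _ ∣[(1 : ℤ)] g = _
    rw [t1Fun_slash hp hpL h (Gamma0_mem.2 hg0), hg1, map_one, one_smul]
  holo' := by
    have hhol := CuspFormClass.holo (h : SW L)
    refine MDifferentiable.add ?_ ((hhol.slash 1 _).const_smul _)
    rw [ModularForm.heckeU_def]
    exact MDifferentiable.sum fun j _ => hhol.slash 1 _
  zero_at_cusps' := fun {c} hc => by
    refine (isZeroAt_heckeU (h : SW L) p hc).add ?_
    obtain ⟨g, hg⟩ := exists_heckeDiagMatrix_eq_map p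
    have hd : OnePoint.IsZeroAt c
        (⇑(ψ (p : ZMod L) • (h : SW L)) ∣[(1 : ℤ)] ModularForm.heckeDiagMatrix p) 1 := by
      rw [hg]; exact isZeroAt_slash_ratCast _ g hc
    rwa [FunLike.coe_smul, ModularForm.smul_slash, ModularForm.σ_heckeDiagMatrix,
      ContinuousAlgEquiv.refl_apply] at hd

/-- `T p`. -/
def t1Op (ψ : DirichletCharacter ℂ L) {p : ℕ} (hp : p.Prime) (hpL : ¬ p ∣ L) :
    Module.End ℂ (neb1 L ψ) where
  toFun h := ⟨t1Form hp hpL h, fun _ hγ => t1Fun_slash hp hpL h hγ⟩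
  map_add' h h' := Subtype.ext <| DFunLike.coe_injective <| by
    show t1Fun ψ p ⇑((h : SW L) + (h' : SW L))
      = t1Fun ψ p ⇑(h : SW L) + t1Fun ψ p ⇑(h' : SW L)
    rw [FunLike.coe_add, t1Fun, t1Fun, t1Fun, ModularForm.heckeU_add, SlashAction.add_slash,
      smul_add]
    abel
  map_smul' r h := Subtype.ext <| DFunLike.coe_injective <| by
    show t1Fun ψ p ⇑(r • (h : SW L)) = r • t1Fun ψ p ⇑(h : SW L)
    rw [FunLike.coe_smul, t1Fun, t1Fun, ModularForm.heckeU_smul, ModularForm.smul_slash,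
      ModularForm.σ_heckeDiagMatrix, ContinuousAlgEquiv.refl_apply, smul_add,
      smul_comm (ψ (p : ZMod L))]

theorem coe_t1Op {p : ℕ} (hp : p.Prime) (hpL : ¬ p ∣ L) (h : neb1 L ψ) :
    ⇑((t1Op ψ hp hpL h : neb1 L ψ) : SW L) = t1Fun ψ p ⇑(h : SW L) := rfl

theorem qCoeff_t1Op {p : ℕ} (hp : p.Prime) (hpL : ¬ p ∣ L) (h : neb1 L ψ) (n : ℕ) :
    qCoeff ((t1Op ψ hp hpL h : neb1 L ψ) : SW L) n = qCoeff (h : SW L) (p * n)
      + ψ (p : ZMod L) * (if p ∣ n then qCoeff (h : SW L) (n / p) else 0) := by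
  obtain ⟨hper, hhol, hbdd⟩ := mem_qFn_SW (h : SW L)
  set F : ℍ → ℂ := ⇑(h : SW L)
  have hU : ModularForm.heckeU 1 p F ∈ qFn :=
    ⟨ModularForm.periodic_heckeU_comp_ofComplex hper 1 p, ModularForm.mdifferentiable_heckeU hhol 1 p,
      ModularForm.isBoundedAtImInfty_heckeU hbdd 1 p⟩
  have hT : ModularForm.heckeT 1 p F ∈ qFn :=
    ⟨ModularForm.periodic_heckeT_comp_ofComplex hper 1 p, ModularForm.mdifferentiable_heckeT hhol 1 p,
      ModularForm.isBoundedAtImInfty_heckeT hbdd 1 p⟩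
  have e : (⟨_, mem_qFn_SW ((t1Op ψ hp hpL h : neb1 L ψ) : SW L)⟩ : qFn)
      = (1 - ψ (p : ZMod L)) • ⟨_, hU⟩ + ψ (p : ZMod L) • ⟨_, hT⟩ := by
    refine Subtype.ext ?_
    show ⇑((t1Op ψ hp hpL h : neb1 L ψ) : SW L) = (1 - ψ (p : ZMod L)) • ModularForm.heckeU 1 p F
      + ψ (p : ZMod L) • ModularForm.heckeT 1 p F
    rw [coe_t1Op, t1Fun, ModularForm.heckeT_eq_heckeU_add, smul_add, sub_smul, one_smul]
    abel
  have h1 := congrArg (fun x => PowerSeries.coeff n (qHom x)) e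
  simp only [map_add, map_smul, qHom_apply, smul_eq_mul] at h1
  have hTc := qCoeff_heckeT hper hhol hbdd 1 hp.ne_zero n
  have hUc := qCoeff_heckeU hper hhol hbdd 1 hp.ne_zero n
  simp only [qCoeff] at hTc hUc ⊢
  rw [h1, hTc, hUc, ModularForm.coeffHeckeT_apply, ModularForm.coeffHeckeU_apply, mul_comm n p]
  split_ifs <;> simp [qCoeff, F] <;> ring

theorem t1Op_comm {p q : ℕ} (hp : p.Prime) (hpL : ¬ p ∣ L) (hq : q.Prime) (hqL : ¬ q ∣ L) :
    t1Op ψ hp hpL * t1Op ψ hq hqL = t1Op ψ hq hqL * t1Op ψ hp hpL := by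
  rcases eq_or_ne p q with rfl | hne
  · rfl
  refine LinearMap.ext fun h => Subtype.ext (eq_of_coefW fun n => ?_)
  simp only [Module.End.mul_apply, qCoeff_t1Op]
  exact DS.coeff_formula_comm hp hq hne _ _ (fun m => qCoeff (h : SW L) m) n

open P2MW.S_ModularForm_heckeU_slash_eq_self_of_mem_Gamma0.ModularForm.HeckeSlashInvariance in
theorem heckeU_slash_neb1 {q : ℕ} [NeZero q] (hqL : q ∣ L) (h : neb1 L ψ) {g : SL(2, ℤ)}
    (hg : g ∈ Gamma0 L) :
    ModularForm.heckeU 1 q ⇑(h : SW L) ∣[(1 : ℤ)] g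
      = ψ ((g 1 1 : ℤ) : ZMod L) • ModularForm.heckeU 1 q ⇑(h : SW L) := by
  have hcL : (L : ℤ) ∣ g 1 0 := (ZMod.intCast_zmod_eq_zero_iff_dvd _ _).mp (Gamma0_mem.mp hg)
  have hc : (q : ℤ) ∣ g 1 0 := (Int.natCast_dvd_natCast.mpr hqL).trans hcL
  rw [heckeU_eq_sum_zmod 1, SlashAction.sum_slash, Finset.smul_sum,
    ← Equiv.sum_comp (affinePerm g ((ZMod.intCast_zmod_eq_zero_iff_dvd _ _).mpr hc))
      (fun x => ψ _ • (_ ∣[(1 : ℤ)] ModularForm.heckeMatrix q x.val))]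
  refine Finset.sum_congr rfl fun x _ => ?_
  obtain ⟨g', hg', hmul⟩ := heckeMatrix_mul_of_dvd g hc x
  have hg'L : g' ∈ Gamma0 L := by
    rw [Gamma0_mem, hg']
    push_cast
    rw [Gamma0_mem.mp hg, mul_zero]
  have hd : ((g' 1 1 : ℤ) : ZMod L) = ((g 1 1 : ℤ) : ZMod L) := by
    have e := congrArg (fun b : GL (Fin 2) ℝ => (b : Matrix (Fin 2) (Fin 2) ℝ) 1 1) hmul
    simp [Matrix.mul_apply, Fin.sum_univ_two, NeZero.ne q, hg', -ZMod.natCast_val] at e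
    set j' := (affinePerm g ((ZMod.intCast_zmod_eq_zero_iff_dvd _ _).mpr hc) x).val
    have e' : (g' 1 1 : ℝ) = ((g 1 1 - g 1 0 * j' : ℤ) : ℝ) := by
      have hq0 : (q : ℝ) ≠ 0 := Nat.cast_ne_zero.2 (NeZero.ne q)
      refine mul_right_cancel₀ hq0 ?_
      push_cast
      linear_combination -e
    rw [Int.cast_inj.1 e']
    push_cast
    rw [Gamma0_mem.mp hg, zero_mul, sub_zero]
  have hh : ⇑(h : SW L) ∣[(1 : ℤ)] (Matrix.SpecialLinearGroup.mapGL ℝ g' : GL (Fin 2) ℝ)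
      = ψ ((g 1 1 : ℤ) : ZMod L) • ⇑(h : SW L) := hd ▸ h.2 g' hg'L
  show (⇑(h : SW L) ∣[(1 : ℤ)] ModularForm.heckeMatrix q x.val) ∣[(1 : ℤ)]
      (Matrix.SpecialLinearGroup.mapGL ℝ g : GL (Fin 2) ℝ) = _
  rw [← SlashAction.slash_mul, hmul, SlashAction.slash_mul, hh, ModularForm.smul_slash,
    ModularForm.σ_heckeMatrix, ContinuousAlgEquiv.refl_apply]

open P2MW.S_CuspFormClass_isZeroAt_heckeT.ModularForm.S06W2 in
/-- `U q` for `q` dividing the level. -/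
theorem exists_u1 {q : ℕ} (hq : q.Prime) (hqL : q ∣ L) (h : neb1 L ψ) :
    ∃ h' : neb1 L ψ, ∀ n, qCoeff (h' : SW L) n = qCoeff (h : SW L) (q * n) := by
  have : NeZero q := ⟨hq.ne_zero⟩
  let F : SW L :=
    { toFun := ModularForm.heckeU 1 q ⇑(h : SW L)
      slash_action_eq' := by
        rintro A ⟨g, hg, rfl⟩
        obtain ⟨-, hg1, hg0⟩ := (Gamma1_mem L g).1 hg
        show ModularForm.heckeU 1 q _ ∣[(1 : ℤ)] g = _
        rw [heckeU_slash_neb1 hqL h (Gamma0_mem.2 hg0), hg1, map_one, one_smul]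
      holo' := ModularForm.mdifferentiable_heckeU (mem_qFn_SW (h : SW L)).2.1 1 q
      zero_at_cusps' := fun {c} hc => isZeroAt_heckeU (h : SW L) q hc }
  refine ⟨⟨F, fun γ hγ => heckeU_slash_neb1 hqL h hγ⟩, fun n => ?_⟩
  obtain ⟨hper, hhol, hbdd⟩ := mem_qFn_SW (h : SW L)
  show qCoeff (ModularForm.heckeU 1 q ⇑(h : SW L)) n = _
  rw [qCoeff_heckeU hper hhol hbdd 1 hq.ne_zero, ModularForm.coeffHeckeU_apply, mul_comm]

/-- The coefficients may be dilated by any product of primes of the level. -/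
theorem exists_dilate : ∀ (l : List ℕ), (∀ q ∈ l, q.Prime ∧ q ∣ L) → ∀ h : neb1 L ψ,
    ∃ h' : neb1 L ψ, ∀ n, qCoeff (h' : SW L) n = qCoeff (h : SW L) (l.prod * n)
  | [], _, h => ⟨h, fun n => by rw [List.prod_nil, one_mul]⟩
  | q :: l, hl, h => by
    obtain ⟨h₁, h1⟩ := exists_u1 (hl q (List.mem_cons_self ..)).1 (hl q (List.mem_cons_self ..)).2 h
    obtain ⟨h₂, h2⟩ := exists_dilate l (fun x hx => hl x (List.mem_cons_of_mem _ hx)) h₁
    exact ⟨h₂, fun n => by rw [h2, h1, List.prod_cons, mul_assoc]⟩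

end FLTAgent.LT.Theta31
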