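import Fermat.Agent.LT.Theta31.Form
import Mathlib.Analysis.SpecialFunctions.Complex.CircleAddChar
import Mathlib.NumberTheory.LSeries.PrimesInAP
import Mathlib.NumberTheory.ModularForms.Basic
import Mathlib.GroupTheory.SpecificGroups.Cyclic

/-!
# Theta series of the `(3,1)` form with periodic coefficients

Translation, inversion, and the behaviour under `Γ₀(9 L²)`.
-/

set_option autoImplicit false
set_option linter.unusedSectionVars false

noncomputable section

namespace FLTAgent.LT.Theta31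

open Complex
open scoped Real

/-- Reduction of an integral vector. -/
def castv (n : ℕ) (v : Fin 4 → ℤ) : Fin 4 → ZMod n := fun i => (v i : ZMod n)

/-- The representative in `[0, n)`. -/
def liftv {n : ℕ} (R : Fin 4 → ZMod n) : Fin 4 → ℤ := fun i => ((R i).val : ℤ)

/-- The natural map to a divisor. -/
def redv {n m : ℕ} (h : m ∣ n) (R : Fin 4 → ZMod n) : Fin 4 → ZMod m :=
  fun i => ZMod.castHom h (ZMod m) (R i)

theorem castv_liftv {n : ℕ} [NeZero n] (R : Fin 4 → ZMod n) : castv n (liftv R) = R := by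
  funext i
  simp [castv, liftv]

theorem redv_castv {n m : ℕ} (h : m ∣ n) (v : Fin 4 → ℤ) : redv h (castv n v) = castv m v := by
  funext i
  simp [redv, castv]

theorem cast_qf_int {R : Type*} [CommRing R] (v : Fin 4 → ℤ) :
    ((qf v : ℤ) : R) = qf fun i => (v i : R) :=
  map_qf (Int.castRingHom R) v

theorem qf_rvec (v : Fin 4 → ℤ) : qf (rvec v) = ((qf v : ℤ) : ℝ) := (cast_qf_int v).symm

/-- The theta series with periodic coefficients. -/
def th (F : Frame) (n : ℕ) (Φ : (Fin 4 → ZMod n) → ℂ) (τ : ℂ) : ℂ :=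
  (Real.sqrt τ.im : ℂ) * ∑' v : Fin 4 → ℤ, Φ (castv n v) * ex F τ (rvec v)

variable (F : Frame) {n : ℕ} [NeZero n]

theorem norm_le_sum_norm {ι : Type*} [Fintype ι] (Φ : ι → ℂ) (i : ι) : ‖Φ i‖ ≤ ∑ j, ‖Φ j‖ :=
  Finset.single_le_sum (f := fun j => ‖Φ j‖) (fun _ _ => norm_nonneg _) (Finset.mem_univ i)

theorem summable_term {τ : ℂ} (h : 0 < τ.im) (Φ : (Fin 4 → ZMod n) → ℂ) :
    Summable fun v : Fin 4 → ℤ => Φ (castv n v) * ex F τ (rvec v) := by
  refine Summable.of_norm_bounded ((summable_norm_ex F h 0).mul_left (∑ R, ‖Φ R‖)) fun v => ?_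
  rw [norm_mul, zero_add]
  exact mul_le_mul_of_nonneg_right (norm_le_sum_norm Φ _) (norm_nonneg _)

/-- The theta series of a class. -/
def cth (F : Frame) (n : ℕ) (r : Fin 4 → ℤ) (τ : ℂ) : ℂ :=
  (Real.sqrt τ.im : ℂ) * ∑' v : Fin 4 → ℤ, ex F τ (rvec r + (n : ℝ) • rvec v)

/-- Decomposition into classes. -/
theorem th_eq_sum {τ : ℂ} (h : 0 < τ.im) (Φ : (Fin 4 → ZMod n) → ℂ) :
    th F n Φ τ = ∑ R, Φ R * cth F n (liftv R) τ := by
  classical
  have hn : (n : ℤ) ≠ 0 := Int.natCast_ne_zero.2 (NeZero.ne n)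
  have hrv : ∀ (r v : Fin 4 → ℤ), rvec r + (n : ℝ) • rvec v = rvec (r + (n : ℤ) • v) := by
    intro r v; funext i; simp [rvec]
  have key : ∀ R : Fin 4 → ZMod n,
      ∑' v : Fin 4 → ℤ, ex F τ (rvec (liftv R) + (n : ℝ) • rvec v) =
        ∑' v : Fin 4 → ℤ, (if castv n v = R then ex F τ (rvec v) else 0) := by
    intro R
    have hinj : Function.Injective fun v : Fin 4 → ℤ => liftv R + (n : ℤ) • v := fun v w e => by
      funext i
      have := congrFun e i
      simpa [hn, NeZero.ne n] using this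
    rw [← hinj.tsum_eq (f := fun v => if castv n v = R then ex F τ (rvec v) else 0)]
    · refine tsum_congr fun v => ?_
      rw [hrv, if_pos]
      funext i
      simp [castv, liftv]
    · intro v hv
      have hv' : castv n v = R := by
        by_contra hc
        exact hv (if_neg hc)
      have hdiv : ∀ i, (n : ℤ) ∣ v i - liftv R i := fun i => by
        rw [← ZMod.intCast_zmod_eq_zero_iff_dvd]
        simp [← hv', castv, liftv]
      choose w hw using hdiv
      exact ⟨w, funext fun i => by simp [← hw i]⟩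
  simp only [th, cth, key, mul_left_comm _ (Real.sqrt τ.im : ℂ), ← Finset.mul_sum]
  congr 1
  simp only [← tsum_mul_left]
  rw [← Summable.tsum_finsetSum fun R _ => ?_]
  · exact tsum_congr fun v => by simp
  · refine ((summable_term F h (fun S => if S = R then (1 : ℂ) else 0)).mul_left (Φ R)).congr
      fun v => ?_
    simp [ite_mul]

/-- The character `k ↦ e (k ⋅ R / n)`. -/
def pair {n : ℕ} [NeZero n] (k R : Fin 4 → ZMod n) : ℂ := ZMod.stdAddChar (∑ i, k i * R i)

theorem echar_inv_smul (k r : Fin 4 → ℤ) :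
    echar k ((n : ℝ)⁻¹ • rvec r) = pair (castv n k) (castv n r) := by
  have e : ∑ i, castv n k i * castv n r i = ((∑ i, k i * r i : ℤ) : ZMod n) := by
    simp [castv]
  rw [pair, e, ZMod.stdAddChar_coe, echar]
  congr 1
  push_cast
  simp only [Finset.mul_sum, Finset.sum_div]
  refine Finset.sum_congr rfl fun i _ => ?_
  simp [rvec]
  ring

/-- Inversion. -/
theorem hasSum_th_inv {τ : ℂ} (h : 0 < τ.im) (Φ : (Fin 4 → ZMod n) → ℂ) :
    HasSum (fun k : Fin 4 → ℤ =>
        (Real.sqrt τ.im : ℂ) * (I / ((Real.sqrt 3 : ℂ) * (n : ℂ) ^ 4 * τ * (‖τ‖ : ℂ))) *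
          ((∑ R, Φ R * pair (castv n k) R) * ex F (-τ⁻¹) ((3 * n : ℝ)⁻¹ • dual (rvec k))))
      (th F n Φ τ) := by
  rw [th_eq_sum F h Φ]
  have := hasSum_sum (s := Finset.univ) fun (R : Fin 4 → ZMod n) _ =>
    ((hasSum_ex_inv F h (Nat.pos_of_ne_zero (NeZero.ne n)) (rvec (liftv R))).mul_left
      ((Real.sqrt τ.im : ℂ))).mul_left (Φ R)
  refine this.congr_fun fun k => ?_
  simp only [echar_inv_smul, castv_liftv, Finset.sum_mul, Finset.mul_sum]
  refine Finset.sum_congr rfl fun R _ => ?_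
  ring

theorem qf_castv (m : ℕ) (v : Fin 4 → ℤ) : qf (castv m v) = ((qf v : ℤ) : ZMod m) :=
  (cast_qf_int v).symm

theorem ex_add_real (τ : ℂ) (x : ℝ) (v : Fin 4 → ℝ) :
    ex F (τ + x) v = cexp (2 * π * I * (x * qf v : ℝ)) * ex F τ v := by
  rw [ex, ex, ← Complex.exp_add]
  congr 1
  simp
  ring

/-- Translation. -/
theorem th_add_intCast (Φ : (Fin 4 → ZMod n) → ℂ) (τ : ℂ) (j : ℤ) :
    th F n Φ (τ + j) = th F n Φ τ := by
  have e : (τ + (j : ℂ)).im = τ.im := by simp
  rw [th, th, e]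
  congr 1
  refine tsum_congr fun v => ?_
  rw [show τ + (j : ℂ) = τ + ((j : ℝ) : ℂ) by simp, ex_add_real, qf_rvec, ← Int.cast_mul,
    ofReal_intCast]
  rw [show 2 * (π : ℂ) * I * ((j * qf v : ℤ) : ℂ) = ((j * qf v : ℤ) : ℂ) * (2 * π * I) by ring,
    Complex.exp_int_mul_two_pi_mul_I, one_mul]

/-- The Gauss sum of the form. -/
def gauss (p : ℕ) [NeZero p] (b : ℤ) : ℂ :=
  ∑ R : Fin 4 → ZMod p, ZMod.stdAddChar ((b : ZMod p) * qf R)

theorem gauss_split {p : ℕ} [Fact p.Prime] (hp : p % 3 = 1) {b : ℤ} (hb : (b : ZMod p) ≠ 0) :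
    gauss p b = (p : ℂ) ^ 2 := by
  classical
  obtain ⟨ζ, hζ3, hζ1⟩ : ∃ ζ : ZMod p, ζ ^ 3 = 1 ∧ ζ ≠ 1 := by
    obtain ⟨u, hu⟩ := exists_prime_orderOf_dvd_card (G := (ZMod p)ˣ) 3
      (by rw [ZMod.card_units]; exact Nat.dvd_of_mod_eq_zero (by omega))
    refine ⟨u, by rw [← Units.val_pow_eq_pow_val, ← hu, pow_orderOf_eq_one, Units.val_one],
      fun e => ?_⟩
    rw [Units.val_eq_one] at e
    simp [e] at hu
  have hsum : ζ ^ 2 + ζ + 1 = 0 := by
    refine (mul_eq_zero.1 (show (ζ - 1) * (ζ ^ 2 + ζ + 1) = 0 by linear_combination hζ3)).resolve_left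
      (sub_ne_zero.2 hζ1)
  have hd : ζ ^ 2 - ζ ≠ 0 := fun e => hζ1 (by
    have hζ0 : ζ ≠ 0 := fun e0 => by simp [e0] at hζ3
    have : ζ * (ζ - 1) = 0 := by linear_combination e
    exact sub_eq_zero.1 ((mul_eq_zero.1 this).resolve_left hζ0))
  let M : (Fin 4 → ZMod p) → (ZMod p × ZMod p) × (ZMod p × ZMod p) := fun R =>
    ((-R 0, R 1), (R 2 - ζ * R 3, R 2 - ζ ^ 2 * R 3))
  have hM : Function.Bijective M := by
    refine (Fintype.bijective_iff_injective_and_card M).2 ⟨fun R S e => ?_, ?_⟩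
    · simp only [M, Prod.mk.injEq, neg_inj] at e
      obtain ⟨⟨e0, e1⟩, e2, e3⟩ := e
      have e4 : R 3 = S 3 := sub_eq_zero.1 ((mul_eq_zero.1
        (show (ζ ^ 2 - ζ) * (R 3 - S 3) = 0 by linear_combination e2 - e3)).resolve_left hd)
      funext i
      fin_cases i
      · exact e0
      · exact e1
      · simpa [e4] using e2
      · exact e4
    · simp [Fintype.card_pi_const, ZMod.card]
      ring
  have hq : ∀ R, qf R = (M R).1.1 * (M R).1.2 + (M R).2.1 * (M R).2.2 := fun R => by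
    simp only [M, qf]
    linear_combination (R 2 * R 3) * hsum - (R 3 ^ 2) * hζ3
  have hH : ∑ x : ZMod p × ZMod p, ZMod.stdAddChar ((b : ZMod p) * (x.1 * x.2)) = (p : ℂ) := by
    rw [Fintype.sum_prod_type]
    have : ∀ x : ZMod p, ∑ y, ZMod.stdAddChar ((b : ZMod p) * (x * y)) =
        if x = 0 then (p : ℂ) else 0 := fun x => by
      rw [show (∑ y, ZMod.stdAddChar ((b : ZMod p) * (x * y))) =
        ∑ y, ZMod.stdAddChar (y * ((b : ZMod p) * x)) from Finset.sum_congr rfl fun y _ => by ring_nf,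
        AddChar.sum_mulShift _ (ZMod.isPrimitive_stdAddChar p), ZMod.card]
      by_cases hx : x = 0 <;> simp [hx, hb]
    simp [this]
  calc gauss p b = ∑ z, ZMod.stdAddChar ((b : ZMod p) * (z.1.1 * z.1.2)) *
        ZMod.stdAddChar ((b : ZMod p) * (z.2.1 * z.2.2)) :=
      Fintype.sum_bijective M hM _ _ fun R => by rw [← AddChar.map_add_eq_mul, hq, mul_add]
    _ = _ := by
      rw [Fintype.sum_prod_type]
      simp only [← Finset.mul_sum, ← Finset.sum_mul, hH, sq]

/-- Completing the square. -/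
theorem gauss_shift {p : ℕ} [NeZero p] (b : ℤ) (u t : Fin 4 → ZMod p)
    (ht : ∀ R, (b : ZMod p) * bil R t = -∑ i, u i * R i) :
    ∑ R, ZMod.stdAddChar ((b : ZMod p) * qf R) * pair u R =
      gauss p b * ZMod.stdAddChar (-((b : ZMod p) * qf t)) := by
  rw [gauss, Finset.sum_mul]
  refine Fintype.sum_equiv (Equiv.addRight (-t)) _ _ fun R => ?_
  rw [pair, ← AddChar.map_add_eq_mul, ← AddChar.map_add_eq_mul]
  congr 1
  have h1 := qf_add (R + -t) t
  rw [add_assoc, neg_add_cancel, add_zero] at h1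
  have h2 := ht R
  simp only [Equiv.coe_addRight]
  have h3 : bil (R + -t) t = bil R t - 2 * qf t := by
    simp [bil, qf]
    ring
  rw [h3] at h1
  linear_combination (b : ZMod p) * h1 + h2

theorem stdAddChar_mul_split {L d : ℕ} [NeZero L] [NeZero d] [NeZero (L * d)] {u v : ℤ}
    (huv : u * d + v * L = 1) (z : ℤ) :
    ZMod.stdAddChar (N := L * d) (z : ZMod (L * d)) =
      ZMod.stdAddChar (N := L) ((u * z : ℤ) : ZMod L) *
        ZMod.stdAddChar (N := d) ((v * z : ℤ) : ZMod d) := by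
  rw [ZMod.stdAddChar_coe, ZMod.stdAddChar_coe, ZMod.stdAddChar_coe, ← Complex.exp_add]
  congr 1
  have hL : (L : ℂ) ≠ 0 := Nat.cast_ne_zero.2 (NeZero.ne L)
  have hd : (d : ℂ) ≠ 0 := Nat.cast_ne_zero.2 (NeZero.ne d)
  have huv' : (u : ℂ) * d + v * L = 1 := by exact_mod_cast huv
  push_cast
  field_simp
  linear_combination -(z : ℂ) * huv'

theorem isCoprime_of_det {a b c d : ℤ} {L : ℕ} (hdet : a * d - b * c = 1)
    (hc : (9 * L ^ 2 : ℤ) ∣ c) : IsCoprime d (L : ℤ) ∧ IsCoprime d 3 := by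
  obtain ⟨c', rfl⟩ := hc
  exact ⟨⟨a, -(b * 9 * L * c'), by linear_combination hdet⟩,
    ⟨a, -(b * 3 * L ^ 2 * c'), by linear_combination hdet⟩⟩

/-- The behaviour under a matrix with positive lower right entry `d` and `9 L² ∣ c`. -/
theorem th_moebius {L d : ℕ} [NeZero L] [NeZero d] (Φ : (Fin 4 → ZMod L) → ℂ) {a b c : ℤ}
    (hdet : a * d - b * c = 1) (hc : (9 * L ^ 2 : ℤ) ∣ c) {τ : ℂ} (h : 0 < τ.im) :
    th F L Φ ((a * τ + b) / (c * τ + d)) =
      gauss d b / (d : ℂ) ^ 2 * (c * τ + d) * th F L (fun R => Φ ((d : ZMod L) • R)) τ := by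
  classical
  haveI : NeZero (L * d) := ⟨Nat.mul_ne_zero (NeZero.ne L) (NeZero.ne d)⟩
  have hd : (d : ℂ) ≠ 0 := Nat.cast_ne_zero.2 (NeZero.ne d)
  have hdR : (d : ℝ) ≠ 0 := Nat.cast_ne_zero.2 (NeZero.ne d)
  have hden : (c : ℂ) * τ + d ≠ 0 := by
    intro e
    rcases eq_or_ne c 0 with rfl | hc0
    · simp at e; exact hd (by exact_mod_cast e)
    · have := congrArg Complex.im e
      simp [h.ne', hc0] at this
  have hτ : τ ≠ 0 := fun e => by simp [e] at h
  obtain ⟨hcopL, hcop3⟩ := isCoprime_of_det hdet hc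
  obtain ⟨c', hc'⟩ := hc
  obtain ⟨u, v, huv⟩ := hcopL
  obtain ⟨s, t', hst⟩ := hcop3
  set σ : ℂ := τ / (d * (c * τ + d))
  have hdet' : (a : ℂ) * d - b * c = 1 := by exact_mod_cast hdet
  have hsplit : (a * τ + b) / (c * τ + d) = σ + (((b : ℝ) / d : ℝ) : ℂ) := by
    push_cast
    simp only [σ]
    rw [div_add_div _ _ (mul_ne_zero hd hden) hd,
      div_eq_div_iff hden (mul_ne_zero (mul_ne_zero hd hden) hd)]
    linear_combination (d : ℂ) * (c * τ + d) * τ * hdet'
  have hσim : σ.im = τ.im / Complex.normSq (c * τ + d) := by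
    have e : σ = τ / ((c : ℂ) * τ + d) / d := by simp only [σ]; rw [div_div, mul_comm (d : ℂ)]
    rw [e, Complex.div_natCast_im, Complex.div_im]
    simp
    field_simp
    ring
  have hσ : 0 < σ.im := by
    rw [hσim]
    exact div_pos h (normSq_pos.2 hden)
  have hdvdL : L ∣ L * d := Dvd.intro _ rfl
  have hdvdd : d ∣ L * d := Dvd.intro_left _ rfl
  -- the coefficients modulo `L d`
  have h1 : th F L Φ ((a * τ + b) / (c * τ + d)) = th F (L * d)
      (fun R => Φ (redv hdvdL R) * ZMod.stdAddChar ((b : ZMod d) * qf (redv hdvdd R))) σ := by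
    rw [hsplit, th, th, show (σ + (((b : ℝ) / d : ℝ) : ℂ)).im = σ.im by simp]
    congr 1
    refine tsum_congr fun w => ?_
    rw [redv_castv, redv_castv, mul_assoc, ex_add_real]
    congr 2
    rw [qf_castv, ← Int.cast_mul, ZMod.stdAddChar_coe, qf_rvec]
    congr 1
    push_cast
    ring
  rw [h1]
  refine (hasSum_th_inv F hσ _).unique ?_
  have h2 := (hasSum_th_inv F h (fun R => Φ ((d : ZMod L) • R))).mul_left
    (gauss d b / (d : ℂ) ^ 2 * (c * τ + d))
  refine h2.congr_fun fun k => ?_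
  -- the finite sum
  have hsum : ∑ R, Φ (redv hdvdL R) * ZMod.stdAddChar ((b : ZMod d) * qf (redv hdvdd R)) *
      pair (castv (L * d) k) R =
      (∑ R, Φ ((d : ZMod L) • R) * pair (castv L k) R) *
        (gauss d b * ZMod.stdAddChar ((c' * qf (dual k) : ℤ) : ZMod d)) := by
    have hcop : Nat.Coprime L d := by
      rw [← Nat.isCoprime_iff_coprime]
      exact (isCoprime_comm.1 ⟨u, v, huv⟩)
    let e : (Fin 4 → ZMod (L * d)) ≃ (Fin 4 → ZMod L) × (Fin 4 → ZMod d) :=
      (Equiv.piCongrRight fun _ => (ZMod.chineseRemainder hcop).toEquiv).trans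
        (Equiv.arrowProdEquivProdArrow _ _ _)
    have he1 : ∀ R, (e R).1 = redv hdvdL R := fun R => funext fun i => by
      show (ZMod.chineseRemainder hcop (R i)).1 = ZMod.castHom hdvdL (ZMod L) (R i)
      exact RingHom.congr_fun (RingHom.ext_zmod
        ((RingHom.fst _ _).comp (ZMod.chineseRemainder hcop).toRingHom) _) (R i)
    have he2 : ∀ R, (e R).2 = redv hdvdd R := fun R => funext fun i => by
      show (ZMod.chineseRemainder hcop (R i)).2 = ZMod.castHom hdvdd (ZMod d) (R i)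
      exact RingHom.congr_fun (RingHom.ext_zmod
        ((RingHom.snd _ _).comp (ZMod.chineseRemainder hcop).toRingHom) _) (R i)
    have hpair : ∀ R, pair (castv (L * d) k) R =
        pair (castv L k) ((u : ZMod L) • redv hdvdL R) *
          pair ((v : ZMod d) • castv d k) (redv hdvdd R) := fun R => by
      obtain ⟨r, rfl⟩ : ∃ r : Fin 4 → ℤ, castv (L * d) r = R := ⟨liftv R, castv_liftv R⟩
      simp only [pair, redv_castv]
      rw [show ∑ i, castv (L * d) k i * castv (L * d) r i =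
        ((∑ i, k i * r i : ℤ) : ZMod (L * d)) by simp [castv],
        stdAddChar_mul_split (u := u) (v := v) (by linear_combination huv)]
      congr 2
      · simp [castv, Finset.mul_sum]
        exact Finset.sum_congr rfl fun i _ => by ring
      · simp [castv, Finset.mul_sum]
        exact Finset.sum_congr rfl fun i _ => by ring
    have hu : (u : ZMod L) * (d : ZMod L) = 1 := by
      have := congrArg (fun z : ℤ => (z : ZMod L)) huv
      simpa [ZMod.natCast_self] using this
    have hshift := gauss_shift b ((v : ZMod d) • castv d k)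
      (((c * v * t' : ℤ) : ZMod d) • castv d (dual k)) (fun R => by
        have e1 : bil R (((c * v * t' : ℤ) : ZMod d) • castv d (dual k)) =
            ((c * v * t' : ℤ) : ZMod d) * bil (castv d (dual k)) R := by
          simp [bil]; ring
        have e2 : castv d (dual k) = dual (castv d k) :=
          funext fun i => map_dual (Int.castRingHom (ZMod d)) k i
        have hb : ((b * c : ℤ) : ZMod d) = -1 := by
          have := congrArg (fun z : ℤ => (z : ZMod d)) hdet
          simp at this ⊢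
          linear_combination -this
        have h3 : ((t' : ℤ) : ZMod d) * 3 = 1 := by
          have := congrArg (fun z : ℤ => (z : ZMod d)) hst
          simpa using this
        rw [e1, e2, bil_dual]
        push_cast at hb ⊢
        simp only [Pi.smul_apply, smul_eq_mul, mul_assoc, ← Finset.mul_sum]
        linear_combination ((v : ZMod d) * t' * 3 * ∑ i, castv d k i * R i) * hb -
          ((v : ZMod d) * ∑ i, castv d k i * R i) * h3)
    calc _ = ∑ R, Φ (e R).1 * pair (castv L k) ((u : ZMod L) • (e R).1) *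
          (ZMod.stdAddChar ((b : ZMod d) * qf (e R).2) *
            pair ((v : ZMod d) • castv d k) (e R).2) :=
        Finset.sum_congr rfl fun R _ => by rw [he1, he2, hpair]; ring
      _ = (∑ R1, Φ R1 * pair (castv L k) ((u : ZMod L) • R1)) *
          ∑ R2, ZMod.stdAddChar ((b : ZMod d) * qf R2) *
            pair ((v : ZMod d) • castv d k) R2 := by
        rw [Finset.sum_mul_sum, ← Fintype.sum_prod_type']
        exact Fintype.sum_equiv e _ _ fun R => rfl
      _ = _ := by
        rw [hshift]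
        congr 1
        · refine Fintype.sum_equiv
            ⟨fun R => (u : ZMod L) • R, fun R => (d : ZMod L) • R,
              fun R => by
                show (d : ZMod L) • (u : ZMod L) • R = R
                rw [smul_smul, mul_comm, hu, one_smul],
              fun R => by
                show (u : ZMod L) • (d : ZMod L) • R = R
                rw [smul_smul, hu, one_smul]⟩ _ _ fun R => ?_
          simp only [Equiv.coe_fn_mk, smul_smul, mul_comm (d : ZMod L), hu, one_smul]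
        · congr 2
          rw [qf_smul, qf_castv]
          have hb : ((b * c : ℤ) : ZMod d) = -1 := by
            have := congrArg (fun z : ℤ => (z : ZMod d)) hdet
            simp at this ⊢
            linear_combination -this
          have h3 : ((t' : ℤ) : ZMod d) * 3 = 1 := by
            have := congrArg (fun z : ℤ => (z : ZMod d)) hst
            simpa using this
          have hv : (v : ZMod d) * (L : ZMod d) = 1 := by
            have := congrArg (fun z : ℤ => (z : ZMod d)) huv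
            simpa using this
          have hcd : ((c : ℤ) : ZMod d) = 9 * (L : ZMod d) ^ 2 * c' := by simp [hc']
          push_cast at hb ⊢
          linear_combination (-(c : ZMod d) * ((v : ZMod d) * t') ^ 2 * (qf (dual k) : ℤ)) * hb +
            (((v : ZMod d) * t') ^ 2 * (qf (dual k) : ℤ)) * hcd +
            ((c' : ZMod d) * (qf (dual k) : ℤ) * ((t' : ZMod d) * 3 + 1) * ((v : ZMod d) * L) ^ 2) * h3 +
            ((c' : ZMod d) * (qf (dual k) : ℤ) * ((v : ZMod d) * L + 1)) * hv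
  rw [hsum]
  have hexp : ex F (-σ⁻¹) ((3 * ((L * d : ℕ) : ℝ))⁻¹ • dual (rvec k)) =
      ZMod.stdAddChar ((-(c' * qf (dual k)) : ℤ) : ZMod d) *
        ex F (-τ⁻¹) ((3 * (L : ℝ))⁻¹ • dual (rvec k)) := by
    have hσi : -σ⁻¹ = (((d : ℝ) : ℂ)) ^ 2 * -τ⁻¹ + ((-(c * d) : ℤ) : ℝ) := by
      simp only [σ]
      push_cast
      field_simp
      ring
    rw [hσi, ex_add_real, ← ex_smul, smul_smul]
    congr 1
    · rw [ZMod.stdAddChar_coe, qf_smul,
        show dual (rvec k) = rvec (dual k) from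
          funext fun i => (map_dual (Int.castRingHom ℝ) k i).symm, qf_rvec]
      congr 1
      rw [hc']
      have hL : (L : ℂ) ≠ 0 := Nat.cast_ne_zero.2 (NeZero.ne L)
      push_cast
      field_simp
      ring
    · congr 2
      push_cast
      field_simp
  rw [hexp]
  have hfac : (Real.sqrt σ.im : ℂ) *
      (I / ((Real.sqrt 3 : ℂ) * ((L * d : ℕ) : ℂ) ^ 4 * σ * (‖σ‖ : ℂ))) =
      (c * τ + d) / (d : ℂ) ^ 2 * ((Real.sqrt τ.im : ℂ) *
        (I / ((Real.sqrt 3 : ℂ) * (L : ℂ) ^ 4 * τ * (‖τ‖ : ℂ)))) := by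
    have hn : (‖(c : ℂ) * τ + d‖ : ℂ) ≠ 0 := by simpa using hden
    have hn' : (‖τ‖ : ℂ) ≠ 0 := by simpa using hτ
    have hL : (L : ℂ) ≠ 0 := Nat.cast_ne_zero.2 (NeZero.ne L)
    have h3 : (Real.sqrt 3 : ℂ) ≠ 0 := by simp
    rw [hσim, Real.sqrt_div h.le, show Real.sqrt (normSq ((c : ℂ) * τ + d)) = ‖(c : ℂ) * τ + d‖ from rfl]
    simp only [σ, norm_div, norm_mul, Complex.norm_natCast]
    push_cast
    field_simp
  rw [hfac, show ((-(c' * qf (dual k)) : ℤ) : ZMod d) = -((c' * qf (dual k) : ℤ) : ZMod d) by push_cast; ring]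
  have h1c : ZMod.stdAddChar ((c' * qf (dual k) : ℤ) : ZMod d) *
      ZMod.stdAddChar (-((c' * qf (dual k) : ℤ) : ZMod d)) = (1 : ℂ) := by
    rw [← AddChar.map_add_eq_mul, add_neg_cancel, AddChar.map_zero_eq_one]
  linear_combination ((gauss d b / (d : ℂ) ^ 2 * (c * τ + d)) * ((Real.sqrt τ.im : ℂ) *
    (I / ((Real.sqrt 3 : ℂ) * (L : ℂ) ^ 4 * τ * (‖τ‖ : ℂ)))) *
    (∑ R, Φ ((d : ZMod L) • R) * pair (castv L k) R) *
    ex F (-τ⁻¹) ((3 * (L : ℝ))⁻¹ • dual (rvec k))) * h1c

end FLTAgent.LT.Theta31
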