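import Fermat.Agent.LT.Theta31.Cusp
import Fermat.Agent.LT.Theta31.Bridge
import Fermat.Agent.LT.Theta31.Count
import Fermat.Agent.LT.Theta31.Final
import Fermat.Agent.LT.Theta31.Nonvanish
import Fermat.Agent.LT.Adjoint.Main
import Mathlib.NumberTheory.DirichletCharacter.Orthogonality

/-!
# Piece D: the theta lift from `ℚ(√-3)` to weight one

From the classical data and a nonzero lift, a form of weight one on `Γ₀` with character on which
the squares of the Hecke operators act by the squared traces; the last step gives the eigenform.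
-/

set_option autoImplicit false
set_option linter.unusedSectionVars false
set_option linter.style.haveILetI false

noncomputable section

namespace FLTAgent.LT.Theta31

open Complex Matrix MeasureTheory Filter
open scoped Real ComplexConjugate Topology MatrixGroups ModularForm UpperHalfPlane
open CongruenceSubgroup

/-! ### The octahedral data -/

theorem good_of_dvd {d : Octa} {L M : ℕ} (h : d.Good L) (hLM : L ∣ M) (hM : 0 < M) : d.Good M :=
  ⟨hM, h.2.1.trans hLM, fun p hp hpM => h.2.2 p hp fun hpL => hpM (hpL.trans hLM)⟩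

theorem det_of_mem_quat {g : G3} (hg : g ∈ Octa.quat) : Matrix.GeneralLinearGroup.det g = 1 :=
  MonoidHom.mem_ker.1 ((Subgroup.closure_le _).2 (fun _ hx => MonoidHom.mem_ker.2 hx.1) hg)

theorem mod_three_of_mem_GM (d : Octa) {p : ℕ} (hp : p.Prime) (hp3 : p ≠ 3)
    {A : ValuationSubring Qb} (hA : A.LiesOverPrime p) {σ : Gam} (hσ : A.IsFrobeniusAt σ p)
    (hGM : σ ∈ d.GM) : p % 3 = 1 := by
  have h : (cycMod 3 σ : ZMod 3) = 1 := by
    rw [cycMod_three, ← d.det_eq, det_of_mem_quat (show d.rbar σ ∈ Octa.quat from hGM),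
      Units.val_one]
  rw [cycMod_frobenius hA hσ ((Nat.coprime_primes Nat.prime_three hp).2 (Ne.symm hp3))] at h
  simpa using (ZMod.natCast_eq_natCast_iff' p 1 3).1 (by simpa using h)

theorem trace_liftC_upSign {L : G3 →* GL (Fin 2) (ℤ√(-2))}
    (hL : ∀ g, Matrix.GeneralLinearGroup.map FLT.ExplicitLift.red (L g) = g) {g : G3} {l : Fin 4}
    (h : UpSign g (q8 l)) (hl : l ≠ 0) : (liftC L g : M2C).trace = 0 := by
  rcases h with rfl | rfl
  · exact trace_liftC_q8 hL hl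
  · rw [liftC_neg hL, Units.val_neg, Matrix.trace_neg, trace_liftC_q8 hL hl, neg_zero]

theorem tr0_sq_real (d : Octa) {σ : Gam} (hσ : σ ∈ d.GM) :
    ∃ x : ℝ, d.tr0 σ ^ 2 = (x : ℂ) := by
  have e : d.tr0 σ = (liftC d.lift (d.rbar σ) : M2C).trace := (trace_liftC _ _).symm
  obtain ⟨k, hk⟩ := exists_upSign_q8_of_mem_quat (show d.rbar σ ∈ Octa.quat from hσ)
  rcases eq_or_ne k 0 with rfl | h0
  · refine ⟨4, ?_⟩
    have hq : q8 0 = (1 : G3) := rfl
    rcases hk with h | h <;> rw [e, h, hq]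
    · rw [map_one, Units.val_one, Matrix.trace_one]; norm_num
    · rw [liftC_neg_one d.lift_red, Units.val_neg, Units.val_one, Matrix.trace_neg,
        Matrix.trace_one]
      norm_num
  · exact ⟨0, by rw [e, trace_liftC_upSign d.lift_red hk h0]; simp⟩

/-- A prime `≡ 1` modulo any level with Frobenius in `G_M` of trace zero. -/
theorem exists_prime_killing (d : Octa) (M : ℕ) [NeZero M] :
    ∃ p : ℕ, p.Prime ∧ ¬ p ∣ M ∧ (p : ZMod M) = 1 ∧ ∃ A : ValuationSubring Qb,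
      A.LiesOverPrime p ∧ ∃ σ : Gam, A.IsFrobeniusAt σ p ∧ σ ∈ d.GM ∧ d.tr0 σ = 0 := by
  obtain ⟨s, hs⟩ := d.surj (q8 1)
  obtain ⟨t, ht⟩ := d.surj g3H
  obtain ⟨l, hl, hup⟩ := (q8_not_comm 1).resolve_left (by decide)
  set c := s * t * s⁻¹ * t⁻¹
  have hc : UpSign (d.rbar c) (q8 l) := by
    simp only [c, map_mul, map_inv, hs, ht]
    exact hup
  obtain ⟨p, hp, hpS, A, hA, φ, hφ, -, h2, h3⟩ :=
    exists_frobenius_triple d (ρ := 1) ⟨⊥, inferInstance, fun _ _ => rfl⟩ M c M.primeFactors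
  have hpM : ¬ p ∣ M := fun h => hpS (Nat.mem_primeFactors.2 ⟨hp, h, NeZero.ne M⟩)
  refine ⟨p, hp, hpM, ?_, A, hA, φ, hφ, ?_, ?_⟩
  · rw [← cycMod_frobenius hA hφ (hp.coprime_iff_not_dvd.2 hpM).symm, h3]
    simp [c]
  · show d.rbar φ ∈ Octa.quat
    rw [h2]
    exact mem_quat_of_upSign hc
  · show iotaC _ = 0
    rw [h2, ← trace_liftC, trace_liftC_upSign d.lift_red hc hl]

namespace ClassicalData

variable {d : Octa} (D : ClassicalData d) {n : ℕ} (hLn : D.L ∣ n)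

/-- The components indexed by the units of a larger level. -/
def upU (i : (ZMod n)ˣ) : H3 → ℂ := D.u (ZMod.unitsMap hLn i)

theorem isU_upU (i : (ZMod n)ˣ) : IsU n (D.upU hLn i) := (D.isU _).mono hLn

theorem killed_upU [NeZero n] : Killed n (D.upU hLn) := fun M hM hM0 => by
  haveI : NeZero M := ⟨hM0.ne'⟩
  obtain ⟨p, hp, hpM, hp1, A, hA, σ, hσ, hGM, htr⟩ := exists_prime_killing d M
  have hp3 : p ≠ 3 := fun e => hpM (e ▸ (D.good.2.1.trans (hLn.trans hM)))
  refine ⟨p, hp, mod_three_of_mem_GM d hp hp3 hA hσ hGM, hpM, hp1, fun R hR i x => ?_⟩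
  have h := D.eigen p hp A hA σ hσ hGM M (hLn.trans hM) hM0 hpM R hR (ZMod.unitsMap hLn i)
    (ZMod.unitsMap hLn i) ?_ x
  · rw [htr] at h
    simp only [ne_eq, OfNat.ofNat_ne_zero, not_false_eq_true, zero_pow, mul_zero, zero_mul] at h
    exact h.symm
  · have e := congrArg (ZMod.castHom (hLn.trans hM) (ZMod D.L)) hp1
    rw [map_natCast, map_one] at e
    rw [e, one_mul]

end ClassicalData

/-! ### The coefficients -/

variable {n : ℕ} [NeZero n]

/-- The congruence by a unit. -/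
def congC (t : ZMod n) (R : Fin 4 → ZMod n) : Fin 4 → ZMod n :=
  ![t ^ 2 * R 0, R 1, t * R 2, t * R 3]

theorem diagV_eq (p : ℕ) (R : Fin 4 → ZMod n) : diagV p R = congC (p : ZMod n) R := rfl

theorem congC_congC (s t : ZMod n) (R : Fin 4 → ZMod n) :
    congC s (congC t R) = congC (s * t) R := by
  funext i
  fin_cases i <;> simp [congC] <;> ring

theorem congC_one (R : Fin 4 → ZMod n) : congC 1 R = R := by
  funext i
  fin_cases i <;> simp [congC]

theorem congC_smul (t c : ZMod n) (R : Fin 4 → ZMod n) : congC t (c • R) = c • congC t R := by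
  funext i
  fin_cases i <;> simp [congC] <;> ring

/-- The homogeneous part of character `et`. -/
def homPart (et : DirichletCharacter ℂ n) (Ψ : (Fin 4 → ZMod n) → ℂ) (R : Fin 4 → ZMod n) : ℂ :=
  ∑ t : (ZMod n)ˣ, et ((t⁻¹ : (ZMod n)ˣ) : ZMod n) * Ψ ((t : ZMod n) • R)

theorem homPart_smul (et : DirichletCharacter ℂ n) (Ψ : (Fin 4 → ZMod n) → ℂ) (s : (ZMod n)ˣ)
    (R : Fin 4 → ZMod n) :
    homPart et Ψ ((s : ZMod n) • R) = et (s : ZMod n) * homPart et Ψ R := by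
  rw [homPart, homPart, Finset.mul_sum]
  refine Fintype.sum_equiv (Equiv.mulRight s) _ _ fun t => ?_
  simp only [Equiv.coe_mulRight, smul_smul, ← Units.val_mul, ← mul_assoc, ← map_mul]
  congr 3
  rw [_root_.mul_inv_rev, mul_inv_cancel_left]

theorem sum_homPart (Ψ : (Fin 4 → ZMod n) → ℂ) (R : Fin 4 → ZMod n) :
    ∑ et : DirichletCharacter ℂ n, homPart et Ψ R = (n.totient : ℂ) * Ψ R := by
  simp only [homPart]
  rw [Finset.sum_comm]
  simp only [← Finset.sum_mul, DirichletCharacter.sum_characters_eq, Units.val_eq_one, inv_eq_one,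
    ite_mul, zero_mul]
  rw [Finset.sum_ite_eq' Finset.univ (1 : (ZMod n)ˣ), if_pos (Finset.mem_univ _), Units.val_one,
    one_smul]

variable (n) in
/-- The coefficients with characters `χ` and `et`. -/
def coefFam (χ et : DirichletCharacter ℂ n) (Ψ : (Fin 4 → ZMod n) → ℂ) (i : (ZMod n)ˣ)
    (R : Fin 4 → ZMod n) : ℂ :=
  χ (i : ZMod n) * homPart et Ψ (congC ((i⁻¹ : (ZMod n)ˣ) : ZMod n) R)

theorem isHomog_coefFam (χ et : DirichletCharacter ℂ n) (Ψ : (Fin 4 → ZMod n) → ℂ) :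
    IsHomog et (coefFam n χ et Ψ) := fun i t R => by
  rw [coefFam, coefFam, congC_smul, homPart_smul]
  ring

theorem liftTh_sum {u : H3 → ℂ} (hu : IsU n u) {α : Type*} (s : Finset α)
    (Φ : α → (Fin 4 → ZMod n) → ℂ) {τ : ℂ} (hτ : 0 < τ.im) :
    liftTh n u (fun R => ∑ j ∈ s, Φ j R) τ = ∑ j ∈ s, liftTh n u (Φ j) τ := by
  obtain ⟨C, hC⟩ := hu.bdd
  simp only [liftTh_eq_integral_th]
  rw [← integral_finsetSum _ fun j _ => integrable_mul_th hu.cont.measurable hC (Φ j) hτ]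
  refine integral_congr_ae (ae_of_all _ fun p => ?_)
  simp only [th_eq_sum _ hτ, Finset.mul_sum, Finset.sum_mul]
  rw [Finset.sum_comm]

theorem exists_coefFam {u : (ZMod n)ˣ → H3 → ℂ} (hu : ∀ i, IsU n (u i)) (i₀ : (ZMod n)ˣ)
    {Φ₀ : (Fin 4 → ZMod n) → ℂ} {τ : ℂ} (hτ : 0 < τ.im) (h : liftTh n (u i₀) Φ₀ τ ≠ 0) :
    ∃ (χ et : DirichletCharacter ℂ n) (Ψ : (Fin 4 → ZMod n) → ℂ),
      famTh n u (coefFam n χ et Ψ) τ ≠ 0 := by
  set Ψ : (Fin 4 → ZMod n) → ℂ := fun R => Φ₀ (congC (i₀ : ZMod n) R) with hΨ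
  by_contra! hall
  set X : DirichletCharacter ℂ n → (ZMod n)ˣ → ℂ := fun et i =>
    liftTh n (u i) (fun R => homPart et Ψ (congC ((i⁻¹ : (ZMod n)ˣ) : ZMod n) R)) τ
  have hX : ∀ et, X et i₀ = 0 := fun et => by
    have h0 : ∑ χ : DirichletCharacter ℂ n, χ ((i₀⁻¹ : (ZMod n)ˣ) : ZMod n) *
        famTh n u (coefFam n χ et Ψ) τ = 0 :=
      Finset.sum_eq_zero fun χ _ => by rw [hall χ et Ψ, mul_zero]
    have hfam : ∀ χ : DirichletCharacter ℂ n,
        famTh n u (coefFam n χ et Ψ) τ = ∑ i : (ZMod n)ˣ, χ (i : ZMod n) * X et i := fun χ =>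
      Finset.sum_congr rfl fun i _ => liftTh_smul (u i) _ _ τ
    simp only [hfam, Finset.mul_sum, ← mul_assoc, ← map_mul, ← Units.val_mul] at h0
    rw [Finset.sum_comm] at h0
    simp only [← Finset.sum_mul, DirichletCharacter.sum_characters_eq, Units.val_eq_one,
      inv_mul_eq_one, ite_mul, zero_mul] at h0
    rw [Finset.sum_ite_eq Finset.univ i₀, if_pos (Finset.mem_univ _)] at h0
    exact (mul_eq_zero.1 h0).resolve_left
      (Nat.cast_ne_zero.2 (Nat.totient_pos.2 (Nat.pos_of_neZero n)).ne')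
  refine h ((mul_eq_zero.1 (show (n.totient : ℂ) * liftTh n (u i₀) Φ₀ τ = 0 from ?_)).resolve_left
    (Nat.cast_ne_zero.2 (Nat.totient_pos.2 (Nat.pos_of_neZero n)).ne'))
  rw [← liftTh_smul]
  have e : (fun R => (n.totient : ℂ) * Φ₀ R) = fun R => ∑ et : DirichletCharacter ℂ n,
      homPart et Ψ (congC ((i₀⁻¹ : (ZMod n)ˣ) : ZMod n) R) := funext fun R => by
    rw [sum_homPart, hΨ]
    simp [congC_congC, congC_one]
  rw [e, liftTh_sum (hu i₀) _ _ hτ]
  exact Finset.sum_eq_zero fun et _ => hX et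

/-! ### The Hecke relation -/

theorem sqHecke_coefFam (hC : CountIdentity) {u : (ZMod n)ˣ → H3 → ℂ} (hu : ∀ i, IsU n (u i))
    {p : ℕ} (hp : p.Prime) (hp3 : p % 3 = 1) (hpn : ¬ p ∣ n) {w : ℂ} (pu : (ZMod n)ˣ)
    (hpu : (pu : ZMod n) = (p : ZMod n))
    (hrel : ∀ R, IsLeftReps n p R → ∀ i x, w * u i x = ∑ δ ∈ R, u (pu * i) (act δ x))
    (χ et : DirichletCharacter ℂ n) (Ψ : (Fin 4 → ZMod n) → ℂ) {τ : ℂ} (hτ : 0 < τ.im) :
    sqHecke p (et (p : ZMod n)) (famTh n u (coefFam n χ et Ψ)) τ =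
      w * χ (p : ZMod n) * famTh n u (coefFam n χ et Ψ) τ := by
  set Φ := coefFam n χ et Ψ with hΦ
  have hhom := isHomog_coefFam χ et Ψ
  have key : ∀ i, w * χ (p : ZMod n) * liftTh n (u i) (Φ i) τ =
      sqHecke p (et (p : ZMod n)) (liftTh n (u (pu * i)) (Φ (pu * i))) τ := fun i => by
    have h := sqHecke_lift (u := u i) hC hp hp3 hpn (hu (pu * i)) (c := w)
      (fun R hR x => hrel R hR i x) (Φ (pu * i)) hτ
    have e1 : (fun R => Φ (pu * i) (diagV p R)) = fun R => χ (p : ZMod n) * Φ i R :=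
      funext fun R => by
        simp only [hΦ, coefFam, diagV_eq, congC_congC, Units.val_mul, map_mul, hpu]
        rw [show ((((pu * i)⁻¹ : (ZMod n)ˣ)) : ZMod n) * (p : ZMod n) =
          ((i⁻¹ : (ZMod n)ˣ) : ZMod n) by
            rw [← hpu, ← Units.val_mul, _root_.mul_inv_rev, inv_mul_cancel_right]]
        ring
    have e2 : (fun R => Φ (pu * i) ((p : ZMod n) • R)) = fun R => et (p : ZMod n) * Φ (pu * i) R :=
      funext fun R => by rw [← hpu]; exact hhom _ pu R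
    have e3 : (fun R => Φ (pu * i) ((p : ZMod n) ^ 2 • R)) =
        fun R => et (p : ZMod n) ^ 2 * Φ (pu * i) R :=
      funext fun R => by
        rw [← hpu, ← Units.val_pow_eq_pow_val, ← map_pow, ← Units.val_pow_eq_pow_val]
        exact hhom _ (pu ^ 2) R
    rw [e1, e2, e3] at h
    simp only [liftTh_smul] at h
    rw [mul_assoc, h, sqHecke, ← Finset.mul_sum]
    ring
  calc sqHecke p (et (p : ZMod n)) (famTh n u Φ) τ
      = ∑ i, sqHecke p (et (p : ZMod n)) (liftTh n (u i) (Φ i)) τ := by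
        simp only [sqHecke, famTh, Finset.mul_sum, Finset.sum_add_distrib]
        rw [Finset.sum_comm (s := Finset.range (p ^ 2)), Finset.sum_comm (s := Finset.range p)]
    _ = ∑ i, sqHecke p (et (p : ZMod n)) (liftTh n (u (pu * i)) (Φ (pu * i))) τ :=
        (Equiv.sum_comp (Equiv.mulLeft pu) _).symm
    _ = _ := by
        rw [famTh, Finset.mul_sum]
        exact Finset.sum_congr rfl fun i _ => (key i).symm

/-- The chosen function as a cusp form. -/
def liftForm (hC : CountIdentity) {u : (ZMod n)ˣ → H3 → ℂ} (hu : ∀ i, IsU n (u i))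
    (hk : Killed n u) {et : DirichletCharacter ℂ n} {Φ : (ZMod n)ˣ → (Fin 4 → ZMod n) → ℂ}
    (hΦ : IsHomog et Φ) (b : Bool)
    (hb : b = true → ∀ τ : ℂ, 0 < τ.im → dbarY (famTh n u Φ) τ = 0) :
    CuspForm (Gamma1 (9 * n ^ 2)) 1 where
  toFun := opH b n u Φ
  slash_action_eq' := by
    rintro _ ⟨γ, hγ, rfl⟩
    obtain ⟨-, h1, h0⟩ := (Gamma1_mem _ γ).1 hγ
    have h := opH_slash hu Φ b hΦ (Gamma0_mem.2 h0)
    rw [h1, map_one, one_smul] at h
    exact h
  holo' := UpperHalfPlane.mdifferentiable_iff.2 fun τ (hτ : 0 < τ.im) => by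
    refine ((differentiableAt_opF hu Φ b hb hτ).congr_of_eventuallyEq ?_).differentiableWithinAt
    filter_upwards [(isOpen_lt continuous_const Complex.continuous_im).mem_nhds hτ] with w hw
    show opH b n u Φ (UpperHalfPlane.ofComplex w) = _
    rw [opH, UpperHalfPlane.ofComplex_apply_of_im_pos hw]
  zero_at_cusps' := fun {x} hx => by
    haveI : NeZero (9 * n ^ 2) := ⟨mul_ne_zero (by norm_num) (pow_ne_zero 2 (NeZero.ne n))⟩
    rw [OnePoint.isZeroAt_iff_forall_SL2Z ((Subgroup.IsArithmetic.isCusp_iff_isCusp_SL2Z _).1 hx)]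
    exact fun γ _ => isZeroAtImInfty_opH_slash hC hk hu Φ b hb γ

/-! ### The theorem -/

/-- Piece D from the nonvanishing of the lift. -/
theorem thetaLift_of_liftNonzero (d : Octa) (hNZ : LiftNonzero) : ThetaLift d := by
  intro N ψ hN hcz hfe her g m hm hinv hper
  obtain ⟨D⟩ := bridge d N ψ hN hcz hfe her g m hm hinv hper
  haveI : NeZero D.L := ⟨D.good.1.ne'⟩
  obtain ⟨a₀, m₀, hm₀, hinv₀, hper₀⟩ := D.period_ne
  obtain ⟨n, hn, Φ₀, τ₀, hLn, hτ₀, hne⟩ :=
    hNZ D.L m₀ (D.u a₀) (D.isU a₀) hm₀ hinv₀ hper₀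
  obtain ⟨i₀, hi₀⟩ := ZMod.unitsMap_surjective hLn a₀
  have hu := D.isU_upU hLn
  obtain ⟨χ, et, Ψ, hF⟩ := exists_coefFam hu i₀ hτ₀
    (show liftTh n (D.upU hLn i₀) Φ₀ τ₀ ≠ 0 by rw [ClassicalData.upU, hi₀]; exact hne)
  set u := D.upU hLn
  set Φ := coefFam n χ et Ψ
  have hhom : IsHomog et Φ := isHomog_coefFam χ et Ψ
  obtain ⟨b, hb, z₀, hz₀⟩ : ∃ b : Bool,
      (b = true → ∀ τ : ℂ, 0 < τ.im → dbarY (famTh n u Φ) τ = 0) ∧
        ∃ z : ℍ, opH b n u Φ z ≠ 0 := by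
    by_cases h : ∀ τ : ℂ, 0 < τ.im → dbarY (famTh n u Φ) τ = 0
    · exact ⟨true, fun _ => h, ⟨τ₀, hτ₀⟩, hF⟩
    · push Not at h
      obtain ⟨τ, hτ, hd⟩ := h
      exact ⟨false, fun e => absurd e (by decide), ⟨τ, hτ⟩,
        show conj (dbarY (famTh n u Φ) τ) ≠ 0 from (map_ne_zero (starRingEnd ℂ)).2 hd⟩
  haveI : NeZero (9 * n ^ 2) := ⟨mul_ne_zero (by norm_num) (pow_ne_zero 2 (NeZero.ne n))⟩
  have hk : Killed n u := D.killed_upU hLn
  set f := liftForm countIdentity hu hk hhom b hb with hf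
  have hfz : ∀ z : ℍ, f z = opH b n u Φ z := fun z => rfl
  refine finalStep d (9 * n ^ 2) (nebOp b et)
    ((DirichletCharacter.changeLevel (dvd_nine_sq n) χ).ringHomComp (cj b)) f
    (good_of_dvd D.good (hLn.trans (dvd_nine_sq n)) (Nat.pos_of_neZero _))
    (fun e => hz₀ ?_) (fun γ hγ => opH_slash hu Φ b hhom hγ) ?_
  · rw [← hfz, e]; rfl
  intro p hp hpM A hA σ hσ hGM τ hτ
  have hpn : ¬ p ∣ n := fun h => hpM (h.trans (dvd_nine_sq n))
  have hp3 : p % 3 = 1 :=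
    mod_three_of_mem_GM d hp (fun e => hpM (e ▸ three_dvd_nine_sq n)) hA hσ hGM
  have hcop : Nat.Coprime p (9 * n ^ 2) := hp.coprime_iff_not_dvd.2 hpM
  have hu9 : IsUnit ((p : ℕ) : ZMod (9 * n ^ 2)) := (ZMod.isUnit_iff_coprime _ _).2 hcop
  set pu : (ZMod n)ˣ := ZMod.unitOfCoprime p (hp.coprime_iff_not_dvd.2 hpn)
  have hpu : (pu : ZMod n) = (p : ZMod n) := ZMod.coe_unitOfCoprime _ _
  set w : ℂ := (p : ℂ) * d.tr0 σ ^ 2
  have hrel : ∀ R, IsLeftReps n p R → ∀ i x, w * u i x = ∑ δ ∈ R, u (pu * i) (act δ x) :=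
    fun R hR i x => D.eigen p hp A hA σ hσ hGM n hLn (Nat.pos_of_neZero n) hpn R hR _ _ (by
      simp [map_mul, ZMod.unitsMap_def, hpu]) x
  have hε : nebChar et ((p : ℕ) : ZMod (9 * n ^ 2)) = et (p : ZMod n) := by
    have h := nebChar_intCast et (d := (p : ℤ)) (by simpa using hu9)
    push_cast at h
    have h3 : (p : ZMod 3) = 1 := by
      have := (ZMod.natCast_eq_natCast_iff' p 1 3).2 (by simpa using hp3)
      simpa using this
    rw [h, h3, map_one, mul_one]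
  have hχ : DirichletCharacter.changeLevel (dvd_nine_sq n) χ ((p : ℕ) : ZMod (9 * n ^ 2)) =
      χ (p : ZMod n) := by
    obtain ⟨v, hv⟩ := hu9
    rw [← hv, DirichletCharacter.changeLevel_eq_cast_of_dvd, hv, ZMod.cast_natCast (dvd_nine_sq n)]
  obtain ⟨x, hx⟩ := tr0_sq_real d hGM
  have hFd := rdiff_famTh hu Φ
  have e1 := opF_sqHecke b hFd hp.pos (et (p : ZMod n)) hτ
  rw [opF_congr b (G := fun z => w * χ (p : ZMod n) * famTh n u Φ z)
      (fun z hz => sqHecke_coefFam countIdentity hu hp hp3 hpn pu hpu hrel χ et Ψ hz) hτ,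
    opF_const_mul b (hFd τ hτ)] at e1
  have hG : ∀ z : ℂ, 0 < z.im → (⇑f ∘ UpperHalfPlane.ofComplex) z = opF b (famTh n u Φ) z :=
    fun z hz => by
      rw [Function.comp_apply, hfz, opH, UpperHalfPlane.ofComplex_apply_of_im_pos hz]
  have hp0 : (0 : ℝ) < p := Nat.cast_pos.2 hp.pos
  have a1 : ∀ j : ℕ, 0 < ((τ + j) / (p : ℂ) ^ 2).im := fun j => by
    rw [show (τ + j) / (p : ℂ) ^ 2 = ((((p : ℝ) ^ 2)⁻¹ : ℝ) : ℂ) * (τ + j) by
      push_cast; rw [div_eq_inv_mul]]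
    simp only [Complex.im_ofReal_mul, Complex.add_im, Complex.natCast_im, add_zero]
    positivity
  have a2 : ∀ k : ℕ, 0 < (τ + k / (p : ℂ)).im := fun k => by
    rw [show τ + k / (p : ℂ) = τ + (((k : ℝ) / p : ℝ) : ℂ) by simp]
    simpa using hτ
  have a3 : 0 < ((p : ℂ) ^ 2 * τ).im := by
    rw [show (p : ℂ) ^ 2 * τ = (((p : ℝ) ^ 2 : ℝ) : ℂ) * τ by simp, Complex.im_ofReal_mul]
    positivity
  rw [show f (UpperHalfPlane.ofComplex τ) = opF b (famTh n u Φ) τ from hG τ hτ]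
  simp only [nebOp, MulChar.ringHomComp_apply, hε, hχ, sqHecke, hG _ (a1 _), hG _ (a2 _), hG _ a3,
    hG τ hτ]
  simp only [sqHecke] at e1
  rw [← e1]
  simp only [w, map_mul, map_natCast, hx, cj_ofReal]
  ring

/-- **Piece D.** -/
theorem thetaLift (d : Octa) : ThetaLift d := thetaLift_of_liftNonzero d liftNonzero

end FLTAgent.LT.Theta31
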